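import Fermat.Prelude.Def_GaloisRep_Adic
import Fermat.Agent.Frob.Exists
import Fermat.Agent.Frob.QbarInst

/-!
Frobenius and inertia elements: elementary descriptions, conjugation.
-/

set_option autoImplicit false

namespace Fermat.Agent.TWP

open scoped Pointwise

section

variable {L : Type*} [Field L] [Algebra ℚ L]

lemma mem_nonunits_iff_max (A : ValuationSubring L) (x : A) :
    (x : L) ∈ A.nonunits ↔ x ∈ IsLocalRing.maximalIdeal A :=
  A.coe_mem_nonunits_iff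

theorem isFrobeniusAt_iff (A : ValuationSubring L) (σ : L ≃ₐ[ℚ] L) (q : ℕ) :
    A.IsFrobeniusAt σ q ↔ σ • A = A ∧ ∀ x ∈ A, σ x - x ^ q ∈ A.nonunits := by
  constructor
  · intro h
    have hd : σ • A = A := h.mem_decompositionSubgroup
    refine ⟨hd, fun x hx => ?_⟩
    have h1 := h.smul_residue_eq (IsLocalRing.residue A ⟨x, hx⟩)
    rw [← IsLocalRing.ResidueField.residue_smul, ← map_pow, ← sub_eq_zero, ← map_sub,
      IsLocalRing.residue_eq_zero_iff, ← mem_nonunits_iff_max] at h1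
    exact h1
  · rintro ⟨hd, h⟩
    refine ⟨hd, fun y => ?_⟩
    obtain ⟨x, rfl⟩ := IsLocalRing.residue_surjective y
    rw [← IsLocalRing.ResidueField.residue_smul, ← map_pow, ← sub_eq_zero, ← map_sub,
      IsLocalRing.residue_eq_zero_iff, ← mem_nonunits_iff_max]
    exact h x x.2

theorem mem_inertia_iff (A : ValuationSubring L) (σ : L ≃ₐ[ℚ] L) :
    σ ∈ A.inertiaSubgroupIn ℚ ↔ σ • A = A ∧ ∀ x ∈ A, σ x - x ∈ A.nonunits := by
  constructor
  · rintro ⟨⟨τ, hd⟩, h, rfl⟩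
    refine ⟨hd, fun x hx => ?_⟩
    have h1 := MonoidHom.mem_ker.mp h
    have h2 := RingEquiv.congr_fun h1 (IsLocalRing.residue A ⟨x, hx⟩)
    have h3 : IsLocalRing.residue A ((⟨τ, hd⟩ : A.decompositionSubgroup ℚ) • ⟨x, hx⟩) =
      IsLocalRing.residue A ⟨x, hx⟩ := h2
    rw [← sub_eq_zero, ← map_sub, IsLocalRing.residue_eq_zero_iff, ← mem_nonunits_iff_max] at h3
    exact h3
  · rintro ⟨hd, h⟩
    refine ⟨⟨σ, hd⟩, ?_, rfl⟩
    show _ ∈ MonoidHom.ker _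
    rw [MonoidHom.mem_ker]
    apply RingEquiv.ext
    intro y
    obtain ⟨x, rfl⟩ := IsLocalRing.residue_surjective y
    show (⟨σ, hd⟩ : A.decompositionSubgroup ℚ) • IsLocalRing.residue A x = IsLocalRing.residue A x
    rw [← IsLocalRing.ResidueField.residue_smul, ← sub_eq_zero, ← map_sub,
      IsLocalRing.residue_eq_zero_iff, ← mem_nonunits_iff_max]
    exact h x x.2

lemma smul_mem_nonunits_iff (g : L ≃ₐ[ℚ] L) (A : ValuationSubring L) (x : L) :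
    g x ∈ (g • A).nonunits ↔ x ∈ A.nonunits := by
  rw [ValuationSubring.mem_nonunits_iff_or, ValuationSubring.mem_nonunits_iff_or,
    ValuationSubring.mem_pointwise_smul_iff_inv_smul_mem]
  have : g⁻¹ • (g x)⁻¹ = x⁻¹ := by
    rw [← map_inv₀, ← AlgEquiv.smul_def, inv_smul_smul]
  rw [this]
  simp

theorem isFrobeniusAt_conj {A : ValuationSubring L} {g φ : L ≃ₐ[ℚ] L} {q : ℕ}
    (h : (g • A).IsFrobeniusAt φ q) : A.IsFrobeniusAt (g⁻¹ * φ * g) q := by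
  rw [isFrobeniusAt_iff] at h ⊢
  refine ⟨?_, fun x hx => ?_⟩
  · rw [mul_smul, mul_smul, h.1, inv_smul_smul]
  · have hgx : g x ∈ g • A := by
      rw [ValuationSubring.mem_pointwise_smul_iff_inv_smul_mem, ← AlgEquiv.smul_def, inv_smul_smul]
      exact hx
    have h1 := h.2 _ hgx
    rw [← smul_mem_nonunits_iff g]
    have e : g ((g⁻¹ * φ * g) x - x ^ q) = φ (g x) - g x ^ q := by
      rw [map_sub, map_pow]
      congr 1
      show g (g⁻¹ (φ (g x))) = _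
      rw [← AlgEquiv.mul_apply, mul_inv_cancel, AlgEquiv.one_apply]
    rw [e]
    exact h1

theorem inertia_conj {A : ValuationSubring L} {g φ : L ≃ₐ[ℚ] L}
    (h : φ ∈ (g • A).inertiaSubgroupIn ℚ) : g⁻¹ * φ * g ∈ A.inertiaSubgroupIn ℚ := by
  rw [mem_inertia_iff] at h ⊢
  refine ⟨?_, fun x hx => ?_⟩
  · rw [mul_smul, mul_smul, h.1, inv_smul_smul]
  · have hgx : g x ∈ g • A := by
      rw [ValuationSubring.mem_pointwise_smul_iff_inv_smul_mem, ← AlgEquiv.smul_def, inv_smul_smul]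
      exact hx
    have h1 := h.2 _ hgx
    rw [← smul_mem_nonunits_iff g]
    have e : g ((g⁻¹ * φ * g) x - x) = φ (g x) - g x := by
      rw [map_sub]
      congr 1
      show g (g⁻¹ (φ (g x))) = _
      rw [← AlgEquiv.mul_apply, mul_inv_cancel, AlgEquiv.one_apply]
    rw [e]
    exact h1

theorem isFrobeniusAt_unique {A : ValuationSubring L} {σ τ : L ≃ₐ[ℚ] L} {q : ℕ}
    (hσ : A.IsFrobeniusAt σ q) (hτ : A.IsFrobeniusAt τ q) : τ⁻¹ * σ ∈ A.inertiaSubgroupIn ℚ := by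
  rw [isFrobeniusAt_iff] at hσ hτ
  rw [mem_inertia_iff]
  have hinv : τ⁻¹ • A = A := by rw [inv_smul_eq_iff, hτ.1]
  refine ⟨by rw [mul_smul, hσ.1, hinv], fun x hx => ?_⟩
  rw [← smul_mem_nonunits_iff τ, hτ.1]
  have e : τ ((τ⁻¹ * σ) x - x) = (σ x - x ^ q) - (τ x - x ^ q) := by
    rw [map_sub]
    have : τ ((τ⁻¹ * σ) x) = σ x := by
      show τ (τ⁻¹ (σ x)) = _
      rw [← AlgEquiv.mul_apply, mul_inv_cancel, AlgEquiv.one_apply]
    rw [this]; ring
  rw [e]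
  have hmem : ∀ y ∈ A, ∀ z ∈ A, y ∈ A.nonunits → z ∈ A.nonunits → y - z ∈ A.nonunits := by
    intro y hy z hz h1 h2
    have h3 : (⟨y, hy⟩ : A) - ⟨z, hz⟩ ∈ IsLocalRing.maximalIdeal A :=
      Ideal.sub_mem _ ((mem_nonunits_iff_max A ⟨y, hy⟩).mp h1)
        ((mem_nonunits_iff_max A ⟨z, hz⟩).mp h2)
    exact (mem_nonunits_iff_max A _).mpr h3
  refine hmem _ ?_ _ ?_ (hσ.2 x hx) (hτ.2 x hx)
  · exact A.nonunits_subset (hσ.2 x hx)
  · exact A.nonunits_subset (hτ.2 x hx)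

end

/-- If `r` is a homomorphism trivial on the inertia at `A` then all Frobenius elements at `q` have
conjugate images. -/
theorem frob_conj {M : Type*} [Monoid M] {q : ℕ} (hq : q.Prime)
    (r : (AlgebraicClosure ℚ ≃ₐ[ℚ] AlgebraicClosure ℚ) →* M)
    {A : ValuationSubring (AlgebraicClosure ℚ)} (hA : A.LiesOverPrime q)
    (hI : ∀ i ∈ A.inertiaSubgroupIn ℚ, r i = 1)
    {τ : AlgebraicClosure ℚ ≃ₐ[ℚ] AlgebraicClosure ℚ} (hτ : A.IsFrobeniusAt τ q)
    {P : ValuationSubring (AlgebraicClosure ℚ)} (hP : P.LiesOverPrime q)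
    {φ : AlgebraicClosure ℚ ≃ₐ[ℚ] AlgebraicClosure ℚ} (hφ : P.IsFrobeniusAt φ q) :
    ∃ g : AlgebraicClosure ℚ ≃ₐ[ℚ] AlgebraicClosure ℚ, r φ = r g * r τ * r g⁻¹ := by
  obtain ⟨g, rfl⟩ := Fermat.Agent.Frob.exists_smul_eq hq hA hP
  refine ⟨g, ?_⟩
  have h1 := hI _ (isFrobeniusAt_unique (isFrobeniusAt_conj hφ) hτ)
  have e : φ = g * (τ * (τ⁻¹ * (g⁻¹ * φ * g))) * g⁻¹ := by group
  rw [e, map_mul, map_mul, map_mul, h1, mul_one]

theorem inertia_trivial {M : Type*} [Monoid M] {q : ℕ} (hq : q.Prime)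
    (r : (AlgebraicClosure ℚ ≃ₐ[ℚ] AlgebraicClosure ℚ) →* M)
    {A : ValuationSubring (AlgebraicClosure ℚ)} (hA : A.LiesOverPrime q)
    (hI : ∀ i ∈ A.inertiaSubgroupIn ℚ, r i = 1)
    {P : ValuationSubring (AlgebraicClosure ℚ)} (hP : P.LiesOverPrime q)
    {φ : AlgebraicClosure ℚ ≃ₐ[ℚ] AlgebraicClosure ℚ} (hφ : φ ∈ P.inertiaSubgroupIn ℚ) :
    r φ = 1 := by
  obtain ⟨g, rfl⟩ := Fermat.Agent.Frob.exists_smul_eq hq hA hP
  have h1 := hI _ (inertia_conj hφ)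
  have e : φ = g * (g⁻¹ * φ * g) * g⁻¹ := by group
  rw [e, map_mul, map_mul, h1, mul_one, ← map_mul, mul_inv_cancel, map_one]

end Fermat.Agent.TWP
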