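import Fermat.Agent.TWP.PowerSeries

/-!
# Tangent spaces and the number of generators
-/

set_option autoImplicit false

namespace Fermat.Agent.TWP

open IsLocalRing

/-- `𝒪`-derivations along `π` -/
structure IsDer (𝒪 : Type) {R k : Type} [CommRing 𝒪] [CommRing R] [CommRing k] [Algebra 𝒪 R]
    (π : R →+* k) (δ : R → k) : Prop where
  add : ∀ x y, δ (x + y) = δ x + δ y
  mul : ∀ x y, δ (x * y) = π x * δ y + δ x * π y
  alg : ∀ o : 𝒪, δ (algebraMap 𝒪 R o) = 0

namespace IsDer

variable {𝒪 R k : Type} [CommRing 𝒪] [CommRing R] [CommRing k] [Algebra 𝒪 R]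
    {π : R →+* k} {δ : R → k}

lemma zero (h : IsDer 𝒪 π δ) : δ 0 = 0 := by
  have := h.alg 0
  rwa [map_zero] at this

lemma one (h : IsDer 𝒪 π δ) : δ 1 = 0 := by
  have := h.alg 1
  rwa [map_one] at this

lemma natCast (h : IsDer 𝒪 π δ) (n : ℕ) : δ n = 0 := by
  have := h.alg n
  rwa [map_natCast] at this

lemma neg (h : IsDer 𝒪 π δ) (x : R) : δ (-x) = - δ x := by
  have := h.add x (-x)
  rw [add_neg_cancel, h.zero] at this
  exact (neg_eq_of_add_eq_zero_right this.symm).symm

lemma sub (h : IsDer 𝒪 π δ) (x y : R) : δ (x - y) = δ x - δ y := by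
  rw [sub_eq_add_neg, h.add, h.neg, ← sub_eq_add_neg]

lemma sum (h : IsDer 𝒪 π δ) {ι : Type} (s : Finset ι) (f : ι → R) :
    δ (∑ i ∈ s, f i) = ∑ i ∈ s, δ (f i) := by
  classical
  induction s using Finset.induction_on with
  | empty => simp [h.zero]
  | insert i s hi ih => rw [Finset.sum_insert hi, Finset.sum_insert hi, h.add, ih]

end IsDer

section Main

variable {𝒪 R : Type} [CommRing 𝒪] [IsLocalRing 𝒪] [IsAdicComplete (maximalIdeal 𝒪) 𝒪]
  [Finite (ResidueField 𝒪)]
  [CommRing R] [IsLocalRing R] [IsNoetherianRing R] [IsAdicComplete (maximalIdeal R) R]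
  [Algebra 𝒪 R] [IsLocalHom (algebraMap 𝒪 R)]

/-- If the tangent space is small, there are few generators. -/
theorem exists_surj_of_der (π : R →+* ResidueField 𝒪)
    (hπ : ∀ o, π (algebraMap 𝒪 R o) = residue 𝒪 o) (r : ℕ) {X : Type} [Finite X]
    (hX : Nat.card X ≤ Nat.card (ResidueField 𝒪) ^ r)
    (f : {δ : R → ResidueField 𝒪 // IsDer 𝒪 π δ} → X) (hf : Function.Injective f) :
    ∃ γ : MvPowerSeries (Fin r) 𝒪 →ₐ[𝒪] R, Function.Surjective γ := by
  have hπker : ∀ x, π x = 0 ↔ x ∈ maximalIdeal R := by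
    intro x
    constructor
    · intro h
      rw [mem_maximalIdeal, mem_nonunits_iff]
      intro hx
      have := hx.map π
      rw [h] at this
      exact not_isUnit_zero this
    · intro hx
      obtain ⟨o, ho⟩ := residue_surjective (π x)
      by_contra hne
      have h1 : IsUnit o := by
        by_contra h2
        apply hne
        rw [← ho]
        exact (residue_eq_zero_iff o).mpr h2
      have h3 : IsUnit (algebraMap 𝒪 R o) := h1.map _
      have h4 : IsUnit (algebraMap 𝒪 R o - x) := by
        by_contra h5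
        have : algebraMap 𝒪 R o = (algebraMap 𝒪 R o - x) + x := by ring
        have h6 : algebraMap 𝒪 R o ∈ maximalIdeal R := by
          rw [this]; exact Ideal.add_mem _ h5 hx
        exact h6 h3
      have := h4.map π
      rw [map_sub, hπ, ho, sub_self] at this
      exact not_isUnit_zero this
  have hsurj : ∀ x : R, ∃ o : 𝒪, x - algebraMap 𝒪 R o ∈ maximalIdeal R := by
    intro x
    obtain ⟨o, ho⟩ := residue_surjective (π x)
    refine ⟨o, ?_⟩
    rw [← hπker, map_sub, hπ, ho, sub_self]
  set J : Ideal R := (maximalIdeal 𝒪).map (algebraMap 𝒪 R) ⊔ maximalIdeal R ^ 2 with hJ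
  have hJle : J ≤ maximalIdeal R := sup_le map_max_le (Ideal.pow_le_self two_ne_zero)
  let s : ResidueField 𝒪 →+* R ⧸ J := Ideal.Quotient.lift (maximalIdeal 𝒪)
    ((Ideal.Quotient.mk J).comp (algebraMap 𝒪 R)) (by
      intro o ho
      rw [RingHom.comp_apply, Ideal.Quotient.eq_zero_iff_mem]
      exact Ideal.mem_sup_left (Ideal.mem_map_of_mem _ ho))
  have hs : ∀ o, s (residue 𝒪 o) = Ideal.Quotient.mk J (algebraMap 𝒪 R o) := fun o => rfl
  let _ : Algebra (ResidueField 𝒪) (R ⧸ J) := s.toAlgebra
  have hsalg : ∀ c, algebraMap (ResidueField 𝒪) (R ⧸ J) c = s c := fun c => rfl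
  let W : Submodule (ResidueField 𝒪) (R ⧸ J) :=
    ((maximalIdeal R).map (Ideal.Quotient.mk J)).restrictScalars (ResidueField 𝒪)
  have hWmem : ∀ x : R, Ideal.Quotient.mk J x ∈ W ↔ x ∈ maximalIdeal R := by
    intro x
    show Ideal.Quotient.mk J x ∈ (maximalIdeal R).map (Ideal.Quotient.mk J) ↔ _
    rw [Ideal.mem_quotient_iff_mem hJle]
  have hWlift : ∀ w : W, ∃ x ∈ maximalIdeal R, Ideal.Quotient.mk J x = (w : R ⧸ J) := by
    intro w
    obtain ⟨x, hx⟩ := Ideal.Quotient.mk_surjective (w : R ⧸ J)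
    refine ⟨x, ?_, hx⟩
    rw [← hWmem, hx]
    exact w.2
  -- the section
  have hsec : ∀ x : R, Ideal.Quotient.mk J x - s (π x) ∈ W := by
    intro x
    obtain ⟨o, ho⟩ := hsurj x
    have h1 : π x = residue 𝒪 o := by
      rw [← hπ, ← sub_eq_zero, ← map_sub, hπker]; exact ho
    rw [h1, hs, ← map_sub, hWmem]
    exact ho
  -- finiteness
  have hfin : Module.Finite (ResidueField 𝒪) W := by
    obtain ⟨t, ht⟩ := (inferInstance : IsNoetherianRing R).noetherian (maximalIdeal R)
    have hspan : W ≤ Submodule.span (ResidueField 𝒪)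
        ((Ideal.Quotient.mk J) '' (t : Set R)) := by
      intro w hw
      obtain ⟨x, hx, hxw⟩ := hWlift ⟨w, hw⟩
      simp only at hxw
      rw [← hxw]
      have hx' : x ∈ Submodule.span R (t : Set R) := by rw [ht]; exact hx
      clear hxw
      induction hx' using Submodule.span_induction with
      | mem x hxt => exact Submodule.subset_span ⟨x, hxt, rfl⟩
      | zero => rw [map_zero]; exact Submodule.zero_mem _
      | add x y hx' hy' hx1 hy1 =>
        rw [map_add]
        exact Submodule.add_mem _ (hx1 (ht ▸ hx')) (hy1 (ht ▸ hy'))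
      | smul a x hx' hx1 =>
        have hxm : x ∈ maximalIdeal R := ht ▸ hx'
        have h2 := hx1 hxm
        obtain ⟨o, ho⟩ := hsurj a
        have h3 : Ideal.Quotient.mk J (a • x) = (residue 𝒪 o) • (Ideal.Quotient.mk J x) := by
          rw [smul_eq_mul, Algebra.smul_def, hsalg, hs, ← map_mul,
            Ideal.Quotient.mk_eq_mk_iff_sub_mem, ← sub_mul]
          refine Ideal.mem_sup_right ?_
          rw [pow_two]
          exact Ideal.mul_mem_mul ho hxm
        rw [h3]
        exact Submodule.smul_mem _ _ h2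
    have h1 : (Submodule.span (ResidueField 𝒪) ((Ideal.Quotient.mk J) '' (t : Set R))).FG :=
      Submodule.fg_span (t.finite_toSet.image _)
    have h2 : Module.Finite (ResidueField 𝒪)
      (Submodule.span (ResidueField 𝒪) ((Ideal.Quotient.mk J) '' (t : Set R))) :=
      Module.Finite.iff_fg.mpr h1
    exact Submodule.finiteDimensional_of_le hspan
  -- derivations from functionals
  have hmulW : ∀ v w : R ⧸ J, v ∈ W → w ∈ W → v * w = 0 := by
    intro v w hv hw
    obtain ⟨x, hx, hxv⟩ := hWlift ⟨v, hv⟩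
    obtain ⟨y, hy, hyw⟩ := hWlift ⟨w, hw⟩
    simp only at hxv hyw
    rw [← hxv, ← hyw, ← map_mul, Ideal.Quotient.eq_zero_iff_mem]
    refine Ideal.mem_sup_right ?_
    rw [pow_two]
    exact Ideal.mul_mem_mul hx hy
  let D : Module.Dual (ResidueField 𝒪) W → {δ : R → ResidueField 𝒪 // IsDer 𝒪 π δ} := fun l =>
    ⟨fun x => l ⟨_, hsec x⟩, by
      constructor
      · intro x y
        rw [← map_add]
        congr 1
        apply Subtype.ext
        show _ = (Ideal.Quotient.mk J x - s (π x)) + (Ideal.Quotient.mk J y - s (π y))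
        simp only [map_add]
        ring
      · intro x y
        have h1 : (⟨_, hsec (x * y)⟩ : W) = π x • (⟨_, hsec y⟩ : W) + π y • (⟨_, hsec x⟩ : W) := by
          apply Subtype.ext
          show _ = π x • (Ideal.Quotient.mk J y - s (π y)) + π y • (Ideal.Quotient.mk J x - s (π x))
          have h2 := hmulW _ _ (hsec x) (hsec y)
          rw [Algebra.smul_def, Algebra.smul_def, hsalg, hsalg]
          simp only [map_mul]
          linear_combination h2
        simp only [h1]
        rw [map_add, map_smul, map_smul, smul_eq_mul, smul_eq_mul, mul_comm (π y)]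
      · intro o
        have h1 : (⟨_, hsec (algebraMap 𝒪 R o)⟩ : W) = 0 := by
          apply Subtype.ext
          show Ideal.Quotient.mk J (algebraMap 𝒪 R o) - s (π (algebraMap 𝒪 R o)) = 0
          rw [hπ, hs, sub_self]
        simp only [h1]
        rw [map_zero]⟩
  have hD : Function.Injective D := by
    intro l l' h
    ext w
    obtain ⟨x, hx, hxw⟩ := hWlift w
    have h1 := congrFun (congrArg Subtype.val h) x
    simp only [D] at h1
    have h2 : (⟨_, hsec x⟩ : W) = w := by
      apply Subtype.ext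
      show Ideal.Quotient.mk J x - s (π x) = w
      rw [hxw, (hπker x).mpr hx, map_zero, sub_zero]
    rwa [h2] at h1
  have hcard : Nat.card (Module.Dual (ResidueField 𝒪) W) ≤ Nat.card (ResidueField 𝒪) ^ r :=
    (Nat.card_le_card_of_injective _ (hf.comp hD)).trans hX
  rw [Module.natCard_eq_pow_finrank (K := ResidueField 𝒪), Subspace.dual_finrank_eq] at hcard
  have hdim : Module.finrank (ResidueField 𝒪) W ≤ r :=
    (Nat.pow_le_pow_iff_right Finite.one_lt_card).mp hcard
  -- generators
  let b := Module.finBasis (ResidueField 𝒪) W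
  choose lift hlift1 hlift2 using hWlift
  let y : Fin r → R := fun i => if h : (i : ℕ) < Module.finrank (ResidueField 𝒪) W then
    lift (b ⟨i, h⟩) else 0
  have hy : ∀ i, y i ∈ maximalIdeal R := by
    intro i
    simp only [y]
    split_ifs with h
    · exact hlift1 _
    · exact Ideal.zero_mem _
  refine exists_mvPowerSeries_surj hsurj hy ?_
  intro x hx
  rw [sup_assoc, ← hJ]
  let w : W := ⟨Ideal.Quotient.mk J x, (hWmem x).mpr hx⟩
  choose o ho using fun i => residue_surjective (R := 𝒪) (b.repr w i)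
  have h1 : Ideal.Quotient.mk J x = Ideal.Quotient.mk J (∑ i, algebraMap 𝒪 R (o i) * lift (b i)) := by
    have h2 := congrArg Subtype.val (b.sum_repr w)
    have h3 : (w : R ⧸ J) = Ideal.Quotient.mk J x := rfl
    rw [← h3, ← h2, Submodule.coe_sum, map_sum]
    refine Finset.sum_congr rfl fun i _ => ?_
    rw [Submodule.coe_smul, Algebra.smul_def, hsalg, ← ho, hs, ← hlift2, map_mul]
  rw [Ideal.Quotient.mk_eq_mk_iff_sub_mem] at h1
  have e : x = (∑ i, algebraMap 𝒪 R (o i) * lift (b i)) +
    (x - ∑ i, algebraMap 𝒪 R (o i) * lift (b i)) := by ring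
  rw [e]
  refine Submodule.add_mem_sup ?_ h1
  refine Ideal.sum_mem _ fun i _ => Ideal.mul_mem_left _ _ (Ideal.subset_span ?_)
  refine ⟨⟨i, lt_of_lt_of_le i.2 hdim⟩, ?_⟩
  simp only [y]
  rw [dif_pos i.2]

end Main

end Fermat.Agent.TWP
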