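import Fermat.Agent.TWP.Clifford
import Fermat.Agent.TWP.Val
import Fermat.Agent.DefRing.Mat
import Fermat.Agent.FrobDensity.Final
import Fermat.Agent.QuadRep.RootsOfUnity
import Fermat.Prelude.Def_GaloisRep_LocalConditions

/-!
Existence of Taylor–Wiles primes detecting a given cocycle.
-/

set_option autoImplicit false

namespace Fermat.Agent.TWP

open Matrix Polynomial
open Fermat.Agent.DefRing (matOfRes mapRep matOfRes_apply)

/-- the absolute Galois group of `ℚ` -/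
abbrev GQ := AlgebraicClosure ℚ ≃ₐ[ℚ] AlgebraicClosure ℚ

/-- The algebraic closure of `ℚ` -/
abbrev Qb := AlgebraicClosure ℚ

/-- Matrix version of the hypotheses on the residual representation. -/
structure RD {k : Type} [Field k] (p : ℕ) (r : GQ →* M2 k) : Prop where
  char : (p : k) = 0
  cont : ∃ L : IntermediateField ℚ Qb, FiniteDimensional ℚ L ∧
    ∀ σ : GQ, (∀ x ∈ L, σ x = x) → r σ = 1
  det : ∀ (σ : GQ) (a : ℕ), (∀ μ : Qb, μ ^ p = 1 → σ μ = μ ^ a) → (r σ).det = a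
  split : ∀ σ : GQ, ∃ α β : k, (r σ).charpoly = (X - C α) * (X - C β)
  irr : ∀ H : Subgroup GQ, (H.index = 2 ∨ H = ⊤) → ∀ v : Fin 2 → AlgebraicClosure k, v ≠ 0 →
    ∃ h ∈ H, ∀ c : AlgebraicClosure k,
      ((r h).map (algebraMap k (AlgebraicClosure k))) *ᵥ v ≠ c • v

section cyclo

variable {m : ℕ} [NeZero m] {ζ : Qb} (hζ : IsPrimitiveRoot ζ m)

lemma mem_ker_iff (σ : GQ) : σ ∈ (hζ.autToPow ℚ).ker ↔ ∀ μ : Qb, μ ^ m = 1 → σ μ = μ := by
  rw [MonoidHom.mem_ker]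
  constructor
  · intro h μ hμ
    have h1 := hζ.autToPow_spec ℚ σ
    have h2 : σ ζ = ζ := by
      by_cases hm : m = 1
      · have : ζ = 1 := by
          have := hζ.pow_eq_one
          rwa [hm, pow_one] at this
        rw [this, map_one]
      · have : Fact (1 < m) := ⟨by
          have := NeZero.ne m
          omega⟩
        rw [← h1, h, Units.val_one, ZMod.val_one, pow_one]
    obtain ⟨i, -, rfl⟩ := hζ.eq_pow_of_pow_eq_one hμ
    rw [map_pow, h2]
  · intro h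
    have h1 := hζ.autToPow_spec ℚ σ
    rw [h ζ hζ.pow_eq_one] at h1
    ext
    rw [Units.val_one]
    by_cases hm : m = 1
    · subst hm
      exact Subsingleton.elim _ _
    · have : Fact (1 < m) := ⟨by
          have := NeZero.ne m
          omega⟩
      have h2 : ζ ^ ((hζ.autToPow ℚ σ : (ZMod m)ˣ) : ZMod m).val = ζ ^ 1 := by rw [h1, pow_one]
      have h3 := hζ.pow_inj (ZMod.val_lt _) (Fact.out : 1 < m) h2
      apply ZMod.val_injective m
      rw [h3, ZMod.val_one]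

lemma exists_gen [IsCyclic (ZMod m)ˣ] : ∃ γ : GQ, ∀ g : GQ, ∃ i : ℤ,
    ∃ n ∈ (hζ.autToPow ℚ).ker, g = γ ^ i * n := by
  have hc : IsCyclic (hζ.autToPow ℚ).range := Subgroup.isCyclic _
  obtain ⟨⟨_, γ, rfl⟩, hγ⟩ := hc.exists_generator
  refine ⟨γ, fun g => ?_⟩
  obtain ⟨i, hi⟩ := Subgroup.mem_zpowers_iff.mp (hγ ⟨hζ.autToPow ℚ g, ⟨g, rfl⟩⟩)
  have hi' := congrArg Subtype.val hi
  simp only [SubgroupClass.coe_zpow] at hi'
  refine ⟨i, (γ ^ i)⁻¹ * g, ?_, by group⟩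
  rw [MonoidHom.mem_ker, map_mul, map_inv, map_zpow, hi']
  simp

include hζ in
lemma exists_aut {a : ℕ} (ha : a.Coprime m) : ∃ σ : GQ, ∀ μ : Qb, μ ^ m = 1 → σ μ = μ ^ a := by
  have hpos : 0 < m := Nat.pos_of_ne_zero (NeZero.ne m)
  have h1 := cyclotomic_eq_minpoly_rat hζ hpos
  have h2 := cyclotomic_eq_minpoly_rat (hζ.pow_of_coprime a ha) hpos
  have h3 : minpoly ℚ (ζ ^ a) = minpoly ℚ ζ := by rw [← h1, ← h2]
  obtain ⟨σ, hσ⟩ := (Normal.minpoly_eq_iff_mem_orbit (F := ℚ) Qb).mp h3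
  refine ⟨σ, fun μ hμ => ?_⟩
  obtain ⟨i, -, rfl⟩ := hζ.eq_pow_of_pow_eq_one hμ
  have h4 : σ ζ = ζ ^ a := hσ
  rw [map_pow, h4, ← pow_mul, ← pow_mul, mul_comm]

end cyclo

section level

lemma exists_finite_root {m : ℕ} (hm : 0 < m) : ∃ L : IntermediateField ℚ Qb,
    FiniteDimensional ℚ L ∧ ∀ μ : Qb, μ ^ m = 1 → μ ∈ L := by
  have hfin : {μ : Qb | μ ^ m = 1}.Finite := by
    refine ((X ^ m - 1 : Qb[X]).roots.toFinset.finite_toSet).subset ?_
    intro μ hμ
    have h0 : (X ^ m - 1 : Qb[X]) ≠ 0 := X_pow_sub_C_ne_zero (R := Qb) hm 1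
    simp only [Finset.mem_coe, Multiset.mem_toFinset, mem_roots h0, IsRoot.def, eval_sub, eval_pow,
      eval_X, eval_one]
    have hμ' : μ ^ m = 1 := hμ
    rw [hμ', sub_self]
  refine ⟨IntermediateField.adjoin ℚ {μ : Qb | μ ^ m = 1}, ?_, fun μ hμ =>
    IntermediateField.subset_adjoin ℚ _ hμ⟩
  have : Finite {μ : Qb | μ ^ m = 1} := hfin
  exact IntermediateField.finiteDimensional_adjoin fun x _ =>
    (Algebra.IsAlgebraic.isAlgebraic (R := ℚ) x).isIntegral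

end level

namespace RD

variable {k : Type} [Field k] {p : ℕ} {r : GQ →* M2 k}

lemma charP (hr : RD p r) (hp : p.Prime) : CharP k p := by
  obtain ⟨q, hq⟩ := CharP.exists k
  have h1 : q ∣ p := (CharP.cast_eq_zero_iff k q p).mp hr.char
  rcases (Nat.dvd_prime hp).mp h1 with h | h
  · exfalso
    have h2 : ((1 : ℕ) : k) = 0 := (CharP.cast_eq_zero_iff k q 1).mpr (by rw [h])
    exact one_ne_zero (by exact_mod_cast h2 : (1 : k) = 0)
  · rwa [h] at hq

/-- `χ = det r` on the kernel of the cyclotomic character -/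
lemma det_of_fix (hr : RD p r) {σ : GQ} (h : ∀ μ : Qb, μ ^ p = 1 → σ μ = μ) : (r σ).det = 1 := by
  have := hr.det σ 1 (fun μ hμ => by rw [h μ hμ, pow_one])
  rwa [Nat.cast_one] at this

lemma nd (hr : RD p r) (hp : p.Prime) (hp2 : p ≠ 2) (n : ℕ) [NeZero (p ^ (n + 1))] {ζ : Qb}
    (hζ : IsPrimitiveRoot ζ (p ^ (n + 1))) :
    ∀ X : M2 k, (∀ g ∈ (hζ.autToPow ℚ).ker, (r g * X).trace = 0) → X = 0 := by
  have hc : IsCyclic (ZMod (p ^ (n + 1)))ˣ := ZMod.isCyclic_units_of_prime_pow p hp hp2 (n + 1)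
  obtain ⟨γ, hγ⟩ := exists_gen hζ
  have h1 := no_line_normal (hζ.autToPow ℚ).ker (mapRep (algebraMap k (AlgebraicClosure k)) r) γ hγ
    hr.irr
  have h2 := nd_of_no_line _ _ h1
  exact nd_descent (hζ.autToPow ℚ).ker r h2

end RD

namespace TP

variable {N : Type*} [Group N] {k : Type*} [Field k] {t f : N → k}

lemma t_step (h : TP t f) (a : N) (n : ℕ) : t (a ^ (n + 2)) = t (a ^ (n + 1)) * t a - t (a ^ n) := by
  have := h.tt (a ^ (n + 1)) a
  have e1 : a ^ (n + 1) * a = a ^ (n + 2) := by rw [← pow_succ]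
  have e2 : a ^ (n + 1) * a⁻¹ = a ^ n := by rw [pow_succ, mul_assoc, mul_inv_cancel, mul_one]
  rw [e1, e2] at this
  linear_combination this

lemma f_step (h : TP t f) (a : N) (n : ℕ) :
    f (a ^ (n + 2)) = t a * f (a ^ (n + 1)) + t (a ^ (n + 1)) * f a - f (a ^ n) := by
  have := h.ff (a ^ (n + 1)) a
  have e1 : a ^ (n + 1) * a = a ^ (n + 2) := by rw [← pow_succ]
  have e2 : a ^ (n + 1) * a⁻¹ = a ^ n := by rw [pow_succ, mul_assoc, mul_inv_cancel, mul_one]
  rw [e1, e2] at this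
  linear_combination this

lemma f_pow_zero (h : TP t f) {a : N} (ha : f a = 0) (n : ℕ) : f (a ^ n) = 0 := by
  induction n using Nat.strong_induction_on with
  | _ n ih =>
    match n with
    | 0 => rw [pow_zero, h.f1]
    | 1 => rw [pow_one, ha]
    | n + 2 => rw [h.f_step, ih (n + 1) (by omega), ih n (by omega), ha]; ring

lemma t_pow_eps (h : TP t f) {a : N} {e : k} (he : e ^ 2 = 1) (ha : t a = 2 * e) (n : ℕ) :
    t (a ^ n) = 2 * e ^ n := by
  induction n using Nat.strong_induction_on with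
  | _ n ih =>
    match n with
    | 0 => rw [pow_zero, h.t1, pow_zero, mul_one]
    | 1 => rw [pow_one, ha, pow_one]
    | n + 2 =>
      rw [h.t_step, ih (n + 1) (by omega), ih n (by omega), ha]
      linear_combination (2 * e ^ n) * he

lemma t_pow_four (h : TP t f) {a : N} (ha : t a ^ 2 = 4) (n : ℕ) : t (a ^ n) ^ 2 = 4 := by
  have h1 : (t a - 2) * (t a + 2) = 0 := by linear_combination ha
  rcases mul_eq_zero.mp h1 with h2 | h2
  · rw [h.t_pow_eps (e := 1) (by ring) (by linear_combination h2)]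
    rw [one_pow]; norm_num
  · rw [h.t_pow_eps (e := -1) (by ring) (by linear_combination h2)]
    rw [mul_pow, ← pow_mul, mul_comm n 2, pow_mul]
    norm_num

end TP

section main

variable {k : Type} [Field k] {p : ℕ} {r : GQ →* M2 k}

/-- A Taylor–Wiles prime of level `n` with a chosen Frobenius element. -/
structure TWPrime (p : ℕ) (r : GQ →* M2 k) (n q : ℕ) (A : ValuationSubring Qb) (τ : GQ) :
    Prop where
  prime : q.Prime
  dvd : p ^ (n + 1) ∣ q - 1
  lies : A.LiesOverPrime q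
  inertia : ∀ i ∈ A.inertiaSubgroupIn ℚ, r i = 1
  frob : A.IsFrobeniusAt τ q
  det : (r τ).det = 1
  reg : (r τ).trace ^ 2 ≠ 4

lemma eq_of_level {X : Type} {f : GQ → X} {L : IntermediateField ℚ Qb}
    (hf : ∀ g u : GQ, (∀ x ∈ L, u x = x) → f (g * u) = f g) {g h : GQ}
    (hgh : ∀ x ∈ L, g x = h x) : f g = f h := by
  have e : g = h * (h⁻¹ * g) := by group
  rw [e]
  apply hf
  intro x hx
  rw [AlgEquiv.mul_apply, hgh x hx, ← AlgEquiv.mul_apply, inv_mul_cancel, AlgEquiv.one_apply]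

theorem exists_prime (hp : p.Prime) (hp2 : p ≠ 2) (hr : RD p r) (n : ℕ) (S : Finset ℕ)
    (ψ : GQ → M2 k)
    (hlc : ∃ L : IntermediateField ℚ Qb, FiniteDimensional ℚ L ∧
      ∀ g u : GQ, (∀ x ∈ L, u x = x) → ψ (g * u) = ψ g)
    (htr : ∀ g, (ψ g).trace = 0)
    (hcoc : ∀ g h, ψ (g * h) = ψ g + (r g).det • (r g * ψ h * r g⁻¹))
    (hne : ¬ ∃ X : M2 k, X.trace = 0 ∧ ∀ g, ψ g = (r g).det • (r g * X * r g⁻¹) - X) :
    ∃ (q : ℕ) (A : ValuationSubring Qb) (τ : GQ), q ∉ S ∧ TWPrime p r n q A τ ∧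
      (ψ τ * r τ).trace ≠ 0 := by
  have hppos : 0 < p ^ (n + 1) := pow_pos hp.pos _
  have : NeZero (p ^ (n + 1)) := ⟨hppos.ne'⟩
  have : NeZero ((p ^ (n + 1) : ℕ) : Qb) := ⟨by exact_mod_cast hppos.ne'⟩
  obtain ⟨ζ, hζ⟩ := HasEnoughRootsOfUnity.exists_primitiveRoot Qb (p ^ (n + 1))
  have hchar : CharP k p := hr.charP hp
  set N := (hζ.autToPow ℚ).ker with hN
  have hNfix : ∀ g ∈ N, ∀ μ : Qb, μ ^ p ^ (n + 1) = 1 → g μ = μ := fun g hg =>
    (mem_ker_iff hζ g).mp hg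
  have hNp : ∀ g ∈ N, ∀ μ : Qb, μ ^ p = 1 → g μ = μ := fun g hg μ hμ =>
    hNfix g hg μ (by rw [pow_succ', pow_mul, hμ, one_pow])
  have hNdet : ∀ g ∈ N, (r g).det = 1 := fun g hg => hr.det_of_fix (hNp g hg)
  -- the regular element
  have hex : ∃ σ ∈ N, (r σ).trace ^ 2 ≠ 4 ∧ (ψ σ * r σ).trace ≠ 0 := by
    by_contra hcon
    push Not at hcon
    apply hne
    refine coboundary_of_reg N r hp hp2 (fun g => (r g).det) hNdet (hr.nd hp hp2 n hζ) ?_ hNdet
      (fun g h => by rw [map_mul, det_mul]) ψ htr hcoc hcon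
    intro h5
    subst h5
    have hne5 : NeZero ((5 : ℕ) : Qb) := ⟨by norm_num⟩
    obtain ⟨ζ', hζ'⟩ := HasEnoughRootsOfUnity.exists_primitiveRoot Qb 5
    obtain ⟨g, hg⟩ := exists_aut hζ' (a := 2) (by decide)
    refine ⟨g, ?_⟩
    rw [hr.det g 2 hg]
    constructor
    · intro h
      have h1 : ((1 : ℕ) : k) = 0 := by push_cast at h ⊢; linear_combination h
      rw [CharP.cast_eq_zero_iff k 5] at h1
      omega
    · intro h
      have h1 : ((3 : ℕ) : k) = 0 := by push_cast at h ⊢; linear_combination h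
      rw [CharP.cast_eq_zero_iff k 5] at h1
      omega
  obtain ⟨σ, hσN, hσt, hσf⟩ := hex
  -- the level
  obtain ⟨L₁, hL₁, hrL⟩ := hr.cont
  obtain ⟨L₂, hL₂, hψL⟩ := hlc
  obtain ⟨L₃, hL₃, hμL⟩ := exists_finite_root hppos
  have hL : FiniteDimensional ℚ (L₁ ⊔ L₂ ⊔ L₃ : IntermediateField ℚ Qb) := inferInstance
  set L : IntermediateField ℚ Qb := L₁ ⊔ L₂ ⊔ L₃ with hLdef
  have h1L : L₁ ≤ L := le_sup_left.trans le_sup_left
  have h2L : L₂ ≤ L := le_sup_right.trans le_sup_left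
  have h3L : L₃ ≤ L := le_sup_right
  obtain ⟨q, hq, hqS, A, hA, hI, τ, hτ, ⟨j, hj⟩, l, hl⟩ :=
    Fermat.Agent.FrobDensity.exists_frobenius_pow_eq L hL σ (insert p S)
  have hqp : q ≠ p := fun h => hqS (by rw [h]; exact Finset.mem_insert_self _ _)
  have hrlev : ∀ g u : GQ, (∀ x ∈ L, u x = x) → r (g * u) = r g := fun g u hu => by
    rw [map_mul, hrL u (fun x hx => hu x (h1L hx)), mul_one]
  have hψlev : ∀ g u : GQ, (∀ x ∈ L, u x = x) → ψ (g * u) = ψ g := fun g u hu =>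
    hψL g u (fun x hx => hu x (h2L hx))
  -- `τ ∈ N`
  have hτμ : ∀ μ : Qb, μ ^ p ^ (n + 1) = 1 → τ μ = μ := by
    intro μ hμ
    rw [← hl μ (h3L (hμL μ hμ))]
    exact (mem_ker_iff hζ (σ ^ l)).mp (N.pow_mem hσN l) μ hμ
  have hτN : τ ∈ N := (mem_ker_iff hζ τ).mpr hτμ
  have hdvd : p ^ (n + 1) ∣ q - 1 := by
    have h1 : τ ζ = ζ ^ q := Fermat.Agent.QuadRep.frobenius_smul_root hq hA hτ hppos
      (Nat.Coprime.pow_left _ ((Nat.coprime_primes hp hq).mpr hqp.symm)) ζ hζ.pow_eq_one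
    rw [hτμ ζ hζ.pow_eq_one] at h1
    rw [← hζ.pow_eq_one_iff_dvd]
    have h2 : ζ ^ (q - 1) * ζ = 1 * ζ := by
      rw [← pow_succ, Nat.sub_add_cancel hq.one_le, ← h1, one_mul]
    exact mul_right_cancel₀ (hζ.ne_zero (NeZero.ne _)) h2
  -- the trace pair on `N`
  have htp : TP (fun g : N => (r g).trace) (fun g : N => (ψ g * r g).trace) :=
    tp_of_cocycle (r.comp N.subtype) (fun g => hNdet g g.2) (fun g : N => ψ g)
      (fun g => htr g) (fun g h => by
        show ψ ((g : GQ) * h) = _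
        rw [hcoc, hNdet g g.2, one_smul]
        rfl)
  have hreg : (r τ).trace ^ 2 ≠ 4 := by
    intro h
    apply hσt
    have h1 := htp.t_pow_four (a := ⟨τ, hτN⟩) h j
    have h2 : r (τ ^ j) = r σ := eq_of_level hrlev hj
    rw [← h2]
    exact h1
  have hf : (ψ τ * r τ).trace ≠ 0 := by
    intro h
    apply hσf
    have h1 := htp.f_pow_zero (a := ⟨τ, hτN⟩) h j
    have h2 : r (τ ^ j) = r σ := eq_of_level hrlev hj
    have h3 : ψ (τ ^ j) = ψ σ := eq_of_level hψlev hj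
    rw [← h2, ← h3]
    exact h1
  refine ⟨q, A, τ, fun h => hqS (Finset.mem_insert_of_mem h), ⟨hq, hdvd, hA, fun i hi => ?_, hτ,
    hNdet τ hτN, hreg⟩, hf⟩
  exact hrL i (fun x hx => hI i hi x (h1L hx))

/-- distinct eigenvalues at all Frobenius elements -/
theorem TWPrime.eigen (hr : RD p r) {n q : ℕ} {A : ValuationSubring Qb} {τ : GQ}
    (h : TWPrime p r n q A τ) {P : ValuationSubring Qb} (hP : P.LiesOverPrime q) {φ : GQ}
    (hφ : P.IsFrobeniusAt φ q) :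
    ∃ α β : k, α ≠ β ∧ (r φ).charpoly = (X - C α) * (X - C β) := by
  obtain ⟨g, hg⟩ := frob_conj h.prime r h.lies h.inertia h.frob hP hφ
  obtain ⟨α, β, hαβ⟩ := hr.split φ
  refine ⟨α, β, ?_, hαβ⟩
  have hgg : r g⁻¹ * r g = 1 := by rw [← map_mul, inv_mul_cancel, map_one]
  have htr : (r φ).trace = (r τ).trace := by
    rw [hg, trace_mul_comm, ← mul_assoc, hgg, one_mul]
  have hdet : (r φ).det = 1 := by
    have : (r g).det * (r g⁻¹).det = 1 := by
      rw [← det_mul, ← map_mul, mul_inv_cancel, map_one, det_one]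
    rw [hg, det_mul, det_mul, h.det, mul_one, this]
  intro heq
  apply h.reg
  rw [charpoly_fin_two] at hαβ
  have h0 := congrArg (fun P : k[X] => P.coeff 0) hαβ
  have h1 := congrArg (fun P : k[X] => P.coeff 1) hαβ
  have e : (X - C α) * (X - C β) = X ^ 2 - C (α + β) * X + C (α * β) := by
    rw [C_add, C_mul]; ring
  rw [e] at h0 h1
  simp [coeff_X, coeff_C] at h0 h1
  rw [hdet] at h0
  subst heq
  have h2 : (r φ).trace = 2 * α := by linear_combination -h1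
  rw [← htr, h2]
  linear_combination -4 * h0

end main

end Fermat.Agent.TWP
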