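import Fermat.Agent.TWP.Loc
import Fermat.Agent.TWP.Primes
import Fermat.Agent.PTGlob.Unr
import Fermat.Agent.QuadRep.RootsOfUnity

/-!
Uniform topological generators of the tame quotient.
-/

set_option autoImplicit false

namespace Fermat.Agent.TWP

open scoped Pointwise

section pow

/-- arithmetic of generators of cyclic `p`-groups -/
lemma pow_gen {H K : Type*} [Group H] [Group K] {p : ℕ} (hp : p.Prime) {a : H} {b : K}
    {n : ℕ} (ha : a ^ p ^ n = 1) (hb : b ^ p = 1) {j : ℤ} (hj : b ^ j ≠ 1) :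
    ∃ i : ℤ, (a ^ j) ^ i = a := by
  have h1 : ¬ (p : ℤ) ∣ j := by
    rintro ⟨c, rfl⟩
    apply hj
    rw [zpow_mul, zpow_natCast, hb, one_zpow]
  have h2 : IsCoprime j ((p : ℤ) ^ n) := by
    refine IsCoprime.pow_right ?_
    exact ((Nat.prime_iff_prime_int.mp hp).coprime_iff_not_dvd.mpr h1).symm
  obtain ⟨u, v, huv⟩ := h2
  refine ⟨u, ?_⟩
  rw [← zpow_mul]
  have h3 : a ^ ((p : ℤ) ^ n) = 1 := by
    have : ((p : ℤ) ^ n) = ((p ^ n : ℕ) : ℤ) := by push_cast; rfl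
    rw [this, zpow_natCast, ha]
  calc a ^ (j * u) = a ^ (j * u) * (a ^ ((p : ℤ) ^ n)) ^ v := by rw [h3, one_zpow, mul_one]
    _ = a ^ (u * j + v * (p : ℤ) ^ n) := by rw [← zpow_mul, ← zpow_add]; congr 1; ring
    _ = a := by rw [huv, zpow_one]

end pow

section ram

open Fermat.Agent.PTGlob Fermat.Agent.CFT Fermat.Agent.CFT6

variable {p : ℕ} [hp : Fact p.Prime] {q : Nat.Primes}

/-- inertia at `q` moves `q^{1/p}` -/
theorem exists_move (hq : (q : ℕ) ≠ p) {c : Qb} (hc : c ^ p = ((q : ℕ) : Qb)) :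
    ∃ τ ∈ (Pl q).inertiaSubgroupIn ℚ, τ c ≠ c := by
  classical
  by_contra hcon
  push Not at hcon
  have hc0 : c ≠ 0 := by
    rintro rfl
    rw [zero_pow hp.out.ne_zero] at hc
    exact q.2.ne_zero (by exact_mod_cast hc.symm)
  have hcop : p.Coprime (q : ℕ) := (Nat.coprime_primes hp.out q.2).mpr (Ne.symm hq)
  -- all the roots are fixed
  have hroots : ∀ τ ∈ (Pl q).inertiaSubgroupIn ℚ, ∀ d : Qb, d ^ p = ((q : ℕ) : Qb) → τ d = d := by
    intro τ hτ d hd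
    have h1 : (d / c) ^ p = 1 := by
      rw [div_pow, hd, hc, div_self]
      exact_mod_cast q.2.ne_zero
    have h2 := Fermat.Agent.QuadRep.inertia_smul_root q.2 (Pl_lies q) hτ hp.out.pos hcop _ h1
    rw [map_div₀, hcon τ hτ] at h2
    have h3 : τ d = d / c * c := by rw [← h2, div_mul_cancel₀ _ hc0]
    rw [h3, div_mul_cancel₀ _ hc0]
  let P₀ : Nat.Primes := ⟨p, hp.out⟩
  have hqP : q ≠ P₀ := fun h => hq (by rw [h])
  -- the root is unramified outside `p`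
  have h1 : c ∈ OmS ({P₀, q} : Finset Nat.Primes) := by
    refine mem_OmS_of_pow (p := p) ⟨P₀, by simp, rfl⟩ ?_ ?_
    · rw [hc, mem_OmS]
      intro _ _ _ _ g _
      exact map_natCast g _
    · intro v hv Ψ
      refine ⟨0, ?_⟩
      rw [hc, mul_zero, zpow_zero, map_natCast]
      have hvq : v ≠ q := fun h => hv (by simp [h])
      refine norm_natCast_eq_one fun hd => hvq ?_
      exact Subtype.ext ((Nat.prime_dvd_prime_iff_eq v.2 q.2).mp hd)
  have h2 : c ∈ OmS ({P₀} : Finset Nat.Primes) := by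
    rw [mem_OmS] at h1 ⊢
    intro v hv A hA g hg
    by_cases hvq : v = q
    · subst hvq
      obtain ⟨σ, hσ⟩ := Frob.exists_smul_eq v.2 (Pl_lies v) hA
      rw [hσ] at hg
      have h3 := inertia_conj hg
      have h4 := hroots _ h3 (σ⁻¹ c) (by rw [← map_pow, hc, map_natCast])
      have h5 : σ ((σ⁻¹ * g * σ) (σ⁻¹ c)) = g c := by
        show (σ * (σ⁻¹ * g * σ) * σ⁻¹) c = g c
        congr 1
        group
      rw [← h5, h4]
      show (σ * σ⁻¹) c = c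
      rw [mul_inv_cancel]
      rfl
    · refine h1 v (fun h => ?_) A hA g hg
      rcases Finset.mem_insert.mp h with h | h
      · exact hv (by simp [h])
      · exact hvq (Finset.mem_singleton.mp h)
  obtain ⟨n, hn⟩ := norm_zpow_of_mem_OmS h2 hc0 (q := q) (by simpa using hqP) (e0 q)
  have h3 : ‖(e0 q) (c ^ p)‖ = (((q : ℕ) : ℝ) ^ n) ^ p := by rw [map_pow, norm_pow, hn]
  rw [hc, map_natCast, norm_natCast_q, ← zpow_natCast, ← zpow_mul, ← zpow_neg_one] at h3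
  have h4 : (1 : ℝ) < ((q : ℕ) : ℝ) := by exact_mod_cast q.2.one_lt
  have h5 := zpow_right_injective₀ (by linarith) h4.ne' h3
  have h6 : (p : ℤ) ∣ 1 := ⟨-n, by linarith⟩
  have h7 := Int.eq_one_of_dvd_one (by positivity) h6
  exact hp.out.one_lt.ne' (by exact_mod_cast h7)

end ram

section main

variable {p : ℕ} [hp : Fact p.Prime] {q : Nat.Primes}

/-- the Kummer homomorphism on inertia -/
noncomputable def kumI (hq : (q : ℕ) ≠ p) (c : Qb) (hc0 : c ≠ 0)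
    (hc : c ^ p = ((q : ℕ) : Qb)) : ↥((Pl q).inertiaSubgroupIn ℚ) →* Qbˣ where
  toFun σ := Units.mk0 (σ.1 c / c) (div_ne_zero ((map_ne_zero σ.1).mpr hc0) hc0)
  map_one' := Units.ext (div_self hc0)
  map_mul' σ τ := by
    apply Units.ext
    show σ.1 (τ.1 c) / c = σ.1 c / c * (τ.1 c / c)
    have h1 : (τ.1 c / c) ^ p = 1 := by
      rw [div_pow, ← map_pow, hc, map_natCast, div_self]
      exact_mod_cast q.2.ne_zero
    have h2 := Fermat.Agent.QuadRep.inertia_smul_root q.2 (Pl_lies q) σ.2 hp.out.pos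
      ((Nat.coprime_primes hp.out q.2).mpr (Ne.symm hq)) _ h1
    have h3 : σ.1 (τ.1 c) = σ.1 c * (τ.1 c / c) := by
      rw [map_div₀] at h2
      have : σ.1 c ≠ 0 := (map_ne_zero σ.1).mpr hc0
      rw [← h2, mul_div_cancel₀ _ this]
    rw [h3, mul_div_right_comm]

/-- **TAME, inertia**: an element of inertia moving `q^{1/p}` generates the image of inertia in
every `p`-group. -/
theorem tame_gen (hq : (q : ℕ) ≠ p) {c : Qb} (hc : c ^ p = ((q : ℕ) : Qb)) {τ : GQ}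
    (hτ : τ ∈ (Pl q).inertiaSubgroupIn ℚ) (hτc : τ c ≠ c) {H : Type*} [Group H]
    (f : ↥((Pl q).inertiaSubgroupIn ℚ) →* H)
    (L : IntermediateField ℚ (AlgebraicClosure ℚ)) [FiniteDimensional ℚ L]
    (hf : ∀ σ : ↥((Pl q).inertiaSubgroupIn ℚ), (∀ x ∈ L, σ.1 x = x) → f σ = 1)
    (hfp : ∀ σ, ∃ k, f σ ^ p ^ k = 1) (σ : ↥((Pl q).inertiaSubgroupIn ℚ)) :
    ∃ j : ℤ, f σ = f ⟨τ, hτ⟩ ^ j := by
  have hc0 : c ≠ 0 := by
    rintro rfl
    rw [zero_pow hp.out.ne_zero] at hc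
    exact q.2.ne_zero (by exact_mod_cast hc.symm)
  have hκp : ∀ σ, kumI hq c hc0 hc σ ^ p = 1 := by
    intro σ
    apply Units.ext
    rw [Units.val_pow_eq_pow_val, Units.val_one]
    show (σ.1 c / c) ^ p = 1
    rw [div_pow, ← map_pow, hc, map_natCast, div_self]
    exact_mod_cast q.2.ne_zero
  have hcfd : FiniteDimensional ℚ (IntermediateField.adjoin ℚ {c}) :=
    IntermediateField.adjoin.finiteDimensional (Algebra.IsAlgebraic.isAlgebraic c).isIntegral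
  obtain ⟨τ', hτ'⟩ := exists_tame_gen q.2 (Pl_lies q) hp.out (Ne.symm hq)
    (f.prod (kumI hq c hc0 hc)) (L ⊔ IntermediateField.adjoin ℚ {c}) (by
      intro σ hσ
      rw [MonoidHom.prod_apply, hf σ fun x hx => hσ x ((le_sup_left : L ≤ _) hx)]
      have h1 : kumI hq c hc0 hc σ = 1 := by
        apply Units.ext
        show σ.1 c / c = 1
        rw [hσ c ((le_sup_right : IntermediateField.adjoin ℚ {c} ≤ _)
          (IntermediateField.mem_adjoin_simple_self ℚ c)), div_self hc0]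
      rw [h1]
      rfl) (by
      intro σ
      obtain ⟨k, hk⟩ := hfp σ
      refine ⟨k + 1, ?_⟩
      rw [MonoidHom.prod_apply, Prod.pow_mk, Prod.mk_eq_one, pow_succ, pow_mul, hk, one_pow,
        mul_comm, pow_mul, hκp, one_pow]
      exact ⟨rfl, rfl⟩)
  obtain ⟨j, hj⟩ := hτ' ⟨τ, hτ⟩
  obtain ⟨i, hi⟩ := hτ' σ
  replace hj : f ⟨τ, hτ⟩ = f τ' ^ j ∧ kumI hq c hc0 hc ⟨τ, hτ⟩ = kumI hq c hc0 hc τ' ^ j :=
    ⟨congrArg Prod.fst hj, congrArg Prod.snd hj⟩
  replace hi : f σ = f τ' ^ i := congrArg Prod.fst hi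
  obtain ⟨k, hk⟩ := hfp τ'
  obtain ⟨u, hu⟩ := pow_gen hp.out hk (hκp τ') (j := j) (by
    rw [← hj.2]
    intro h
    have h1 : τ c / c = 1 := congrArg Units.val h
    exact hτc ((div_eq_one_iff_eq hc0).mp h1))
  refine ⟨u * i, ?_⟩
  rw [hi, hj.1, zpow_mul, hu]

/-- **TAME**: the decomposition group is generated by a fixed Frobenius element and a fixed
element of inertia, in every quotient in which inertia becomes a `p`-group. -/
theorem tame_decomp (hq : (q : ℕ) ≠ p) {c : Qb} (hc : c ^ p = ((q : ℕ) : Qb)) {τ φ : GQ}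
    (hτ : τ ∈ (Pl q).inertiaSubgroupIn ℚ) (hτc : τ c ≠ c) (hφ : (Pl q).IsFrobeniusAt φ q)
    {H : Type*} [Group H] (f : GQ →* H)
    (L : IntermediateField ℚ (AlgebraicClosure ℚ)) [FiniteDimensional ℚ L]
    (hf : ∀ σ : GQ, (∀ x ∈ L, σ x = x) → f σ = 1)
    (hfp : ∀ σ ∈ (Pl q).inertiaSubgroupIn ℚ, ∃ k, f σ ^ p ^ k = 1) {σ : GQ}
    (hσ : σ • Pl q = Pl q) : f σ ∈ Subgroup.closure {f φ, f τ} := by
  have hin : ∀ ρ ∈ (Pl q).inertiaSubgroupIn ℚ, f ρ ∈ Subgroup.closure {f φ, f τ} := by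
    intro ρ hρ
    obtain ⟨j, hj⟩ := tame_gen hq hc hτ hτc (f.comp (Subgroup.subtype _)) L
      (fun σ hσ => hf σ.1 hσ) (fun σ => hfp σ.1 σ.2) ⟨ρ, hρ⟩
    have h1 : f ρ = f τ ^ j := hj
    rw [h1]
    exact Subgroup.zpow_mem _ (Subgroup.subset_closure (by simp)) j
  have hφc : f φ ∈ Subgroup.closure {f φ, f τ} := Subgroup.subset_closure (by simp)
  obtain ⟨F, hF, hLF, hFn⟩ := exists_normal_level L
  have heq : ∀ a b : GQ, (∀ x ∈ F, a x = b x) → f a = f b := by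
    intro a b hab
    have h1 : f (b⁻¹ * a) = 1 := hf _ fun x hx => by
      show b⁻¹ (a x) = x
      rw [hab x (hLF hx)]
      show (b⁻¹ * b) x = x
      rw [inv_mul_cancel]
      rfl
    rw [map_mul, map_inv, inv_mul_eq_one] at h1
    exact h1.symm
  obtain ⟨g, ⟨φ', hφ', hg⟩, hall⟩ := exists_frob_gen q F hFn
  obtain ⟨γ, hγ⟩ := exists_loc q F hσ
  obtain ⟨j, ρ, hρ, hj⟩ := hall γ
  have h1 : f (rl q g) ∈ Subgroup.closure {f φ, f τ} := by
    rw [heq _ _ hg]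
    have h2 : φ' = φ * (φ⁻¹ * φ') := by group
    rw [h2, map_mul]
    exact Subgroup.mul_mem _ hφc (hin _ (isFrobeniusAt_unique hφ' hφ))
  rw [← heq _ _ hγ]
  have h3 : rl q γ = rl q g ^ j * rl q ((g ^ j)⁻¹ * γ) := by
    rw [map_mul, map_inv, map_pow]; group
  rw [h3, map_mul, map_pow, heq _ _ hj]
  exact Subgroup.mul_mem _ (Subgroup.pow_mem _ h1 j) (hin ρ hρ)

variable (p q) in
/-- existence of a tame pair -/
theorem exists_tame_pair (hq : (q : ℕ) ≠ p) : ∃ (c : Qb) (φ τ : GQ), c ^ p = ((q : ℕ) : Qb) ∧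
    τ ∈ (Pl q).inertiaSubgroupIn ℚ ∧ τ c ≠ c ∧ (Pl q).IsFrobeniusAt φ q := by
  obtain ⟨c, hc⟩ := IsAlgClosed.exists_pow_nat_eq ((q : ℕ) : Qb) hp.out.pos
  obtain ⟨τ, hτ, hτc⟩ := exists_move hq hc
  obtain ⟨g, ⟨φ, hφ, -⟩, -⟩ := exists_frob_gen q ⊥ (by
    intro σ x hx
    obtain ⟨y, rfl⟩ := IntermediateField.mem_bot.mp hx
    rw [AlgEquiv.commutes]
    exact hx)
  exact ⟨c, φ, τ, hc, hτ, hτc, hφ⟩

end main

end Fermat.Agent.TWP
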