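import Fermat.Agent.TWP.Tame
import Fermat.Agent.PTC.Unr

/-!
Comparison of local Galois groups and decomposition groups at finite level.
-/

set_option autoImplicit false

namespace Fermat.Agent.TWP

open Fermat.Agent.CFT Fermat.Agent.CFT6 Fermat.Agent.Frob IsDedekindDomain
open NumberField hiding place
open scoped Pointwise

section general

variable {q : Nat.Primes} {Ω : Type*} [Field Ω] [CharZero Ω] [IsGalois ℚ Ω] (ι : Ω →+* Cq q)
  {A : ValuationSubring Ω} (hA : ∀ x, x ∈ A.nonunits ↔ ‖ι x‖ < 1) (hAq : A.LiesOverPrime (q : ℕ))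
  (r : Gq q →* (Ω ≃ₐ[ℚ] Ω)) (hr : ∀ τ x, ι (r τ x) = τ (ι x))

include hA hr in
/-- elements of the decomposition group come from the local group, at finite levels -/
theorem exists_loc_aux (F : IntermediateField ℚ Ω) [FiniteDimensional ℚ F] {σ : Ω ≃ₐ[ℚ] Ω}
    (hσA : σ • A = A) : ∃ g : Gq q, ∀ x ∈ F, r g x = σ x := by
  have hnf : NumberField F := ⟨⟩
  let φ' : Emb F q := ι.comp ((σ : Ω →+* Ω).comp (algebraMap F Ω))
  have h1 : place (embF ι F) = place φ' := by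
    apply HeightOneSpectrum.ext
    ext x
    let x' : integralClosure ℤ Ω := ⟨((x : F) : Ω), isIntegral_coe x⟩
    have e1 : x ∈ (place (embF ι F)).asIdeal ↔ x' ∈ center A := (mem_center_iota ι hA x').symm
    have e2 : x ∈ (place φ').asIdeal ↔ σ • x' ∈ center A := (mem_center_iota ι hA (σ • x')).symm
    rw [e1, e2]
    have h2 : center A = σ • center A := by
      rw [← center_smul, hσA]
    conv_rhs => rw [h2]
    exact (Ideal.smul_mem_pointwise_smul_iff).symm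
  obtain ⟨τ, hτ⟩ := place_eq_iff.1 h1
  refine ⟨τ, fun x hx => ?_⟩
  apply ι.injective
  rw [hr]
  exact hτ ⟨x, hx⟩

include hA hAq hr in
/-- Frobenius generates the local Galois group modulo inertia -/
theorem procyc_aux (F : IntermediateField ℚ Ω) [FiniteDimensional ℚ F] [Normal ℚ F]
    {σ : Ω ≃ₐ[ℚ] Ω} (hσ : A.IsFrobeniusAt σ q)
    {g : Gq q} (hg : ∀ x ∈ F, r g x = σ x) (γ : Gq q) :
    ∃ j : ℕ, ∃ τ ∈ A.inertiaSubgroupIn ℚ, ∀ x ∈ F, r ((g ^ j)⁻¹ * γ) x = τ x := by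
  have hnf : NumberField F := ⟨⟩
  have hint : ∀ x : integralClosure ℤ Ω, ‖ι (x : Ω)‖ ≤ 1 := fun x =>
    Fermat.Agent.CFT.norm_le_one_of_isIntegral (x.2.map ι.toIntAlgHom)
  -- the exponent
  let σγ : F ≃ₐ[ℚ] F := (r γ).restrictNormal F
  have hσγ : ∀ x : F, ((σγ x : F) : Ω) = r γ (x : Ω) := fun x => AlgEquiv.restrictNormal_commutes (r γ) F x
  obtain ⟨j, hj⟩ := exists_frob_pow (embF ι F) σγ (by
    intro x
    rw [embF_apply, embF_apply, hσγ, hr, norm_gq])
  have hj' : ∀ x : integralClosure ℤ Ω, (x : Ω) ∈ F →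
      ‖ι (r γ (x : Ω)) - ι (x : Ω) ^ ((q : ℕ) ^ j)‖ < 1 := by
    intro x hx
    have hxi : IsIntegral ℤ (⟨(x : Ω), hx⟩ : F) := by
      have h := x.2
      exact (isIntegral_algHom_iff (algebraMap F Ω).toIntAlgHom (algebraMap F Ω).injective).1 h
    have h1 := hj ⟨⟨(x : Ω), hx⟩, hxi⟩
    rw [embF_apply, embF_apply, hσγ] at h1
    exact h1
  -- powers of Frobenius
  have hFr : ∀ (m : ℕ) (x : integralClosure ℤ Ω), (x : Ω) ∈ F →
      ‖ι (r (g ^ m) (x : Ω)) - ι (x : Ω) ^ ((q : ℕ) ^ m)‖ < 1 := by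
    intro m
    induction m with
    | zero => intro x _; simp
    | succ m ih =>
      intro x hx
      have h1 : ((r g • x : integralClosure ℤ Ω) : Ω) ∈ F := by
        show r g (x : Ω) ∈ F
        have := AlgEquiv.restrictNormal_commutes (r g) F ⟨(x : Ω), hx⟩
        have h2 : r g (x : Ω) = (((r g).restrictNormal F ⟨(x : Ω), hx⟩ : F) : Ω) := this.symm
        rw [h2]
        exact Subtype.mem _
      have h2 := ih (r g • x) h1
      have h3 : ‖ι ((r g • x : integralClosure ℤ Ω) : Ω) - ι (x : Ω) ^ (q : ℕ)‖ < 1 := by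
        have h4 := (mem_center_iota ι hA _).1 (frob_sub_mem (A := A) hσ x)
        have h5 : ι (((σ • x - x ^ (q : ℕ) : integralClosure ℤ Ω)) : Ω) =
            ι ((r g • x : integralClosure ℤ Ω) : Ω) - ι (x : Ω) ^ (q : ℕ) := by
          have h6 : (((σ • x - x ^ (q : ℕ) : integralClosure ℤ Ω)) : Ω) = σ (x : Ω) - (x : Ω) ^ (q : ℕ) := rfl
          have h7 : ((r g • x : integralClosure ℤ Ω) : Ω) = r g (x : Ω) := rfl
          rw [h6, h7, hg _ hx, map_sub, map_pow]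
        rwa [h5] at h4
      have h4 := norm_pow_sub_pow_lt' (hint (r g • x)) (by
        rw [norm_pow]; exact pow_le_one₀ (norm_nonneg _) (hint x)) h3 ((q : ℕ) ^ m)
      have h5 := norm_sub_lt_trans h2 h4
      rw [← pow_mul, ← pow_succ'] at h5
      have h6 : r (g ^ (m + 1)) (x : Ω) = r (g ^ m) ((r g • x : integralClosure ℤ Ω) : Ω) := by
        rw [pow_succ, map_mul, AlgEquiv.mul_apply]; rfl
      rw [h6]
      exact h5
  refine ⟨j, ?_⟩
  obtain ⟨τ, hτ, hτF⟩ := Fermat.Agent.ExtVan.exists_lift_inertia F q.2 hAq (r ((g ^ j)⁻¹ * γ)) (by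
    intro x hx
    rw [mem_center_iota ι hA]
    have h1 : ‖ι (r γ (x : Ω)) - ι (r (g ^ j) (x : Ω))‖ < 1 := by
      refine norm_sub_lt_trans (hj' x hx) ?_
      rw [norm_sub_rev]
      exact hFr j x hx
    have h2 : ι ((r ((g ^ j)⁻¹ * γ) • x - x : integralClosure ℤ Ω) : Ω) =
        (g ^ j)⁻¹ (ι (r γ (x : Ω)) - ι (r (g ^ j) (x : Ω))) := by
      have h3 : ((r ((g ^ j)⁻¹ * γ) • x - x : integralClosure ℤ Ω) : Ω) =
        r ((g ^ j)⁻¹ * γ) (x : Ω) - (x : Ω) := rfl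
      rw [h3, map_sub, map_sub, hr, hr γ, hr (g ^ j), AlgEquiv.mul_apply]
      congr 1
      rw [← AlgEquiv.mul_apply, inv_mul_cancel]
      rfl
    rw [h2, norm_gq]
    exact h1)
  exact ⟨τ, hτ, fun x hx => (hτF x hx).symm⟩

end general

/-- absolute Galois group -/
abbrev Gal := AlgebraicClosure ℚ ≃ₐ[ℚ] AlgebraicClosure ℚ

section concrete

variable (q : Nat.Primes)

/-- the local Galois group -/
abbrev Γl := ExtCitation.primeLocalGaloisGroup q

/-- the local to global map -/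
noncomputable abbrev rl : Γl q →* Gal := ExtCitation.primeLocalToGlobal q

/-- the place -/
noncomputable abbrev Pl : ValuationSubring (AlgebraicClosure ℚ) := ExtCitation.primeLocalPlace q

lemma Pl_lies : (Pl q).LiesOverPrime (q : ℕ) := by
  let _ : Fact (q : ℕ).Prime := ⟨q.2⟩
  exact liesOver_padic (q : ℕ)

lemma rl_mem (γ : Γl q) : rl q γ • Pl q = Pl q := by
  let _ : Fact (q : ℕ).Prime := ⟨q.2⟩
  exact localGaloisToGlobal_mem_decompositionSubgroup (q : ℕ) γ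

theorem exists_loc (F : IntermediateField ℚ (AlgebraicClosure ℚ)) [FiniteDimensional ℚ F]
    {σ : Gal} (hσ : σ • Pl q = Pl q) : ∃ γ : Γl q, ∀ x ∈ F, rl q γ x = σ x := by
  let _ : Fact (q : ℕ).Prime := ⟨q.2⟩
  exact exists_loc_aux (padicEmbedding (q : ℕ)).toRingHom mem_nonunits_padic
    (localGaloisToGlobal (q : ℕ)) (fun τ x => padicEmbedding_localGaloisToGlobal (q : ℕ) τ x) F hσ

theorem exists_frob_gen (F : IntermediateField ℚ (AlgebraicClosure ℚ)) [FiniteDimensional ℚ F]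
    (hF : ∀ σ : Gal, ∀ x ∈ F, σ x ∈ F) :
    ∃ g : Γl q, (∃ σ : Gal, (Pl q).IsFrobeniusAt σ q ∧ ∀ x ∈ F, rl q g x = σ x) ∧
      ∀ γ : Γl q, ∃ j : ℕ, ∃ τ ∈ (Pl q).inertiaSubgroupIn ℚ,
        ∀ x ∈ F, rl q ((g ^ j)⁻¹ * γ) x = τ x := by
  let _ : Fact (q : ℕ).Prime := ⟨q.2⟩
  have hN : Normal ℚ F := by
    have h1 : @Normal ℚ F _ _ F.algebra' := by
      rw [IntermediateField.normal_iff_forall_map_le']
      rintro σ _ ⟨x, hx, rfl⟩
      exact hF σ x hx
    exact Fermat.Agent.PTC.normal_conv.mp h1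
  obtain ⟨σ, g, hσ, hg⟩ := exists_frob_loc (padicEmbedding (q : ℕ)).toRingHom mem_nonunits_padic
    (liesOver_padic (q : ℕ)) (localGaloisToGlobal (q : ℕ))
    (fun τ x => padicEmbedding_localGaloisToGlobal (q : ℕ) τ x) F
  refine ⟨g, ⟨σ, hσ, hg⟩, fun γ => ?_⟩
  exact procyc_aux (padicEmbedding (q : ℕ)).toRingHom mem_nonunits_padic
    (liesOver_padic (q : ℕ)) (localGaloisToGlobal (q : ℕ))
    (fun τ x => padicEmbedding_localGaloisToGlobal (q : ℕ) τ x) F hσ hg γ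

end concrete

end Fermat.Agent.TWP
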