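import Fermat.Agent.TWP.Primes
import Fermat.Agent.TWP.Loc
import Fermat.Agent.PT.GW2

/-!
Adjoint coefficients for the level cohomology of `Gal(ℚ̄/ℚ)`.
-/

set_option autoImplicit false

namespace Fermat.Agent.TWP

open Matrix Fermat.Agent.PT Fermat.Agent.PTC
open scoped Pointwise

section ad

variable {k : Type} [Field k] {G : Type} [Group G]

variable (k) in
/-- trace zero matrices -/
def ad0 : AddSubgroup (M2 k) where
  carrier := {X | X.trace = 0}
  zero_mem' := by simp
  add_mem' := fun {a b} ha hb => by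
    show (a + b).trace = 0
    rw [trace_add, show a.trace = 0 from ha, show b.trace = 0 from hb, add_zero]
  neg_mem' := fun {a} ha => by
    show (-a).trace = 0
    rw [trace_neg, show a.trace = 0 from ha, neg_zero]

lemma mem_ad0 {X : M2 k} : X ∈ ad0 k ↔ X.trace = 0 := Iff.rfl

instance [Finite k] : Finite (ad0 k) := by
  have : Finite (M2 k) := inferInstanceAs (Finite (Fin 2 → Fin 2 → k))
  exact Subtype.finite

lemma rep_inv_mul (r : G →* M2 k) (g : G) : r g⁻¹ * r g = 1 := by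
  rw [← map_mul, inv_mul_cancel, map_one]

lemma rep_mul_inv (r : G →* M2 k) (g : G) : r g * r g⁻¹ = 1 := by
  rw [← map_mul, mul_inv_cancel, map_one]

lemma trace_conj_rep (r : G →* M2 k) (g : G) (X : M2 k) :
    (r g * X * r g⁻¹).trace = X.trace := by
  rw [trace_mul_comm, ← mul_assoc, rep_inv_mul, one_mul]

/-- the adjoint action twisted by a character -/
def twAct (χ : G →* k) (r : G →* M2 k) : Act G (ad0 k) where
  toFun g :=
    { toFun := fun X => ⟨χ g • (r g * X.1 * r g⁻¹), by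
        rw [mem_ad0, trace_smul, trace_conj_rep, mem_ad0.mp X.2, smul_zero]⟩
      map_zero' := by
        apply Subtype.ext
        show χ g • (r g * 0 * r g⁻¹) = 0
        simp
      map_add' := fun X Y => by
        apply Subtype.ext
        show χ g • (r g * (X.1 + Y.1) * r g⁻¹) = χ g • (r g * X.1 * r g⁻¹) + χ g • (r g * Y.1 * r g⁻¹)
        rw [mul_add, add_mul, smul_add] }
  map_one' := by
    apply AddMonoidHom.ext
    intro X
    apply Subtype.ext
    show χ 1 • (r 1 * X.1 * r 1⁻¹) = X.1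
    simp
  map_mul' g h := by
    apply AddMonoidHom.ext
    intro X
    apply Subtype.ext
    show χ (g * h) • (r (g * h) * X.1 * r (g * h)⁻¹) =
      χ g • (r g * (χ h • (r h * X.1 * r h⁻¹)) * r g⁻¹)
    rw [_root_.mul_inv_rev, map_mul, map_mul, map_mul, mul_smul]
    simp only [mul_assoc, mul_smul_comm, smul_mul_assoc]

@[simp] lemma coe_twAct (χ : G →* k) (r : G →* M2 k) (g : G) (X : ad0 k) :
    ((twAct χ r g X : ad0 k) : M2 k) = χ g • (r g * X.1 * r g⁻¹) := rfl

lemma twAct_comp {Γ : Type} [Group Γ] (χ : G →* k) (r : G →* M2 k) (f : Γ →* G) :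
    (twAct χ r).comp f = twAct (χ.comp f) (r.comp f) := by
  ext γ X
  have : r (f γ)⁻¹ = r (f γ⁻¹) := by rw [map_inv f]
  show (χ (f γ) • (r (f γ) * X.1 * r (f γ)⁻¹)) _ _ = (χ (f γ) • (r (f γ) * X.1 * r (f γ⁻¹))) _ _
  rw [this]

lemma twAct_fix {χ : G →* k} {r : G →* M2 k} {g : G} (h1 : χ g = 1) (h2 : r g = 1) (X : ad0 k) :
    twAct χ r g X = X := by
  apply Subtype.ext
  have h3 : r g⁻¹ = 1 := by
    have := rep_inv_mul r g
    rwa [h2, mul_one] at this
  rw [coe_twAct, h1, h2, h3, one_smul, one_mul, mul_one]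

/-- determinant character -/
noncomputable def detC (r : G →* M2 k) : G →* k := (Matrix.detMonoidHom).comp r

@[simp] lemma detC_apply (r : G →* M2 k) (g : G) : detC r g = (r g).det := rfl

end ad

section levels

variable {S : Finset Nat.Primes}

/-- the Krull topology criterion for levels unramified outside `S` -/
theorem mem_sL_of (N : Subgroup GQ) (hN : N.Normal)
    (L : IntermediateField ℚ (AlgebraicClosure ℚ)) (hL : FiniteDimensional ℚ L)
    (hLN : ∀ σ : GQ, (∀ x ∈ L, σ x = x) → σ ∈ N)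
    (hun : ∀ q : Nat.Primes, q ∉ S → ∀ A : ValuationSubring (AlgebraicClosure ℚ),
      A.LiesOverPrime (q : ℕ) → ∀ σ ∈ A.inertiaSubgroupIn ℚ, σ ∈ N) :
    N ∈ (sL S).carrier := by
  have hle : L.fixingSubgroup ≤ N := fun σ hσ =>
    hLN σ ((IntermediateField.mem_fixingSubgroup_iff L σ).mp hσ)
  have hopen : IsOpen (N : Set GQ) := by
    have h1 : IsOpen (L.fixingSubgroup : Set GQ) := IntermediateField.fixingSubgroup_isOpen L
    exact Subgroup.isOpen_mono hle h1
  have hclosed : IsClosed (N : Set GQ) := Subgroup.isClosed_of_isOpen N hopen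
  let NC : ClosedSubgroup GQ := ⟨N, hclosed⟩
  have h2 : (IntermediateField.fixedField N).fixingSubgroup = N :=
    InfiniteGalois.fixingSubgroup_fixedField NC
  refine ⟨hN, IntermediateField.fixedField N, ⟨?_, ?_⟩, h2.symm⟩
  · have h3 : IntermediateField.fixedField N ≤ L := by
      rw [← InfiniteGalois.fixedField_fixingSubgroup L]
      intro x hx
      rw [IntermediateField.mem_fixedField_iff] at hx ⊢
      exact fun σ hσ => hx σ (hle hσ)
    exact FiniteDimensional.of_injective (IntermediateField.inclusion h3).toLinearMap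
      (IntermediateField.inclusion_injective h3)
  · intro q hq A hA σ hσ
    rw [h2]
    exact hun q hq A hA σ hσ

variable {k : Type} [Field k]

/-- a homomorphism unramified outside `S` -/
structure UnrOut (S : Finset Nat.Primes) (r : GQ →* M2 k) : Prop where
  cont : ∃ L : IntermediateField ℚ (AlgebraicClosure ℚ), FiniteDimensional ℚ L ∧
    ∀ σ : GQ, (∀ x ∈ L, σ x = x) → r σ = 1
  unr : ∀ q : Nat.Primes, q ∉ S → ∀ A : ValuationSubring (AlgebraicClosure ℚ),
      A.LiesOverPrime (q : ℕ) → ∀ σ ∈ A.inertiaSubgroupIn ℚ, r σ = 1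

lemma UnrOut.mono {S' : Finset Nat.Primes} {r : GQ →* M2 k} (h : UnrOut S r) (hS : S ⊆ S') :
    UnrOut S' r :=
  ⟨h.cont, fun q hq => h.unr q fun hq' => hq (hS hq')⟩

lemma UnrOut.level {r : GQ →* M2 k} (h : UnrOut S r) : r.ker ∈ (sL S).carrier := by
  obtain ⟨L, hL, hLr⟩ := h.cont
  exact mem_sL_of _ inferInstance L hL hLr h.unr

lemma UnrOut.smooth {r : GQ →* M2 k} (h : UnrOut S r) {χ : GQ →* k}
    (hχ : ∀ g, r g = 1 → χ g = 1) : Smooth (sL S) (twAct χ r) :=
  fun X => ⟨r.ker, h.level, fun s hs => twAct_fix (hχ s hs) hs X⟩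

/-- cocycle identity in matrix form -/
lemma coc_mul {χ : GQ →* k} {r : GQ →* M2 k} (f : Z1 (sL S) (twAct χ r)) (g h : GQ) :
    ((f.1 (g * h) : ad0 k) : M2 k) = (f.1 g : M2 k) + χ g • (r g * (f.1 h : M2 k) * r g⁻¹) :=
  congrArg Subtype.val ((mem_Z1'.1 f.2).2 g h)

lemma coc_one {χ : GQ →* k} {r : GQ →* M2 k} (f : Z1 (sL S) (twAct χ r)) :
    ((f.1 1 : ad0 k) : M2 k) = 0 := by
  have h := coc_mul f 1 1
  rw [mul_one, map_one, map_one, one_smul, one_mul] at h
  simpa using h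

/-- the kernel of a cocycle together with its coefficients -/
def cocKer {χ : GQ →* k} {r : GQ →* M2 k} (f : Z1 (sL S) (twAct χ r)) : Subgroup GQ where
  carrier := {σ | r σ = 1 ∧ ((f.1 σ : ad0 k) : M2 k) = 0}
  one_mem' := ⟨map_one r, coc_one f⟩
  mul_mem' := by
    rintro a b ⟨ha, ha'⟩ ⟨hb, hb'⟩
    refine ⟨by rw [map_mul, ha, hb, one_mul], ?_⟩
    rw [coc_mul, ha', hb', mul_zero, zero_mul, smul_zero, add_zero]
  inv_mem' := by
    rintro a ⟨ha, ha'⟩
    have h1 : r a⁻¹ = 1 := by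
      have := rep_inv_mul r a
      rwa [ha, mul_one] at this
    refine ⟨h1, ?_⟩
    have h2 := coc_mul f a⁻¹ a
    rw [inv_mul_cancel, coc_one, ha', mul_zero, zero_mul, smul_zero, add_zero] at h2
    exact h2.symm

lemma cocKer_normal {χ : GQ →* k} {r : GQ →* M2 k} (hχ : ∀ g, r g = 1 → χ g = 1)
    (f : Z1 (sL S) (twAct χ r)) : (cocKer f).Normal := by
  constructor
  rintro n ⟨hn, hn'⟩ g
  have h1 : r (g * n * g⁻¹) = 1 := by
    rw [map_mul, map_mul, hn, mul_one, rep_mul_inv]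
  refine ⟨h1, ?_⟩
  have h2 := coc_mul f (g * n * g⁻¹) g
  have h3 : g * n * g⁻¹ * g = g * n := by group
  rw [h3, coc_mul f g n, hn', mul_zero, zero_mul, smul_zero, add_zero, h1, hχ _ h1, one_smul,
    one_mul] at h2
  have h4 : r (g * n * g⁻¹)⁻¹ = 1 := by
    have := rep_inv_mul r (g * n * g⁻¹)
    rwa [h1, mul_one] at this
  rw [h4, mul_one] at h2
  exact (add_eq_right.mp h2.symm)

/-- a cocycle of level unramified outside `S'` which vanishes on inertia outside `S` is of level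
unramified outside `S`. -/
theorem exists_descend {S' : Finset Nat.Primes} {χ : GQ →* k} {r : GQ →* M2 k}
    (hr : UnrOut S r) (hχ : ∀ g, r g = 1 → χ g = 1) (f : Z1 (sL S') (twAct χ r))
    (hf : ∀ q : Nat.Primes, q ∈ S' → q ∉ S → ∀ A : ValuationSubring (AlgebraicClosure ℚ),
      A.LiesOverPrime (q : ℕ) → ∀ σ ∈ A.inertiaSubgroupIn ℚ, ((f.1 σ : ad0 k) : M2 k) = 0) :
    ∃ f' : Z1 (sL S) (twAct χ r), f'.1 = f.1 := by
  obtain ⟨⟨N, ⟨hNn, F, hF, rfl⟩, hfN⟩, hcoc⟩ := mem_Z1'.1 f.2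
  obtain ⟨L, hL, hLr⟩ := hr.cont
  have hFf := hF.1
  have hfix : ∀ σ : GQ, (∀ x ∈ F, σ x = x) → ((f.1 σ : ad0 k) : M2 k) = 0 := by
    intro σ hσ
    have := hfN 1 σ ((IntermediateField.mem_fixingSubgroup_iff F σ).mpr hσ)
    rw [one_mul] at this
    rw [this, coc_one]
  have hlev : cocKer f ∈ (sL S).carrier := by
    refine mem_sL_of _ (cocKer_normal hχ f) (L ⊔ F) inferInstance ?_ ?_
    · intro σ hσ
      exact ⟨hLr σ fun x hx => hσ x ((le_sup_left : L ≤ L ⊔ F) hx),
        hfix σ fun x hx => hσ x ((le_sup_right : F ≤ L ⊔ F) hx)⟩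
    · intro q hq A hA σ hσ
      refine ⟨hr.unr q hq A hA σ hσ, ?_⟩
      by_cases hq' : q ∈ S'
      · exact hf q hq' hq A hA σ hσ
      · apply hfix
        have := hF.2 q hq' A hA hσ
        exact (IntermediateField.mem_fixingSubgroup_iff F σ).mp this
  refine ⟨⟨f.1, mem_Z1'.2 ⟨⟨_, hlev, fun g s hs => ?_⟩, hcoc⟩⟩, rfl⟩
  apply Subtype.ext
  rw [coc_mul f g s, hs.2, mul_zero, zero_mul, smul_zero, add_zero]

end levels

end Fermat.Agent.TWP
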