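import Fermat.Prelude.Def_GaloisRep_StrictOrdinary
import Fermat.Prelude.Def_GaloisRep_Flat
import Fermat.Agent.DefRing.Mat

/-!
Stability of the deformation conditions under base change along surjections.
-/

set_option autoImplicit false

namespace Fermat.Agent.TWP

open IsLocalRing Module
open scoped TensorProduct

variable {A B : Type} [CommRing A] [IsLocalRing A] [CommRing B] [IsLocalRing B]

lemma natCast_mem_max {φ : A →+* B} (hφ : IsLocalHom φ) {p : ℕ} (h : (p : A) ∈ maximalIdeal A) :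
    (p : B) ∈ maximalIdeal B := by
  rw [← map_natCast φ p, mem_maximalIdeal, mem_nonunits_iff]
  intro hu
  exact h (isUnit_of_map_unit φ _ hu)

theorem det_stable {φ : A →+* B} (hφ : IsLocalHom φ) {ρ : GaloisRepAdic A} {p : ℕ}
    (h : ρ.DetIsCyclotomic p) : (ρ.baseChangeAlong φ hφ).DetIsCyclotomic p := by
  let _ : Algebra A B := φ.toAlgebra
  refine ⟨natCast_mem_max hφ h.1, fun n σ a ha => ?_⟩
  have h1 := h.2 n σ a ha
  have h2 : LinearMap.det ((ρ.ρ σ).baseChange B) = φ (LinearMap.det (ρ.ρ σ)) :=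
    LinearMap.det_baseChange (ρ.ρ σ)
  have h3 : LinearMap.det ((ρ.baseChangeAlong φ hφ).ρ σ) = φ (LinearMap.det (ρ.ρ σ)) := h2
  rw [h3]
  obtain ⟨c, hc⟩ := Ideal.mem_span_singleton'.mp h1
  refine Ideal.mem_span_singleton'.mpr ⟨φ c, ?_⟩
  rw [← map_natCast φ (p ^ n), ← map_mul, hc, map_sub, map_natCast]

theorem unram_stable {φ : A →+* B} (hφ : IsLocalHom φ) {ρ : GaloisRepAdic A} {q : ℕ}
    (h : ρ.IsUnramifiedAt q) : (ρ.baseChangeAlong φ hφ).IsUnramifiedAt q := by
  let _ : Algebra A B := φ.toAlgebra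
  intro P hP σ hσ
  show (ρ.ρ σ).baseChange B = 1
  rw [h P hP σ hσ, LinearMap.baseChange_one]

theorem unip_stable {φ : A →+* B} (hφ : IsLocalHom φ) {ρ : GaloisRepAdic A} {q : ℕ}
    (h : ρ.IsUnipotentOnInertiaAt q) : (ρ.baseChangeAlong φ hφ).IsUnipotentOnInertiaAt q := by
  let _ : Algebra A B := φ.toAlgebra
  intro P hP σ hσ
  show LinearMap.charpoly ((ρ.ρ σ).baseChange B) = _
  rw [LinearMap.charpoly_baseChange, h P hP σ hσ]
  simp

section line

variable [Algebra A B] {V : Type} [AddCommGroup V] [Module A V] {L : Submodule A V}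
    {b : Basis (Fin 2) A V}

/-- the base change of a line -/
def lineB (B : Type) [CommRing B] [Algebra A B] (b : Basis (Fin 2) A V) : Submodule B (B ⊗[A] V) :=
  B ∙ (Algebra.TensorProduct.basis B b) 0

omit [IsLocalRing A] [IsLocalRing B] in
lemma tmul_mem_lineB (hL : L = A ∙ b 0) {v : V} (hv : v ∈ L) (c : B) : c ⊗ₜ[A] v ∈ lineB B b := by
  rw [hL] at hv
  obtain ⟨a, rfl⟩ := Submodule.mem_span_singleton.mp hv
  refine Submodule.mem_span_singleton.mpr ⟨c * algebraMap A B a, ?_⟩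
  rw [Algebra.TensorProduct.basis_apply, TensorProduct.smul_tmul', smul_eq_mul, mul_one,
      ← TensorProduct.smul_tmul, Algebra.smul_def, mul_comm c]

omit [IsLocalRing A] [IsLocalRing B] in
/-- images of base changed maps in the base change of a line -/
lemma baseChange_mem (hL : L = A ∙ b 0) (f : V →ₗ[A] V) (hf : ∀ v, f v ∈ L) (w : B ⊗[A] V) :
    f.baseChange B w ∈ lineB B b := by
  induction w using TensorProduct.induction_on with
  | zero => rw [map_zero]; exact Submodule.zero_mem _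
  | tmul c v =>
    rw [LinearMap.baseChange_tmul]
    exact tmul_mem_lineB hL (hf v) c
  | add x y hx hy => rw [map_add]; exact Submodule.add_mem _ hx hy

omit [IsLocalRing A] [IsLocalRing B] in
lemma baseChange_sub_smul (f : V →ₗ[A] V) (z : A) (w : B ⊗[A] V) :
    f.baseChange B w - (algebraMap A B z) • w = (f - z • LinearMap.id).baseChange B w := by
  rw [LinearMap.baseChange_sub, LinearMap.sub_apply, LinearMap.baseChange_smul,
    LinearMap.smul_apply, LinearMap.baseChange_id, LinearMap.id_apply, algebraMap_smul]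

omit [IsLocalRing A] [IsLocalRing B] in
lemma baseChange_line (hL : L = A ∙ b 0) (f : V →ₗ[A] V) (x : A) (hx : ∀ w ∈ L, f w = x • w)
    (w : B ⊗[A] V) (hw : w ∈ lineB B b) : f.baseChange B w = (algebraMap A B x) • w := by
  obtain ⟨c, rfl⟩ := Submodule.mem_span_singleton.mp hw
  have hbmem : b 0 ∈ L := by rw [hL]; exact Submodule.mem_span_singleton_self _
  rw [map_smul, smul_comm]
  congr 1
  rw [Algebra.TensorProduct.basis_apply, LinearMap.baseChange_tmul, hx _ hbmem,
    ← TensorProduct.smul_tmul, TensorProduct.smul_tmul', Algebra.smul_def, mul_one,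
    smul_eq_mul, mul_one]

omit [IsLocalRing A] [IsLocalRing B] in
lemma baseChange_stable (hL : L = A ∙ b 0) (f : V →ₗ[A] V) (hf : ∀ w ∈ L, f w ∈ L)
    (w : B ⊗[A] V) (hw : w ∈ lineB B b) : f.baseChange B w ∈ lineB B b := by
  obtain ⟨c, rfl⟩ := Submodule.mem_span_singleton.mp hw
  have hbmem : b 0 ∈ L := by rw [hL]; exact Submodule.mem_span_singleton_self _
  rw [map_smul]
  refine Submodule.smul_mem _ _ ?_
  rw [Algebra.TensorProduct.basis_apply, LinearMap.baseChange_tmul]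
  exact tmul_mem_lineB hL (hf _ hbmem) 1

omit [IsLocalRing A] [IsLocalRing B] in
lemma baseChange_sub_mem (hL : L = A ∙ b 0) (f : V →ₗ[A] V) (z : A)
    (hf : ∀ w, f w - z • w ∈ L) (w : B ⊗[A] V) :
    f.baseChange B w - (algebraMap A B z) • w ∈ lineB B b := by
  rw [baseChange_sub_smul]
  exact baseChange_mem hL _ (fun v => hf v) w

omit [IsLocalRing A] [IsLocalRing B] in
lemma baseChange_sub_mem_one (hL : L = A ∙ b 0) (f : V →ₗ[A] V)
    (hf : ∀ w, f w - w ∈ L) (w : B ⊗[A] V) :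
    f.baseChange B w - w ∈ lineB B b := by
  have h1 := baseChange_sub_mem (B := B) hL f 1 (fun v => by rw [one_smul]; exact hf v) w
  rwa [map_one, one_smul] at h1

end line

theorem strictOrd_stable {φ : A →+* B} (hφ : IsLocalHom φ) {ρ : GaloisRepAdic A} {p : ℕ}
    (h : ρ.IsStrictOrdinaryAt p) : (ρ.baseChangeAlong φ hφ).IsStrictOrdinaryAt p := by
  let _ : Algebra A B := φ.toAlgebra
  refine ⟨natCast_mem_max hφ h.1, fun P hP => ?_⟩
  obtain ⟨L, ⟨b, hb⟩, hD, hI, hxz⟩ := h.2 P hP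
  refine ⟨lineB B b, ⟨Algebra.TensorProduct.basis B b, rfl⟩, ?_, ?_, ?_⟩
  · intro σ hσ w hw
    exact baseChange_stable hb (ρ.ρ σ) (hD σ hσ) w hw
  · intro σ hσ w
    exact baseChange_sub_mem_one hb (ρ.ρ σ) (hI σ hσ) w
  · intro σ hσ
    obtain ⟨x, z, hx, hz, hpz⟩ := hxz σ hσ
    refine ⟨φ x, φ z, fun w hw => baseChange_line hb (ρ.ρ σ) x hx w hw,
      fun w => baseChange_sub_mem hb (ρ.ρ σ) z hz w, ?_⟩
    intro n a ha
    obtain ⟨c, hc⟩ := Ideal.mem_span_singleton'.mp (hpz n a ha)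
    refine Ideal.mem_span_singleton'.mpr ⟨φ c, ?_⟩
    rw [← map_natCast φ (p ^ n), ← map_mul, hc, map_sub, map_mul, map_natCast]

theorem flat_stable {φ : A →+* B} (hφ : IsLocalHom φ) (hs : Function.Surjective φ)
    {ρ : GaloisRepAdic A} {p : ℕ}
    (h : ρ.IsFlatAt p) : (ρ.baseChangeAlong φ hφ).IsFlatAt p := by
  let _ : Algebra A B := φ.toAlgebra
  obtain ⟨hfin, hflat⟩ := h
  refine ⟨?_, fun I hI => ?_⟩
  · have h1 : Function.Surjective (ResidueField.map φ) := by
      intro x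
      obtain ⟨y, rfl⟩ := residue_surjective x
      obtain ⟨z, rfl⟩ := hs y
      exact ⟨residue A z, ResidueField.map_residue φ z⟩
    exact Finite.of_surjective _ h1
  · have hJ : Finite (A ⧸ I.comap φ) :=
      Finite.of_injective (Ideal.quotientMap I φ le_rfl) (Ideal.quotientMap_injective)
    obtain ⟨H, i1, i2, h1, h2, h3, e, he1, he2⟩ := hflat (I.comap φ) hJ
    -- the comparison map
    let W := (ρ.baseChangeAlong φ hφ).V
    let f : ρ.V →+ W := (TensorProduct.mk A B ρ.V 1).toAddMonoidHom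
    let g : ρ.V →+ (W ⧸ (I • (⊤ : Submodule B W))) :=
      (Submodule.mkQ (I • (⊤ : Submodule B W))).toAddMonoidHom.comp f
    obtain ⟨b⟩ := Fermat.Agent.DefRing.exists_basis ρ
    let bB := Algebra.TensorProduct.basis B b
    have hker : ∀ v : ρ.V, g v = 0 ↔ v ∈ (I.comap φ) • (⊤ : Submodule A ρ.V) := by
      intro v
      have e1 : g v = 0 ↔ f v ∈ I • (⊤ : Submodule B W) := Submodule.Quotient.mk_eq_zero _
      rw [e1]
      have e2 : ∀ i, bB.repr (f v) i = φ (b.repr v i) := by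
        intro i
        show bB.repr ((1 : B) ⊗ₜ[A] v) i = _
        rw [Algebra.TensorProduct.basis_repr_tmul]
        simp
        rfl
      constructor
      · intro hv
        apply Fermat.Agent.DefRing.mem_smul_top_of_repr_mem b
        intro i
        rw [Ideal.mem_comap, ← e2]
        exact Fermat.Agent.DefRing.repr_mem_of_mem_smul_top bB I hv i
      · intro hv
        apply Fermat.Agent.DefRing.mem_smul_top_of_repr_mem bB
        intro i
        rw [e2]
        exact Ideal.mem_comap.mp (Fermat.Agent.DefRing.repr_mem_of_mem_smul_top b _ hv i)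
    have hsurj : Function.Surjective g := by
      intro w
      obtain ⟨w, rfl⟩ := Submodule.mkQ_surjective _ w
      have : ∃ v, f v = w := by
        induction w using TensorProduct.induction_on with
        | zero => exact ⟨0, map_zero f⟩
        | tmul c v =>
          obtain ⟨a, ha⟩ := hs c
          refine ⟨a • v, ?_⟩
          show (1 : B) ⊗ₜ[A] (a • v) = c ⊗ₜ[A] v
          rw [← TensorProduct.smul_tmul, Algebra.smul_def, mul_one]
          congr 1
        | add x y hx hy =>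
          obtain ⟨v, hv⟩ := hx
          obtain ⟨w, hw⟩ := hy
          exact ⟨v + w, by rw [map_add, hv, hw]; rfl⟩
      obtain ⟨v, hv⟩ := this
      exact ⟨v, congrArg _ hv⟩
    let J := I.comap φ
    let G : (ρ.V ⧸ (J • (⊤ : Submodule A ρ.V))) → (W ⧸ (I • (⊤ : Submodule B W))) :=
      Quotient.lift g (by
        intro x y hxy
        rw [← sub_eq_zero, ← map_sub, hker]
        exact (Submodule.quotientRel_def _).mp hxy)
    have hGmk : ∀ v : ρ.V, G (Submodule.Quotient.mk v) = g v := fun v => rfl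
    have hGadd : ∀ x y, G (x + y) = G x + G y := by
      intro x y
      obtain ⟨x, rfl⟩ := Submodule.Quotient.mk_surjective _ x
      obtain ⟨y, rfl⟩ := Submodule.Quotient.mk_surjective _ y
      rw [← Submodule.Quotient.mk_add, hGmk, hGmk, hGmk, map_add]
    have hGbij : Function.Bijective G := by
      constructor
      · intro x y hxy
        obtain ⟨x, rfl⟩ := Submodule.Quotient.mk_surjective _ x
        obtain ⟨y, rfl⟩ := Submodule.Quotient.mk_surjective _ y
        rw [hGmk, hGmk, ← sub_eq_zero, ← map_sub, hker] at hxy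
        exact (Submodule.Quotient.eq _).mpr hxy
      · intro w
        obtain ⟨v, hv⟩ := hsurj w
        exact ⟨Submodule.Quotient.mk v, hv⟩
    let E := Equiv.ofBijective G hGbij
    refine ⟨H, i1, i2, h1, h2, h3, e.trans E, ?_, ?_⟩
    · intro x y
      show G (e (x * y)) = G (e x) + G (e y)
      rw [he1, hGadd]
    · intro σ x y hxy
      show G (e y) = _
      rw [he2 σ x y hxy]
      show _ = (ρ.baseChangeAlong φ hφ).levelAction I σ (G (e x))
      obtain ⟨v, hv⟩ := Submodule.Quotient.mk_surjective _ (e x)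
      rw [← hv, hGmk]
      show g (ρ.ρ σ v) = _
      show Submodule.Quotient.mk (f (ρ.ρ σ v)) = _
      show _ = Submodule.Quotient.mk (((ρ.ρ σ).baseChange B) (f v))
      congr 1

end Fermat.Agent.TWP

/-! ### Invariance under equivalence -/

namespace Fermat.Agent.TWP

open IsLocalRing Module
open scoped TensorProduct

variable {A : Type} [CommRing A] [IsLocalRing A]

lemma rho_eq_conj {ρ ρ' : GaloisRepAdic A} (e : ρ.Equiv ρ')
    (σ : AlgebraicClosure ℚ ≃ₐ[ℚ] AlgebraicClosure ℚ) :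
    ρ'.ρ σ = e.toLinearEquiv.conj (ρ.ρ σ) := by
  ext x
  rw [LinearEquiv.conj_apply_apply, e.map_apply, LinearEquiv.apply_symm_apply]

theorem det_equiv {ρ ρ' : GaloisRepAdic A} (h : ρ.IsEquiv ρ') {p : ℕ}
    (hd : ρ.DetIsCyclotomic p) : ρ'.DetIsCyclotomic p := by
  obtain ⟨e⟩ := h
  refine ⟨hd.1, fun n σ a ha => ?_⟩
  rw [rho_eq_conj e]
  have : LinearMap.det (e.toLinearEquiv.conj (ρ.ρ σ)) = LinearMap.det (ρ.ρ σ) :=
    LinearMap.det_conj _ _
  rw [this]
  exact hd.2 n σ a ha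

theorem unram_equiv {ρ ρ' : GaloisRepAdic A} (h : ρ.IsEquiv ρ') {q : ℕ}
    (hd : ρ.IsUnramifiedAt q) : ρ'.IsUnramifiedAt q := by
  obtain ⟨e⟩ := h
  intro P hP σ hσ
  rw [rho_eq_conj e, hd P hP σ hσ]
  ext x
  simp

theorem unip_equiv {ρ ρ' : GaloisRepAdic A} (h : ρ.IsEquiv ρ') {q : ℕ}
    (hd : ρ.IsUnipotentOnInertiaAt q) : ρ'.IsUnipotentOnInertiaAt q := by
  obtain ⟨e⟩ := h
  intro P hP σ hσ
  rw [rho_eq_conj e, LinearEquiv.charpoly_conj, hd P hP σ hσ]

theorem strictOrd_equiv {ρ ρ' : GaloisRepAdic A} (h : ρ.IsEquiv ρ') {p : ℕ}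
    (hd : ρ.IsStrictOrdinaryAt p) : ρ'.IsStrictOrdinaryAt p := by
  obtain ⟨e⟩ := h
  refine ⟨hd.1, fun P hP => ?_⟩
  obtain ⟨L, ⟨b, hb⟩, hD, hI, hxz⟩ := hd.2 P hP
  have hmem : ∀ y : ρ'.V, y ∈ L.map (e.toLinearEquiv : ρ.V →ₗ[A] ρ'.V) ↔
      e.toLinearEquiv.symm y ∈ L := by
    intro y
    rw [Submodule.mem_map_equiv]
  have hρ : ∀ σ y, e.toLinearEquiv.symm (ρ'.ρ σ y) = ρ.ρ σ (e.toLinearEquiv.symm y) := by
    intro σ y
    rw [LinearEquiv.symm_apply_eq, e.map_apply, LinearEquiv.apply_symm_apply]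
  refine ⟨L.map (e.toLinearEquiv : ρ.V →ₗ[A] ρ'.V), ⟨b.map e.toLinearEquiv, ?_⟩, ?_, ?_, ?_⟩
  · rw [hb, Submodule.map_span, Set.image_singleton]
    rfl
  · intro σ hσ v hv
    rw [hmem] at hv ⊢
    rw [hρ]
    exact hD σ hσ _ hv
  · intro σ hσ v
    rw [hmem, map_sub, hρ]
    exact hI σ hσ _
  · intro σ hσ
    obtain ⟨x, z, hx, hz, hpz⟩ := hxz σ hσ
    refine ⟨x, z, ?_, ?_, hpz⟩
    · intro w hw
      rw [hmem] at hw
      apply e.toLinearEquiv.symm.injective
      rw [hρ, hx _ hw, map_smul]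
    · intro v
      rw [hmem, map_sub, hρ, map_smul]
      exact hz _

theorem flat_equiv {ρ ρ' : GaloisRepAdic A} (h : ρ.IsEquiv ρ') {p : ℕ}
    (hd : ρ.IsFlatAt p) : ρ'.IsFlatAt p := by
  obtain ⟨e⟩ := h
  refine ⟨hd.1, fun I hI => ?_⟩
  obtain ⟨H, i1, i2, h1, h2, h3, f, hf1, hf2⟩ := hd.2 I hI
  let E : (ρ.V ⧸ (I • (⊤ : Submodule A ρ.V))) ≃ₗ[A] (ρ'.V ⧸ (I • (⊤ : Submodule A ρ'.V))) :=
    Submodule.Quotient.equiv _ _ e.toLinearEquiv (by
      rw [Submodule.map_smul'', Submodule.map_top, LinearEquiv.range])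
  have hE : ∀ v, E (Submodule.Quotient.mk v) = Submodule.Quotient.mk (e.toLinearEquiv v) :=
    fun v => rfl
  refine ⟨H, i1, i2, h1, h2, h3, f.trans E.toEquiv, ?_, ?_⟩
  · intro x y
    show E (f (x * y)) = E (f x) + E (f y)
    rw [hf1, map_add]
  · intro σ x y hxy
    show E (f y) = ρ'.levelAction I σ (E (f x))
    rw [hf2 σ x y hxy]
    obtain ⟨v, hv⟩ := Submodule.Quotient.mk_surjective _ (f x)
    rw [← hv, hE]
    show E (Submodule.Quotient.mk (ρ.ρ σ v)) = Submodule.Quotient.mk (ρ'.ρ σ (e.toLinearEquiv v))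
    rw [hE, e.map_apply]

end Fermat.Agent.TWP
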