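import Fermat.Prelude.Def_GaloisRep_DeformationRingData
import Fermat.Agent.TWP.Tangent
import Fermat.Agent.TWP.Stable
import Fermat.Agent.TWP.Primes
import Fermat.Agent.DefRing.Good

/-!
The cocycles attached to tangent vectors of the deformation ring.
-/

set_option autoImplicit false

namespace Fermat.Agent.TWP

open IsLocalRing Module Matrix
open scoped TensorProduct
open Fermat.Agent.DefRing (matOfRes mapRep MatCont Red ofMat)

section dual

variable {k : Type} [Field k]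

/-- matrices over the dual numbers -/
def dm (U V : M2 k) : M2 (DualNumber k) := Matrix.of fun i j => ((U i j, V i j) : k × k)

lemma dm_apply (U V : M2 k) (i j : Fin 2) :
    dm U V i j = (TrivSqZeroExt.inl (U i j) + TrivSqZeroExt.inr (V i j) : DualNumber k) :=
  (TrivSqZeroExt.inl_fst_add_inr_snd_eq (dm U V i j)).symm

lemma dm_mul (U V U' V' : M2 k) : dm U V * dm U' V' = dm (U * U') (U * V' + V * U') := by
  refine Matrix.ext fun i j => ?_
  rw [Matrix.mul_apply, Fin.sum_univ_two, dm_apply, dm_apply, dm_apply, dm_apply, dm_apply,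
    Matrix.mul_apply, Fin.sum_univ_two, Matrix.add_apply, Matrix.mul_apply, Fin.sum_univ_two,
    Matrix.mul_apply, Fin.sum_univ_two]
  apply TrivSqZeroExt.ext
  · simp
  · simp
    ring

lemma dm_one : dm (1 : M2 k) 0 = 1 := by
  refine Matrix.ext fun i j => ?_
  rw [dm_apply]
  apply TrivSqZeroExt.ext
  · fin_cases i <;> fin_cases j <;> simp
  · fin_cases i <;> fin_cases j <;> simp

lemma isUnit_dm_one (X : M2 k) : IsUnit (dm 1 X) := by
  have h : dm 1 X * dm 1 (-X) = 1 := by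
    rw [dm_mul, ← dm_one]
    congr 1
    · simp
    · simp
  exact IsUnit.of_mul_eq_one _ h

end dual

section nilp

lemma isAdicComplete_of_sq {A : Type} [CommRing A] (I : Ideal A) (h : I ^ 2 = ⊥) :
    IsAdicComplete I A where
  haus' x hx := by
    have := hx 2
    rw [SModEq.zero, h] at this
    simpa using this
  prec' f hf := by
    refine ⟨f 2, fun n => ?_⟩
    rcases le_or_gt n 2 with hn | hn
    · exact hf hn
    · have h1 := hf hn.le
      rw [h] at h1
      have h2 : f 2 = f n := by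
        rw [SModEq.sub_mem] at h1
        simpa [sub_eq_zero] using h1
      rw [h2]

end nilp

section psi

variable {𝒪 R k : Type} [CommRing 𝒪] [CommRing R] [Field k] [Algebra 𝒪 R]
  {π : R →+* k} {δ : R → k} {r : GQ →* M2 R} {rbar : GQ →* M2 k}

/-- the cocycle attached to a derivation -/
noncomputable def psi (r : GQ →* M2 R) (rbar : GQ →* M2 k) (δ : R → k) (σ : GQ) : M2 k :=
  (r σ).map δ * rbar σ⁻¹

lemma map_mul_der (hδ : IsDer 𝒪 π δ) (X Y : M2 R) :
    (X * Y).map δ = X.map π * Y.map δ + X.map δ * Y.map π := by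
  ext i j
  simp only [Matrix.map_apply, Matrix.mul_apply, Fin.sum_univ_two, hδ.add, hδ.mul,
    Matrix.add_apply]
  ring

lemma psi_mul_rbar (σ : GQ) : psi r rbar δ σ * rbar σ = (r σ).map δ := by
  rw [psi, mul_assoc, inv_mul_self' rbar, mul_one]

lemma psi_mul (hδ : IsDer 𝒪 π δ) (hr : ∀ σ, (r σ).map π = rbar σ) (σ τ : GQ) :
    psi r rbar δ (σ * τ) = psi r rbar δ σ + rbar σ * psi r rbar δ τ * rbar σ⁻¹ := by
  have h1 : rbar (σ * τ)⁻¹ = rbar τ⁻¹ * rbar σ⁻¹ := by rw [_root_.mul_inv_rev, map_mul]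
  rw [psi, h1, map_mul, map_mul_der hδ, hr, hr, psi, psi]
  have e : (rbar σ * (r τ).map δ + (r σ).map δ * rbar τ) * (rbar τ⁻¹ * rbar σ⁻¹) =
    rbar σ * ((r τ).map δ * rbar τ⁻¹) * rbar σ⁻¹ +
      (r σ).map δ * (rbar τ * rbar τ⁻¹) * rbar σ⁻¹ := by noncomm_ring
  rw [e, mul_inv_self' rbar, mul_one, add_comm]

lemma psi_sub {δ' : R → k} (σ : GQ) :
    psi r rbar (fun x => δ x - δ' x) σ = psi r rbar δ σ - psi r rbar δ' σ := by
  rw [psi, psi, psi, ← sub_mul]
  congr 1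

lemma der_det (hδ : IsDer 𝒪 π δ) (hr : ∀ σ, (r σ).map π = rbar σ) (σ : GQ) :
    δ (r σ).det = (rbar σ).det * (psi r rbar δ σ).trace := by
  have h0 : ∀ i j, π (r σ i j) = rbar σ i j := fun i j => by
    rw [← hr σ]; rfl
  have hadj : (rbar σ).det • rbar σ⁻¹ = (rbar σ).adjugate := by
    have h2 : (rbar σ).adjugate * rbar σ = (rbar σ).det • (1 : M2 k) := adjugate_mul _
    calc (rbar σ).det • rbar σ⁻¹ = ((rbar σ).det • (1 : M2 k)) * rbar σ⁻¹ := by
          rw [smul_mul_assoc, one_mul]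
      _ = (rbar σ).adjugate * (rbar σ * rbar σ⁻¹) := by rw [← h2, mul_assoc]
      _ = _ := by rw [mul_inv_self', mul_one]
  have h3 : (rbar σ).det * (psi r rbar δ σ).trace = ((r σ).map δ * (rbar σ).adjugate).trace := by
    rw [psi, ← hadj, mul_smul_comm, trace_smul, smul_eq_mul]
  rw [h3, det_fin_two, hδ.sub, hδ.mul, hδ.mul, h0, h0, h0, h0, adjugate_fin_two, trace_fin_two,
    Matrix.mul_apply, Matrix.mul_apply, Fin.sum_univ_two, Fin.sum_univ_two]
  simp only [Matrix.map_apply, Matrix.of_apply, cons_val_zero, cons_val_one, cons_val',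
    cons_val_fin_one]
  ring

end psi

section main

variable {𝒪 : Type} [CommRing 𝒪] [IsDomain 𝒪] [IsDiscreteValuationRing 𝒪]
    [IsAdicComplete (maximalIdeal 𝒪) 𝒪] [Finite (ResidueField 𝒪)]

omit [IsDomain 𝒪] [IsDiscreteValuationRing 𝒪] [IsAdicComplete (maximalIdeal 𝒪) 𝒪]
  [Finite (ResidueField 𝒪)] in
/-- the map to the residue field of the base -/
theorem exists_pi [IsLocalRing 𝒪] {R : Type} [CommRing R] [IsLocalRing R] [Algebra 𝒪 R]
    (h : Function.Surjective (residue R ∘ algebraMap 𝒪 R)) (hl : IsLocalHom (algebraMap 𝒪 R)) :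
    ∃ π : R →+* ResidueField 𝒪, (∀ o, π (algebraMap 𝒪 R o) = residue 𝒪 o) ∧
      ∀ x, π x = 0 ↔ x ∈ maximalIdeal R := by
  have hψ : ∀ o, ResidueField.map (algebraMap 𝒪 R) (residue 𝒪 o) = residue R (algebraMap 𝒪 R o) :=
    fun o => ResidueField.map_residue _ o
  have hbij : Function.Bijective (ResidueField.map (algebraMap 𝒪 R)) := by
    refine ⟨RingHom.injective _, fun x => ?_⟩
    obtain ⟨o, ho⟩ := h x
    exact ⟨residue 𝒪 o, by rw [hψ]; exact ho⟩
  let e := RingEquiv.ofBijective _ hbij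
  refine ⟨(e.symm : ResidueField R →+* ResidueField 𝒪).comp (residue R), fun o => ?_, fun x => ?_⟩
  · rw [RingHom.comp_apply, ← hψ]
    exact e.symm_apply_apply (residue 𝒪 o)
  · rw [RingHom.comp_apply]
    show e.symm (residue R x) = 0 ↔ _
    rw [map_eq_zero_iff _ e.symm.injective, residue_eq_zero_iff]

/-- elements of the ring of dual numbers -/
def dn {k : Type} (a b : k) : DualNumber k := ((a, b) : k × k)

lemma dn_mul {k : Type} [Field k] (a b a' b' : k) :
    dn a b * dn a' b' = dn (a * a') (a * b' + b * a') := by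
  apply TrivSqZeroExt.ext
  · rfl
  · rw [TrivSqZeroExt.snd_mul]
    show a • b' + MulOpposite.op a' • b = _
    rw [smul_eq_mul, op_smul_eq_mul]
    rfl

/-- the algebra map to the dual numbers attached to a derivation -/
noncomputable def derHom {R : Type} [CommRing R] [Algebra 𝒪 R] (π : R →+* ResidueField 𝒪)
    (hπ : ∀ o, π (algebraMap 𝒪 R o) = residue 𝒪 o) (δ : R → ResidueField 𝒪)
    (hδ : IsDer 𝒪 π δ) : R →ₐ[𝒪] DualNumber (ResidueField 𝒪) where
  toFun x := dn (π x) (δ x)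
  map_one' := by
    rw [map_one, hδ.one]; rfl
  map_mul' x y := by
    rw [dn_mul, map_mul, hδ.mul]
  map_zero' := by
    rw [map_zero, hδ.zero]; rfl
  map_add' x y := by
    rw [map_add, hδ.add]; rfl
  commutes' o := by
    rw [hπ, hδ.alg]; rfl

omit [IsAdicComplete (maximalIdeal 𝒪) 𝒪] [Finite (ResidueField 𝒪)] [IsDomain 𝒪]
  [IsDiscreteValuationRing 𝒪] in
lemma residue_dual_surj [IsLocalRing 𝒪] :
    Function.Surjective (residue (DualNumber (ResidueField 𝒪)) ∘
      algebraMap 𝒪 (DualNumber (ResidueField 𝒪))) := by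
  intro x
  obtain ⟨y, rfl⟩ := residue_surjective x
  obtain ⟨o, ho⟩ := residue_surjective (TrivSqZeroExt.fst y)
  refine ⟨o, ?_⟩
  rw [Function.comp_apply, ← sub_eq_zero, ← map_sub, residue_eq_zero_iff, mem_maximalIdeal,
    mem_nonunits_iff]
  intro hu
  have h1 : IsUnit (TrivSqZeroExt.fst (algebraMap 𝒪 (DualNumber (ResidueField 𝒪)) o - y)) :=
    TrivSqZeroExt.isUnit_iff_isUnit_fst.mp hu
  have h2 : TrivSqZeroExt.fst (algebraMap 𝒪 (DualNumber (ResidueField 𝒪)) o - y) = 0 := by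
    rw [TrivSqZeroExt.fst_sub, sub_eq_zero, ← ho]
    rfl
  rw [h2] at h1
  exact not_isUnit_zero h1

/-- Stability of a condition along surjections and equivalences. -/
structure StableCond (𝒪 : Type) [CommRing 𝒪]
    (𝒟 : ∀ ⦃A : Type⦄ [CommRing A] [IsLocalRing A] [Algebra 𝒪 A], GaloisRepAdic A → Prop) :
    Prop where
  surj : ∀ {A B : Type} [CommRing A] [IsLocalRing A] [Algebra 𝒪 A] [CommRing B] [IsLocalRing B]
    [Algebra 𝒪 B] (φ : A →ₐ[𝒪] B) (hφ : IsLocalHom (φ : A →+* B)) (ρ : GaloisRepAdic A),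
    Function.Surjective φ → 𝒟 ρ → 𝒟 (ρ.baseChangeAlong (φ : A →+* B) hφ)
  equiv : ∀ {A : Type} [CommRing A] [IsLocalRing A] [Algebra 𝒪 A] (ρ ρ' : GaloisRepAdic A),
    ρ.IsEquiv ρ' → 𝒟 ρ → 𝒟 ρ'

variable {ρbar : ResidualGaloisRep (ResidueField 𝒪)}
    {𝒟 : ∀ ⦃A : Type⦄ [CommRing A] [IsLocalRing A] [Algebra 𝒪 A], GaloisRepAdic A → Prop}
    (h𝒟 : StableCond 𝒪 𝒟) (D : GaloisRep.DeformationRingData 𝒪 ρbar 𝒟)
    (bbar : Basis (Fin 2) (ResidueField 𝒪) ρbar.V)

lemma derHom_surjective {R : Type} [CommRing R] [IsLocalRing R] [Algebra 𝒪 R]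
    (π : R →+* ResidueField 𝒪)
    (hπ : ∀ o, π (algebraMap 𝒪 R o) = residue 𝒪 o) (δ : R → ResidueField 𝒪)
    (hδ : IsDer 𝒪 π δ) (hne : δ ≠ 0) : Function.Surjective (derHom π hπ δ hδ) := by
  obtain ⟨x, hx⟩ := Function.ne_iff.mp hne
  have hx : δ x ≠ 0 := hx
  obtain ⟨o, ho⟩ := residue_surjective (R := 𝒪) (π x)
  set x' := x - algebraMap 𝒪 R o with hx'
  have h1 : π x' = 0 := by rw [hx', map_sub, hπ, ho, sub_self]
  have h2 : δ x' = δ x := by rw [hx', hδ.sub, hδ.alg, sub_zero]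
  intro y
  obtain ⟨a, ha⟩ := residue_surjective (R := 𝒪) (TrivSqZeroExt.fst y)
  obtain ⟨b, hb⟩ := residue_surjective (R := 𝒪) (TrivSqZeroExt.snd y / δ x)
  refine ⟨algebraMap 𝒪 R a + algebraMap 𝒪 R b * x', ?_⟩
  apply TrivSqZeroExt.ext
  · show π _ = _
    rw [map_add, map_mul, hπ, h1, mul_zero, add_zero, ha]
  · show δ _ = _
    rw [hδ.add, hδ.mul, hδ.alg, hδ.alg, hπ, h2, hb, zero_mul, add_zero, zero_add,
      div_mul_cancel₀ _ hx]

omit [IsAdicComplete (maximalIdeal 𝒪) 𝒪] [Finite (ResidueField 𝒪)] in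
lemma sq_max : maximalIdeal (DualNumber (ResidueField 𝒪)) ^ 2 = ⊥ := by
  rw [eq_bot_iff, pow_two, Ideal.mul_le]
  intro x hx y hy
  have h0 : ∀ z ∈ maximalIdeal (DualNumber (ResidueField 𝒪)), TrivSqZeroExt.fst z = 0 := by
    intro z hz
    by_contra h
    exact hz (TrivSqZeroExt.isUnit_iff_isUnit_fst.mpr (isUnit_iff_ne_zero.mpr h))
  rw [Ideal.mem_bot]
  apply TrivSqZeroExt.ext
  · rw [TrivSqZeroExt.fst_mul, h0 x hx, zero_mul]; rfl
  · rw [TrivSqZeroExt.snd_mul, h0 x hx, h0 y hy]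
    simp

section abs

variable {R : Type} [CommRing R] [IsLocalRing R] [Algebra 𝒪 R]
    (π : R →+* ResidueField 𝒪)
    (hπ : ∀ o, π (algebraMap 𝒪 R o) = residue 𝒪 o)
    (r : GQ →* M2 R) (hc : MatCont R r)
    {rbar : GQ →* M2 (ResidueField 𝒪)}
    (hrπ : ∀ σ, (r σ).map π = rbar σ)
    (δ : R → ResidueField 𝒪) (hδ : IsDer 𝒪 π δ)

include hrπ in
omit [IsAdicComplete (maximalIdeal 𝒪) 𝒪] [Finite (ResidueField 𝒪)] [IsLocalRing R] in
lemma mapRep_derHom (σ : GQ) :
    mapRep (derHom π hπ δ hδ : R →+* DualNumber (ResidueField 𝒪)) r σ =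
      dm (rbar σ) (psi r rbar δ σ * rbar σ) := by
  rw [psi_mul_rbar]
  refine Matrix.ext fun i j => ?_
  apply TrivSqZeroExt.ext
  · show π (r σ i j) = rbar σ i j
    rw [← hrπ σ]; rfl
  · rfl

include hrπ in
omit [IsAdicComplete (maximalIdeal 𝒪) 𝒪] [Finite (ResidueField 𝒪)] [IsLocalRing R] in
lemma conj_of_coboundary
    (δ₀ : R → ResidueField 𝒪) (hδ₀ : IsDer 𝒪 π δ₀) (hδ₀' : δ₀ = 0)
    (X : M2 (ResidueField 𝒪))
    (hX : ∀ σ, psi r rbar δ σ = rbar σ * X * rbar σ⁻¹ - X) (σ : GQ) :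
    dm 1 (-X) * mapRep (derHom π hπ δ₀ hδ₀ : R →+* DualNumber (ResidueField 𝒪)) r σ =
      mapRep (derHom π hπ δ hδ : R →+* DualNumber (ResidueField 𝒪)) r σ * dm 1 (-X) := by
  have h0 : psi r rbar δ₀ σ = 0 := by
    rw [psi, hδ₀']
    have : (r σ).map (0 : R → ResidueField 𝒪) = 0 := by ext i j; rfl
    rw [this, zero_mul]
  rw [mapRep_derHom π hπ r hrπ, mapRep_derHom π hπ r hrπ, dm_mul, dm_mul, hX, h0]
  congr 1
  · simp
  · rw [sub_mul]
    have : rbar σ * X * rbar σ⁻¹ * rbar σ = rbar σ * X := by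
      rw [mul_assoc, inv_mul_self', mul_one]
    rw [this]
    simp only [neg_mul, mul_neg, one_mul, mul_one, zero_mul, mul_zero, zero_add, add_zero]
    abel

end abs

include h𝒟 in
/-- A tangent vector whose cocycle is a coboundary vanishes. -/
theorem der_eq_zero (π : D.R →+* ResidueField 𝒪)
    (hπ : ∀ o, π (algebraMap 𝒪 D.R o) = residue 𝒪 o)
    (r : GQ →* M2 D.R) (hc : MatCont D.R r) (hr : Red (matOfRes ρbar bbar) r)
    (hrπ : ∀ σ, (r σ).map π = matOfRes ρbar bbar σ)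
    (he : D.ρ.IsEquiv (ofMat r hc))
    (δ : D.R → ResidueField 𝒪) (hδ : IsDer 𝒪 π δ) (X : M2 (ResidueField 𝒪))
    (hX : ∀ σ, psi r (matOfRes ρbar bbar) δ σ =
      matOfRes ρbar bbar σ * X * matOfRes ρbar bbar σ⁻¹ - X) : δ = 0 := by
  by_contra hne
  have hδ0 : IsDer 𝒪 π (fun _ => (0 : ResidueField 𝒪)) :=
    ⟨fun _ _ => by simp, fun _ _ => by simp, fun _ => rfl⟩
  -- the ring of dual numbers
  have hfin : Finite (DualNumber (ResidueField 𝒪)) :=
    inferInstanceAs (Finite (ResidueField 𝒪 × ResidueField 𝒪))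
  have hnoeth : IsNoetherianRing (DualNumber (ResidueField 𝒪)) := inferInstance
  have hcomp : IsAdicComplete (maximalIdeal (DualNumber (ResidueField 𝒪)))
    (DualNumber (ResidueField 𝒪)) := isAdicComplete_of_sq _ sq_max
  have hsurj := residue_dual_surj (𝒪 := 𝒪)
  have hloc : IsLocalHom (algebraMap 𝒪 (DualNumber (ResidueField 𝒪))) := by
    have := Fermat.Agent.DefRing.isLocalHom_of_surjective_residue (𝒪 := 𝒪) (A := 𝒪)
      (B := DualNumber (ResidueField 𝒪)) hsurj (Algebra.ofId 𝒪 _)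
    exact this
  have hφ : IsLocalHom (derHom π hπ δ hδ : D.R →+* DualNumber (ResidueField 𝒪)) :=
    Fermat.Agent.DefRing.isLocalHom_of_surjective_residue hsurj _
  have hφ₀ : IsLocalHom (derHom π hπ _ hδ0 : D.R →+* DualNumber (ResidueField 𝒪)) :=
    Fermat.Agent.DefRing.isLocalHom_of_surjective_residue hsurj _
  have hφs : Function.Surjective (derHom π hπ δ hδ) := derHom_surjective π hπ δ hδ hne
  have h1 := h𝒟.surj (derHom π hπ δ hδ) hφ D.ρ hφs D.isOfType
  have heA := Fermat.Agent.DefRing.isEquiv_trans (Fermat.Agent.DefRing.baseChange_congr _ hφ he)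
      (Fermat.Agent.DefRing.ofMat_baseChange _ hφ r hc)
  have he0 := Fermat.Agent.DefRing.isEquiv_trans (Fermat.Agent.DefRing.baseChange_congr _ hφ₀ he)
      (Fermat.Agent.DefRing.ofMat_baseChange _ hφ₀ r hc)
  have hres : (D.ρ.baseChangeAlong _ hφ).residual.IsEquiv (ρbar.baseChangeAlong
      (ResidueField.map (algebraMap 𝒪 (DualNumber (ResidueField 𝒪))))) := by
    have h2 := Fermat.Agent.DefRing.residual_of_red ρbar bbar
      (ResidueField.map (algebraMap 𝒪 (DualNumber (ResidueField 𝒪))))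
      (fun o => ResidueField.map_residue _ o) _
      (Fermat.Agent.DefRing.mapRep_cont _ hφ r hc) (Fermat.Agent.DefRing.Red.map _ hφ hr)
    obtain ⟨e⟩ := heA
    obtain ⟨e'⟩ := h2
    exact ⟨e.residual.trans e'⟩
  have heq := (Fermat.Agent.DefRing.ofMat_isEquiv_iff _ _
    (Fermat.Agent.DefRing.mapRep_cont _ hφ₀ r hc) (Fermat.Agent.DefRing.mapRep_cont _ hφ r hc)).mpr
    ⟨_, isUnit_dm_one (-X), conj_of_coboundary π hπ r hrπ δ hδ _ hδ0 rfl X hX⟩
  obtain ⟨_, -, hu⟩ := D.universal (DualNumber (ResidueField 𝒪)) hsurj _ h1 hres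
  have e1 := hu (derHom π hπ δ hδ) ⟨hφ, Fermat.Agent.DefRing.isEquiv_refl _⟩
  have e2 := hu (derHom π hπ _ hδ0) ⟨hφ₀, Fermat.Agent.DefRing.isEquiv_trans he0
    (Fermat.Agent.DefRing.isEquiv_trans heq (Fermat.Agent.DefRing.isEquiv_symm heA))⟩
  apply hne
  ext x
  have e3 : derHom π hπ δ hδ x = derHom π hπ _ hδ0 x := by rw [e1, e2]
  exact congrArg TrivSqZeroExt.snd e3

end main

end Fermat.Agent.TWP
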