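import Fermat.Agent.TWP.EC

/-!
The counting theorem.
-/

set_option autoImplicit false

namespace Fermat.Agent.TWP

open Matrix Fermat.Agent.PT Fermat.Agent.PTC
open scoped Pointwise

section arith

lemma prod_split {ι : Type} [Fintype ι] (P : ι → Prop) [DecidablePred P] {t h : ι → ℕ}
    {sel c m : ℕ} (H : sel * c * ∏ v, h v ≤ ∏ v, t v) (hpos : ∀ v, 0 < h v)
    (hQ : ∀ v, ¬ P v → t v ≤ c * h v) (hm : (Finset.univ.filter fun v => ¬ P v).card = m) :
    sel * c * ∏ v with P v, h v ≤ c ^ m * ∏ v with P v, t v := by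
  rw [← Finset.prod_filter_mul_prod_filter_not Finset.univ P h,
    ← Finset.prod_filter_mul_prod_filter_not Finset.univ P t] at H
  have h1 : ∏ v with ¬ P v, t v ≤ c ^ m * ∏ v with ¬ P v, h v := by
    rw [← hm, ← Finset.prod_const, ← Finset.prod_mul_distrib]
    exact Finset.prod_le_prod' fun v hv => hQ v (Finset.mem_filter.mp hv).2
  have h2 : 0 < ∏ v with ¬ P v, h v := Finset.prod_pos fun v _ => hpos v
  refine Nat.le_of_mul_le_mul_right ?_ h2
  calc sel * c * (∏ v with P v, h v) * ∏ v with ¬ P v, h v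
      = sel * c * ((∏ v with P v, h v) * ∏ v with ¬ P v, h v) := by ring
    _ ≤ (∏ v with P v, t v) * ∏ v with ¬ P v, t v := H
    _ ≤ (∏ v with P v, t v) * (c ^ m * ∏ v with ¬ P v, h v) := Nat.mul_le_mul_left _ h1
    _ = c ^ m * (∏ v with P v, t v) * ∏ v with ¬ P v, h v := by ring

/-- version with all local bounds -/
lemma prod_bound {ι : Type} [Fintype ι] [DecidableEq ι] (P : ι → Prop) {t h : ι → ℕ}
    {sel c m : ℕ} (H : sel * c * ∏ v, h v ≤ ∏ v, t v) (hpos : ∀ v, 0 < h v) (hc : 0 < c)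
    (hQ : ∀ v, ¬ P v → t v ≤ c * h v) (hm : Nat.card {v // ¬ P v} = m)
    (v₀ : ι) (hv₀ : P v₀) (h0 : t v₀ ≤ c * h v₀) (hP : ∀ v, P v → v ≠ v₀ → t v ≤ h v) :
    sel ≤ c ^ m := by
  classical
  have hm' : (Finset.univ.filter fun v => ¬ P v).card = m := by
    rw [← hm, Nat.card_eq_fintype_card, Fintype.card_subtype]
  have h1 := prod_split P H hpos hQ hm'
  have hmem : v₀ ∈ Finset.univ.filter P := Finset.mem_filter.mpr ⟨Finset.mem_univ _, hv₀⟩
  have h2 : ∏ v with P v, t v ≤ c * ∏ v with P v, h v := by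
    rw [← Finset.mul_prod_erase _ t hmem, ← Finset.mul_prod_erase _ h hmem, ← mul_assoc]
    refine Nat.mul_le_mul h0 (Finset.prod_le_prod' fun v hv => ?_)
    rw [Finset.mem_erase, Finset.mem_filter] at hv
    exact hP v hv.2.2 hv.1
  have h3 : 0 < ∏ v with P v, h v := Finset.prod_pos fun v _ => hpos v
  have h4 : sel * (c * ∏ v with P v, h v) ≤ c ^ m * (c * ∏ v with P v, h v) := by
    calc sel * (c * ∏ v with P v, h v) = sel * c * ∏ v with P v, h v := by ring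
      _ ≤ c ^ m * ∏ v with P v, t v := h1
      _ ≤ c ^ m * (c * ∏ v with P v, h v) := Nat.mul_le_mul_left _ h2
  exact Nat.le_of_mul_le_mul_right h4 (Nat.mul_pos hc h3)

end arith

section main

variable {k : Type} [Field k] {p : ℕ} [hp : Fact p.Prime] {r : GQ →* M2 k}
variable {n : ℕ} {S : Finset Nat.Primes} {m : ℕ} {q : Fin m → Nat.Primes} {τ : Fin m → GQ}

/-- the number of Taylor–Wiles primes -/
lemma TWSet.card_not (hTW : TWSet p r n S m q τ) : Nat.card {v : ↥(SQ S q) // ¬ v.1 ∈ S} = m := by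
  have e : Fin m ≃ {v : ↥(SQ S q) // ¬ v.1 ∈ S} := by
    refine Equiv.ofBijective
      (fun j => ⟨⟨q j, mem_SQ.mpr (Or.inr ⟨j, rfl⟩)⟩, hTW.notMem j⟩) ⟨?_, ?_⟩
    · intro i j h
      exact hTW.inj (congrArg (fun x : {v : ↥(SQ S q) // ¬ v.1 ∈ S} => x.1.1) h)
    · rintro ⟨⟨v, hv⟩, hv'⟩
      rcases mem_SQ.mp hv with h | ⟨j, rfl⟩
      · exact absurd h hv'
      · exact ⟨j, rfl⟩
  rw [← Nat.card_congr e, Nat.card_eq_fintype_card, Fintype.card_fin]

variable [Finite k] (hr : RD p r) (hp2 : p ≠ 2) (hrS : UnrOut S r) (hTW : TWSet p r n S m q τ)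
  (hpS : ExtCitation.pPrime p ∈ S)
  (hEC : (Nat.card k : ℝ) * chi (sL (SQ S q)) (dualAct (muA p) (twAct 1 r)) ≤ 1)
  (T : ∀ v : ↥(SQ S q), AddSubgroup (H1 (allL.comap (rl v.1)) ((twAct 1 r).comp (rl v.1))))
  (hT : ∀ v : ↥(SQ S q), v.1 ∉ S → T v = ⊤)

include hrS in
lemma smooth_SQ : Smooth (ptd (SQ S q)).L (twAct 1 r) :=
  (hrS.mono subset_SQ).smooth fun _ _ => MonoidHom.one_apply _

include hr hp2 hrS hTW hpS hEC hT in
/-- the counting inequality, before splitting -/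
theorem count_all : Nat.card (selL (ptd (SQ S q)) (twAct 1 r) T) * Nat.card k *
      ∏ v : ↥(SQ S q), Nat.card (H0 ((twAct 1 r).comp (rl v.1))) ≤
        ∏ v : ↥(SQ S q), Nat.card (T v) := by
  have H := Fermat.Agent.PTGlob.ptHyp (S := SQ S q) hp2 (subset_SQ hpS)
  have hM := smooth_SQ (q := q) hrS
  exact gw_ineq H hM (ad0_torsion hr.char) (hr.H0_eq_bot hp2) T
    (card_selD hr hp2 hrS hTW hpS hM T hT) hEC

omit hp [Finite k] in
lemma smooth_loc (hr : ∃ L : IntermediateField ℚ (AlgebraicClosure ℚ), FiniteDimensional ℚ L ∧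
    ∀ σ : GQ, (∀ x ∈ L, σ x = x) → r σ = 1) (q : Nat.Primes) :
    Smooth (allL.comap (rl q)) ((twAct 1 r).comp (rl q)) := by
  obtain ⟨L, hL, hLr⟩ := hr
  obtain ⟨N, hN, hNL⟩ := exists_allL_le L hL
  intro X
  refine ⟨_, ⟨N, hN, rfl⟩, fun γ hγ => ?_⟩
  exact twAct_fix (χ := 1) (r := r) (MonoidHom.one_apply _)
    (hLr _ ((IntermediateField.mem_fixingSubgroup_iff L _).mp (hNL hγ))) X

lemma finite_loc (hr : ∃ L : IntermediateField ℚ (AlgebraicClosure ℚ), FiniteDimensional ℚ L ∧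
    ∀ σ : GQ, (∀ x ∈ L, σ x = x) → r σ = 1) (hk : (p : k) = 0) (q : Nat.Primes) :
    Fin012 (allL.comap (rl q)) ((twAct 1 r).comp (rl q)) :=
  (Fermat.Agent.PTC.locHyp p (⟨q, Finset.mem_singleton_self q⟩ : ↥({q} : Finset Nat.Primes))).finite
    (smooth_loc hr q) (ad0_torsion hk)

include hr hp2 hTW in
lemma card_T_le (v : ↥(SQ S q)) (hv : ¬ v.1 ∈ S) :
    Nat.card (T v) ≤ Nat.card k * Nat.card (H0 ((twAct 1 r).comp (rl v.1))) := by
  obtain ⟨v, hvm⟩ := v
  rcases mem_SQ.mp hvm with h | ⟨j, rfl⟩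
  · exact absurd h hv
  have h1 := (hTW.tw j).card_H1 hr hp2
  have hfin := (finite_loc hr.cont hr.char (q j)).h1
  exact (Nat.card_le_card_of_injective _ Subtype.val_injective).trans h1

omit hp in
lemma card_H0_pos (v : Nat.Primes) : 0 < Nat.card (H0 ((twAct 1 r).comp (rl v))) := Nat.card_pos

include hr hp2 hrS hTW hpS hEC hT in
/-- **the counting theorem**, general form -/
theorem count_main [DecidablePred fun v : ↥(SQ S q) => v.1 ∈ S] :
    Nat.card (selL (ptd (SQ S q)) (twAct 1 r) T) * Nat.card k *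
      ∏ v : ↥(SQ S q) with v.1 ∈ S, Nat.card (H0 ((twAct 1 r).comp (rl v.1))) ≤
        Nat.card k ^ m * ∏ v : ↥(SQ S q) with v.1 ∈ S, Nat.card (T v) := by
  have h1 := count_all hr hp2 hrS hTW hpS hEC T hT
  refine prod_split (fun v : ↥(SQ S q) => v.1 ∈ S) h1 (fun v => card_H0_pos v.1)
    (fun v hv => card_T_le hr hp2 hTW T v hv) ?_
  refine Eq.trans ?_ hTW.card_not
  rw [Nat.card_eq_fintype_card, Fintype.card_subtype]

include hr hp2 hrS hTW hpS hEC hT in
/-- **the counting theorem** -/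
theorem count_le (hTp : ∀ v : ↥(SQ S q), v.1 = ExtCitation.pPrime p →
      Nat.card (T v) ≤ Nat.card k * Nat.card (H0 ((twAct 1 r).comp (rl v.1))))
    (hTv : ∀ v : ↥(SQ S q), v.1 ∈ S → v.1 ≠ ExtCitation.pPrime p →
      Nat.card (T v) ≤ Nat.card (H0 ((twAct 1 r).comp (rl v.1)))) :
    Nat.card (selL (ptd (SQ S q)) (twAct 1 r) T) ≤ Nat.card k ^ m := by
  classical
  have h1 := count_all hr hp2 hrS hTW hpS hEC T hT
  refine prod_bound (fun v : ↥(SQ S q) => v.1 ∈ S) h1 (fun v => card_H0_pos v.1) Nat.card_pos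
    (fun v hv => card_T_le hr hp2 hTW T v hv) hTW.card_not
    ⟨ExtCitation.pPrime p, subset_SQ hpS⟩ hpS (hTp _ rfl) ?_
  intro v hv hvp
  exact hTv v hv fun h => hvp (Subtype.ext h)

end main

end Fermat.Agent.TWP
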