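import Fermat.Agent.TWP.Count2

/-!
Existence of sets of Taylor–Wiles primes.
-/

set_option autoImplicit false

namespace Fermat.Agent.TWP

open Matrix Fermat.Agent.PT Fermat.Agent.PTC
open scoped Pointwise

variable {k : Type} [Field k] [Finite k] {p : ℕ} [hp : Fact p.Prime] {r : GQ →* M2 k}

/-- **Existence of sets of Taylor–Wiles primes**, with a number of primes independent of the
level. The set `S` contains some auxiliary primes. -/
theorem exists_TW (hp2 : p ≠ 2) (hr : RD p r) {S₁ : Finset Nat.Primes}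
    (hpS₁ : ExtCitation.pPrime p ∈ S₁) (hrS : UnrOut S₁ r) :
    ∃ (S : Finset Nat.Primes) (m : ℕ), S₁ ⊆ S ∧ ∀ (n : ℕ) (A₀ : Finset ℕ),
      ∃ (q : Fin m → Nat.Primes) (τ : Fin m → GQ), TWSet p r n S m q τ ∧
        (∀ j, (q j : ℕ) ∉ A₀) ∧
        (Nat.card k : ℝ) * chi (sL (SQ S q)) (dualAct (muA p) (twAct 1 r)) ≤ 1 := by
  classical
  obtain ⟨S, hS, hEC⟩ := exists_EC' hp2 hr hpS₁ hrS
  have hpS : ExtCitation.pPrime p ∈ S := hS hpS₁
  have hrS' := hrS.mono hS
  have H := Fermat.Agent.PTGlob.ptHyp (S := S) hp2 hpS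
  have hsm : Smooth (sL S) (twAct (detC r) r) :=
    hrS'.smooth fun g hg => by rw [detC_apply, hg, det_one]
  have hfin := (H.finite hsm (ad0_torsion hr.char)).h1
  obtain ⟨m, hm⟩ := exists_primes hp.out hp2 hr S hrS' hfin
  refine ⟨S, m, hS, fun n A₀ => ?_⟩
  let g : Nat.Primes → ℕ := fun v => v.1
  obtain ⟨q, τ, h1, h2, h3, h4⟩ := hm n (A₀ ∪ Finset.image g S)
  refine ⟨q, τ, ⟨h1, fun j hj => h2 j ?_, h3, h4⟩, fun j hj => h2 j ?_, hEC _ subset_SQ⟩
  · exact Finset.mem_union_right _ (Finset.mem_image.mpr ⟨q j, hj, rfl⟩)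
  · exact Finset.mem_union_left _ hj

end Fermat.Agent.TWP
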