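import Fermat.Agent.TWP.Main56
import Fermat.Agent.Flat.MatB
import Fermat.Agent.Flat.Conv

/-!
The flat local condition.
-/

set_option autoImplicit false

namespace Fermat.Agent.TWP

open Matrix Module IsLocalRing Fermat.Agent.PT Fermat.Agent.PTC
open Fermat.Agent.DefRing (matOfRes mapRep MatCont Red ofMat)
open Fermat.Agent.Flat (FlatBound FlatE FlatR IsCoc cobM cobs inv0 LC eAct vAct)
open Fermat.Agent.Flat.Loc (inert)
open scoped Pointwise

section open_

variable {p : ℕ} [hp : Fact p.Prime]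

/-- pullbacks of open subgroups are open -/
theorem exists_open (F : IntermediateField ℚ Qb) [FiniteDimensional ℚ F] :
    ∃ U : Subgroup (PadicAlgCl p ≃ₐ[ℚ_[p]] PadicAlgCl p),
      IsOpen (U : Set (PadicAlgCl p ≃ₐ[ℚ_[p]] PadicAlgCl p)) ∧
      ∀ γ ∈ U, ∀ x ∈ F, localGaloisToGlobal p γ x = x := by
  let b := Module.finBasis ℚ F
  let s : Set (PadicAlgCl p) := Set.range fun i => padicEmbedding p (b i : Qb)
  have hs : s.Finite := Set.finite_range _
  let K' := IntermediateField.adjoin ℚ_[p] s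
  have hfd : FiniteDimensional ℚ_[p] K' :=
    IntermediateField.finiteDimensional_adjoin fun x _ => Algebra.IsIntegral.isIntegral x
  refine ⟨K'.fixingSubgroup, IntermediateField.fixingSubgroup_isOpen K', fun γ hγ x hx => ?_⟩
  rw [IntermediateField.mem_fixingSubgroup_iff] at hγ
  have h1 : ∀ i, localGaloisToGlobal p γ (b i : Qb) = (b i : Qb) := by
    intro i
    have h3 : padicEmbedding p (localGaloisToGlobal p γ (b i : Qb)) =
        padicEmbedding p (b i : Qb) := by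
      rw [padicEmbedding_localGaloisToGlobal]
      exact hγ _ (IntermediateField.subset_adjoin _ _ ⟨i, rfl⟩)
    exact (padicEmbedding p).injective h3
  let E' := IntermediateField.fixedField (Subgroup.zpowers (localGaloisToGlobal p γ))
  have hmem : ∀ y : Qb, localGaloisToGlobal p γ y = y → y ∈ E' := by
    intro y hy
    rw [IntermediateField.mem_fixedField_iff]
    have h4 : Subgroup.zpowers (localGaloisToGlobal p γ) ≤
        MulAction.stabilizer (AlgebraicClosure ℚ ≃ₐ[ℚ] AlgebraicClosure ℚ) y := by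
      rw [Subgroup.zpowers_le]
      exact hy
    exact fun f hf => h4 hf
  have hle : (⊤ : Submodule ℚ F) ≤
      (Subalgebra.toSubmodule E'.toSubalgebra).comap F.val.toLinearMap := by
    rw [← b.span_eq, Submodule.span_le]
    rintro _ ⟨i, rfl⟩
    exact hmem _ (h1 i)
  have h5 : x ∈ E' := hle (Submodule.mem_top (x := (⟨x, hx⟩ : F)))
  rw [IntermediateField.mem_fixedField_iff] at h5
  exact h5 _ (Subgroup.mem_zpowers _)

end open_

section pack

variable {k : Type} [Field k] {rbar : GQ →* M2 k} {Γ : Type} [Group Γ] (f : Γ →* GQ)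
  {L : Levels Γ}

/-- the matrix valued function of a cocycle -/
def toFun' : Z1 L ((twAct 1 rbar).comp f) →+ (Γ → M2 k) where
  toFun c := fun γ => ((c.1 γ : ad0 k) : M2 k)
  map_zero' := rfl
  map_add' _ _ := rfl

lemma toFun'_apply (c : Z1 L ((twAct 1 rbar).comp f)) (γ : Γ) :
    toFun' f c γ = ((c.1 γ : ad0 k) : M2 k) := rfl

lemma cobM_comp (X : M2 k) (γ : Γ) :
    cobM (rbar.comp f) X γ = X - rbar (f γ) * X * rbar (f γ)⁻¹ := by
  rw [cobM, MonoidHom.comp_apply, MonoidHom.comp_apply, map_inv f]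

lemma ker_mk_eq : (H1.mk L ((twAct 1 rbar).comp f)).ker = (cobs (rbar.comp f)).comap (toFun' f) := by
  ext c
  rw [AddMonoidHom.mem_ker, AddSubgroup.mem_comap, Flat.mem_cobs, H1.mk_eq_zero]
  constructor
  · rintro ⟨X, hX⟩
    refine ⟨-(X.1 : M2 k), by rw [trace_neg, mem_ad0.1 X.2, neg_zero], fun γ => ?_⟩
    have h1 := congrArg (fun y : ad0 k => (y : M2 k)) (congrFun hX γ)
    have h2 : ((d0 ((twAct 1 rbar).comp f) X γ : ad0 k) : M2 k) =
      (1 : GQ →* k) (f γ) • (rbar (f γ) * X.1 * rbar (f γ)⁻¹) - X.1 := rfl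
    rw [MonoidHom.one_apply, one_smul] at h2
    rw [toFun'_apply, cobM_comp]
    have h3 : ((c.1 γ : ad0 k) : M2 k) = rbar (f γ) * X.1 * rbar (f γ)⁻¹ - X.1 := by
      rw [← h2]; exact h1.symm
    rw [h3, mul_neg, neg_mul]
    abel
  · rintro ⟨X, hX, h⟩
    refine ⟨⟨-X, by rw [mem_ad0, trace_neg, hX, neg_zero]⟩, ?_⟩
    funext γ
    apply Subtype.ext
    show (1 : GQ →* k) (f γ) • (rbar (f γ) * (-X) * rbar (f γ)⁻¹) - (-X) = _
    have h1 := h γ
    rw [toFun'_apply, cobM_comp] at h1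
    rw [h1, MonoidHom.one_apply, one_smul, mul_neg, neg_mul]
    abel

/-- packaging of a group of cocycles as a group of classes -/
theorem exists_T_of_Z (hsm : Smooth L ((twAct 1 rbar).comp f)) (Z : AddSubgroup (Γ → M2 k))
    (h0 : (cobs (rbar.comp f)).relIndex Z ≠ 0) :
    ∃ T : AddSubgroup (H1 L ((twAct 1 rbar).comp f)),
      Nat.card T ≤ (cobs (rbar.comp f)).relIndex Z ∧
      ∀ c : Z1 L ((twAct 1 rbar).comp f),
        (∃ X : M2 k, X.trace = 0 ∧ (fun γ => ((c.1 γ : ad0 k) : M2 k) -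
          cobM (rbar.comp f) X γ) ∈ Z) → H1.mk L _ c ∈ T := by
  refine ⟨(Z.comap (toFun' f)).map (H1.mk L ((twAct 1 rbar).comp f)), ?_, ?_⟩
  · rw [← AddSubgroup.relIndex_ker, ker_mk_eq, AddSubgroup.relIndex_comap]
    refine AddSubgroup.relIndex_le_of_le_right ?_ h0
    exact AddSubgroup.map_comap_le _ _
  · rintro c ⟨X, hX, hZ⟩
    let X' : ad0 k := ⟨-X, by rw [mem_ad0, trace_neg, hX, neg_zero]⟩
    let b : Z1 L ((twAct 1 rbar).comp f) := ⟨d0 _ X', mem_Z1.2 ⟨d0_mem_C1 hsm X', d1_d0 _ X'⟩⟩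
    have hb : H1.mk L _ b = 0 := H1.mk_eq_zero.2 ⟨X', rfl⟩
    refine ⟨c - b, ?_, by rw [map_sub, hb, sub_zero]⟩
    show toFun' f (c - b) ∈ Z
    convert hZ using 1
    funext γ
    have h2 : ((b.1 γ : ad0 k) : M2 k) =
      (1 : GQ →* k) (f γ) • (rbar (f γ) * (-X) * rbar (f γ)⁻¹) - (-X) := rfl
    rw [MonoidHom.one_apply, one_smul] at h2
    show ((c.1 γ : ad0 k) : M2 k) - ((b.1 γ : ad0 k) : M2 k) = _
    rw [h2, cobM_comp, mul_neg, neg_mul]
    abel

lemma card_inv0 : Nat.card (inv0 (rbar.comp f)) = Nat.card (H0 ((twAct 1 rbar).comp f)) := by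
  refine Nat.card_congr
    { toFun := fun X => ⟨⟨X.1, X.2.1⟩, ?_⟩
      invFun := fun X => ⟨X.1.1, X.1.2, ?_⟩
      left_inv := fun X => rfl
      right_inv := fun X => rfl }
  · rw [mem_H0]
    intro γ
    apply Subtype.ext
    show (1 : GQ →* k) (f γ) • (rbar (f γ) * X.1 * rbar (f γ)⁻¹) = X.1
    have h1 := X.2.2 γ
    rw [cobM_comp, sub_eq_zero] at h1
    rw [MonoidHom.one_apply, one_smul, ← h1]
  · intro γ
    have h1 := congrArg (fun y : ad0 k => (y : M2 k)) (mem_H0.1 X.2 γ)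
    have h2 : (1 : GQ →* k) (f γ) • (rbar (f γ) * X.1.1 * rbar (f γ)⁻¹) = X.1.1 := h1
    rw [MonoidHom.one_apply, one_smul] at h2
    rw [cobM_comp, h2, sub_self]

end pack

section conv

variable {𝒪 : Type} [CommRing 𝒪] [IsDomain 𝒪] [IsDiscreteValuationRing 𝒪]
    [IsAdicComplete (maximalIdeal 𝒪) 𝒪] [Finite (ResidueField 𝒪)]
    {p : ℕ} [hp : Fact p.Prime] {R : Type} [CommRing R] [IsLocalRing R] [Algebra 𝒪 R]

omit [IsDomain 𝒪] [IsDiscreteValuationRing 𝒪] [IsAdicComplete (maximalIdeal 𝒪) 𝒪]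
  [Finite (ResidueField 𝒪)] [Algebra 𝒪 R] hp [CommRing 𝒪] in
lemma flat_map {r : GQ →* M2 R} {hc : MatCont R r} (h : (ofMat r hc).IsFlatAt p) {B : Type}
    [CommRing B] [IsLocalRing B] (φ : R →+* B) (hφ : IsLocalHom φ)
    (hs : Function.Surjective φ) :
    (ofMat (mapRep φ r) (Fermat.Agent.DefRing.mapRep_cont φ hφ r hc)).IsFlatAt p :=
  flat_equiv (Fermat.Agent.DefRing.ofMat_baseChange φ hφ r hc) (flat_stable hφ hs h)

/-- vectors over the dual numbers -/
def vecEquiv (k : Type) [Field k] : ((Fin 2 → k) × (Fin 2 → k)) ≃+ (Fin 2 → DualNumber k) where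
  toFun z := fun i => dn (z.1 i) (z.2 i)
  invFun w := (fun i => TrivSqZeroExt.fst (w i), fun i => TrivSqZeroExt.snd (w i))
  left_inv _ := rfl
  right_inv _ := rfl
  map_add' _ _ := rfl

lemma dm_mulVec {k : Type} [Field k] (U V : M2 k) (z : (Fin 2 → k) × (Fin 2 → k)) :
    dm U V *ᵥ (vecEquiv k z) = vecEquiv k (U *ᵥ z.1, U *ᵥ z.2 + V *ᵥ z.1) := by
  funext i
  show ∑ j, dm U V i j * dn (z.1 j) (z.2 j) = dn _ _
  rw [Fin.sum_univ_two]
  apply TrivSqZeroExt.ext
  · show U i 0 * z.1 0 + U i 1 * z.1 1 = (U *ᵥ z.1) i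
    rw [mulVec, dotProduct, Fin.sum_univ_two]
  · have e : ∀ j, TrivSqZeroExt.snd (dm U V i j * dn (z.1 j) (z.2 j)) =
        U i j * z.2 j + V i j * z.1 j := by
      intro j
      have : dm U V i j = dn (U i j) (V i j) := rfl
      rw [this, dn_mul]
      rfl
    rw [TrivSqZeroExt.snd_add, e, e]
    show _ = (U *ᵥ z.2) i + (V *ᵥ z.1) i
    rw [mulVec, dotProduct, mulVec, dotProduct, Fin.sum_univ_two, Fin.sum_univ_two]
    ring

variable {Sig Smin : Finset ℕ} {π : R →+* ResidueField 𝒪} {r : GQ →* M2 R} {hc : MatCont R r}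
  {rbar : GQ →* M2 (ResidueField 𝒪)}

include 𝒪 in
/-- the residual representation is flat -/
theorem flatR_residual (hp2 : p ≠ 2) (hflat : (ofMat r hc).IsFlatAt p)
    (hπ : ∀ o, π (algebraMap 𝒪 R o) = residue 𝒪 o) (hred : ∀ σ, (r σ).map π = rbar σ)
    (hloc : IsLocalHom π) :
    haveI := Flat.setting_padic (p := p) hp2
    FlatR p (PadicAlgCl p) (inert p) (rbar.comp (localGaloisToGlobal p)) := by
  have hs : Function.Surjective π := by
    intro x
    obtain ⟨o, rfl⟩ := residue_surjective x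
    exact ⟨_, hπ o⟩
  have h1 := flat_map hflat π hloc hs
  obtain ⟨E⟩ := Flat.exists_ord_of_isFlatAt hp2 _ h1
  have := Flat.setting_padic (p := p) hp2
  refine ⟨E.transport (AddEquiv.refl _) fun σ x => ?_⟩
  show rbar (localGaloisToGlobal p σ.1) *ᵥ x = mapRep π r (localGaloisToGlobal p σ.1) *ᵥ x
  rw [← hred]
  rfl

include 𝒪 in
/-- the extension defined by a tangent vector is flat -/
theorem flatE_der (hp2 : p ≠ 2) (hflat : (ofMat r hc).IsFlatAt p)
    (hπ : ∀ o, π (algebraMap 𝒪 R o) = residue 𝒪 o) (hred : ∀ σ, (r σ).map π = rbar σ)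
    {δ : R → ResidueField 𝒪} (hδ : IsDer 𝒪 π δ) (hne : δ ≠ 0) :
    haveI := Flat.setting_padic (p := p) hp2
    FlatE p (PadicAlgCl p) (inert p) (rbar.comp (localGaloisToGlobal p))
      (fun γ => psi r rbar δ (localGaloisToGlobal p γ)) := by
  have hfin : Finite (DualNumber (ResidueField 𝒪)) :=
    inferInstanceAs (Finite (ResidueField 𝒪 × ResidueField 𝒪))
  have hsurj := residue_dual_surj (𝒪 := 𝒪)
  have hφ : IsLocalHom (derHom π hπ δ hδ : R →+* DualNumber (ResidueField 𝒪)) :=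
    Fermat.Agent.DefRing.isLocalHom_of_surjective_residue hsurj _
  have hφs : Function.Surjective (derHom π hπ δ hδ) := derHom_surjective π hπ δ hδ hne
  have h1 := flat_map hflat (derHom π hπ δ hδ : R →+* DualNumber (ResidueField 𝒪)) hφ hφs
  obtain ⟨E⟩ := Flat.exists_ord_of_isFlatAt hp2 _ h1
  have := Flat.setting_padic (p := p) hp2
  refine ⟨E.transport (vecEquiv (ResidueField 𝒪)) fun σ x => ?_⟩
  show _ = mapRep (derHom π hπ δ hδ : R →+* DualNumber (ResidueField 𝒪)) r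
    (localGaloisToGlobal p σ.1) *ᵥ (vecEquiv (ResidueField 𝒪) x)
  rw [mapRep_derHom π hπ r hred δ hδ, dm_mulVec]
  rw [← mulVec_mulVec]
  rfl

end conv

section hloc

variable {𝒪 : Type} [CommRing 𝒪] [IsDomain 𝒪] [IsDiscreteValuationRing 𝒪]
    [IsAdicComplete (maximalIdeal 𝒪) 𝒪] [Finite (ResidueField 𝒪)]
    {p : ℕ} [hp : Fact p.Prime] {R : Type} [CommRing R] [IsLocalRing R] [Algebra 𝒪 R]
    {Sig Smin : Finset ℕ} {π : R →+* ResidueField 𝒪} {r : GQ →* M2 R} {hc : MatCont R r}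
  {rbar : GQ →* M2 (ResidueField 𝒪)}

/-- **The flat local condition.** -/
theorem flat_hloc (hp2 : p ≠ 2) (hRD : RD p rbar) (hflat : (ofMat r hc).IsFlatAt p)
    (hπ : ∀ o, π (algebraMap 𝒪 R o) = residue 𝒪 o)
    (h : MDef 𝒪 p Sig Smin π r rbar)
    (hB : haveI := Flat.setting_padic (p := p) hp2
      FlatBound p (PadicAlgCl p) (inert p) (rbar.comp (localGaloisToGlobal p))) :
    ∃ Tp : AddSubgroup (H1 (allL.comap (rl (ExtCitation.pPrime p)))
          ((twAct 1 rbar).comp (rl (ExtCitation.pPrime p)))),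
        Nat.card Tp ≤ Nat.card (ResidueField 𝒪) *
          Nat.card (H0 ((twAct 1 rbar).comp (rl (ExtCitation.pPrime p)))) ∧
        ∀ (S : Finset Nat.Primes) (hpS : ExtCitation.pPrime p ∈ S)
          (δ : R → ResidueField 𝒪) (_ : IsDer 𝒪 π δ)
          (f : Z1 (sL S) (twAct 1 rbar))
          (_ : ∀ σ, ((f.1 σ : ad0 (ResidueField 𝒪)) : M2 (ResidueField 𝒪)) =
            psi r rbar δ σ),
          ((ptd S).loc ⟨ExtCitation.pPrime p, hpS⟩ (twAct 1 rbar)).h1
            (H1.mk (sL S) (twAct 1 rbar) f) ∈ Tp := by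
  have := Flat.setting_padic (p := p) hp2
  obtain ⟨Z, -, hZ, h0, hle⟩ := hB
  have hsm := smooth_loc hRD.cont (ExtCitation.pPrime p)
  have h0' : (cobs (rbar.comp (rl (ExtCitation.pPrime p)))).relIndex Z ≠ 0 := h0
  obtain ⟨T, hT, hmem⟩ := exists_T_of_Z (rl (ExtCitation.pPrime p)) hsm Z h0'
  refine ⟨T, ?_, ?_⟩
  · rw [← card_inv0]
    exact hT.trans hle
  · intro S hpS δ hδ f hf
    rw [PairHom.h1_mk]
    by_cases hδ0 : δ = 0
    · have h1 : ((ptd S).loc ⟨ExtCitation.pPrime p, hpS⟩ (twAct 1 rbar)).z1 f = 0 := by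
        apply Subtype.ext
        funext γ
        apply Subtype.ext
        show ((f.1 (rl _ γ) : ad0 (ResidueField 𝒪)) : M2 (ResidueField 𝒪)) = 0
        rw [hf, psi, hδ0]
        have : (r (rl _ γ)).map (0 : R → ResidueField 𝒪) = 0 := by ext i j; rfl
        rw [this, zero_mul]
      rw [h1, map_zero]
      exact T.zero_mem
    · apply hmem
      have hfE := flatE_der hp2 hflat hπ h.red hδ hδ0
      obtain ⟨F, hF, -, hFL⟩ := h.exists_level
      obtain ⟨U, hU, hUF⟩ := exists_open (p := p) F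
      obtain ⟨X, hX, hXZ⟩ := hZ (fun γ => psi r rbar δ (localGaloisToGlobal p γ)) (by
        intro γ γ'
        show psi r rbar δ (localGaloisToGlobal p (γ * γ')) = psi r rbar δ _ +
          rbar (localGaloisToGlobal p γ) * psi r rbar δ _ * rbar (localGaloisToGlobal p γ⁻¹)
        rw [map_mul, psi_mul hδ h.red, map_inv (localGaloisToGlobal p)]) (fun γ => h.trace hδ hRD.char _)
        ⟨U, hU, fun γ hγ => h.psi_eq_zero hδ (hFL _ (hUF γ hγ))⟩ hfE
      refine ⟨X, hX, ?_⟩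
      have h2 : (fun γ => ((((ptd S).loc ⟨ExtCitation.pPrime p, hpS⟩ (twAct 1 rbar)).z1 f).1 γ :
          M2 (ResidueField 𝒪)) - cobM (rbar.comp (rl (ExtCitation.pPrime p))) X γ) =
          (fun γ => psi r rbar δ (localGaloisToGlobal p γ) -
            cobM (rbar.comp (localGaloisToGlobal p)) X γ) := by
        funext γ
        have h3 : ((((ptd S).loc ⟨ExtCitation.pPrime p, hpS⟩ (twAct 1 rbar)).z1 f).1 γ :
          M2 (ResidueField 𝒪)) = ((f.1 (rl _ γ) : ad0 (ResidueField 𝒪)) :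
            M2 (ResidueField 𝒪)) := rfl
        rw [h3, hf]
        rfl
      exact h2 ▸ hXZ

end hloc

end Fermat.Agent.TWP
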