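import Fermat.Agent.TWP.Dich4
import Fermat.Agent.Flat.OrdC
import Fermat.Agent.Flat.LocalInst
import Fermat.Agent.TWP.FlatPack

/-!
# The bound for the flat classes: the final form
-/

set_option autoImplicit false
set_option linter.unusedSectionVars false
set_option linter.style.haveILetI false

noncomputable section

namespace Fermat.Agent.TWP.Dich

open Fermat.Agent.Flat Fermat.Agent.Flat.Loc Fermat.Agent.Flat.VZero Matrix

section Abs

variable {p : ℕ} [hp : Fact p.Prime] {Ω : Type} [NormedField Ω] [hU : IsUltrametricDist Ω]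
  {Γ : Type} [Group Γ] [TopologicalSpace Γ] [IsTopologicalGroup Γ]
  [MulSemiringAction Γ Ω] {I : Subgroup Γ} [S : Setting p Ω I] {k : Type} [Field k] [Finite k]
  [Algebra (ZMod p) k]

/-- **The bound for flat classes.** -/
theorem flatBound_of_flat {F : Γ} (hF : FrobData p Ω I F)
    (hgen : ∀ U : Subgroup Γ, IsOpen (U : Set Γ) → I ≤ U → ∀ s, ∃ n : ℕ, (F ^ n)⁻¹ * s ∈ U)
    {r : Γ →* Matrix (Fin 2) (Fin 2) k}
    (hr : ∃ U : Subgroup Γ, IsOpen (U : Set Γ) ∧ ∀ γ ∈ U, r γ = 1)
    (hdet : ∀ γ, (r γ).det = algebraMap (ZMod p) k (eps p Ω I γ)) (hflat : FlatR p Ω I r) :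
    FlatBound p Ω I r := by
  have hgen' : ∀ U : Subgroup Γ, IsOpen (U : Set Γ) → I ≤ U → F ∈ U → U = ⊤ := by
    intro U hU hI hFU
    rw [eq_top_iff]
    intro s _
    obtain ⟨n, hn⟩ := hgen U hU hI s
    have h1 := U.mul_mem (U.pow_mem hFU n) hn
    rwa [mul_inv_cancel_left] at h1
  rcases dichotomy hF hgen hr hdet hflat with ⟨B, r₀, h1, h2⟩ | ⟨B, h1⟩
  · apply FlatBound.of_conj (B := B)
    rw [h1]
    exact flatBound_ss hF hgen' h2.ker h2.det h2.irr h2.flat
  · apply FlatBound.of_conj (B := B)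
    have h2 : OrdRep p Ω I (conjR B r) :=
      ⟨hF.normal, h1.1, h1.2.2, fun σ => by rw [h1.2.1 σ.1 σ.2, eps_eq_omega]⟩
    refine h2.flatBound hF hgen' ?_ (hflat.cjM B)
    obtain ⟨U, hU, hUr⟩ := hr
    refine ⟨U, hU, fun γ hγ => ?_⟩
    change ((B⁻¹ : (Matrix (Fin 2) (Fin 2) k)ˣ) * r γ * B : Matrix (Fin 2) (Fin 2) k) = 1
    rw [hUr γ hγ, mul_one, Units.inv_mul]

end Abs

/-- The bound for the restriction to the decomposition group at `p` of a global representation. -/
theorem flatBound_global {p : ℕ} [hp : Fact p.Prime] (hp2 : p ≠ 2) {k : Type} [Field k] [Finite k]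
    {r : GQ →* M2 k} (hRD : RD p r) :
    haveI := setting_padic (p := p) hp2
    FlatR p (PadicAlgCl p) (inert p) (r.comp (localGaloisToGlobal p)) →
      FlatBound p (PadicAlgCl p) (inert p) (r.comp (localGaloisToGlobal p)) := by
  haveI := setting_padic (p := p) hp2
  intro hflat
  haveI : CharP k p := by
    have h1 := hRD.char
    exact (CharP.charP_iff_prime_eq_zero hp.out).2 h1
  letI : Algebra (ZMod p) k := ZMod.algebra k p
  haveI := neZero_p p (PadicAlgCl p) (inert p)
  obtain ⟨F, hF⟩ := exists_frob (p := p)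
  refine flatBound_of_flat (frobData_of hF) (fun U hU hI s => exists_frob_pow hU hI hF s) ?_ ?_ hflat
  · obtain ⟨L, hL, hLr⟩ := hRD.cont
    haveI : FiniteDimensional ℚ L := hL
    obtain ⟨U, hU, hUL⟩ := exists_open (p := p) L
    exact ⟨U, hU, fun γ hγ => hLr _ (hUL γ hγ)⟩
  · intro γ
    have h1 := hRD.det (localGaloisToGlobal p γ) (eps p (PadicAlgCl p) (inert p) γ).val
      (fun μ hμ => ltg_root hp2 γ μ hμ)
    rw [MonoidHom.comp_apply, h1]
    conv_rhs => rw [← ZMod.natCast_zmod_val (eps p (PadicAlgCl p) (inert p) γ)]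
    rw [map_natCast]

end Fermat.Agent.TWP.Dich
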