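import Fermat.Agent.TWP.StrictPack
import Fermat.Agent.TWP.FlatPack

/-!
The two halves of the final statement.
-/

set_option autoImplicit false

namespace Fermat.Agent.TWP

open Matrix Module IsLocalRing Polynomial
open Fermat.Agent.DefRing (matOfRes mapRep MatCont Red ofMat)

variable {𝒪 : Type} [CommRing 𝒪] [IsDomain 𝒪] [IsDiscreteValuationRing 𝒪]
    [IsAdicComplete (maximalIdeal 𝒪) 𝒪] [Finite (ResidueField 𝒪)]
    {p : ℕ} [hp : Fact p.Prime]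
    {ρbar : ResidualGaloisRep (ResidueField 𝒪)}
    (bbar : Basis (Fin 2) (ResidueField 𝒪) ρbar.V)
    {Smin S₀ : Finset ℕ}

include bbar in
theorem part_strict (hp2 : p ≠ 2) (hRD : RD p (matOfRes ρbar bbar)) (hpSmin : p ∈ Smin)
    (hSS : Smin ⊆ S₀)
    (hmin : ∀ q : ℕ, q.Prime → q ≠ p → (q ∈ Smin ↔ ¬ ρbar.IsUnramifiedAt q)) :
    ∃ r : ℕ, ∀ n : ℕ, ∃ qv : Fin r → ℕ, Function.Injective qv ∧
      (∀ i, (qv i).Prime ∧ qv i ∉ S₀ ∧ p ^ (n + 1) ∣ qv i - 1) ∧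
      (∀ i, ∀ P : ValuationSubring (AlgebraicClosure ℚ), P.LiesOverPrime (qv i) →
        ∀ φ : AlgebraicClosure ℚ ≃ₐ[ℚ] AlgebraicClosure ℚ, P.IsFrobeniusAt φ (qv i) →
          ∃ α β : ResidueField 𝒪, α ≠ β ∧ LinearMap.charpoly (ρbar.ρ φ) = (X - C α) * (X - C β)) ∧
      ∀ DQ : GaloisRep.DeformationRingData 𝒪 ρbar (fun _A _ _ _ ρ =>
          GaloisRep.strictOrdinaryCondition 𝒪 p (Smin ∪ Finset.univ.image qv) ρ ∧
            ∀ q ∈ Smin, q.Prime → q ≠ p → ρ.IsUnipotentOnInertiaAt q),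
        ∃ γ : MvPowerSeries (Fin r) 𝒪 →ₐ[𝒪] DQ.R, Function.Surjective γ :=
  main_abs bbar hp2 hRD hpSmin hSS hmin
    (fun Sig _A _ _ _ ρ => GaloisRep.strictOrdinaryCondition 𝒪 p Sig ρ ∧
            ∀ q ∈ Smin, q.Prime → q ≠ p → ρ.IsUnipotentOnInertiaAt q)
    (fun Sig => stable_strict 𝒪 p Sig Smin)
    (fun _ _ _ _ _ _ h => ⟨h.1.1, h.1.2.2, h.2⟩)
    (fun _ D _ _ _ _ _ he h =>
      strict_hloc hp2 hRD (strictOrd_equiv he D.isOfType.1.2.1) h)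

include bbar in
theorem part_flat (hp2 : p ≠ 2) (hRD : RD p (matOfRes ρbar bbar)) (hpSmin : p ∈ Smin)
    (hSS : Smin ⊆ S₀)
    (hmin : ∀ q : ℕ, q.Prime → q ≠ p → (q ∈ Smin ↔ ¬ ρbar.IsUnramifiedAt q))
    (hFL : haveI := Flat.setting_padic (p := p) hp2
      Flat.FlatR p (PadicAlgCl p) (Flat.Loc.inert p)
        ((matOfRes ρbar bbar).comp (localGaloisToGlobal p)) →
      Flat.FlatBound p (PadicAlgCl p) (Flat.Loc.inert p)
        ((matOfRes ρbar bbar).comp (localGaloisToGlobal p))) :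
    ∃ r : ℕ, ∀ n : ℕ, ∃ qv : Fin r → ℕ, Function.Injective qv ∧
      (∀ i, (qv i).Prime ∧ qv i ∉ S₀ ∧ p ^ (n + 1) ∣ qv i - 1) ∧
      (∀ i, ∀ P : ValuationSubring (AlgebraicClosure ℚ), P.LiesOverPrime (qv i) →
        ∀ φ : AlgebraicClosure ℚ ≃ₐ[ℚ] AlgebraicClosure ℚ, P.IsFrobeniusAt φ (qv i) →
          ∃ α β : ResidueField 𝒪, α ≠ β ∧ LinearMap.charpoly (ρbar.ρ φ) = (X - C α) * (X - C β)) ∧
      ∀ DQ : GaloisRep.DeformationRingData 𝒪 ρbar (fun _A _ _ _ ρ =>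
          GaloisRep.flatCondition 𝒪 p (Smin ∪ Finset.univ.image qv) ρ ∧
            ∀ q ∈ Smin, q.Prime → q ≠ p → ρ.IsUnipotentOnInertiaAt q),
        ∃ γ : MvPowerSeries (Fin r) 𝒪 →ₐ[𝒪] DQ.R, Function.Surjective γ :=
  main_abs bbar hp2 hRD hpSmin hSS hmin
    (fun Sig _A _ _ _ ρ => GaloisRep.flatCondition 𝒪 p Sig ρ ∧
            ∀ q ∈ Smin, q.Prime → q ≠ p → ρ.IsUnipotentOnInertiaAt q)
    (fun Sig => stable_flat 𝒪 p Sig Smin)
    (fun _ _ _ _ _ _ h => ⟨h.1.1, h.1.2.2, h.2⟩)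
    (fun _ D _ _ _ hπ _ he h =>
      flat_hloc hp2 hRD (flat_equiv he D.isOfType.1.2.1) hπ h
        (hFL (flatR_residual hp2 (flat_equiv he D.isOfType.1.2.1) hπ h.red ⟨by
          intro x hx
          by_contra hcon
          have h1 := (h.ker x).2 ((mem_maximalIdeal x).2 hcon)
          rw [h1] at hx
          exact not_isUnit_zero hx⟩)))

end Fermat.Agent.TWP
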