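import Fermat.Agent.TWP.Tan

/-!
Assembly: power series rings surject onto the deformation rings.
-/

set_option autoImplicit false

namespace Fermat.Agent.TWP

open Matrix Module IsLocalRing Fermat.Agent.PT Fermat.Agent.PTC
open Fermat.Agent.DefRing (matOfRes mapRep MatCont Red ofMat)
open scoped Pointwise

section of

variable {𝒪 : Type} [CommRing 𝒪] [IsDomain 𝒪] [IsDiscreteValuationRing 𝒪]
    [IsAdicComplete (maximalIdeal 𝒪) 𝒪]
    {ρbar : ResidualGaloisRep (ResidueField 𝒪)}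
    {𝒟 : ∀ ⦃A : Type⦄ [CommRing A] [IsLocalRing A] [Algebra 𝒪 A], GaloisRepAdic A → Prop}
    (D : GaloisRep.DeformationRingData 𝒪 ρbar 𝒟)
    (bbar : Basis (Fin 2) (ResidueField 𝒪) ρbar.V)

lemma charpoly_ofMat {A : Type} [CommRing A] [IsLocalRing A] {r : GQ →* M2 A} (hc : MatCont A r)
    (σ : GQ) : LinearMap.charpoly ((ofMat r hc).ρ σ) = (r σ).charpoly :=
  Matrix.charpoly_toLin' (r σ)

lemma det_ofMat {A : Type} [CommRing A] [IsLocalRing A] {r : GQ →* M2 A} (hc : MatCont A r)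
    (σ : GQ) : LinearMap.det ((ofMat r hc).ρ σ) = (r σ).det :=
  LinearMap.det_toLin' (r σ)

lemma eq_one_ofMat {A : Type} [CommRing A] [IsLocalRing A] {r : GQ →* M2 A} (hc : MatCont A r)
    {σ : GQ} (h : (ofMat r hc).ρ σ = 1) : r σ = 1 := by
  have h1 : Matrix.toLinAlgEquiv' (r σ) = (1 : (Fin 2 → A) →ₗ[A] (Fin 2 → A)) := h
  rw [← map_one (Matrix.toLinAlgEquiv' (R := A) (n := Fin 2))] at h1
  exact Matrix.toLinAlgEquiv'.injective h1

/-- the exponent of the cyclotomic character -/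
lemma exists_exp (p : ℕ) [Fact p.Prime] (σ : GQ) :
    ∃ a : ℕ, ∀ μ : Qb, μ ^ p ^ 1 = 1 → σ μ = μ ^ a :=
  ⟨_, fun μ hμ => cyclo_spec p σ (by rwa [pow_one] at hμ)⟩

theorem exists_MDef {p : ℕ} [hp : Fact p.Prime] {Sig Smin : Finset ℕ}
    (hdet : D.ρ.DetIsCyclotomic p)
    (hunr : ∀ q : ℕ, q.Prime → q ∉ Sig → D.ρ.IsUnramifiedAt q)
    (hunip : ∀ q ∈ Smin, q.Prime → q ≠ p → D.ρ.IsUnipotentOnInertiaAt q) :
    ∃ (π : D.R →+* ResidueField 𝒪) (r : GQ →* M2 D.R) (hc : MatCont D.R r),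
      (∀ o, π (algebraMap 𝒪 D.R o) = residue 𝒪 o) ∧
      Red (matOfRes ρbar bbar) r ∧ D.ρ.IsEquiv (ofMat r hc) ∧
      MDef 𝒪 p Sig Smin π r (matOfRes ρbar bbar) := by
  obtain ⟨π, hπ, hker⟩ := exists_pi D.residue_surjective D.instIsLocalHom
  obtain ⟨r, hc, hr, he⟩ := Fermat.Agent.DefRing.exists_red ρbar bbar
    (ResidueField.map (algebraMap 𝒪 D.R)) (fun o => ResidueField.map_residue _ o) D.ρ
    D.residual_isEquiv
  refine ⟨π, r, hc, hπ, hr, he, ⟨hker, hc, ?_, ?_, ?_, ?_⟩⟩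
  · intro σ
    ext i j
    show π (r σ i j) = _
    obtain ⟨o, ho⟩ := residue_surjective (R := 𝒪) (matOfRes ρbar bbar σ i j)
    have h1 := (hker _).2 (hr σ i j o ho)
    rw [map_sub, sub_eq_zero, hπ, ho] at h1
    exact h1
  · intro σ
    obtain ⟨a, ha⟩ := exists_exp p σ
    have h1 := (det_equiv he hdet).2 1 σ a ha
    rw [det_ofMat, pow_one, Ideal.mem_span_singleton'] at h1
    obtain ⟨y, hy⟩ := h1
    refine ⟨a, y, ?_⟩
    rw [mul_comm, hy]; ring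
  · intro q hq hqS A hA σ hσ
    exact eq_one_ofMat hc (unram_equiv he (hunr q hq hqS) A hA σ hσ)
  · intro q hqS hq hqp A hA σ hσ
    have h1 := unip_equiv he (hunip q hqS hq hqp) A hA σ hσ
    rw [charpoly_ofMat] at h1
    rw [Matrix.charpoly_fin_two] at h1
    have h2 : ((Polynomial.X - 1) ^ 2 : Polynomial D.R) = Polynomial.X ^ 2 -
        Polynomial.C 2 * Polynomial.X + Polynomial.C 1 := by
      have : (Polynomial.C 2 : Polynomial D.R) = 2 := rfl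
      rw [this, Polynomial.C_1]; ring
    rw [h2] at h1
    have c0 := congrArg (fun P => Polynomial.coeff P 0) h1
    have c1 := congrArg (fun P => Polynomial.coeff P 1) h1
    simp [Polynomial.coeff_one] at c0 c1
    exact ⟨c1, c0⟩

end of

section sel

variable {k : Type} [Field k] {p : ℕ} [hp : Fact p.Prime] {rbar : GQ →* M2 k}
variable {n : ℕ} {S : Finset Nat.Primes} {m : ℕ} {q : Fin m → Nat.Primes} {τ : Fin m → GQ}

/-- the family of local conditions -/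
lemma exists_T (F : IntermediateField ℚ Qb) (hFn : ∀ σ : GQ, ∀ x ∈ F, σ x ∈ F)
    (hpS : ExtCitation.pPrime p ∈ S)
    (Tp : AddSubgroup (H1 (allL.comap (rl (ExtCitation.pPrime p)))
      ((twAct 1 rbar).comp (rl (ExtCitation.pPrime p))))) :
    ∃ T : ∀ v : ↥(SQ S q), AddSubgroup (H1 (allL.comap (rl v.1)) ((twAct 1 rbar).comp (rl v.1))),
      (∀ v : ↥(SQ S q), v.1 ∉ S → T v = ⊤) ∧
      (∀ v : ↥(SQ S q), v.1 ∈ S → v.1 ≠ ExtCitation.pPrime p → T v = locT v.1 F hFn rbar) ∧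
      T ⟨ExtCitation.pPrime p, subset_SQ hpS⟩ = Tp := by
  classical
  refine ⟨fun v => if hv : v.1 = ExtCitation.pPrime p then hv ▸ Tp else
      if v.1 ∈ S then locT v.1 F hFn rbar else ⊤, ?_, ?_, ?_⟩
  · intro v hv
    have h1 : v.1 ≠ ExtCitation.pPrime p := fun h1 => hv (h1 ▸ hpS)
    beta_reduce
    rw [dif_neg h1, if_neg hv]
  · intro v hv h1
    beta_reduce
    rw [dif_neg h1, if_pos hv]
  · beta_reduce
    rw [dif_pos rfl]

/-- the Selmer group -/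
theorem exists_sel [Finite k] (hr : RD p rbar) (hp2 : p ≠ 2) (hrS : UnrOut S rbar)
    (hTW : TWSet p rbar n S m q τ) (hpS : ExtCitation.pPrime p ∈ S)
    (hEC : (Nat.card k : ℝ) * chi (sL (SQ S q)) (dualAct (muA p) (twAct 1 rbar)) ≤ 1)
    (F : IntermediateField ℚ Qb) [FiniteDimensional ℚ F] (hFn : ∀ σ : GQ, ∀ x ∈ F, σ x ∈ F)
    (Tp : AddSubgroup (H1 (allL.comap (rl (ExtCitation.pPrime p)))
      ((twAct 1 rbar).comp (rl (ExtCitation.pPrime p)))))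
    (hTp : Nat.card Tp ≤ Nat.card k *
      Nat.card (H0 ((twAct 1 rbar).comp (rl (ExtCitation.pPrime p))))) :
    ∃ Sel : AddSubgroup (H1 (sL (SQ S q)) (twAct 1 rbar)), Finite Sel ∧
      Nat.card Sel ≤ Nat.card k ^ m ∧
      ∀ x : H1 (sL (SQ S q)) (twAct 1 rbar),
        (∀ v : ↥(SQ S q), v.1 ∈ S → v.1 ≠ ExtCitation.pPrime p →
          ((ptd (SQ S q)).loc v (twAct 1 rbar)).h1 x ∈ locT v.1 F hFn rbar) →
        ((ptd (SQ S q)).loc ⟨ExtCitation.pPrime p, subset_SQ hpS⟩ (twAct 1 rbar)).h1 x ∈ Tp →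
        x ∈ Sel := by
  obtain ⟨T, hT1, hT2, hT3⟩ := exists_T (q := q) F hFn hpS Tp
  have H := Fermat.Agent.PTGlob.ptHyp (S := SQ S q) hp2 (subset_SQ hpS)
  have hfin1 : Finite (H1 (sL (SQ S q)) (twAct 1 rbar)) :=
    (H.finite (smooth_SQ (q := q) hrS) (ad0_torsion hr.char)).h1
  refine ⟨selL (ptd (SQ S q)) (twAct 1 rbar) T, Subtype.finite, ?_, ?_⟩
  · refine count_le hr hp2 hrS hTW hpS hEC T hT1 ?_ ?_
    · rintro ⟨v, hv⟩ h1
      have h1' : v = ExtCitation.pPrime p := h1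
      subst h1'
      rw [hT3]
      exact hTp
    · intro v hv h1
      rw [hT2 v hv h1]
      exact card_locT_le v.1 F hFn hr.cont
  · intro x hx1 hx2 v
    by_cases h3 : v.1 ∈ S
    · by_cases h1 : v.1 = ExtCitation.pPrime p
      · obtain ⟨v, hv⟩ := v
        have h1' : v = ExtCitation.pPrime p := h1
        subst h1'
        rw [hT3]
        exact hx2
      · rw [hT2 v h3 h1]
        exact hx1 v h3 h1
    · rw [hT1 v h3]
      exact AddSubgroup.mem_top _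

end sel

section main

variable {𝒪 : Type} [CommRing 𝒪] [IsDomain 𝒪] [IsDiscreteValuationRing 𝒪]
    [IsAdicComplete (maximalIdeal 𝒪) 𝒪] [Finite (ResidueField 𝒪)]
    {ρbar : ResidualGaloisRep (ResidueField 𝒪)}
    {𝒟 : ∀ ⦃A : Type⦄ [CommRing A] [IsLocalRing A] [Algebra 𝒪 A], GaloisRepAdic A → Prop}
    (h𝒟 : StableCond 𝒪 𝒟) (D : GaloisRep.DeformationRingData 𝒪 ρbar 𝒟)
    (bbar : Basis (Fin 2) (ResidueField 𝒪) ρbar.V)

include h𝒟 in
/-- injectivity of the map from derivations to classes -/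
theorem eq_of_class {p : ℕ} {Sig Smin : Finset ℕ} {S : Finset Nat.Primes}
    {π : D.R →+* ResidueField 𝒪} {r : GQ →* M2 D.R} (hc : MatCont D.R r)
    (hπ : ∀ o, π (algebraMap 𝒪 D.R o) = residue 𝒪 o)
    (hr : Red (matOfRes ρbar bbar) r) (he : D.ρ.IsEquiv (ofMat r hc))
    (h : MDef 𝒪 p Sig Smin π r (matOfRes ρbar bbar))
    {δ δ' : D.R → ResidueField 𝒪} (hδ : IsDer 𝒪 π δ) (hδ' : IsDer 𝒪 π δ')
    {f f' : Z1 (sL S) (twAct 1 (matOfRes ρbar bbar))}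
    (hf : ∀ σ, ((f.1 σ : ad0 (ResidueField 𝒪)) : M2 (ResidueField 𝒪)) =
        psi r (matOfRes ρbar bbar) δ σ)
    (hf' : ∀ σ, ((f'.1 σ : ad0 (ResidueField 𝒪)) : M2 (ResidueField 𝒪)) =
        psi r (matOfRes ρbar bbar) δ' σ)
    (hff : H1.mk (sL S) (twAct 1 (matOfRes ρbar bbar)) f = H1.mk _ _ f') : δ = δ' := by
  rw [← sub_eq_zero, ← map_sub] at hff
  obtain ⟨X, hX⟩ := H1.mk_eq_zero.1 hff
  have hsub : IsDer 𝒪 π (fun x => δ x - δ' x) := by
    refine ⟨fun x y => ?_, fun x y => ?_, fun o => ?_⟩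
    · rw [hδ.add, hδ'.add]; ring
    · rw [hδ.mul, hδ'.mul]; ring
    · rw [hδ.alg, hδ'.alg, sub_zero]
  have h3 := der_eq_zero h𝒟 D bbar π hπ r hc hr h.red he _ hsub (X.1 : M2 (ResidueField 𝒪)) (by
    intro σ
    rw [psi_sub, ← hf, ← hf']
    have h4 := congrFun hX σ
    have h5 : ((d0 (twAct 1 (matOfRes ρbar bbar)) X σ : ad0 (ResidueField 𝒪)) :
        M2 (ResidueField 𝒪)) = (1 : GQ →* ResidueField 𝒪) σ • (matOfRes ρbar bbar σ * X.1 *
          matOfRes ρbar bbar σ⁻¹) - X.1 := rfl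
    rw [MonoidHom.one_apply, one_smul] at h5
    rw [← h5, h4]
    rfl)
  funext x
  exact sub_eq_zero.mp (congrFun h3 x)

include h𝒟 in
/-- **The main counting step**, with an abstract local condition at `p`. -/
theorem surj_of_local {p : ℕ} [hp : Fact p.Prime] (hp2 : p ≠ 2) {Sig Smin : Finset ℕ}
    (hRD : RD p (matOfRes ρbar bbar)) {n m : ℕ} {S : Finset Nat.Primes} {q : Fin m → Nat.Primes}
    {τ : Fin m → GQ} (hrS : UnrOut S (matOfRes ρbar bbar))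
    (hTW : TWSet p (matOfRes ρbar bbar) n S m q τ) (hpS : ExtCitation.pPrime p ∈ S)
    (hEC : (Nat.card (ResidueField 𝒪) : ℝ) *
      chi (sL (SQ S q)) (dualAct (muA p) (twAct 1 (matOfRes ρbar bbar))) ≤ 1)
    (hSig : ∀ v : Nat.Primes, (v : ℕ) ∈ Sig → v ∈ SQ S q)
    (hSm : ∀ v ∈ S, (v : ℕ) ≠ p → (v : ℕ) ∈ Sig → (v : ℕ) ∈ Smin ∧
      ∃ σ ∈ (Pl v).inertiaSubgroupIn ℚ, matOfRes ρbar bbar σ ≠ 1)
    {π : D.R →+* ResidueField 𝒪} {r : GQ →* M2 D.R} (hc : MatCont D.R r)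
    (hπ : ∀ o, π (algebraMap 𝒪 D.R o) = residue 𝒪 o)
    (hr : Red (matOfRes ρbar bbar) r) (he : D.ρ.IsEquiv (ofMat r hc))
    (h : MDef 𝒪 p Sig Smin π r (matOfRes ρbar bbar))
    (Tp : AddSubgroup (H1 (allL.comap (rl (ExtCitation.pPrime p)))
      ((twAct 1 (matOfRes ρbar bbar)).comp (rl (ExtCitation.pPrime p)))))
    (hTp : Nat.card Tp ≤ Nat.card (ResidueField 𝒪) *
      Nat.card (H0 ((twAct 1 (matOfRes ρbar bbar)).comp (rl (ExtCitation.pPrime p)))))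
    (hloc : ∀ (δ : D.R → ResidueField 𝒪) (_ : IsDer 𝒪 π δ)
      (f : Z1 (sL (SQ S q)) (twAct 1 (matOfRes ρbar bbar)))
      (_ : ∀ σ, ((f.1 σ : ad0 (ResidueField 𝒪)) : M2 (ResidueField 𝒪)) =
        psi r (matOfRes ρbar bbar) δ σ),
      ((ptd (SQ S q)).loc ⟨ExtCitation.pPrime p, subset_SQ hpS⟩
        (twAct 1 (matOfRes ρbar bbar))).h1
        (H1.mk (sL (SQ S q)) (twAct 1 (matOfRes ρbar bbar)) f) ∈ Tp) :
    ∃ γ : MvPowerSeries (Fin m) 𝒪 →ₐ[𝒪] D.R, Function.Surjective γ := by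
  obtain ⟨F, hF, hFn, hFL⟩ := h.exists_level
  obtain ⟨Sel, hSel, hcard, hmem⟩ := exists_sel hRD hp2 hrS hTW hpS hEC F hFn Tp hTp
  -- the injection
  have hex : ∀ δ : {δ : D.R → ResidueField 𝒪 // IsDer 𝒪 π δ},
      ∃ f : Z1 (sL (SQ S q)) (twAct 1 (matOfRes ρbar bbar)), ∀ σ,
        ((f.1 σ : ad0 (ResidueField 𝒪)) : M2 (ResidueField 𝒪)) =
          psi r (matOfRes ρbar bbar) δ.1 σ :=
    fun δ => h.exists_Z1 hSig hRD.char δ.2
  choose f hf using hex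
  have hmem' : ∀ δ, H1.mk (sL (SQ S q)) (twAct 1 (matOfRes ρbar bbar)) (f δ) ∈ Sel := by
    intro δ
    refine hmem _ ?_ (hloc δ.1 δ.2 (f δ) (hf δ))
    intro v h3 h1
    have hvp : (v.1 : ℕ) ≠ p := fun h4 => h1 (Subtype.ext h4)
    have hX : ∃ X : M2 (ResidueField 𝒪), X.trace = 0 ∧
        ∀ σ ∈ (Pl v.1).inertiaSubgroupIn ℚ, psi r (matOfRes ρbar bbar) δ.1 σ =
          matOfRes ρbar bbar σ * X * matOfRes ρbar bbar σ⁻¹ - X := by
      by_cases h5 : (v.1 : ℕ) ∈ Sig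
      · obtain ⟨h6, h7⟩ := hSm v.1 h3 hvp h5
        exact h.loc_unip hRD.char (hRD.two_ne hp2) δ.2 hvp h6 h7
      · exact ⟨0, trace_zero _ _, h.loc_unr δ.2 h5⟩
    obtain ⟨X, hX1, hX2⟩ := hX
    exact mem_locT F hFn v (f δ) (fun σ hσ => h.rbar_eq_one (hFL σ hσ))
      (fun σ hσ => by rw [hf]; exact h.psi_eq_zero δ.2 (hFL σ hσ)) hX1
      (fun σ hσ => by rw [hf]; exact hX2 σ hσ)
  exact exists_surj_of_der π hπ m hcard (fun δ => (⟨_, hmem' δ⟩ : Sel))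
    (fun δ δ' hδ => Subtype.ext (eq_of_class h𝒟 D bbar hc hπ hr he h δ.2 δ'.2 (hf δ) (hf δ')
      (congrArg Subtype.val hδ)))

end main

end Fermat.Agent.TWP
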