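import Mathlib

set_option autoImplicit false

/-!
Trace identities: a first order deformation of an `SL₂`-representation whose trace is constant on
regular elements has constant trace.
-/

namespace Fermat.Agent.TWP

/-- `t + ε f` is the trace function of a representation in `SL₂(k[ε])`. -/
structure TP {N : Type*} [Group N] {k : Type*} [Field k] (t f : N → k) : Prop where
  t1 : t 1 = 2
  f1 : f 1 = 0
  tc : ∀ a b, t (a * b) = t (b * a)
  fc : ∀ a b, f (a * b) = f (b * a)
  tt : ∀ a b, t (a * b) + t (a * b⁻¹) = t a * t b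
  ff : ∀ a b, f (a * b) + f (a * b⁻¹) = t b * f a + t a * f b

namespace TP

variable {N : Type*} [Group N] {k : Type*} [Field k] {t f : N → k}

lemma t_inv (h : TP t f) (a : N) : t a⁻¹ = t a := by
  have := h.tt 1 a
  rw [one_mul, one_mul, h.t1] at this
  linear_combination this

lemma f_inv (h : TP t f) (a : N) : f a⁻¹ = f a := by
  have := h.ff 1 a
  rw [one_mul, one_mul, h.t1, h.f1] at this
  linear_combination this

lemma t_sq (h : TP t f) (a : N) : t (a * a) = t a ^ 2 - 2 := by
  have := h.tt a a
  rw [mul_inv_cancel, h.t1] at this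
  linear_combination this

lemma f_sq (h : TP t f) (a : N) : f (a * a) = 2 * t a * f a := by
  have := h.ff a a
  rw [mul_inv_cancel, h.f1] at this
  linear_combination this

/-- `t (b * a ^ n) = t b + n * c` -/
lemma t_pow (h : TP t f) {a b : N} (ha : t a = 2) (n : ℕ) :
    t (b * a ^ n) = t b + n * (t (b * a) - t b) := by
  induction n using Nat.strong_induction_on with
  | _ n ih =>
    match n with
    | 0 => simp
    | 1 => simp
    | n + 2 =>
      have h1 := h.tt (b * a ^ (n + 1)) a
      rw [mul_assoc b, ← pow_succ, mul_assoc, pow_succ a n, mul_assoc (a ^ n), mul_inv_cancel,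
        mul_one, ha] at h1
      rw [ih n (by omega)] at h1
      rw [← pow_succ, ih (n + 1) (by omega)] at h1
      push_cast at h1 ⊢
      linear_combination h1

lemma t_pow_self (h : TP t f) {a : N} (ha : t a = 2) (n : ℕ) : t (a ^ n) = 2 := by
  have := h.t_pow (b := 1) ha n
  rw [one_mul, one_mul, h.t1, ha] at this
  rw [this]; ring

lemma f_pow_self (h : TP t f) {a : N} (ha : t a = 2) (n : ℕ) : f (a ^ n) = n ^ 2 * f a := by
  induction n using Nat.strong_induction_on with
  | _ n ih =>
    match n with
    | 0 => simp [h.f1]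
    | 1 => simp
    | n + 2 =>
      have h1 := h.ff (a ^ (n + 1)) a
      rw [← pow_succ, pow_succ a n, mul_assoc (a ^ n), mul_inv_cancel, mul_one, ha] at h1
      rw [← pow_succ, h.t_pow_self ha, ih n (by omega), ih (n + 1) (by omega)] at h1
      push_cast at h1 ⊢
      linear_combination h1

/-- the generic argument -/
lemma generic (h : TP t f) (h2 : (2 : k) ≠ 0) (hreg : ∀ a, t a ^ 2 ≠ 4 → f a = 0) {u v : N}
    (hu : t u = 2) (hv : t v = 2) {c : k} (hc : t (u * v) = 2 + c)
    (c0 : c ≠ 0) (c1 : c ≠ -1) (c2 : c ≠ -2) (c3 : c ≠ -4) (c4 : c ≠ 2) : f u = 0 := by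
  -- τ = v u v
  have e1 : t (v * u * v) = 2 + 2 * c := by
    rw [h.tc, ← mul_assoc, h.tc]
    have := h.t_pow (b := u) hv 2
    rw [pow_two, hc, hu] at this
    rw [this]; push_cast; ring
  have e2 : t (u * (v * u * v)) = 2 + 4 * c + c ^ 2 := by
    have : u * (v * u * v) = (u * v) * (u * v) := by group
    rw [this, h.t_sq, hc]; ring
  have e3 : t (u * (v * u * v)⁻¹) = 2 - c ^ 2 := by
    have := h.tt u (v * u * v)
    rw [e1, e2, hu] at this
    linear_combination this
  have r1 : f (v * u * v) = 0 := by
    apply hreg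
    rw [e1]
    intro h'
    have : 2 * 2 * (c * (c + 2)) = 0 := by linear_combination h'
    rcases mul_eq_zero.mp this with h5 | h5
    · exact mul_ne_zero h2 h2 h5
    · rcases mul_eq_zero.mp h5 with h6 | h6
      · exact c0 h6
      · exact c2 (by linear_combination h6)
  have r2 : f (u * (v * u * v)) = 0 := by
    apply hreg
    rw [e2]
    intro h'
    have : c * (c + 4) * (c + 2) ^ 2 = 0 := by linear_combination h'
    rcases mul_eq_zero.mp this with h5 | h5
    · rcases mul_eq_zero.mp h5 with h6 | h6
      · exact c0 h6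
      · exact c3 (by linear_combination h6)
    · exact c2 (by linear_combination (pow_eq_zero_iff two_ne_zero |>.mp h5))
  have r3 : f (u * (v * u * v)⁻¹) = 0 := by
    apply hreg
    rw [e3]
    intro h'
    have : c ^ 2 * ((c - 2) * (c + 2)) = 0 := by linear_combination h'
    rcases mul_eq_zero.mp this with h5 | h5
    · exact c0 (pow_eq_zero_iff two_ne_zero |>.mp h5)
    · rcases mul_eq_zero.mp h5 with h6 | h6
      · exact c4 (by linear_combination h6)
      · exact c2 (by linear_combination h6)
  have := h.ff u (v * u * v)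
  rw [r1, r2, r3, e1, hu] at this
  have h8 : 2 * (1 + c) * f u = 0 := by linear_combination -this
  rcases mul_eq_zero.mp h8 with h9 | h9
  · rcases mul_eq_zero.mp h9 with h10 | h10
    · exact absurd h10 h2
    · exact absurd (by linear_combination h10 : c = -1) c1
  · exact h9

/-- characteristic at least 7 -/
lemma large (h : TP t f) {p : ℕ} [CharP k p] (hp7 : 7 ≤ p)
    (hreg : ∀ a, t a ^ 2 ≠ 4 → f a = 0) {u v : N}
    (hu : t u = 2) (hv : t v = 2) {c : k} (hc : t (u * v) = 2 + c) (c0 : c ≠ 0) : f u = 0 := by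
  classical
  have hcast : ∀ n : ℕ, 0 < n → n < p → (n : k) ≠ 0 := by
    intro n hn hnp h0
    rw [CharP.cast_eq_zero_iff k p] at h0
    exact absurd (Nat.le_of_dvd hn h0) (by omega)
  have h2 : (2 : k) ≠ 0 := by exact_mod_cast hcast 2 (by norm_num) (by omega)
  obtain ⟨s, hs1, hs5, hs⟩ : ∃ s : ℕ, 1 ≤ s ∧ s ≤ 5 ∧
      (s : k) * c ∉ ({-1, -2, -4, 2} : Finset k) := by
    by_contra hcon
    push Not at hcon
    obtain ⟨i, hi, j, hj, hij, heq⟩ := Finset.exists_ne_map_eq_of_card_lt_of_maps_to
      (s := Finset.Icc 1 5) (t := ({-1, -2, -4, 2} : Finset k)) (f := fun s : ℕ => (s : k) * c)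
      (lt_of_le_of_lt Finset.card_le_four (by simp)) (fun s hs => by
        rw [Finset.coe_Icc, Set.mem_Icc] at hs
        exact hcon s hs.1 hs.2)
    have h3 := mul_right_cancel₀ c0 heq
    rw [Finset.mem_Icc] at hi hj
    rcases lt_or_gt_of_ne hij with hlt | hlt
    · apply hcast (j - i) (by omega) (by omega)
      rw [Nat.cast_sub hlt.le, h3, sub_self]
    · apply hcast (i - j) (by omega) (by omega)
      rw [Nat.cast_sub hlt.le, h3, sub_self]
  simp only [Finset.mem_insert, Finset.mem_singleton, not_or] at hs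
  have hs0 : (s : k) ≠ 0 := hcast s (by omega) (by omega)
  have e : t (u ^ s * v) = 2 + s * c := by
    rw [h.tc, h.t_pow hu, h.tc v u, hc, hv]; ring
  have := h.generic h2 hreg (h.t_pow_self hu s) hv e (mul_ne_zero hs0 c0) hs.1 hs.2.1 hs.2.2.1
    hs.2.2.2
  rw [h.f_pow_self hu] at this
  exact (mul_eq_zero.mp this).resolve_left (pow_ne_zero 2 hs0)

/-- characteristic three, `c = 1` -/
lemma three_one (h : TP t f) [CharP k 3]
    (hreg : ∀ a, t a ^ 2 ≠ 4 → f a = 0) {u v : N}
    (hu : t u = 2) (hv : t v = 2) (hc : t (u * v) = 2 + 1) : f u = 0 := by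
  have h3 : (3 : k) = 0 := by exact_mod_cast (CharP.cast_eq_zero k 3)
  have h40 : (4 : k) ≠ 0 := by
    intro h4
    have : (1 : k) = 0 := by linear_combination h4 - h3
    exact one_ne_zero this
  have e0 : t (v * u) = 0 := by rw [h.tc, hc]; linear_combination h3
  have r0 : f (v * u) = 0 := hreg _ (by rw [e0]; simpa using h40.symm)
  have e1 : t (v * u⁻¹) = 4 := by
    have := h.tt v u
    rw [e0, hu, hv] at this
    linear_combination this
  have s1 := h.ff v u
  rw [r0, hu, hv] at s1
  have e2 : t (v * u⁻¹ * u⁻¹) = 0 := by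
    have := h.tt (v * u⁻¹) u
    rw [inv_mul_cancel_right, hv, e1, hu] at this
    linear_combination this + 2 * h3
  have r2 : f (v * u⁻¹ * u⁻¹) = 0 := hreg _ (by rw [e2]; simpa using h40.symm)
  have s2 := h.ff (v * u⁻¹) u
  rw [inv_mul_cancel_right, r2, e1, hu] at s2
  -- f v = 2 f(v u⁻¹) + 4 f u
  linear_combination s2 + 2 * s1 + (3 * f u + f v) * h3

/-- characteristic three -/
lemma three (h : TP t f) [CharP k 3]
    (hreg : ∀ a, t a ^ 2 ≠ 4 → f a = 0) {u v : N}
    (hu : t u = 2) (hv : t v = 2) {c : k} (hc : t (u * v) = 2 + c) (c0 : c ≠ 0) : f u = 0 := by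
  have h3 : (3 : k) = 0 := by exact_mod_cast (CharP.cast_eq_zero k 3)
  have h2 : (2 : k) ≠ 0 := by
    intro h2
    have : (1 : k) = 0 := by linear_combination h3 - h2
    exact one_ne_zero this
  by_cases h1 : c = 1
  · subst h1; exact h.three_one hreg hu hv hc
  by_cases h1' : c = -1
  · subst h1'
    refine h.three_one hreg hu (v := v⁻¹) (by rw [h.t_inv, hv]) ?_
    have := h.tt u v
    rw [hc, hu, hv] at this
    linear_combination this
  · refine h.generic h2 hreg hu hv hc c0 h1' ?_ ?_ ?_
    · intro h'; exact h1 (by linear_combination h' - h3)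
    · intro h'; exact h1' (by linear_combination h' - h3)
    · intro h'; exact h1' (by linear_combination h' + h3)

/-- characteristic five, with a twisted conjugate -/
lemma five (h : TP t f) [CharP k 5]
    (hreg : ∀ a, t a ^ 2 ≠ 4 → f a = 0) {u v : N}
    (hu : t u = 2) (hv : t v = 2) {c : k} (hc : t (u * v) = 2 + c) (c0 : c ≠ 0)
    {a : k} (ha1 : a ≠ 1) (ha2 : a ≠ -1) (hfv : f v = a * f u) : f u = 0 := by
  have h5 : (5 : k) = 0 := by exact_mod_cast (CharP.cast_eq_zero k 5)
  have h2 : (2 : k) ≠ 0 := by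
    intro h2
    have : (1 : k) = 0 := by linear_combination h5 - 2 * h2
    exact one_ne_zero this
  have h40 : (4 : k) ≠ 0 := by
    intro h4
    have : (1 : k) = 0 := by linear_combination h5 - h4
    exact one_ne_zero this
  have h30 : (3 : k) ≠ 0 := by
    intro h4
    have : (1 : k) = 0 := by linear_combination 2 * h4 - h5
    exact one_ne_zero this
  -- helper : if `t (u' * v) ∈ {0, 4}`
  have key : ∀ u' : N, t u' = 2 → (t (u' * v) = 0 ∨ t (u' * v) = 4) → f u' + f v = 0 := by
    intro u' hu' hh
    have e := h.tt u' v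
    rw [hu', hv] at e
    have hr0 : (0 : k) ^ 2 ≠ 4 := by simpa using h40.symm
    have hr4 : (4 : k) ^ 2 ≠ 4 := by
      intro h'
      apply mul_ne_zero h30 h40
      linear_combination h'
    have s := h.ff u' v
    rw [hu', hv] at s
    have hz : f (u' * v) = 0 ∧ f (u' * v⁻¹) = 0 := by
      rcases hh with hh | hh
      · refine ⟨hreg _ (by rw [hh]; exact hr0), hreg _ ?_⟩
        have : t (u' * v⁻¹) = 4 := by linear_combination e - hh
        rw [this]; exact hr4
      · refine ⟨hreg _ (by rw [hh]; exact hr4), hreg _ ?_⟩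
        have : t (u' * v⁻¹) = 0 := by linear_combination e - hh
        rw [this]; exact hr0
    rw [hz.1, hz.2] at s
    have : 2 * (f u' + f v) = 0 := by linear_combination -s
    exact (mul_eq_zero.mp this).resolve_left h2
  by_cases k1 : c = 2 ∨ c = -2
  · have := key u hu (by
      rcases k1 with k1 | k1
      · right; rw [hc, k1]; norm_num
      · left; rw [hc, k1]; ring)
    rw [hfv] at this
    have h6 : (1 + a) * f u = 0 := by linear_combination this
    exact (mul_eq_zero.mp h6).resolve_left (fun h7 => ha2 (by linear_combination h7))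
  by_cases k2 : c = 1 ∨ c = -1
  · have e : t (u ^ 2 * v) = 2 + 2 * c := by
      rw [h.tc, h.t_pow hu, h.tc v u, hc, hv]; push_cast; ring
    have := key (u ^ 2) (h.t_pow_self hu 2) (by
      rcases k2 with k2 | k2
      · right; rw [e, k2]; norm_num
      · left; rw [e, k2]; ring)
    rw [h.f_pow_self hu, hfv] at this
    have h6 : (a - 1) * f u = 0 := by
      push_cast at this
      linear_combination this - h5 * f u
    exact (mul_eq_zero.mp h6).resolve_left (fun h7 => ha1 (by linear_combination h7))
  push Not at k1 k2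
  refine h.generic h2 hreg hu hv hc c0 k2.2 k1.2 ?_ k1.1
  intro h'; exact k2.1 (by linear_combination h' - h5)

end TP

end Fermat.Agent.TWP
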