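import Mathlib
import Fermat.Agent.TWP.TracePair

set_option autoImplicit false

/-!
If a cocycle `ψ` with values in `sl₂(k)(χ)` has `tr (ψ σ r σ) = 0` for all regular `σ ∈ N` then it is
a coboundary.
-/

namespace Fermat.Agent.TWP

open Matrix

abbrev M2 (k : Type*) := Matrix (Fin 2) (Fin 2) k

section Two

variable {k : Type*} [Field k]

lemma add_adj (A : M2 k) : A + A.adjugate = A.trace • (1 : M2 k) := by
  rw [adjugate_fin_two]
  ext i j
  fin_cases i <;> fin_cases j <;> simp [trace_fin_two, add_comm]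

lemma polar {Y B : M2 k} (hY : Y.trace = 0) :
    Y * B + B * Y = B.trace • Y + (Y * B).trace • (1 : M2 k) := by
  rw [trace_fin_two] at hY
  have h1 : Y 1 1 = -Y 0 0 := by linear_combination hY
  ext i j
  fin_cases i <;> fin_cases j <;>
    simp [trace_fin_two, Matrix.mul_apply, Fin.sum_univ_two, h1] <;> ring

lemma trace_nil {N A : M2 k} (h0 : N.trace = 0) (h1 : N.det = 0) :
    (N * A * N * A.adjugate).trace = -(N * A).trace ^ 2 := by
  rw [trace_fin_two] at h0
  rw [det_fin_two] at h1
  have h2 : N 1 1 = -N 0 0 := by linear_combination h0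
  rw [h2] at h1
  have h3 : N 0 1 * N 1 0 = - N 0 0 ^ 2 := by linear_combination -h1
  rw [adjugate_fin_two]
  simp only [trace_fin_two, Matrix.mul_apply, Fin.sum_univ_two, Matrix.of_apply, cons_val_zero,
    cons_val_one, h2, cons_val', cons_val_fin_one]
  linear_combination (A 0 0 ^ 2 + A 1 1 ^ 2 + 2 * A 0 1 * A 1 0) * h3

end Two

section Group

variable {G : Type*} [Group G] {k : Type*} [Field k]

lemma inv_eq_adj (r : G →* M2 k) {g : G} (h : (r g).det = 1) : r g⁻¹ = (r g).adjugate := by
  have h1 : r g * r g⁻¹ = 1 := by rw [← map_mul, mul_inv_cancel, map_one]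
  have h2 : (r g).adjugate * r g = 1 := by rw [adjugate_mul, h, one_smul]
  calc r g⁻¹ = ((r g).adjugate * r g) * r g⁻¹ := by rw [h2, one_mul]
    _ = (r g).adjugate := by rw [mul_assoc, h1, mul_one]

lemma mul_inv_self' (r : G →* M2 k) (g : G) : r g * r g⁻¹ = 1 := by
  rw [← map_mul, mul_inv_cancel, map_one]

lemma inv_mul_self' (r : G →* M2 k) (g : G) : r g⁻¹ * r g = 1 := by
  rw [← map_mul, inv_mul_cancel, map_one]

/-- the trace pair of a cocycle -/
lemma tp_of_cocycle (r : G →* M2 k) (hdet : ∀ g, (r g).det = 1) (ψ : G → M2 k)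
    (htr : ∀ g, (ψ g).trace = 0) (hcoc : ∀ g h, ψ (g * h) = ψ g + r g * ψ h * r g⁻¹) :
    TP (fun g => (r g).trace) (fun g => (ψ g * r g).trace) := by
  have hB : ∀ g h, ψ (g * h) * r (g * h) = ψ g * r g * r h + r g * (ψ h * r h) := by
    intro g h
    rw [hcoc, map_mul, add_mul]
    congr 1
    · rw [mul_assoc]
    · calc r g * ψ h * r g⁻¹ * (r g * r h) = r g * ψ h * (r g⁻¹ * r g) * r h := by noncomm_ring
        _ = _ := by rw [inv_mul_self']; noncomm_ring
  have hψ1 : ψ 1 = 0 := by
    have := hcoc 1 1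
    simp only [mul_one, map_one, inv_one, one_mul] at this
    exact left_eq_add.mp this
  have hsum : ∀ g, r g + r g⁻¹ = (r g).trace • (1 : M2 k) := by
    intro g; rw [inv_eq_adj r (hdet g), add_adj]
  have hinv : ∀ g, ψ g⁻¹ * r g⁻¹ = -(r g⁻¹ * ψ g) := by
    intro g
    have h1 := hB g⁻¹ g
    rw [inv_mul_cancel, map_one, hψ1, zero_mul] at h1
    have h2 : (ψ g⁻¹ * r g⁻¹ * r g + r g⁻¹ * (ψ g * r g)) * r g⁻¹ = 0 := by rw [← h1, zero_mul]
    have h3 : (ψ g⁻¹ * r g⁻¹ * r g + r g⁻¹ * (ψ g * r g)) * r g⁻¹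
        = ψ g⁻¹ * r g⁻¹ * (r g * r g⁻¹) + r g⁻¹ * ψ g * (r g * r g⁻¹) := by noncomm_ring
    rw [h3, mul_inv_self', mul_one, mul_one] at h2
    exact eq_neg_of_add_eq_zero_left h2
  refine ⟨?_, ?_, ?_, ?_, ?_, ?_⟩
  · simp
  · simp [hψ1]
  · intro a b; simp only [map_mul]; exact trace_mul_comm _ _
  · intro a b
    rw [hB, hB, trace_add, trace_add, trace_mul_comm (r a) (ψ b * r b),
      trace_mul_comm (r b) (ψ a * r a), add_comm]
  · intro a b
    rw [map_mul, map_mul, ← trace_add, ← mul_add, hsum, mul_smul_comm, mul_one, trace_smul,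
      smul_eq_mul]
    ring
  · intro a b
    rw [hB, hB, hinv]
    have e : ψ a * r a * r b + r a * (ψ b * r b) + (ψ a * r a * r b⁻¹ + r a * -(r b⁻¹ * ψ b))
        = ψ a * r a * (r b + r b⁻¹) + r a * (ψ b * r b - r b⁻¹ * ψ b) := by noncomm_ring
    have e2 : ψ b * r b - r b⁻¹ * ψ b = (ψ b * r b).trace • (1 : M2 k) := by
      have h5 : r b⁻¹ = (r b).trace • (1 : M2 k) - r b := by rw [← hsum]; abel
      have h6 := polar (Y := ψ b) (B := r b) (htr b)
      rw [h5, sub_mul, smul_mul_assoc, one_mul, sub_sub_eq_add_sub, h6]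
      abel
    rw [← trace_add, e, hsum, e2, trace_add, mul_smul_comm, mul_smul_comm, mul_one, mul_one, trace_smul,
      trace_smul, smul_eq_mul, smul_eq_mul]
    ring

/-- `t (u · g u g⁻¹)` -/
lemma trace_conj (r : G →* M2 k) {u g : G} (hu : (r u).trace = 2) (hdu : (r u).det = 1) :
    (r g).det * ((r (u * (g * u * g⁻¹))).trace - 2) = -((r u - 1) * r g).trace ^ 2 := by
  have hdg : IsUnit (r g).det := by
    have := congrArg Matrix.det (mul_inv_self' r g)
    rw [det_mul, det_one] at this
    exact IsUnit.of_mul_eq_one _ this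
  have hinv : (r g).det • r g⁻¹ = (r g).adjugate := by
    have h2 : (r g).adjugate * r g = (r g).det • (1 : M2 k) := adjugate_mul _
    calc (r g).det • r g⁻¹ = ((r g).det • (1 : M2 k)) * r g⁻¹ := by rw [smul_mul_assoc, one_mul]
      _ = (r g).adjugate * (r g * r g⁻¹) := by rw [← h2, mul_assoc]
      _ = _ := by rw [mul_inv_self', mul_one]
  set N := r u - 1 with hN
  have hNt : N.trace = 0 := by
    rw [hN, trace_sub, hu, trace_one]; simp
  have hNd : N.det = 0 := by
    rw [hN]
    rw [det_fin_two] at hdu ⊢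
    rw [trace_fin_two] at hu
    have q00 : (r u - 1) 0 0 = r u 0 0 - 1 := by simp
    have q01 : (r u - 1) 0 1 = r u 0 1 := by simp
    have q10 : (r u - 1) 1 0 = r u 1 0 := by simp
    have q11 : (r u - 1) 1 1 = r u 1 1 - 1 := by simp
    rw [q00, q01, q10, q11]
    linear_combination hdu - hu
  have hru : r u = 1 + N := by rw [hN]; abel
  have e1 : r (u * (g * u * g⁻¹)) = 1 + N + r g * N * r g⁻¹ + N * r g * N * r g⁻¹ := by
    rw [map_mul, map_mul, map_mul, hru]
    have : (1 + N) * (r g * (1 + N) * r g⁻¹)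
        = r g * r g⁻¹ + N * (r g * r g⁻¹) + r g * N * r g⁻¹ + N * r g * N * r g⁻¹ := by
      noncomm_ring
    rw [this, mul_inv_self', mul_one]
  have e2 : (r g * N * r g⁻¹).trace = 0 := by
    rw [trace_mul_comm, ← mul_assoc, inv_mul_self', one_mul, hNt]
  have e3 : (r g).det * (N * r g * N * r g⁻¹).trace = -(N * r g).trace ^ 2 := by
    rw [← smul_eq_mul, ← trace_smul, ← mul_smul_comm, hinv, trace_nil hNt hNd]
  rw [e1, trace_add, trace_add, trace_add, hNt, e2, trace_one, ← e3]
  simp

section Main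

variable (N : Subgroup G) [N.Normal] (r : G →* M2 k)

/-- `f = 0` on `N`. -/
theorem f_eq_zero {p : ℕ} [CharP k p] (hp : p.Prime) (hp2 : p ≠ 2) (χ : G → k)
    (hdet : ∀ g ∈ N, (r g).det = 1)
    (hND : ∀ X : M2 k, (∀ g ∈ N, (r g * X).trace = 0) → X = 0)
    (h5 : p = 5 → ∃ g, χ g ≠ 1 ∧ χ g ≠ -1) (hχ : ∀ g ∈ N, χ g = 1)
    (hχm : ∀ g h, χ (g * h) = χ g * χ h)
    (ψ : G → M2 k) (htr : ∀ g, (ψ g).trace = 0)
    (hcoc : ∀ g h, ψ (g * h) = ψ g + χ g • (r g * ψ h * r g⁻¹))
    (hreg : ∀ g ∈ N, (r g).trace ^ 2 ≠ 4 → (ψ g * r g).trace = 0) :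
    ∀ g ∈ N, (ψ g * r g).trace = 0 := by
  have h2 : (2 : k) ≠ 0 := by
    intro h
    have : ((2 : ℕ) : k) = 0 := by exact_mod_cast h
    rw [CharP.cast_eq_zero_iff k p] at this
    exact hp2 ((Nat.prime_dvd_prime_iff_eq hp Nat.prime_two).mp this)
  have h4 : (4 : k) ≠ 0 := by
    have : (4 : k) = 2 * 2 := by norm_num
    rw [this]; exact mul_ne_zero h2 h2
  let rN : N →* M2 k := r.comp N.subtype
  have htp : TP (fun g : N => (rN g).trace) (fun g : N => (ψ (g : G) * rN g).trace) := by
    apply tp_of_cocycle rN (fun g => hdet g g.2) (fun g : N => ψ g) (fun g => htr g)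
    intro g h
    have := hcoc g h
    rw [hχ g g.2, one_smul] at this
    exact this
  have hregN : ∀ g : N, (rN g).trace ^ 2 ≠ 4 → (ψ (g : G) * rN g).trace = 0 :=
    fun g hg => hreg g g.2 hg
  have hunit : ∀ g : G, (r g).det ≠ 0 := by
    intro g h0
    have := congrArg Matrix.det (mul_inv_self' r g)
    rw [det_mul, det_one, h0, zero_mul] at this
    exact zero_ne_one this
  have hψ1 : ψ 1 = 0 := by
    have := hcoc 1 1
    rw [hχ 1 N.one_mem] at this
    simp only [mul_one, map_one, inv_one, one_mul, one_smul] at this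
    exact left_eq_add.mp this
  -- behaviour under conjugation
  have hconj : ∀ (g : G) (u : G), u ∈ N →
      (ψ (g * u * g⁻¹) * r (g * u * g⁻¹)).trace = χ g * (ψ u * r u).trace := by
    intro g u hu
    have hc1 : χ g * χ g⁻¹ = 1 := by rw [← hχm, mul_inv_cancel, hχ 1 N.one_mem]
    have hi : ψ g + χ g • (r g * ψ g⁻¹ * r g⁻¹) = 0 := by
      rw [← hcoc, mul_inv_cancel, hψ1]
    have e1 : ψ (g * u * g⁻¹) = ψ g + χ g • (r g * ψ u * r g⁻¹)
        + χ g • (r g * r u * ψ g⁻¹ * (r u⁻¹ * r g⁻¹)) := by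
      rw [hcoc (g * u) g⁻¹, hcoc g u, hχm, hχ u hu, mul_one, map_mul, _root_.mul_inv_rev, map_mul]
    have e2 : χ g • ψ g⁻¹ = -(r g⁻¹ * ψ g * r g) := by
      have h7 : r g⁻¹ * (ψ g + χ g • (r g * ψ g⁻¹ * r g⁻¹)) * r g = 0 := by rw [hi]; simp
      have h8 : r g⁻¹ * (ψ g + χ g • (r g * ψ g⁻¹ * r g⁻¹)) * r g
          = r g⁻¹ * ψ g * r g + χ g • ((r g⁻¹ * r g) * ψ g⁻¹ * (r g⁻¹ * r g)) := by
        rw [mul_add, add_mul, mul_smul_comm, smul_mul_assoc]
        congr 2
        noncomm_ring
      rw [h8, inv_mul_self', one_mul, mul_one] at h7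
      exact eq_neg_of_add_eq_zero_right h7
    have e3 : χ g • (r g * r u * ψ g⁻¹ * (r u⁻¹ * r g⁻¹))
        = -(r (g * u * g⁻¹) * ψ g * r (g * u * g⁻¹)⁻¹) := by
      have : χ g • (r g * r u * ψ g⁻¹ * (r u⁻¹ * r g⁻¹))
          = r g * r u * (χ g • ψ g⁻¹) * (r u⁻¹ * r g⁻¹) := by
        rw [mul_smul_comm, smul_mul_assoc]
      rw [this, e2]
      have h9 : (g * u * g⁻¹)⁻¹ = g * u⁻¹ * g⁻¹ := by group
      rw [h9]
      simp only [map_mul]
      noncomm_ring
    have e4 : r (g * u * g⁻¹)⁻¹ * r (g * u * g⁻¹) = 1 := inv_mul_self' r _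
    rw [e1, e3, add_mul, add_mul, trace_add, trace_add, neg_mul, trace_neg, smul_mul_assoc,
      trace_smul, smul_eq_mul]
    have e5 : (r (g * u * g⁻¹) * ψ g * r (g * u * g⁻¹)⁻¹ * r (g * u * g⁻¹)).trace
        = (ψ g * r (g * u * g⁻¹)).trace := by
      rw [mul_assoc, e4, mul_one, trace_mul_comm]
    have e6 : (r g * ψ u * r g⁻¹ * r (g * u * g⁻¹)).trace = (ψ u * r u).trace := by
      have : r g * ψ u * r g⁻¹ * r (g * u * g⁻¹) = r g * (ψ u * r u) * r g⁻¹ := by
        simp only [map_mul]
        calc r g * ψ u * r g⁻¹ * (r g * r u * r g⁻¹)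
            = r g * ψ u * (r g⁻¹ * r g) * r u * r g⁻¹ := by noncomm_ring
          _ = _ := by rw [inv_mul_self']; noncomm_ring
      rw [this, trace_mul_comm, ← mul_assoc, inv_mul_self', one_mul]
    rw [e5, e6]
    ring
  -- unipotent elements
  have huni : ∀ u ∈ N, (r u).trace = 2 → (ψ u * r u).trace = 0 := by
    intro u hu htu
    by_cases hru : r u = 1
    · rw [hru, mul_one, htr]
    have hN0 : r u - 1 ≠ 0 := sub_ne_zero.mpr hru
    by_cases hp5 : p = 5
    · obtain ⟨g₀, hg1, hg2⟩ := h5 hp5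
      have hX : (r u - 1) * r g₀ ≠ 0 := by
        intro h0
        apply hN0
        calc r u - 1 = (r u - 1) * r g₀ * r g₀⁻¹ := by rw [mul_assoc, mul_inv_self', mul_one]
          _ = 0 := by rw [h0, zero_mul]
      have : ∃ h ∈ N, (r h * ((r u - 1) * r g₀)).trace ≠ 0 := by
        by_contra hcon
        push Not at hcon
        exact hX (hND _ hcon)
      obtain ⟨h, hh, hne⟩ := this
      have hne' : ((r u - 1) * r (g₀ * h)).trace ≠ 0 := by
        rw [map_mul, ← mul_assoc, trace_mul_comm]; exact hne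
      set g := g₀ * h with hg
      have hχg : χ g = χ g₀ := by rw [hg, hχm, hχ h hh, mul_one]
      have hv : g * u * g⁻¹ ∈ N := Subgroup.Normal.conj_mem inferInstance u hu g
      have hc := trace_conj r (g := g) htu (hdet u hu)
      set v : N := ⟨g * u * g⁻¹, hv⟩
      have hc0 : (rN (⟨u, hu⟩ * v)).trace - 2 ≠ 0 := by
        intro h0
        have h0' : (r (u * (g * u * g⁻¹))).trace - 2 = 0 := h0
        rw [h0', mul_zero] at hc
        exact pow_ne_zero 2 hne' (by linear_combination hc)
      subst hp5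
      have htv : (rN v).trace = 2 := by
        show (r (g * u * g⁻¹)).trace = 2
        rw [map_mul, map_mul, trace_mul_comm, ← mul_assoc, inv_mul_self', one_mul, htu]
      have := htp.five hregN (u := ⟨u, hu⟩) (v := v) htu htv
        (c := (rN (⟨u, hu⟩ * v)).trace - 2) (by ring) hc0 (a := χ g) (by rw [hχg]; exact hg1)
        (by rw [hχg]; exact hg2) (hconj g u hu)
      exact this
    · have : ∃ h ∈ N, (r h * (r u - 1)).trace ≠ 0 := by
        by_contra hcon
        push Not at hcon
        exact hN0 (hND _ hcon)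
      obtain ⟨g, hg, hne⟩ := this
      rw [trace_mul_comm] at hne
      have hv : g * u * g⁻¹ ∈ N := Subgroup.Normal.conj_mem inferInstance u hu g
      have hc := trace_conj r (g := g) htu (hdet u hu)
      set v : N := ⟨g * u * g⁻¹, hv⟩
      have hc0 : (rN (⟨u, hu⟩ * v)).trace - 2 ≠ 0 := by
        intro h0
        have h0' : (r (u * (g * u * g⁻¹))).trace - 2 = 0 := h0
        rw [h0', mul_zero] at hc
        exact pow_ne_zero 2 hne (by linear_combination hc)
      have htv : (rN v).trace = 2 := by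
        show (r (g * u * g⁻¹)).trace = 2
        rw [map_mul, map_mul, trace_mul_comm, ← mul_assoc, inv_mul_self', one_mul, htu]
      by_cases hp3 : p = 3
      · subst hp3
        exact htp.three hregN (u := ⟨u, hu⟩) (v := v) htu htv
          (c := (rN (⟨u, hu⟩ * v)).trace - 2) (by ring) hc0
      · have hp7 : 7 ≤ p := by
          by_contra hlt
          push Not at hlt
          interval_cases p <;> first | omega | (revert hp; decide)
        exact htp.large hp7 hregN (u := ⟨u, hu⟩) (v := v) htu htv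
          (c := (rN (⟨u, hu⟩ * v)).trace - 2) (by ring) hc0
  intro g hg
  by_cases hr : (r g).trace ^ 2 = 4
  · have hpm : (r g).trace = 2 ∨ (r g).trace = -2 := by
      have : ((r g).trace - 2) * ((r g).trace + 2) = 0 := by linear_combination hr
      rcases mul_eq_zero.mp this with h | h
      · left; linear_combination h
      · right; linear_combination h
    rcases hpm with h | h
    · exact huni g hg h
    · have e1 := htp.t_sq ⟨g, hg⟩
      have e2 := htp.f_sq ⟨g, hg⟩
      have e3 : (r (g * g)).trace = (r g).trace ^ 2 - 2 := e1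
      have e4 : (ψ (g * g) * r (g * g)).trace = 2 * (r g).trace * (ψ g * r g).trace := e2
      rw [huni (g * g) (N.mul_mem hg hg) (by rw [e3, hr]; norm_num), h] at e4
      have : (4 : k) * (ψ g * r g).trace = 0 := by linear_combination e4
      exact (mul_eq_zero.mp this).resolve_left h4
  · exact hreg g hg hr

omit [N.Normal] in
/-- linear algebra: `r N` spans -/
lemma span_eq_top (hND : ∀ X : M2 k, (∀ g ∈ N, (r g * X).trace = 0) → X = 0) :
    Submodule.span k (Set.range fun g : N => r (g : G)) = ⊤ := by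
  by_contra hne
  obtain ⟨f, hf, hf2⟩ := Submodule.exists_dual_map_eq_bot_of_lt_top (lt_top_iff_ne_top.mpr hne)
    inferInstance
  -- `f = tr (· X)`
  let X : M2 k := Matrix.of fun i j => f (Matrix.single j i 1)
  have hX : ∀ Y : M2 k, f Y = (Y * X).trace := by
    intro Y
    have e : Y = Y 0 0 • Matrix.single 0 0 (1 : k) + Y 0 1 • Matrix.single 0 1 (1 : k)
        + Y 1 0 • Matrix.single 1 0 (1 : k) + Y 1 1 • Matrix.single 1 1 (1 : k) := by
      ext i j
      fin_cases i <;> fin_cases j <;> simp [Matrix.single]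
    conv_lhs => rw [e]
    simp only [map_add, map_smul, smul_eq_mul, trace_fin_two, Matrix.mul_apply,
      Fin.sum_univ_two, X, Matrix.of_apply]
    ring
  have h0 : X = 0 := by
    apply hND
    intro g hg
    rw [← hX]
    have : f (r g) ∈ Submodule.map f (Submodule.span k (Set.range fun g : N => r (g : G))) :=
      Submodule.mem_map_of_mem (Submodule.subset_span ⟨⟨g, hg⟩, rfl⟩)
    rw [hf2] at this
    simpa using this
  apply hf
  ext Y
  rw [hX, h0]
  simp

omit [N.Normal] in
theorem coboundary_on (χ : G → k)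
    (hND : ∀ X : M2 k, (∀ g ∈ N, (r g * X).trace = 0) → X = 0)
    (hχ : ∀ g ∈ N, χ g = 1)
    (ψ : G → M2 k)
    (hcoc : ∀ g h, ψ (g * h) = ψ g + χ g • (r g * ψ h * r g⁻¹))
    (hf : ∀ g ∈ N, (ψ g * r g).trace = 0) :
    ∃ X : M2 k, ∀ g ∈ N, ψ g = X - r g * X * r g⁻¹ := by
  have hspan := span_eq_top N r hND
  let L : (N →₀ k) →ₗ[k] M2 k := Finsupp.linearCombination k (fun g : N => r (g : G))
  let B : (N →₀ k) →ₗ[k] M2 k := Finsupp.linearCombination k (fun g : N => ψ g * r (g : G))
  have hL : Function.Surjective L := by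
    rw [← LinearMap.range_eq_top, Finsupp.range_linearCombination, hspan]
  have hB : ∀ g ∈ N, ∀ h, ψ (g * h) * r (g * h) = ψ g * r g * r h + r g * (ψ h * r h) := by
    intro g hg h
    rw [hcoc, hχ g hg, one_smul, map_mul, add_mul]
    congr 1
    · rw [mul_assoc]
    · calc r g * ψ h * r g⁻¹ * (r g * r h) = r g * ψ h * (r g⁻¹ * r g) * r h := by noncomm_ring
        _ = _ := by rw [inv_mul_self']; noncomm_ring
  have hker : L.ker ≤ B.ker := by
    intro c hc
    rw [LinearMap.mem_ker] at hc ⊢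
    apply hND
    intro g hg
    have h1 : ∀ c : N →₀ k, (r g * B c).trace = -(L c * (ψ g * r g)).trace := by
      intro c
      induction c using Finsupp.induction_linear with
      | zero => simp
      | add x y hx hy => rw [map_add, map_add, mul_add, add_mul, trace_add, trace_add, hx, hy]; ring
      | single n a =>
        simp only [L, B, Finsupp.linearCombination_single, mul_smul_comm, smul_mul_assoc,
          trace_smul, smul_eq_mul]
        have h3 := hf (n * g) (N.mul_mem n.2 hg)
        rw [hB n n.2, trace_add] at h3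
        have h4 : (r g * (ψ n * r n)).trace = (ψ n * r n * r g).trace := trace_mul_comm _ _
        rw [h4]
        linear_combination a * h3
    rw [h1, hc]; simp
  let D : M2 k →ₗ[k] M2 k := (L.ker.liftQ B hker) ∘ₗ
    (L.quotKerEquivOfSurjective hL).symm.toLinearMap
  have hDL : ∀ c, D (L c) = B c := by
    intro c
    simp only [D, LinearMap.comp_apply, LinearEquiv.coe_coe]
    have : (L.quotKerEquivOfSurjective hL).symm (L c) = Submodule.Quotient.mk c := by
      rw [LinearEquiv.symm_apply_eq]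
      simp
    rw [this, Submodule.liftQ_apply]
  have hDr : ∀ g ∈ N, D (r g) = ψ g * r g := by
    intro g hg
    have := hDL (Finsupp.single ⟨g, hg⟩ 1)
    simpa [L, B] using this
  have hder : ∀ g ∈ N, ∀ Z : M2 k, D (r g * Z) = ψ g * r g * Z + r g * D Z := by
    intro g hg Z
    have h1 : Z ∈ Submodule.span k (Set.range fun g : N => r (g : G)) := by
      rw [hspan]; exact Submodule.mem_top
    induction h1 using Submodule.span_induction with
    | mem z hz =>
      obtain ⟨n, rfl⟩ := hz
      simp only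
      rw [← map_mul, hDr _ (N.mul_mem hg n.2), hDr _ n.2, hB g hg]
    | zero => simp
    | add x y _ _ hx hy => rw [mul_add, map_add, hx, hy, map_add]; noncomm_ring
    | smul a x _ hx =>
      rw [mul_smul_comm, map_smul, hx, map_smul, mul_smul_comm, mul_smul_comm, smul_add]
  let X : M2 k := D (Matrix.single 0 0 1) * Matrix.single 0 0 1
    + D (Matrix.single 1 0 1) * Matrix.single 0 1 1
  refine ⟨X, ?_⟩
  intro g hg
  have key : r g * X = X * r g - ψ g * r g := by
    have h00 := hder g hg (Matrix.single 0 0 1)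
    have h10 := hder g hg (Matrix.single 1 0 1)
    have e0 : r g * Matrix.single 0 0 (1 : k) = r g 0 0 • Matrix.single 0 0 (1 : k)
        + r g 1 0 • Matrix.single 1 0 (1 : k) := by
      ext i j
      fin_cases i <;> fin_cases j <;> simp [Matrix.single, Matrix.mul_apply]
    have e1 : r g * Matrix.single 1 0 (1 : k) = r g 0 1 • Matrix.single 0 0 (1 : k)
        + r g 1 1 • Matrix.single 1 0 (1 : k) := by
      ext i j
      fin_cases i <;> fin_cases j <;> simp [Matrix.single, Matrix.mul_apply]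
    rw [e0, map_add, map_smul, map_smul] at h00
    rw [e1, map_add, map_smul, map_smul] at h10
    have e2 : Matrix.single 0 0 (1 : k) * r g = r g 0 0 • Matrix.single 0 0 (1 : k)
        + r g 0 1 • Matrix.single 0 1 (1 : k) := by
      ext i j
      fin_cases i <;> fin_cases j <;> simp [Matrix.single, Matrix.mul_apply]
    have e3 : Matrix.single 0 1 (1 : k) * r g = r g 1 0 • Matrix.single 0 0 (1 : k)
        + r g 1 1 • Matrix.single 0 1 (1 : k) := by
      ext i j
      fin_cases i <;> fin_cases j <;> simp [Matrix.single, Matrix.mul_apply]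
    have e4 : (Matrix.single 0 0 (1 : k) : M2 k) * Matrix.single 0 0 1
        + Matrix.single 1 0 (1 : k) * Matrix.single 0 1 1 = 1 := by
      ext i j
      fin_cases i <;> fin_cases j <;> simp [Matrix.single, Matrix.mul_apply]
    simp only [X]
    have f0 : r g * D (Matrix.single 0 0 1) = r g 0 0 • D (Matrix.single 0 0 1)
        + r g 1 0 • D (Matrix.single 1 0 1) - ψ g * r g * Matrix.single 0 0 1 := by
      rw [h00]; abel
    have f1 : r g * D (Matrix.single 1 0 1) = r g 0 1 • D (Matrix.single 0 0 1)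
        + r g 1 1 • D (Matrix.single 1 0 1) - ψ g * r g * Matrix.single 1 0 1 := by
      rw [h10]; abel
    calc r g * (D (Matrix.single 0 0 1) * Matrix.single 0 0 1
          + D (Matrix.single 1 0 1) * Matrix.single 0 1 1)
        = (r g * D (Matrix.single 0 0 1)) * Matrix.single 0 0 1
          + (r g * D (Matrix.single 1 0 1)) * Matrix.single 0 1 1 := by
          rw [mul_add, mul_assoc, mul_assoc]
      _ = (D (Matrix.single 0 0 1) * (Matrix.single 0 0 (1 : k) * r g)
          + D (Matrix.single 1 0 1) * (Matrix.single 0 1 (1 : k) * r g))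
          - ψ g * r g * ((Matrix.single 0 0 (1 : k) : M2 k) * Matrix.single 0 0 1
            + Matrix.single 1 0 (1 : k) * Matrix.single 0 1 1) := by
          rw [f0, f1, e2, e3]
          simp only [sub_mul, add_mul, mul_add, smul_mul_assoc, mul_smul_comm, mul_assoc]
          abel
      _ = _ := by
          rw [e4, mul_one]
          simp only [add_mul, mul_assoc]
  have h9 : ψ g * r g = X * r g - r g * X := by rw [key]; abel
  calc ψ g = ψ g * r g * r g⁻¹ := by rw [mul_assoc, mul_inv_self', mul_one]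
    _ = (X * r g - r g * X) * r g⁻¹ := by rw [h9]
    _ = X - r g * X * r g⁻¹ := by rw [sub_mul, mul_assoc X, mul_inv_self', mul_one]

/-- **Main group theoretic theorem.** -/
theorem coboundary_of_reg {p : ℕ} [CharP k p] (hp : p.Prime) (hp2 : p ≠ 2) (χ : G → k)
    (hdet : ∀ g ∈ N, (r g).det = 1)
    (hND : ∀ X : M2 k, (∀ g ∈ N, (r g * X).trace = 0) → X = 0)
    (h5 : p = 5 → ∃ g, χ g ≠ 1 ∧ χ g ≠ -1) (hχ : ∀ g ∈ N, χ g = 1)
    (hχm : ∀ g h, χ (g * h) = χ g * χ h)
    (ψ : G → M2 k) (htr : ∀ g, (ψ g).trace = 0)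
    (hcoc : ∀ g h, ψ (g * h) = ψ g + χ g • (r g * ψ h * r g⁻¹))
    (hreg : ∀ g ∈ N, (r g).trace ^ 2 ≠ 4 → (ψ g * r g).trace = 0) :
    ∃ X : M2 k, X.trace = 0 ∧ ∀ g, ψ g = χ g • (r g * X * r g⁻¹) - X := by
  have h2 : (2 : k) ≠ 0 := by
    intro h
    have : ((2 : ℕ) : k) = 0 := by exact_mod_cast h
    rw [CharP.cast_eq_zero_iff k p] at this
    exact hp2 ((Nat.prime_dvd_prime_iff_eq hp Nat.prime_two).mp this)
  obtain ⟨X₀, hX₀⟩ := coboundary_on N r χ hND hχ ψ hcoc
    (f_eq_zero N r hp hp2 χ hdet hND h5 hχ hχm ψ htr hcoc hreg)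
  set X : M2 k := (X₀.trace / 2) • (1 : M2 k) - X₀ with hX
  have hXtr : X.trace = 0 := by
    rw [hX, trace_sub, trace_smul, trace_one, smul_eq_mul]
    simp [div_mul_cancel₀ _ h2]
  have hXN : ∀ g ∈ N, ψ g = r g * X * r g⁻¹ - X := by
    intro g hg
    rw [hX₀ g hg, hX]
    rw [mul_sub, sub_mul, mul_smul_comm, mul_one, smul_mul_assoc, mul_inv_self']
    abel
  refine ⟨X, hXtr, ?_⟩
  -- the cocycle `ψ - dX`
  set Y : G → M2 k := fun g => ψ g - (χ g • (r g * X * r g⁻¹) - X) with hY
  have hYc : ∀ g h, Y (g * h) = Y g + χ g • (r g * Y h * r g⁻¹) := by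
    intro g h
    simp only [hY]
    have e : (g * h)⁻¹ = h⁻¹ * g⁻¹ := by group
    rw [hcoc, hχm, e, map_mul, map_mul]
    simp only [mul_sub, sub_mul, smul_sub, mul_smul_comm, smul_mul_assoc, smul_smul, mul_assoc]
    abel
  have hYN : ∀ g ∈ N, Y g = 0 := by
    intro g hg
    simp only [hY]
    rw [hχ g hg, one_smul, ← hXN g hg, sub_self]
  have hYtr : ∀ g, (Y g).trace = 0 := by
    intro g
    simp only [hY]
    rw [trace_sub, trace_sub, trace_smul, trace_mul_comm (r g * X), ← mul_assoc, inv_mul_self',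
      one_mul, htr, hXtr]
    simp
  have hYcomm : ∀ g, ∀ s ∈ N, r s * Y g = Y g * r s := by
    intro g s hs
    have h3 : Y (s * g) = r s * Y g * r s⁻¹ := by
      rw [hYc, hYN s hs, zero_add, hχ s hs, one_smul]
    have h4 : Y (s * g) = Y g := by
      have : s * g = g * (g⁻¹ * s * g) := by group
      have hm : g⁻¹ * s * g ∈ N := by
        have := Subgroup.Normal.conj_mem (inferInstance : N.Normal) s hs g⁻¹
        simpa using this
      rw [this, hYc, hYN _ hm]
      simp
    rw [h4] at h3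
    calc r s * Y g = r s * Y g * (r s⁻¹ * r s) := by rw [inv_mul_self', mul_one]
      _ = (r s * Y g * r s⁻¹) * r s := by noncomm_ring
      _ = Y g * r s := by rw [← h3]
  have hYcen : ∀ g, ∀ Z : M2 k, Y g * Z = Z * Y g := by
    intro g Z
    have : Y g * Z - Z * Y g = 0 := by
      apply hND
      intro s hs
      rw [mul_sub, trace_sub, ← mul_assoc, hYcomm g s hs]
      have : (r s * (Z * Y g)).trace = (Y g * r s * Z).trace := by
        rw [← mul_assoc, trace_mul_comm, ← mul_assoc]
      rw [this, sub_self]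
    exact sub_eq_zero.mp this
  intro g
  have hYg : Y g = 0 := by
    have c1 := hYcen g (Matrix.single 0 1 1)
    have t0 := hYtr g
    rw [trace_fin_two] at t0
    have c1a := congrFun (congrFun c1 0) 0
    have c1b := congrFun (congrFun c1 0) 1
    have c2 := hYcen g (Matrix.single 1 0 1)
    have c2a := congrFun (congrFun c2 0) 0
    simp [Matrix.single, Matrix.mul_apply] at c1a c1b c2a
    have y00 : Y g 0 0 = 0 := by
      have : 2 * Y g 0 0 = 0 := by linear_combination t0 + c1b
      exact (mul_eq_zero.mp this).resolve_left h2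
    have y11 : Y g 1 1 = 0 := by rw [← c1b]; exact y00
    ext i j
    fin_cases i <;> fin_cases j <;> simp [y00, y11, c1a, c2a]
  simp only [hY] at hYg
  exact sub_eq_zero.mp hYg

end Main

end Group

end Fermat.Agent.TWP
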