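import Mathlib
import Fermat.Agent.TWP.Cocycle
import Fermat.Agent.DefRing.Burnside

set_option autoImplicit false

/-!
Clifford theory for a normal subgroup with cyclic quotient in dimension two.
-/

namespace Fermat.Agent.TWP

open Matrix

variable {K : Type} [Field K] {G : Type} [Group G]

theorem no_line_normal [IsAlgClosed K] (N : Subgroup G) [N.Normal] (r : G →* M2 K)
    (γ : G) (hγ : ∀ g : G, ∃ i : ℤ, ∃ n ∈ N, g = γ ^ i * n)
    (hirr : ∀ H : Subgroup G, (H.index = 2 ∨ H = ⊤) → ∀ v : Fin 2 → K, v ≠ 0 →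
      ∃ h ∈ H, ∀ c : K, r h *ᵥ v ≠ c • v) :
    ∀ v : Fin 2 → K, v ≠ 0 → ∃ h ∈ N, ∀ c : K, r h *ᵥ v ≠ c • v := by
  intro v hv
  by_contra hcon
  push Not at hcon
  obtain ⟨g₁, -, hg₁⟩ := hirr ⊤ (Or.inr rfl) v hv
  set w := r g₁ *ᵥ v with hw
  -- `w` is an eigenvector of `N`
  have hconjN : ∀ g : G, ∀ h ∈ N, ∃ c : K, r h *ᵥ (r g *ᵥ v) = c • (r g *ᵥ v) := by
    intro g h hh
    have hm : g⁻¹ * h * g ∈ N := by
      have := Subgroup.Normal.conj_mem (inferInstance : N.Normal) h hh g⁻¹
      simpa using this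
    obtain ⟨c, hc⟩ := hcon _ hm
    refine ⟨c, ?_⟩
    have e : h * g = g * (g⁻¹ * h * g) := by group
    rw [mulVec_mulVec, ← map_mul, e, map_mul, ← mulVec_mulVec, hc, mulVec_smul]
  have hindep : ∀ a b : K, a • v + b • w = 0 → a = 0 ∧ b = 0 := by
    intro a b hab
    have hb : b = 0 := by
      by_contra hb
      apply hg₁ (-(b⁻¹ * a))
      have : b • w = -(a • v) := eq_neg_of_add_eq_zero_right hab
      calc w = b⁻¹ • (b • w) := by rw [smul_smul, inv_mul_cancel₀ hb, one_smul]
        _ = -(b⁻¹ * a) • v := by rw [this, smul_neg, smul_smul, neg_smul]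
    refine ⟨?_, hb⟩
    rw [hb, zero_smul, add_zero] at hab
    exact (smul_eq_zero.mp hab).resolve_right hv
  have hspan : ∀ x : Fin 2 → K, ∃ a b : K, x = a • v + b • w := by
    have hli : LinearIndependent K ![v, w] := by
      rw [LinearIndependent.pair_iff]
      exact hindep
    have htop : Submodule.span K (Set.range ![v, w]) = ⊤ :=
      hli.span_eq_top_of_card_eq_finrank (by simp)
    intro x
    have hx : x ∈ Submodule.span K (Set.range ![v, w]) := by rw [htop]; exact Submodule.mem_top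
    have hr : Set.range ![v, w] = {v, w} := by
      ext y
      simp [Matrix.range_cons, or_comm]
    rw [hr, Submodule.mem_span_pair] at hx
    obtain ⟨a, b, h⟩ := hx
    exact ⟨a, b, h.symm⟩
  by_cases hcase : ∀ h ∈ N, ∃ c : K, r h *ᵥ v = c • v ∧ r h *ᵥ w = c • w
  · -- `N` acts by scalars
    have hscal : ∀ h ∈ N, ∃ c : K, ∀ x, r h *ᵥ x = c • x := by
      intro h hh
      obtain ⟨c, h1, h2⟩ := hcase h hh
      refine ⟨c, fun x => ?_⟩
      obtain ⟨a, b, rfl⟩ := hspan x
      rw [mulVec_add, mulVec_smul, mulVec_smul, h1, h2, smul_add, smul_comm a, smul_comm b]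
    obtain ⟨μ, hμ⟩ := Module.End.exists_eigenvalue (Matrix.toLin' (r γ))
    obtain ⟨x, hx⟩ := hμ.exists_hasEigenvector
    have hx0 : x ≠ 0 := hx.2
    have hx1 : r γ *ᵥ x = μ • x := by
      have := hx.apply_eq_smul
      rwa [Matrix.toLin'_apply] at this
    have hμ0 : μ ≠ 0 := by
      rintro rfl
      apply hx0
      calc x = (r γ⁻¹ * r γ) *ᵥ x := by rw [inv_mul_self', one_mulVec]
        _ = 0 := by rw [← mulVec_mulVec, hx1, zero_smul, mulVec_zero]
    have hx2 : r γ⁻¹ *ᵥ x = μ⁻¹ • x := by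
      calc r γ⁻¹ *ᵥ x = μ⁻¹ • (r γ⁻¹ *ᵥ (μ • x)) := by
            rw [mulVec_smul, smul_smul, inv_mul_cancel₀ hμ0, one_smul]
        _ = μ⁻¹ • x := by rw [← hx1, mulVec_mulVec, inv_mul_self', one_mulVec]
    have hnat : ∀ n : ℕ, (∃ c : K, r (γ ^ n) *ᵥ x = c • x) ∧ ∃ c : K, r ((γ⁻¹) ^ n) *ᵥ x = c • x := by
      intro n
      induction n with
      | zero => exact ⟨⟨1, by simp⟩, ⟨1, by simp⟩⟩
      | succ n ih =>
        obtain ⟨⟨c, hc⟩, ⟨d, hd⟩⟩ := ih
        refine ⟨⟨μ * c, ?_⟩, ⟨μ⁻¹ * d, ?_⟩⟩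
        · rw [pow_succ, map_mul, ← mulVec_mulVec, hx1, mulVec_smul, hc, smul_smul]
        · rw [pow_succ, map_mul, ← mulVec_mulVec, hx2, mulVec_smul, hd, smul_smul]
    obtain ⟨g, -, hg⟩ := hirr ⊤ (Or.inr rfl) x hx0
    obtain ⟨i, n, hn, rfl⟩ := hγ g
    obtain ⟨c, hc⟩ := hscal n hn
    have hz : ∃ d : K, r (γ ^ i) *ᵥ x = d • x := by
      rcases Int.eq_nat_or_neg i with ⟨m, rfl | rfl⟩
      · rw [zpow_natCast]; exact (hnat m).1
      · rw [_root_.zpow_neg, zpow_natCast, ← inv_pow]; exact (hnat m).2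
    obtain ⟨d, hd⟩ := hz
    apply hg (c * d)
    rw [map_mul, ← mulVec_mulVec, hc, mulVec_smul, hd, smul_smul]
  · push Not at hcase
    obtain ⟨h₀, hh₀, hne⟩ := hcase
    obtain ⟨lam, hlam⟩ := hcon h₀ hh₀
    obtain ⟨mu, hmu⟩ := hconjN g₁ h₀ hh₀
    rw [← hw] at hmu
    have hlm : lam ≠ mu := by
      intro h
      exact hne lam hlam (by rw [h]; exact hmu)
    -- the stabiliser of the line `K v`
    let H : Subgroup G :=
      { carrier := {g | ∃ c : K, r g *ᵥ v = c • v}
        one_mem' := ⟨1, by simp⟩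
        mul_mem' := by
          rintro a b ⟨c, hc⟩ ⟨d, hd⟩
          refine ⟨d * c, ?_⟩
          rw [map_mul, ← mulVec_mulVec, hd, mulVec_smul, hc, smul_smul]
        inv_mem' := by
          rintro a ⟨c, hc⟩
          have hc0 : c ≠ 0 := by
            rintro rfl
            apply hv
            calc v = (r a⁻¹ * r a) *ᵥ v := by rw [inv_mul_self', one_mulVec]
              _ = 0 := by rw [← mulVec_mulVec, hc, zero_smul, mulVec_zero]
          refine ⟨c⁻¹, ?_⟩
          calc r a⁻¹ *ᵥ v = c⁻¹ • (r a⁻¹ *ᵥ (c • v)) := by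
                rw [mulVec_smul, smul_smul, inv_mul_cancel₀ hc0, one_smul]
            _ = c⁻¹ • v := by rw [← hc, mulVec_mulVec, inv_mul_self', one_mulVec] }
    have hmemH : ∀ g, g ∈ H ↔ ∃ c : K, r g *ᵥ v = c • v := fun g => Iff.rfl
    have hout : ∀ g, g ∉ H → ∃ b : K, b ≠ 0 ∧ r g *ᵥ v = b • w := by
      intro g hg
      obtain ⟨a, b, hab⟩ := hspan (r g *ᵥ v)
      obtain ⟨c, hc⟩ := hconjN g h₀ hh₀
      have hb : b ≠ 0 := by
        rintro rfl
        apply hg
        exact ⟨a, by rw [hab, zero_smul, add_zero]⟩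
      have e : (a * (lam - c)) • v + (b * (mu - c)) • w = 0 := by
        have : r h₀ *ᵥ (r g *ᵥ v) - c • (r g *ᵥ v) = 0 := by rw [hc, sub_self]
        rw [hab, mulVec_add, mulVec_smul, mulVec_smul, hlam, hmu] at this
        rw [← this]
        module
      obtain ⟨e1, e2⟩ := hindep _ _ e
      have hmc : mu = c := sub_eq_zero.mp ((mul_eq_zero.mp e2).resolve_left hb)
      have ha : a = 0 := by
        rcases mul_eq_zero.mp e1 with h | h
        · exact h
        · exact absurd ((sub_eq_zero.mp h).trans hmc.symm) hlm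
      exact ⟨b, hb, by rw [hab, ha, zero_smul, zero_add]⟩
    have hg₁H : g₁ ∉ H := by
      rintro ⟨c, hc⟩
      exact hg₁ c hc
    have hindex : H.index = 2 := by
      rw [Subgroup.index_eq_two_iff]
      refine ⟨g₁, fun b => ?_⟩
      by_cases hb : b ∈ H
      · right
        refine ⟨hb, fun hbg => hg₁H ?_⟩
        have := H.mul_mem (H.inv_mem hb) hbg
        simpa [← mul_assoc] using this
      · left
        refine ⟨?_, hb⟩
        -- `b w ∈ K v`
        obtain ⟨β, hβ, hbv⟩ := hout b hb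
        by_contra hbg
        obtain ⟨δ, hδ, hbgv⟩ := hout (b * g₁) hbg
        -- r b w = δ w, r b v = β w
        have e1 : r b *ᵥ w = δ • w := by rw [hw, mulVec_mulVec, ← map_mul, hbgv]
        have e2 : r b *ᵥ (δ • v - β • w) = 0 := by
          rw [mulVec_sub, mulVec_smul, mulVec_smul, hbv, e1, smul_smul, smul_smul, mul_comm,
            sub_self]
        have e3 : δ • v - β • w = 0 := by
          calc δ • v - β • w = (r b⁻¹ * r b) *ᵥ (δ • v - β • w) := by
                rw [inv_mul_self', one_mulVec]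
            _ = 0 := by rw [← mulVec_mulVec, e2, mulVec_zero]
        have := hindep δ (-β) (by rw [neg_smul, ← sub_eq_add_neg]; exact e3)
        exact hδ this.1
    obtain ⟨h, hh, hne'⟩ := hirr H (Or.inl hindex) v hv
    obtain ⟨c, hc⟩ := hh
    exact hne' c hc

/-- non-degeneracy of the trace form from irreducibility -/
theorem nd_of_no_line [IsAlgClosed K] (N : Subgroup G) (r : G →* M2 K)
    (h : ∀ v : Fin 2 → K, v ≠ 0 → ∃ h ∈ N, ∀ c : K, r h *ᵥ v ≠ c • v) :
    ∀ X : M2 K, (∀ g ∈ N, (r g * X).trace = 0) → X = 0 := by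
  have hspan := Fermat.Agent.DefRing.burnside_two (K := K) (G := N) (r.comp N.subtype) (by
    intro W hW
    by_cases hbot : W = ⊥
    · exact Or.inl hbot
    right
    obtain ⟨v, hvW, hv⟩ := Submodule.exists_mem_ne_zero_of_ne_bot hbot
    obtain ⟨g, hg, hne⟩ := h v hv
    have hgv : r g *ᵥ v ∈ W := hW ⟨g, hg⟩ v hvW
    have hli : LinearIndependent K ![v, r g *ᵥ v] := by
      rw [LinearIndependent.pair_iff]
      intro a b hab
      have hb : b = 0 := by
        by_contra hb
        apply hne (-(b⁻¹ * a))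
        have : b • (r g *ᵥ v) = -(a • v) := eq_neg_of_add_eq_zero_right hab
        calc r g *ᵥ v = b⁻¹ • (b • (r g *ᵥ v)) := by rw [smul_smul, inv_mul_cancel₀ hb, one_smul]
          _ = -(b⁻¹ * a) • v := by rw [this, smul_neg, smul_smul, neg_smul]
      refine ⟨?_, hb⟩
      rw [hb, zero_smul, add_zero] at hab
      exact (smul_eq_zero.mp hab).resolve_right hv
    have htop : Submodule.span K (Set.range ![v, r g *ᵥ v]) = ⊤ :=
      hli.span_eq_top_of_card_eq_finrank (by simp)
    rw [eq_top_iff, ← htop, Submodule.span_le]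
    rintro _ ⟨i, rfl⟩
    fin_cases i
    · exact hvW
    · exact hgv)
  intro X hX
  have hall : ∀ Y : M2 K, (Y * X).trace = 0 := by
    intro Y
    have hY : Y ∈ Submodule.span K (Set.range (r.comp N.subtype)) := by
      rw [hspan]; exact Submodule.mem_top
    induction hY using Submodule.span_induction with
    | mem y hy =>
      obtain ⟨g, rfl⟩ := hy
      exact hX g g.2
    | zero => simp
    | add x y _ _ hx hy => rw [add_mul, trace_add, hx, hy, add_zero]
    | smul a x _ hx => rw [smul_mul_assoc, trace_smul, hx, smul_zero]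
  ext i j
  have := hall (Matrix.single j i 1)
  fin_cases i <;> fin_cases j <;> simpa [trace_fin_two, Matrix.mul_apply, Matrix.single] using this

/-- descent of the non-degeneracy -/
theorem nd_descent {k : Type} [Field k] [Algebra k K] (N : Subgroup G) (r : G →* M2 k)
    (h : ∀ X : M2 K, (∀ g ∈ N, ((r g).map (algebraMap k K) * X).trace = 0) → X = 0) :
    ∀ X : M2 k, (∀ g ∈ N, (r g * X).trace = 0) → X = 0 := by
  intro X hX
  have h1 : X.map (algebraMap k K) = 0 := by
    apply h
    intro g hg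
    have h2 := congrArg (algebraMap k K) (hX g hg)
    rw [map_zero] at h2
    rw [← h2, ← Matrix.map_mul, trace_fin_two, trace_fin_two, map_add]
    rfl
  ext i j
  have := congrFun (congrFun h1 i) j
  simp only [Matrix.map_apply, Matrix.zero_apply] at this
  rw [← map_zero (algebraMap k K)] at this
  exact (algebraMap k K).injective this

end Fermat.Agent.TWP
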