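import Fermat.Agent.TWP.TWLocal
import Fermat.Agent.PTC.Abhn55

/-!
The Selmer group is bounded by the number of Taylor–Wiles primes.
-/

set_option autoImplicit false

namespace Fermat.Agent.TWP

open Matrix Fermat.Agent.PT Fermat.Agent.PTC
open scoped Pointwise

section abs

variable {G : Type} [Group G] {D : PTData G} {p : ℕ} [Fact p.Prime] {μ : Act G (ZMod p)}
  {W : Subgroup G} {e : D.ι → ℕ}

lemma selD_loc_zero (H : PTHyp D p μ W e) {A : Type} [AddCommGroup A] [Finite A] {ρ : Act G A}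
    (hρ : Smooth D.L ρ) (hpA : ∀ a : A, p • a = 0)
    (T : ∀ v, AddSubgroup (H1 (D.Lv v) (ρ.comp (D.r v)))) {v : D.ι} (hT : T v = ⊤)
    {y : H1 D.L (dualAct μ ρ)} (hy : y ∈ selD D μ hρ T) : (D.loc v (dualAct μ ρ)).h1 y = 0 := by
  rw [← locDual_h1_eq_zero]
  refine (H.loc v).nondeg _ (hρ.along v) hpA _ fun x => ?_
  exact mem_annih.1 (hy v) x (by rw [hT]; exact AddSubgroup.mem_top x)

lemma card_selD_eq_one (H : PTHyp D p μ W e) {A : Type} [AddCommGroup A] [Finite A] {ρ : Act G A}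
    (hρ : Smooth D.L ρ) (hpA : ∀ a : A, p • a = 0)
    (T : ∀ v, AddSubgroup (H1 (D.Lv v) (ρ.comp (D.r v)))) {B : Type} [AddCommGroup B]
    {σ : Act G B} (E : EEquiv σ (dualAct μ ρ)) (P : D.ι → Prop) (hT : ∀ v, P v → T v = ⊤)
    (hkill : ∀ y : H1 D.L σ, (∀ v, P v → (D.loc v σ).h1 y = 0) → y = 0) :
    Nat.card (selD D μ hρ T) = 1 := by
  have h0 : ∀ y : selD D μ hρ T, y = 0 := by
    rintro ⟨y, hy⟩
    apply Subtype.ext
    show y = 0
    have h1 : (E.symm.hom.h1 D.L y) = 0 := by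
      refine hkill _ fun v hv => ?_
      have h4 := D.loc_h1_nat v E.symm.hom y
      rw [selD_loc_zero H hρ hpA T (hT v hv) hy, map_zero] at h4
      exact h4
    have h2 : (E.symm.h1 D.L) y = 0 := h1
    exact (AddEquiv.map_eq_zero_iff _).1 h2
  have : Subsingleton (selD D μ hρ T) := ⟨fun a b => by rw [h0 a, h0 b]⟩
  exact Nat.card_unique

lemma real_gw {sel h P Tp χM χM' X h0 ds c : ℝ} (h1 : sel * h * P * χM = h0 * Tp * ds * X)
    (hX : X = χM * χM') (hh0 : h0 = 1) (hds : ds = 1)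
    (hM : 0 < χM) (hb : 1 ≤ h) (hc : c * χM' ≤ 1) (hc0 : 0 ≤ c) (hT : 0 ≤ Tp) (hs : 0 ≤ sel)
    (hP : 0 ≤ P) : sel * c * P ≤ Tp := by
  subst hX hh0 hds
  have h2 : sel * h * P = Tp * χM' := by
    have : χM ≠ 0 := hM.ne'
    apply mul_right_cancel₀ this
    rw [h1]; ring
  have h3 : sel * c * P ≤ sel * c * P * h := le_mul_of_one_le_right (by positivity) hb
  calc sel * c * P ≤ sel * c * P * h := h3
    _ = c * (sel * h * P) := by ring
    _ = Tp * (c * χM') := by rw [h2]; ring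
    _ ≤ Tp * 1 := mul_le_mul_of_nonneg_left hc hT
    _ = Tp := mul_one _

/-- the counting inequality -/
theorem gw_ineq (H : PTHyp D p μ W e) {A : Type} [AddCommGroup A] [Finite A] {ρ : Act G A}
    (hρ : Smooth D.L ρ) (hpA : ∀ a : A, p • a = 0) (h0 : Nat.card (H0 ρ) = 1)
    (T : ∀ v, AddSubgroup (H1 (D.Lv v) (ρ.comp (D.r v))))
    (hD : Nat.card (selD D μ hρ T) = 1) {c : ℕ} (hc : (c : ℝ) * chi D.L (dualAct μ ρ) ≤ 1) :
    Nat.card (selL D ρ T) * c * ∏ v, Nat.card (H0 (ρ.comp (D.r v))) ≤ ∏ v, Nat.card (T v) := by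
  have : Finite (A →+ ZMod p) := DFunLike.finite _
  have h5 : ∏ v, chi (D.Lv v) (ρ.comp (D.r v)) = chi D.L ρ * chi D.L (dualAct μ ρ) := by
    have h6 : 0 < ∏ v, chi (D.Lv v) (ρ.comp (D.r v)) :=
      Finset.prod_pos fun v _ => H.chi_pos_loc hρ hpA v
    have h2 := H.FF_eq_one hρ hpA
    unfold FF at h2
    rw [div_eq_one_iff_eq h6.ne'] at h2
    exact h2.symm
  have hfin := H.finite (Smooth.dual H.smooth hρ) (fun a => dual_torsion a)
  have := hfin.h0
  have h7 : (1 : ℝ) ≤ Nat.card (H0 (dualAct μ ρ)) := by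
    exact_mod_cast (Nat.card_pos : 0 < Nat.card (H0 (dualAct μ ρ)))
  have h0' : (Nat.card (H0 ρ) : ℝ) = 1 := by rw [h0, Nat.cast_one]
  have hD' : (Nat.card (selD D μ hρ T) : ℝ) = 1 := by rw [hD, Nat.cast_one]
  have h9 := real_gw (H.greenberg_wiles_chi hρ hpA T) h5 h0' hD' (H.chi_pos hρ hpA) h7 hc
    (Nat.cast_nonneg c) (Finset.prod_nonneg fun v _ => Nat.cast_nonneg _) (Nat.cast_nonneg _)
    (Finset.prod_nonneg fun v _ => Nat.cast_nonneg _)
  rw [← Nat.cast_prod, ← Nat.cast_prod, ← Nat.cast_mul, ← Nat.cast_mul, Nat.cast_le] at h9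
  exact h9

end abs

variable {k : Type} [Field k] {p : ℕ} [hp : Fact p.Prime] {r : GQ →* M2 k}

lemma RD.nd' (hr : RD p r) (hp2 : p ≠ 2) (X : M2 k) (hX : ∀ g, (r g * X).trace = 0) : X = 0 := by
  have hppos : 0 < p ^ (0 + 1) := pow_pos hp.out.pos _
  have : NeZero (p ^ (0 + 1)) := ⟨hppos.ne'⟩
  have : NeZero ((p ^ (0 + 1) : ℕ) : Qb) := ⟨by exact_mod_cast hppos.ne'⟩
  obtain ⟨ζ, hζ⟩ := HasEnoughRootsOfUnity.exists_primitiveRoot Qb (p ^ (0 + 1))
  exact hr.nd hp.out hp2 0 hζ X fun g _ => hX g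

/-- `H⁰(G, ad⁰) = 0`. -/
lemma RD.H0_eq_bot (hr : RD p r) (hp2 : p ≠ 2) : Nat.card (H0 (twAct 1 r)) = 1 := by
  have h0 : ∀ X : H0 (twAct 1 r), X = 0 := by
    intro X
    have hcomm : ∀ g, r g * (X.1 : M2 k) = (X.1 : M2 k) * r g := by
      intro g
      have h2 : (1 : GQ →* k) g • (r g * X.1.1 * r g⁻¹) = X.1.1 :=
        congrArg Subtype.val (mem_H0.1 X.2 g)
      rw [MonoidHom.one_apply, one_smul] at h2
      have h3 := congrArg (· * r g) h2
      simp only [mul_assoc] at h3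
      rw [rep_inv_mul, mul_one] at h3
      exact h3
    have hcen : ∀ E : M2 k, (X.1 : M2 k) * E - E * X.1 = 0 := by
      intro E
      apply hr.nd' hp2
      intro g
      rw [mul_sub, trace_sub, ← mul_assoc, hcomm, mul_assoc, trace_mul_comm, mul_assoc,
        ← mul_assoc (r g) E, sub_self]
    have h1 := hcen !![0, 1; 0, 0]
    have h2 := hcen !![0, 0; 1, 0]
    have e1 := congrFun (congrFun h1 0) 0
    have e2 := congrFun (congrFun h1 0) 1
    have e3 := congrFun (congrFun h2 0) 0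
    have ht : (X.1 : M2 k) 0 0 + (X.1 : M2 k) 1 1 = 0 := by
      have := X.1.2
      rwa [mem_ad0, trace_fin_two] at this
    simp only [Matrix.sub_apply, Matrix.zero_apply, mul_apply, Fin.sum_univ_two, of_apply, cons_val',
      cons_val_zero, cons_val_one, empty_val', cons_val_fin_one, mul_zero, mul_one, zero_mul, one_mul,
      zero_add, add_zero, zero_sub, sub_zero, neg_eq_zero] at e1 e2 e3
    have h00 : (X.1 : M2 k) 0 0 = 0 := by
      have : (2 : k) * (X.1 : M2 k) 0 0 = 0 := by linear_combination ht + e2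
      exact (mul_eq_zero.mp this).resolve_left (hr.two_ne hp2)
    apply Subtype.ext
    apply Subtype.ext
    ext i j
    fin_cases i <;> fin_cases j
    · exact h00
    · exact e3
    · exact e1
    · show (X.1 : M2 k) 1 1 = 0
      linear_combination ht - h00
  have : Subsingleton (H0 (twAct 1 r)) := ⟨fun a b => by rw [h0 a, h0 b]⟩
  exact Nat.card_unique

/-- data of Taylor–Wiles primes killing the dual Selmer group -/
structure TWSet (p : ℕ) (r : GQ →* M2 k) (n : ℕ) (S : Finset Nat.Primes) (m : ℕ)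
    (q : Fin m → Nat.Primes) (τ : Fin m → GQ) : Prop where
  inj : Function.Injective q
  notMem : ∀ j, q j ∉ S
  tw : ∀ j, TWPrime p r n (q j) (Pl (q j)) (τ j)
  kill : ∀ ψ ∈ cocSpace S (detC r) r, (∀ j, (ψ (τ j) * r (τ j)).trace = 0) →
        ψ ∈ cobSpace (detC r) r

section main

variable {n : ℕ} {S : Finset Nat.Primes} {m : ℕ} {q : Fin m → Nat.Primes} {τ : Fin m → GQ}

/-- the enlarged set of places -/
def SQ (S : Finset Nat.Primes) {m : ℕ} (q : Fin m → Nat.Primes) : Finset Nat.Primes :=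
  S ∪ Finset.univ.image q

lemma mem_SQ {v : Nat.Primes} : v ∈ SQ S q ↔ v ∈ S ∨ ∃ j, q j = v := by
  simp [SQ]

lemma subset_SQ : S ⊆ SQ S q := fun _ hv => mem_SQ.mpr (Or.inl hv)

variable (hr : RD p r) (hp2 : p ≠ 2) (hrS : UnrOut S r) (hTW : TWSet p r n S m q τ)

include hrS hTW in
/-- a class over the enlarged set which is locally trivial at the Taylor–Wiles primes is trivial -/
theorem kill_class (y : H1 (sL (SQ S q)) (twAct (detC r) r))
    (hy : ∀ v : ↥(SQ S q), v.1 ∉ S → ((ptd (SQ S q)).loc v (twAct (detC r) r)).h1 y = 0) :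
    y = 0 := by
  have hχ : ∀ g, r g = 1 → detC r g = 1 := fun g hg => by rw [detC_apply, hg, det_one]
  have hrSQ : UnrOut (SQ S q) r := hrS.mono subset_SQ
  obtain ⟨f, rfl⟩ := H1.mk_surjective _ _ y
  have hloc : ∀ j, ∃ X : M2 k, ∀ γ : Γl (q j), ((f.1 (rl (q j) γ) : ad0 k) : M2 k) =
      (r (rl (q j) γ)).det • (r (rl (q j) γ) * X * r (rl (q j) γ)⁻¹) - X := by
    intro j
    have hmem : q j ∈ SQ S q := mem_SQ.mpr (Or.inr ⟨j, rfl⟩)
    have h1 := hy ⟨q j, hmem⟩ (hTW.notMem j)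
    rw [PairHom.h1_mk] at h1
    obtain ⟨X, hX⟩ := H1.mk_eq_zero.1 h1
    refine ⟨X.1, fun γ => ?_⟩
    have h2 := congrFun hX γ
    exact (congrArg Subtype.val h2).symm
  obtain ⟨f', hf'⟩ := exists_descend (S := S) hrS hχ f (by
    intro v hv hvS A hA σ hσ
    rcases mem_SQ.mp hv with h | ⟨j, rfl⟩
    · exact absurd h hvS
    · obtain ⟨X, hX⟩ := hloc j
      exact coc_inertia hrSQ f hX (hTW.tw j).inertia hA hσ)
  have h1 := hTW.kill _ (ofZ1_mem f') (by
    intro j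
    obtain ⟨X, hX⟩ := hloc j
    have hτ : τ j • Pl (q j) = Pl (q j) := ((isFrobeniusAt_iff _ _ _).mp (hTW.tw j).frob).1
    rw [hf', coc_decomp hrSQ f hX hτ, (hTW.tw j).det, one_smul, sub_mul, trace_sub, mul_assoc,
      rep_inv_mul, mul_one, trace_mul_comm, sub_self])
  obtain ⟨X, hX, hfX⟩ := h1
  refine H1.mk_eq_zero.2 ⟨⟨X, hX⟩, ?_⟩
  funext g
  apply Subtype.ext
  have h2 := hfX g
  rw [hf'] at h2
  exact h2.symm

include hrS hTW hr hp2 in
/-- the dual Selmer group is trivial -/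
theorem card_selD [Finite k] (hpS : ExtCitation.pPrime p ∈ S)
    (hM : Smooth (ptd (SQ S q)).L (twAct 1 r))
    (T : ∀ v : ↥(SQ S q), AddSubgroup (H1 (allL.comap (rl v.1)) ((twAct 1 r).comp (rl v.1))))
    (hT : ∀ v : ↥(SQ S q), v.1 ∉ S → T v = ⊤) :
    Nat.card (selD (ptd (SQ S q)) (muA p) hM T) = 1 := by
  have H := Fermat.Agent.PTGlob.ptHyp (S := SQ S q) hp2 (subset_SQ hpS)
  obtain ⟨E⟩ := exists_dualAd hr.char (hr.two_ne hp2) r hr.det_cyclo
  exact card_selD_eq_one H hM (ad0_torsion hr.char) T E (fun v => v.1 ∉ S) hT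
    (kill_class hrS hTW)

end main

end Fermat.Agent.TWP
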