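import Fermat.Agent.Flat.SSK

/-!
# Simple flat modules over inertia

Irreducible flat modules over the inertia group are tame, and the group of order `p` ones are
unramified or cyclotomic.
-/

set_option autoImplicit false
set_option linter.unusedSectionVars false
set_option linter.style.haveILetI false

noncomputable section

namespace Fermat.Agent.TWP.Dich

open Fermat.Agent.Flat

section Irr

variable {p : ℕ} {Ω : Type} [NormedField Ω] [hU : IsUltrametricDist Ω] {I : Type} [Group I]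
    [MulSemiringAction I Ω] [S : Setting p Ω I]
    {M : Type} [AddCommGroup M] {ρ : I → M → M}

/-- An irreducible module with an order is either fixed by inertia or embeds into the residue
field. -/
theorem irr_cases [Nontrivial M] (hρ : IsAct ρ) (D : Ord p Ω I ρ)
    (hirr : ∀ N : AddSubgroup M, (∀ σ, ∀ x ∈ N, ρ σ x ∈ N) → N = ⊥ ∨ N = ⊤) :
    (∀ σ x, ρ σ x = x) ∨ ∃ (h : M → Ω) (hh : h ∈ D.H) (c : Ω) (hc : c ≠ 0) (hc1 : ‖c‖ < 1)
      (hr : ∀ x, D.rad x ≤ ‖c‖), (∀ x ≠ 0, D.rad x = ‖c‖) ∧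
      Function.Injective (D.leadHom hh hc hc1 hr) := by
  obtain ⟨x₀, hx₀⟩ := exists_ne (0 : M)
  rcases hirr D.conn (fun σ x hx => D.smul_mem_conn hρ σ hx) with h1 | h1
  · left
    intro σ x
    have h2 := D.smul_sub_mem_conn σ x
    rw [h1, AddSubgroup.mem_bot] at h2
    exact sub_eq_zero.1 h2
  right
  have hlt : ∀ x, D.rad x < 1 := fun x => by
    have : x ∈ D.conn := by rw [h1]; trivial
    exact this
  have hle : ∀ x y : M, x ≠ 0 → D.rad y ≤ D.rad x := by
    intro x y hx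
    rcases hirr (D.disc (D.rad x) (D.rad_nonneg x)) (fun σ z hz => by
      rw [Ord.mem_disc] at hz ⊢
      rwa [D.rad_smul σ (hρ.zero σ)]) with h2 | h2
    · exfalso
      have h3 : x ∈ D.disc (D.rad x) (D.rad_nonneg x) := D.mem_disc.2 le_rfl
      rw [h2, AddSubgroup.mem_bot] at h3
      exact hx h3
    · have h3 : y ∈ D.disc (D.rad x) (D.rad_nonneg x) := by rw [h2]; trivial
      exact D.mem_disc.1 h3
  obtain ⟨h, hh, he⟩ := D.exists_eq_rad x₀
  have hpos := D.rad_pos hx₀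
  have hc : h x₀ - h 0 ≠ 0 := by
    rw [← norm_pos_iff, he]
    exact hpos
  have hc1 : ‖h x₀ - h 0‖ < 1 := by
    rw [he]
    exact hlt x₀
  have hr : ∀ x, D.rad x ≤ ‖h x₀ - h 0‖ := fun x => by rw [he]; exact hle x₀ x hx₀
  have hr' : ∀ x ≠ 0, D.rad x = ‖h x₀ - h 0‖ := fun x hx => by
    rw [he]
    exact le_antisymm (hle x₀ x hx₀) (hle x x₀ hx)
  refine ⟨h, hh, _, hc, hc1, hr, hr', ?_⟩
  rcases hirr (D.leadHom hh hc hc1 hr).ker (fun σ x hx => by
    rw [AddMonoidHom.mem_ker] at hx ⊢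
    change Ord.lead _ h (ρ σ x) = 0
    rw [D.lead_smul hρ hh hc (hr x)]
    change tame _ σ * (D.leadHom hh hc hc1 hr) x = 0
    rw [hx, mul_zero]) with h1 | h1
  · exact (AddMonoidHom.ker_eq_bot_iff _).1 h1
  · exfalso
    have h2 : x₀ ∈ (D.leadHom hh hc hc1 hr).ker := by rw [h1]; trivial
    rw [AddMonoidHom.mem_ker] at h2
    change res ((h x₀ - h 0) / (h x₀ - h 0)) = 0 at h2
    rw [div_self hc, res_one] at h2
    exact one_ne_zero h2

/-- The norm of the leading term. -/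
theorem exists_pow [Finite M] (hρ : IsAct ρ) (D : Ord p Ω I ρ) {h : M → Ω} (hh : h ∈ D.H) {c : Ω}
    (hc : c ≠ 0) (hc1 : ‖c‖ < 1) (hr : ∀ x, D.rad x ≤ ‖c‖)
    (hinj : Function.Injective (D.leadHom hh hc hc1 hr)) (hM : 1 < Nat.card M) :
    ∃ m : ℕ, 0 < m ∧ ‖c‖ ^ (Nat.card M - 1) = ((p : ℝ)⁻¹) ^ m := by
  classical
  haveI := Fintype.ofFinite M
  have hnorm : ∀ z ≠ 0, ‖h z - h 0‖ = ‖c‖ := by
    intro z hz
    have h1 : (D.leadHom hh hc hc1 hr) z ≠ 0 := fun h1 => hz (hinj (by rw [h1, map_zero]))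
    have h2 : ‖(h z - h 0) / c‖ = 1 := by
      apply le_antisymm (D.norm_div_le hh (hr z))
      by_contra hlt
      push Not at hlt
      exact h1 ((res_eq_zero_iff hlt.le).2 hlt)
    rw [norm_div, div_eq_one_iff_eq (norm_ne_zero_iff.2 hc)] at h2
    exact h2
  have h0 : ∀ σ : I, σ • h 0 = h 0 := fun σ => by rw [← D.equi h hh, hρ.zero]
  set P : Ω := ∏ z ∈ Finset.univ.erase (0 : M), (h z - h 0) with hP
  have hPn : ‖P‖ = ‖c‖ ^ (Nat.card M - 1) := by
    rw [hP, norm_prod, Finset.prod_congr rfl fun z hz => hnorm z (Finset.ne_of_mem_erase hz),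
      Finset.prod_const, Finset.card_erase_of_mem (Finset.mem_univ _), Finset.card_univ,
      ← Nat.card_eq_fintype_card]
  have hP0 : P ≠ 0 := by
    rw [← norm_ne_zero_iff, hPn]
    exact pow_ne_zero _ (norm_ne_zero_iff.2 hc)
  have hPfix : ∀ σ : I, σ • P = P := by
    intro σ
    rw [hP, Finset.smul_prod']
    refine Finset.prod_bij (fun z _ => ρ σ z) ?_ ?_ ?_ ?_
    · intro z hz
      rw [Finset.mem_erase] at hz ⊢
      refine ⟨fun h => hz.1 ?_, Finset.mem_univ _⟩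
      exact hρ.injective σ (by rw [h, hρ.zero])
    · intro z _ z' _ h
      exact hρ.injective σ h
    · intro z hz
      refine ⟨ρ σ⁻¹ z, ?_, hρ.apply_inv σ z⟩
      rw [Finset.mem_erase] at hz ⊢
      refine ⟨fun h => hz.1 ?_, Finset.mem_univ _⟩
      rw [← hρ.apply_inv σ z, h, hρ.zero]
    · intro z _
      rw [smul_sub, h0, D.equi h hh]
  obtain ⟨k, hk⟩ := S.norm_fixed P hP0 hPfix
  have hpp := one_lt_p p Ω I
  have hn : Nat.card M - 1 ≠ 0 := by omega
  have hk0 : k < 0 := by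
    by_contra hge
    push Not at hge
    have h1 : (1 : ℝ) ≤ (p : ℝ) ^ k := one_le_zpow₀ hpp.le hge
    rw [← hk, hPn] at h1
    exact absurd h1 (not_le.2 (pow_lt_one₀ (norm_nonneg _) hc1 hn))
  refine ⟨(-k).toNat, by omega, ?_⟩
  rw [← hPn, hk, inv_pow, ← zpow_natCast, Int.toNat_of_nonneg (by omega), zpow_neg, inv_inv]

/-- A module of order `p` with an order is either fixed by inertia or inertia acts through the
cyclotomic character. -/
theorem order_p (hρ : IsAct ρ) (D : Ord p Ω I ρ) (hM : Nat.card M = p) :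
    (∀ σ x, ρ σ x = x) ∨ (∀ (σ : I) (x : M), ρ σ x = (omega p Ω I σ).val • x) := by
  have hpp : p.Prime := S.prime
  haveI : Finite M := Nat.finite_of_card_ne_zero (by rw [hM]; exact hpp.ne_zero)
  haveI : Nontrivial M := Finite.one_lt_card_iff_nontrivial.1 (by rw [hM]; exact hpp.one_lt)
  have hirr : ∀ N : AddSubgroup M, (∀ σ, ∀ x ∈ N, ρ σ x ∈ N) → N = ⊥ ∨ N = ⊤ := by
    intro N _
    have h1 : Nat.card N ∣ p := by
      rw [← hM]; exact AddSubgroup.card_addSubgroup_dvd_card N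
    rcases (Nat.dvd_prime hpp).1 h1 with h2 | h2
    · exact Or.inl (AddSubgroup.card_eq_one.1 h2)
    · right
      exact AddSubgroup.eq_top_of_card_eq _ (by rw [h2, hM])
  have hkill : ∀ z : M, (p ^ 1) • z = 0 := by
    intro z
    rw [pow_one, ← hM]
    exact card_nsmul_eq_zero'
  rcases irr_cases hρ D hirr with h1 | ⟨h, hh, c, hc, hc1, hr, hr', hinj⟩
  · exact Or.inl h1
  right
  obtain ⟨m, hm, hpow⟩ := exists_pow hρ D hh hc hc1 hr hinj (by rw [hM]; exact hpp.one_lt)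
  rw [hM] at hpow
  obtain ⟨x₀, hx₀⟩ := exists_ne (0 : M)
  have hrho := D.rho_le_rad hx₀ (hkill x₀)
  rw [hr' x₀ hx₀] at hrho
  have hp0 := p_pos p Ω I
  have hp1 := one_lt_p p Ω I
  have hn1 : p - 1 ≠ 0 := by have := hpp.two_le; omega
  have hcr : ‖c‖ = rho p := by
    apply le_antisymm _ hrho
    rw [← pow_le_pow_iff_left₀ (norm_nonneg _) (rho_pos p Ω I).le hn1, rho_pow p Ω I, hpow]
    calc ((p : ℝ)⁻¹) ^ m ≤ ((p : ℝ)⁻¹) ^ 1 :=
          pow_le_pow_of_le_one (inv_nonneg.2 hp0.le) (inv_le_one_of_one_le₀ hp1.le) hm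
      _ = (p : ℝ)⁻¹ := pow_one _
  intro σ x
  apply hinj
  have h1 : (D.leadHom hh hc hc1 hr) (ρ σ x) = tame c σ * (D.leadHom hh hc hc1 hr) x :=
    D.lead_smul hρ hh hc (hr x) σ
  have h2 : tame c σ = tame (zeta p Ω I - 1) σ :=
    tame_eq p hc (by rw [hcr, norm_zeta_sub_one]) σ
  rw [h1, map_nsmul, h2, tame_zeta_sub_one, nsmul_eq_mul]

end Irr

end Fermat.Agent.TWP.Dich
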