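import Fermat.Agent.TWP.Dich

/-!
# Minimal inertia submodules of flat modules
-/

set_option autoImplicit false
set_option linter.unusedSectionVars false
set_option linter.style.haveILetI false

noncomputable section

namespace Fermat.Agent.TWP.Dich

open Fermat.Agent.Flat Matrix

variable {p : ℕ} {Ω : Type} [NormedField Ω] [hU : IsUltrametricDist Ω] {Γ : Type} [Group Γ]
    [MulSemiringAction Γ Ω] {I : Subgroup Γ} [S : Setting p Ω I]

theorem tame_conj {F : Γ} (hF : FrobData p Ω I F) {c : Ω} (hc : c ≠ 0) (τ : I) :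
    tame c (⟨F * τ.1 * F⁻¹, hF.normal.conj_mem τ.1 τ.2 F⟩ : I) = tame c τ ^ p := by
  obtain ⟨π', hπ'⟩ : ∃ π', π' = F⁻¹ • c := ⟨_, rfl⟩
  have hπ'n : ‖π'‖ = ‖c‖ := by rw [hπ', hF.norm_smul]
  have hπ'0 : π' ≠ 0 := by rw [← norm_ne_zero_iff, hπ'n]; exact norm_ne_zero_iff.2 hc
  have h1 : (F * τ.1 * F⁻¹) • c / c = F • (τ.1 • π' / π') := by
    rw [smul_div₀', hπ', smul_inv_smul, mul_smul, mul_smul]
  have h2 : tame c τ = tame π' τ := tame_eq p hc hπ'n.symm τ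
  rw [h2]
  change res ((F * τ.1 * F⁻¹) • c / c) = res (τ.1 • π' / π') ^ p
  rw [h1, hF.res_frob]
  exact (norm_smul_div p hπ'0 τ).le

section Min

variable {M : Type} [AddCommGroup M] {ρ : Γ → M → M}

variable (I ρ) in
/-- stable under inertia -/
def IStab (N : AddSubgroup M) : Prop := ∀ σ ∈ I, ∀ x ∈ N, ρ σ x ∈ N

variable (I ρ) in
/-- minimal nonzero stable subgroups -/
def IsMin (N : AddSubgroup M) : Prop := Minimal (fun N => IStab I ρ N ∧ N ≠ ⊥) N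

theorem exists_isMin_le [Finite M] {N : AddSubgroup M} (hN : IStab I ρ N) (h0 : N ≠ ⊥) :
    ∃ N' ≤ N, IsMin I ρ N' := by
  haveI : Finite (AddSubgroup M) := by
    exact Finite.of_injective (fun N : AddSubgroup M => (N : Set M)) SetLike.coe_injective
  obtain ⟨N', h1, h2⟩ := exists_minimal_le_of_wellFoundedLT
    (fun N => IStab I ρ N ∧ N ≠ ⊥) N ⟨hN, h0⟩
  exact ⟨N', h1, h2⟩

theorem IsMin.comap (hI : I.Normal) (hρ : IsAct ρ) {N : AddSubgroup M} (hN : IsMin I ρ N) (γ : Γ) :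
    IsMin I ρ (N.comap (hρ.hom γ)) := by
  have key : ∀ (δ : Γ) (N' : AddSubgroup M), IStab I ρ N' → IStab I ρ (N'.comap (hρ.hom δ)) := by
    intro δ N' hN' σ hσ x hx
    rw [AddSubgroup.mem_comap] at hx ⊢
    rw [IsAct.hom_apply] at hx ⊢
    have h1 : ρ δ (ρ σ x) = ρ (δ * σ * δ⁻¹) (ρ δ x) := by
      rw [← hρ.mul, ← hρ.mul, inv_mul_cancel_right]
    rw [h1]
    exact hN' _ (hI.conj_mem σ hσ δ) _ hx
  have hbot : ∀ (δ : Γ) (N' : AddSubgroup M), N' ≠ ⊥ → N'.comap (hρ.hom δ) ≠ ⊥ := by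
    intro δ N' hN' h
    apply hN'
    rw [AddSubgroup.eq_bot_iff_forall] at h ⊢
    intro x hx
    have h1 : ρ δ⁻¹ x = 0 := h _ (by
      rw [AddSubgroup.mem_comap, IsAct.hom_apply, hρ.apply_inv]
      exact hx)
    rw [← hρ.apply_inv δ x, h1, hρ.zero]
  refine ⟨⟨key γ N hN.1.1, hbot γ N hN.1.2⟩, ?_⟩
  rintro N' ⟨h1, h2⟩ hle
  have h3 : N'.comap (hρ.hom γ⁻¹) ≤ N := by
    intro x hx
    have h4 := hle (AddSubgroup.mem_comap.1 hx)
    rw [AddSubgroup.mem_comap, IsAct.hom_apply, IsAct.hom_apply, hρ.apply_inv] at h4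
    exact h4
  have h4 := hN.2 ⟨key γ⁻¹ N' h1, hbot γ⁻¹ N' h2⟩ h3
  intro x hx
  rw [AddSubgroup.mem_comap, IsAct.hom_apply] at hx
  have h5 := h4 hx
  rw [AddSubgroup.mem_comap, IsAct.hom_apply, hρ.inv_apply] at h5
  exact h5

/-- The dichotomy for minimal subgroups: inertia acts trivially or through a tame character. -/
theorem IsMin.cases [Finite M] (hρ : IsAct ρ) (D : Ord p Ω I (rI I ρ)) {N : AddSubgroup M}
    (hN : IsMin I ρ N) : (∀ σ ∈ I, ∀ x ∈ N, ρ σ x = x) ∨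
      ∃ (lam : N →+ KR Ω) (c : Ω), c ≠ 0 ∧ Function.Injective lam ∧
        ∀ (σ : I) (x y : N), (y : M) = ρ σ.1 x → lam y = tame c σ * lam x := by
  let ρN : I → N → N := fun σ x => ⟨ρ σ.1 x.1, hN.1.1 σ.1 σ.2 x.1 x.2⟩
  have hρN : IsAct ρN :=
    ⟨fun x => Subtype.ext (hρ.one x.1), fun σ τ x => Subtype.ext (hρ.mul σ.1 τ.1 x.1),
      fun σ x y => Subtype.ext (hρ.add σ.1 x.1 y.1)⟩
  let DN : Ord p Ω I ρN := D.restrict N.subtype N.subtype_injective fun σ x => rfl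
  haveI : Nontrivial N := (AddSubgroup.nontrivial_iff_ne_bot N).2 hN.1.2
  have hirr : ∀ N' : AddSubgroup N, (∀ σ, ∀ x ∈ N', ρN σ x ∈ N') → N' = ⊥ ∨ N' = ⊤ := by
    intro N' hN'
    by_cases h0 : N' = ⊥
    · exact Or.inl h0
    right
    have h1 : IStab I ρ (N'.map N.subtype) := by
      rintro σ hσ _ ⟨x, hx, rfl⟩
      exact ⟨ρN ⟨σ, hσ⟩ x, hN' ⟨σ, hσ⟩ x hx, rfl⟩
    have h2 : N'.map N.subtype ≠ ⊥ := by
      intro h
      apply h0
      rwa [AddSubgroup.map_eq_bot_iff_of_injective _ N.subtype_injective] at h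
    have h3 : N ≤ N'.map N.subtype := hN.2 ⟨h1, h2⟩ (by
      rintro _ ⟨x, _, rfl⟩
      exact x.2)
    rw [eq_top_iff]
    intro x _
    obtain ⟨y, hy, hyx⟩ := h3 x.2
    have : y = x := Subtype.ext hyx
    rwa [← this]
  rcases irr_cases hρN DN hirr with h1 | ⟨h, hh, c, hc, hc1, hr, hr', hinj⟩
  · left
    intro σ hσ x hx
    exact congrArg Subtype.val (h1 ⟨σ, hσ⟩ ⟨x, hx⟩)
  · right
    refine ⟨DN.leadHom hh hc hc1 hr, c, hc, hinj, fun σ x y hy => ?_⟩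
    have : y = ρN σ x := Subtype.ext hy
    rw [this]
    exact DN.lead_smul hρN hh hc (hr x) σ

/-- elements on which inertia acts tamely -/
def Tam (I : Subgroup Γ) (ρ : Γ → M → M) (F : Γ) (p : ℕ) (x : M) : Prop :=
  (∀ σ ∈ I, ∀ τ ∈ I, ρ σ (ρ τ x) = ρ τ (ρ σ x)) ∧
    ∀ σ ∈ I, ρ (F * σ * F⁻¹) x = ρ (σ ^ p) x

theorem tam_of_isMin [Finite M] {F : Γ} (hF : FrobData p Ω I F) (hρ : IsAct ρ)
    (D : Ord p Ω I (rI I ρ)) {N : AddSubgroup M} (hN : IsMin I ρ N) {x : M} (hx : x ∈ N) :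
    Tam I ρ F p x := by
  have hp : p ≠ 0 := (S.prime).ne_zero
  rcases hN.cases hρ D with h1 | ⟨lam, c, hc, hinj, hlam⟩
  · refine ⟨fun σ hσ τ hτ => ?_, fun σ hσ => ?_⟩
    · rw [h1 τ hτ x hx, h1 σ hσ x hx, h1 τ hτ x hx]
    · rw [h1 _ (hF.normal.conj_mem σ hσ F) x hx, h1 _ (I.pow_mem hσ p) x hx]
  · have hpow : ∀ (σ : I) (n : ℕ), tame c (σ ^ n) = tame c σ ^ n := by
      intro σ n
      induction n with
      | zero => rw [pow_zero, pow_zero, tame_one_smul p hc]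
      | succ n ih => rw [pow_succ, tame_map_mul p hc, ih, pow_succ]
    refine ⟨fun σ hσ τ hτ => ?_, fun σ hσ => ?_⟩
    · have hs := hN.1.1 σ hσ
      have ht := hN.1.1 τ hτ
      have h1 : (⟨ρ σ (ρ τ x), hs _ (ht x hx)⟩ : N) = ⟨ρ τ (ρ σ x), ht _ (hs x hx)⟩ := by
        apply hinj
        rw [hlam ⟨σ, hσ⟩ ⟨ρ τ x, ht x hx⟩ ⟨ρ σ (ρ τ x), hs _ (ht x hx)⟩ rfl,
          hlam ⟨τ, hτ⟩ ⟨x, hx⟩ ⟨ρ τ x, ht x hx⟩ rfl,
          hlam ⟨τ, hτ⟩ ⟨ρ σ x, hs x hx⟩ ⟨ρ τ (ρ σ x), ht _ (hs x hx)⟩ rfl,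
          hlam ⟨σ, hσ⟩ ⟨x, hx⟩ ⟨ρ σ x, hs x hx⟩ rfl]
        ring
      exact congrArg Subtype.val h1
    · have hs := hN.1.1 _ (hF.normal.conj_mem σ hσ F) x hx
      have ht := hN.1.1 _ (I.pow_mem hσ p) x hx
      have h1 : (⟨ρ (F * σ * F⁻¹) x, hs⟩ : N) = ⟨ρ (σ ^ p) x, ht⟩ := by
        apply hinj
        rw [hlam ⟨F * σ * F⁻¹, hF.normal.conj_mem σ hσ F⟩ ⟨x, hx⟩ ⟨ρ (F * σ * F⁻¹) x, hs⟩ rfl,
          hlam (⟨σ, hσ⟩ ^ p) ⟨x, hx⟩ ⟨ρ (σ ^ p) x, ht⟩ rfl, tame_conj hF hc ⟨σ, hσ⟩, hpow]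
      exact congrArg Subtype.val h1

end Min

section Mat

variable {k : Type} [Field k] [Finite k] {r : Γ →* Matrix (Fin 2) (Fin 2) k}

theorem vAct_smul (γ : Γ) (a : k) (v : Fin 2 → k) : vAct r γ (a • v) = a • vAct r γ v := by
  rw [vAct, vAct, mulVec_smul]

/-- In an irreducible flat representation inertia acts tamely. -/
theorem tam_of_irr {F : Γ} (hF : FrobData p Ω I F) (hflat : FlatR p Ω I r)
    (hirr : ∀ W : Submodule k (Fin 2 → k), (∀ γ, ∀ x ∈ W, vAct r γ x ∈ W) → W = ⊥ ∨ W = ⊤)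
    (x : Fin 2 → k) : Tam I (vAct r) F p x := by
  obtain ⟨D⟩ := hflat
  have hρ := isAct_vAct r
  -- the space of tame vectors
  let P : Submodule k (Fin 2 → k) :=
    { carrier := {x | Tam I (vAct r) F p x}
      add_mem' := by
        rintro x y ⟨h1, h2⟩ ⟨h3, h4⟩
        refine ⟨fun σ hσ τ hτ => ?_, fun σ hσ => ?_⟩
        · rw [hρ.add, hρ.add, hρ.add, hρ.add, h1 σ hσ τ hτ, h3 σ hσ τ hτ]
        · rw [hρ.add, hρ.add, h2 σ hσ, h4 σ hσ]
      zero_mem' := ⟨fun σ _ τ _ => by simp only [hρ.zero], fun σ _ => by simp only [hρ.zero]⟩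
      smul_mem' := by
        rintro a x ⟨h1, h2⟩
        refine ⟨fun σ hσ τ hτ => ?_, fun σ hσ => ?_⟩
        · rw [vAct_smul, vAct_smul, vAct_smul, vAct_smul, h1 σ hσ τ hτ]
        · rw [vAct_smul, vAct_smul, h2 σ hσ] }
  let W : Submodule k (Fin 2 → k) := Submodule.span k {x | ∃ N, IsMin I (vAct r) N ∧ x ∈ N}
  have hWP : W ≤ P := by
    rw [Submodule.span_le]
    rintro x ⟨N, hN, hx⟩
    exact tam_of_isMin hF hρ D hN hx
  have hW : ∀ γ, ∀ x ∈ W, vAct r γ x ∈ W := by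
    intro γ x hx
    induction hx using Submodule.span_induction with
    | mem x hx =>
      obtain ⟨N, hN, hx⟩ := hx
      apply Submodule.subset_span
      refine ⟨N.comap (hρ.hom γ⁻¹), hN.comap hF.normal hρ γ⁻¹, ?_⟩
      rw [AddSubgroup.mem_comap, IsAct.hom_apply, hρ.inv_apply]
      exact hx
    | zero => rw [hρ.zero]; exact W.zero_mem
    | add x y _ _ hx hy => rw [hρ.add]; exact W.add_mem hx hy
    | smul a x _ hx => rw [vAct_smul]; exact W.smul_mem a hx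
  rcases hirr W hW with h0 | h0
  · exfalso
    haveI : Finite (Fin 2 → k) := inferInstance
    obtain ⟨N, -, hN⟩ := exists_isMin_le (I := I) (ρ := vAct r) (N := ⊤)
      (fun _ _ _ _ => AddSubgroup.mem_top _) (by
        intro h
        have h1 : (fun _ => 1 : Fin 2 → k) ∈ (⊤ : AddSubgroup (Fin 2 → k)) :=
          AddSubgroup.mem_top _
        rw [h, AddSubgroup.mem_bot] at h1
        exact one_ne_zero (congrFun h1 0))
    obtain ⟨x, hxN, hx0⟩ : ∃ x ∈ N, x ≠ 0 := by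
      by_contra hcon
      push Not at hcon
      exact hN.1.2 ((AddSubgroup.eq_bot_iff_forall N).2 hcon)
    have : x ∈ W := Submodule.subset_span ⟨N, hN, hxN⟩
    rw [h0, Submodule.mem_bot] at this
    exact hx0 this
  · have : x ∈ W := by rw [h0]; trivial
    exact hWP this

end Mat

end Fermat.Agent.TWP.Dich
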