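import Fermat.Agent.TWP.Dich2
import Fermat.Agent.Flat.VZero

/-!
# The dichotomy for flat representations of dimension two
-/

set_option autoImplicit false
set_option linter.unusedSectionVars false
set_option linter.style.haveILetI false

noncomputable section

namespace Fermat.Agent.TWP.Dich

open Fermat.Agent.Flat Fermat.Agent.Flat.VZero Matrix

section Omega

variable (p : ℕ) (Ω : Type) [NormedField Ω] [hU : IsUltrametricDist Ω] (I : Type) [Group I]
    [MulSemiringAction I Ω] [S : Setting p Ω I]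

include S in
theorem exists_omega_ne : ∃ σ : I, omega p Ω I σ ≠ 1 := by
  by_contra hcon
  push Not at hcon
  have h1 : ∀ σ : I, σ • (zeta p Ω I - 1) = zeta p Ω I - 1 := by
    intro σ
    have h2 : zp p Ω I 1 = zeta p Ω I := by
      have := zp_natCast p Ω I 1
      rwa [Nat.cast_one, pow_one] at this
    rw [smul_sub, smul_one, smul_zeta, hcon σ, h2]
  have h3 := norm_zeta_sub_one (p := p) (Ω := Ω) (I := I)
  have h4 : zeta p Ω I - 1 ≠ 0 := by
    rw [← norm_ne_zero_iff, h3]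
    exact (rho_pos p Ω I).ne'
  obtain ⟨n, hn⟩ := S.norm_fixed _ h4 h1
  rw [h3] at hn
  have h5 := inv_lt_rho p Ω I
  have h6 := rho_lt_one p Ω I
  have hp := one_lt_p p Ω I
  rw [hn] at h5 h6
  have h7 : -1 < n := by
    by_contra h
    push Not at h
    have : (p : ℝ) ^ n ≤ (p : ℝ) ^ (-1 : ℤ) := zpow_le_zpow_right₀ hp.le h
    rw [_root_.zpow_neg_one] at this
    exact absurd h5 (not_lt.2 this)
  have h8 : n < 0 := by
    by_contra h
    push Not at h
    exact absurd h6 (not_lt.2 (one_le_zpow₀ hp.le h))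
  omega

include S in
theorem exists_omega_unit (a : (ZMod p)ˣ) : ∃ σ : I, omega p Ω I σ = a := by
  classical
  haveI : Fact p.Prime := ⟨S.prime⟩
  haveI := neZero_p p Ω I
  let f : I →* (ZMod p)ˣ := MonoidHom.toHomUnits
    { toFun := omega p Ω I
      map_one' := omega_one p Ω I
      map_mul' := omega_mul p Ω I }
  have hf : ∀ σ, (f σ : ZMod p) = omega p Ω I σ := fun σ => rfl
  haveI : Fintype f.range := Fintype.ofFinite _
  set P : Ω := ∏ h : f.range, (zp p Ω I ((h : (ZMod p)ˣ) : ZMod p) - 1) with hP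
  have hne : ∀ h : f.range, (((h : (ZMod p)ˣ) : ZMod p)) ≠ 0 := fun h => Units.ne_zero _
  have hPn : ‖P‖ = rho p ^ Nat.card f.range := by
    rw [hP, norm_prod, Finset.prod_congr rfl fun h _ => norm_zp_sub_one p Ω I (hne h),
      Finset.prod_const, Finset.card_univ, ← Nat.card_eq_fintype_card]
  have hP0 : P ≠ 0 := by
    rw [← norm_ne_zero_iff, hPn]
    exact pow_ne_zero _ (rho_pos p Ω I).ne'
  have hPfix : ∀ σ : I, σ • P = P := by
    intro σ
    rw [hP, Finset.smul_prod']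
    refine Fintype.prod_bijective (fun h : f.range => (⟨f σ, σ, rfl⟩ : f.range) * h)
      (Group.mulLeft_bijective _) _ _ fun h => ?_
    rw [smul_sub, smul_one, smul_zp]
    rfl
  obtain ⟨n, hn⟩ := S.norm_fixed P hP0 hPfix
  have hp := one_lt_p p Ω I
  have hp0 := p_pos p Ω I
  -- compare
  have h1 : (rho p ^ Nat.card f.range) ^ (p - 1) = ((p : ℝ) ^ n) ^ (p - 1) := by
    rw [← hPn, hn]
  rw [← pow_mul, mul_comm, pow_mul, rho_pow p Ω I, ← zpow_natCast, ← zpow_natCast, ← _root_.zpow_mul,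
    _root_.inv_zpow, ← _root_.zpow_neg] at h1
  have h2 := zpow_right_injective₀ hp0 hp.ne' h1
  have h3 : (p - 1) ∣ Nat.card f.range := by
    have : ((p - 1 : ℕ) : ℤ) ∣ (Nat.card f.range : ℤ) := ⟨-n, by linarith⟩
    exact_mod_cast this
  have h4 : Nat.card f.range = Nat.card (ZMod p)ˣ := by
    apply Nat.dvd_antisymm (Subgroup.card_subgroup_dvd_card _)
    rw [Nat.card_eq_fintype_card, ZMod.card_units_eq_totient, Nat.totient_prime S.prime]
    exact h3
  have h5 : f.range = ⊤ := Subgroup.eq_top_of_card_eq _ h4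
  have h6 : a ∈ f.range := by rw [h5]; trivial
  obtain ⟨σ, hσ⟩ := h6
  exact ⟨σ, by rw [← hσ]; exact (hf σ).symm⟩

include S in
theorem exists_omega_nonsq : ∃ σ : I, ¬ IsSquare (omega p Ω I σ) := by
  haveI : Fact p.Prime := ⟨S.prime⟩
  obtain ⟨a, ha⟩ := FiniteField.exists_nonsquare (F := ZMod p) (by
    rw [ZMod.ringChar_zmod_n]; exact S.odd)
  have ha0 : a ≠ 0 := by
    rintro rfl
    exact ha ⟨0, by rw [mul_zero]⟩
  obtain ⟨σ, hσ⟩ := exists_omega_unit p Ω I (Units.mk0 a ha0)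
  exact ⟨σ, by rw [hσ]; exact ha⟩

end Omega

variable {p : ℕ} [hp : Fact p.Prime] {Ω : Type} [NormedField Ω] [hU : IsUltrametricDist Ω]
  {Γ : Type} [Group Γ] [TopologicalSpace Γ] [IsTopologicalGroup Γ]
  [MulSemiringAction Γ Ω] {I : Subgroup Γ} [S : Setting p Ω I] {k : Type} [Field k] [Finite k]
  [Algebra (ZMod p) k]

local notation "io" => algebraMap (ZMod p) k

omit [TopologicalSpace Γ] [IsTopologicalGroup Γ] in
/-- A flat character is unramified or cyclotomic on inertia. -/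
theorem char_cases {F : Γ} (hF : FrobData p Ω I F) (χ : Γ →* k)
    (D : Ord p Ω I (fun (σ : I) (x : k) => χ σ.1 * x)) :
    (∀ σ ∈ I, χ σ = 1) ∨ (∀ σ ∈ I, χ σ = io (eps p Ω I σ)) := by
  classical
  let ρ : Γ → k → k := fun γ x => χ γ * x
  have hρ : IsAct ρ :=
    ⟨fun x => by change χ 1 * x = x; rw [map_one, one_mul],
      fun σ τ x => by change χ (σ * τ) * x = χ σ * (χ τ * x); rw [map_mul, mul_assoc],
      fun σ x y => mul_add _ _ _⟩
  obtain ⟨N, -, hN⟩ := exists_isMin_le (I := I) (ρ := ρ) (N := ⊤)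
    (fun _ _ _ _ => AddSubgroup.mem_top _) (by
      intro h
      have h1 : (1 : k) ∈ (⊤ : AddSubgroup k) := AddSubgroup.mem_top _
      rw [h, AddSubgroup.mem_bot] at h1
      exact one_ne_zero h1)
  obtain ⟨x, hxN, hx0⟩ : ∃ x ∈ N, x ≠ 0 := by
    by_contra hcon
    push Not at hcon
    exact hN.1.2 ((AddSubgroup.eq_bot_iff_forall N).2 hcon)
  have hT := tam_of_isMin hF hρ D hN hxN
  have hχ0 : ∀ γ, χ γ ≠ 0 := by
    intro γ h
    have : χ γ * χ γ⁻¹ = 1 := by rw [← map_mul, mul_inv_cancel, map_one]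
    rw [h, zero_mul] at this
    exact zero_ne_one this
  have hpow : ∀ σ ∈ I, (χ σ) ^ p = χ σ := by
    intro σ hσ
    have h1 : χ (F * σ * F⁻¹) * x = χ (σ ^ p) * x := hT.2 σ hσ
    have h2 := mul_right_cancel₀ hx0 h1
    rw [map_mul, map_mul, mul_right_comm, ← map_mul, mul_inv_cancel, map_one, one_mul,
      map_pow] at h2
    exact h2.symm
  choose! a ha using fun σ (hσ : σ ∈ I) => exists_io_of_pow (p := p) (hpow σ hσ)
  have hinj : Function.Injective io := (algebraMap (ZMod p) k).injective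
  let ρ' : I → ZMod p → ZMod p := fun σ z => a σ.1 * z
  have hρ' : IsAct ρ' := by
    constructor
    · intro z
      apply hinj
      change io (a (1 : Γ) * z) = io z
      rw [map_mul, ha 1 I.one_mem, map_one, one_mul]
    · intro σ τ z
      apply hinj
      change io (a (σ.1 * τ.1) * z) = io (a σ.1 * (a τ.1 * z))
      rw [map_mul, map_mul, map_mul, ha _ (I.mul_mem σ.2 τ.2), ha _ σ.2, ha _ τ.2, map_mul,
        mul_assoc]
    · intro σ z w
      exact mul_add _ _ _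
  let j : ZMod p →+ k := AddMonoidHom.mk' (fun z => io z * x) fun z w => by
    rw [map_add, add_mul]
  have hj : Function.Injective j := by
    intro z w h
    exact hinj (mul_right_cancel₀ hx0 h)
  let D' : Ord p Ω I ρ' := D.restrict j hj fun σ z => by
    change io (a σ.1 * z) * x = χ σ.1 * (io z * x)
    rw [map_mul, ha _ σ.2, mul_assoc]
  rcases order_p hρ' D' (Nat.card_zmod p) with h1 | h1
  · left
    intro σ hσ
    have h2 : a σ * 1 = 1 := h1 ⟨σ, hσ⟩ 1
    rw [mul_one] at h2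
    rw [← ha σ hσ, h2, map_one]
  · right
    intro σ hσ
    have h2 : a σ * 1 = (omega p Ω I ⟨σ, hσ⟩).val • (1 : ZMod p) := h1 ⟨σ, hσ⟩ 1
    rw [mul_one, nsmul_eq_mul, mul_one, ZMod.natCast_zmod_val] at h2
    rw [← ha σ hσ, h2, ← eps_eq_omega]

/-- The matrix with given columns. -/
def colM (v w : Fin 2 → k) : Matrix (Fin 2) (Fin 2) k := !![v 0, w 0; v 1, w 1]

theorem colM_zero (v w : Fin 2 → k) : colM v w *ᵥ ![1, 0] = v := by
  ext i
  fin_cases i <;> simp [colM, mulVec, dotProduct]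

theorem colM_one (v w : Fin 2 → k) : colM v w *ᵥ ![0, 1] = w := by
  ext i
  fin_cases i <;> simp [colM, mulVec, dotProduct]

theorem mulVec_e0 (A : Matrix (Fin 2) (Fin 2) k) (i : Fin 2) : (A *ᵥ ![1, 0]) i = A i 0 := by
  fin_cases i <;> simp [mulVec, dotProduct]

theorem mulVec_e1 (A : Matrix (Fin 2) (Fin 2) k) (i : Fin 2) : (A *ᵥ ![0, 1]) i = A i 1 := by
  fin_cases i <;> simp [mulVec, dotProduct]

omit [TopologicalSpace Γ] [IsTopologicalGroup Γ] [MulSemiringAction Γ Ω] S in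
theorem conj_col0 {r : Γ →* Matrix (Fin 2) (Fin 2) k} {B : (Matrix (Fin 2) (Fin 2) k)ˣ}
    {v w : Fin 2 → k} (hB : (B : Matrix (Fin 2) (Fin 2) k) = colM v w) {γ : Γ} {a : k}
    (h : r γ *ᵥ v = a • v) (i : Fin 2) : conjR B r γ i 0 = a * (![1, 0] : Fin 2 → k) i := by
  rw [← mulVec_e0 (conjR B r γ) i]
  change (((B⁻¹ : (Matrix (Fin 2) (Fin 2) k)ˣ) * r γ * B : Matrix (Fin 2) (Fin 2) k) *ᵥ ![1, 0]) i = _
  rw [← mulVec_mulVec, hB, colM_zero, ← mulVec_mulVec, h, mulVec_smul]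
  have h1 : (B⁻¹ : (Matrix (Fin 2) (Fin 2) k)ˣ) *ᵥ v = ![1, 0] := by
    have h2 : v = (B : Matrix (Fin 2) (Fin 2) k) *ᵥ ![1, 0] := by rw [hB, colM_zero]
    conv_lhs => rw [h2]
    rw [mulVec_mulVec, Units.inv_mul, one_mulVec]
  rw [h1]
  rfl

omit [TopologicalSpace Γ] [IsTopologicalGroup Γ] [MulSemiringAction Γ Ω] S in
theorem conj_col1 {r : Γ →* Matrix (Fin 2) (Fin 2) k} {B : (Matrix (Fin 2) (Fin 2) k)ˣ}
    {v w : Fin 2 → k} (hB : (B : Matrix (Fin 2) (Fin 2) k) = colM v w) {γ : Γ} {a : k}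
    (h : r γ *ᵥ w = a • w) (i : Fin 2) : conjR B r γ i 1 = a * (![0, 1] : Fin 2 → k) i := by
  rw [← mulVec_e1 (conjR B r γ) i]
  change (((B⁻¹ : (Matrix (Fin 2) (Fin 2) k)ˣ) * r γ * B : Matrix (Fin 2) (Fin 2) k) *ᵥ ![0, 1]) i = _
  rw [← mulVec_mulVec, hB, colM_one, ← mulVec_mulVec, h, mulVec_smul]
  have h1 : (B⁻¹ : (Matrix (Fin 2) (Fin 2) k)ˣ) *ᵥ w = ![0, 1] := by
    have h2 : w = (B : Matrix (Fin 2) (Fin 2) k) *ᵥ ![0, 1] := by rw [hB, colM_one]
    conv_lhs => rw [h2]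
    rw [mulVec_mulVec, Units.inv_mul, one_mulVec]
  rw [h1]
  rfl

variable (p Ω I) in
/-- ordinary upper triangular form -/
def OrdForm (r : Γ →* Matrix (Fin 2) (Fin 2) k) : Prop :=
  (∀ γ, r γ 1 0 = 0) ∧ (∀ σ ∈ I, r σ 0 0 = io (eps p Ω I σ)) ∧ (∀ σ ∈ I, r σ 1 1 = 1)

omit [TopologicalSpace Γ] [IsTopologicalGroup Γ] in
/-- The upper triangular case. -/
theorem ord_of_upper {F : Γ} (hF : FrobData p Ω I F) {r : Γ →* Matrix (Fin 2) (Fin 2) k}
    (hflat : FlatR p Ω I r) (hdet : ∀ γ, (r γ).det = io (eps p Ω I γ))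
    (hup : ∀ γ, r γ 1 0 = 0) :
    ∃ B : (Matrix (Fin 2) (Fin 2) k)ˣ, OrdForm p Ω I (conjR B r) := by
  classical
  obtain ⟨D⟩ := hflat
  have hρ := isAct_vAct r
  have hv : ∀ γ (v : Fin 2 → k), vAct r γ v = ![r γ 0 0 * v 0 + r γ 0 1 * v 1, r γ 1 1 * v 1] := by
    intro γ v
    ext i
    fin_cases i
    · simp [vAct, mulVec, dotProduct]
    · simp [vAct, mulVec, dotProduct, hup]
  have hmul : ∀ γ δ, r (γ * δ) = r γ * r δ := fun γ δ => map_mul r γ δ
  let χ₁ : Γ →* k :=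
    { toFun := fun γ => r γ 0 0
      map_one' := by rw [map_one]; rfl
      map_mul' := fun γ δ => by
        rw [hmul, Matrix.mul_apply, Fin.sum_univ_two, hup δ, mul_zero, add_zero] }
  let χ₂ : Γ →* k :=
    { toFun := fun γ => r γ 1 1
      map_one' := by rw [map_one]; rfl
      map_mul' := fun γ δ => by
        rw [hmul, Matrix.mul_apply, Fin.sum_univ_two, hup γ, zero_mul, zero_add] }
  -- the two characters are flat
  let j : k →+ (Fin 2 → k) := AddMonoidHom.mk' (fun a => ![a, 0]) fun a b => by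
    ext i; fin_cases i <;> simp
  have D₁ : Ord p Ω I (fun (σ : I) (x : k) => χ₁ σ.1 * x) := D.restrict j (fun a b h => congrFun h 0)
    fun σ x => by
      change ![r σ.1 0 0 * x, 0] = vAct r σ.1 ![x, 0]
      rw [hv]
      ext i; fin_cases i <;> simp
  have hact₂ : IsAct (fun (σ : I) (x : k) => χ₂ σ.1 * x) :=
    ⟨fun x => by change χ₂ (1 : Γ) * x = x; rw [map_one, one_mul],
      fun σ τ x => by change χ₂ (σ.1 * τ.1) * x = χ₂ σ.1 * (χ₂ τ.1 * x); rw [map_mul, mul_assoc],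
      fun σ x y => mul_add _ _ _⟩
  let π : (Fin 2 → k) →+ k := AddMonoidHom.mk' (fun v => v 1) fun _ _ => rfl
  obtain ⟨D₂, -⟩ := D.exists_quot (hρ.rI I) hact₂ π (fun a => ⟨![0, a], rfl⟩) fun σ v => by
    change (vAct r σ.1 v) 1 = r σ.1 1 1 * v 1
    rw [hv]; rfl
  have hdet' : ∀ γ, χ₁ γ * χ₂ γ = io (eps p Ω I γ) := by
    intro γ
    rw [← hdet, det_fin_two, hup, mul_zero, sub_zero]
    rfl
  obtain ⟨σ₀, hσ₀⟩ := exists_omega_ne p Ω I
  rw [← eps_eq_omega] at hσ₀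
  have hinj : Function.Injective io := (algebraMap (ZMod p) k).injective
  have hσ₀' : io (eps p Ω I σ₀.1) ≠ 1 := fun h => hσ₀ (hinj (by rw [h, map_one]))
  rcases char_cases hF χ₁ D₁ with h1 | h1 <;> rcases char_cases hF χ₂ D₂ with h2 | h2
  · exfalso
    apply hσ₀'
    rw [← hdet', h1 _ σ₀.2, h2 _ σ₀.2, one_mul]
  · -- unramified sub, cyclotomic quotient: the connected part splits it
    have hkill : ∀ z : Fin 2 → k, p ^ 1 • z = 0 := by
      intro z
      haveI := charP_k (p := p) (k := k)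
      funext i
      rw [pow_one, Pi.smul_apply, nsmul_eq_mul, CharP.cast_eq_zero, zero_mul]
      rfl
    have hconn : ∀ (N : AddSubgroup (Fin 2 → k)), (∀ (σ : I) x, vAct r σ.1 x - x ∈ N) →
        D.conn ≤ N := fun N hN => D.conn_le (hρ.rI I) hkill N hN
    have hC : ∀ (σ : I) x, vAct r σ.1 x - x ∈ D.conn := fun σ x => D.smul_sub_mem_conn σ x
    have hCΓ : ∀ γ, ∀ x ∈ D.conn, vAct r γ x ∈ D.conn := by
      intro γ x hx
      have h3 := hconn (D.conn.comap (hρ.hom γ)) (fun σ x => by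
        rw [AddSubgroup.mem_comap, IsAct.hom_apply, hρ.sub]
        have h4 : vAct r γ (vAct r σ.1 x) = vAct r (γ * σ.1 * γ⁻¹) (vAct r γ x) := by
          rw [← hρ.mul, ← hρ.mul, inv_mul_cancel_right]
        rw [h4]
        exact hC ⟨_, hF.normal.conj_mem σ.1 σ.2 γ⟩ _) hx
      exact h3
    have hCk : ∀ (a : k), ∀ x ∈ D.conn, a • x ∈ D.conn := by
      intro a x hx
      have h3 := hconn (D.conn.comap (DistribSMul.toAddMonoidHom (Fin 2 → k) a)) (fun σ x => by
        rw [AddSubgroup.mem_comap]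
        change a • (vAct r σ.1 x - x) ∈ D.conn
        rw [smul_sub, ← vAct_smul]
        exact hC _ _) hx
      exact h3
    have hC0 : ∀ x ∈ D.conn, x 1 = 0 → x = 0 := by
      intro x hx hx1
      refine D.eq_zero_of_fixed (hρ.rI I) hkill hx fun σ => ?_
      change vAct r σ.1 x = x
      rw [hv, hx1]
      have h3 : r σ.1 0 0 = 1 := h1 σ.1 σ.2
      ext i
      fin_cases i
      · simp [h3]
      · simp [hx1]
    obtain ⟨c, hc⟩ : ∃ c, c = vAct r σ₀.1 ![0, 1] - ![0, 1] := ⟨_, rfl⟩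
    have hcC : c ∈ D.conn := by rw [hc]; exact hC σ₀ _
    have hc1 : c 1 ≠ 0 := by
      rw [hc, hv]
      have h3 : r σ₀.1 1 1 = io (eps p Ω I σ₀.1) := h2 _ σ₀.2
      rw [h3]
      change io (eps p Ω I σ₀.1) * 1 - 1 ≠ 0
      rw [mul_one]
      exact sub_ne_zero.2 hσ₀'
    have hcγ : ∀ γ, r γ *ᵥ c = r γ 1 1 • c := by
      intro γ
      have h3 : vAct r γ c - r γ 1 1 • c = 0 := by
        apply hC0
        · exact D.conn.sub_mem (hCΓ γ c hcC) (hCk _ c hcC)
        · rw [hv]; simp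
      exact sub_eq_zero.1 h3
    have he : ∀ γ, r γ *ᵥ ![1, 0] = r γ 0 0 • ![1, 0] := by
      intro γ
      have := hv γ ![1, 0]
      rw [vAct] at this
      rw [this]
      ext i; fin_cases i <;> simp
    have hB : IsUnit (colM c ![1, 0]) := by
      rw [isUnit_iff_isUnit_det, colM, det_fin_two_of]
      simp only [cons_val_zero, cons_val_one, mul_zero, one_mul, zero_sub, IsUnit.neg_iff]
      exact hc1.isUnit
    obtain ⟨B, hB⟩ := hB
    refine ⟨B, fun γ => ?_, fun σ hσ => ?_, fun σ hσ => ?_⟩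
    · rw [conj_col0 hB (hcγ γ)]; simp
    · rw [conj_col0 hB (hcγ σ)]
      have h3 : r σ 1 1 = io (eps p Ω I σ) := h2 _ hσ
      rw [h3]; simp
    · rw [conj_col1 hB (he σ)]
      have h3 : r σ 0 0 = 1 := h1 _ hσ
      rw [h3]; simp
  · refine ⟨1, ?_⟩
    have h3 : conjR (1 : (Matrix (Fin 2) (Fin 2) k)ˣ) r = r := by
      ext γ : 1
      change ((1⁻¹ : (Matrix (Fin 2) (Fin 2) k)ˣ) : Matrix (Fin 2) (Fin 2) k) * r γ * 1 = r γ
      rw [inv_one, Units.val_one, one_mul, mul_one]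
    rw [h3]
    exact ⟨hup, h1, h2⟩
  · exfalso
    have h3 := hdet' σ₀.1
    rw [h1 _ σ₀.2, h2 _ σ₀.2] at h3
    have h4 : io (eps p Ω I σ₀.1) ≠ 0 := by
      intro h
      have h5 : (r σ₀.1).det * (r σ₀.1⁻¹).det = 1 := by
        rw [← det_mul, ← map_mul, mul_inv_cancel, map_one, det_one]
      rw [hdet, h, zero_mul] at h5
      exact zero_ne_one h5
    exact hσ₀' (mul_left_cancel₀ h4 (by rw [h3, mul_one]))

end Fermat.Agent.TWP.Dich
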