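import Fermat.Agent.TWP.Dich3

/-!
# The dichotomy for flat representations of dimension two: the main theorem
-/

set_option autoImplicit false
set_option linter.unusedSectionVars false
set_option linter.style.haveILetI false

noncomputable section

namespace Fermat.Agent.TWP.Dich

open Fermat.Agent.Flat Fermat.Agent.Flat.VZero Matrix

variable {p : ℕ} [hp : Fact p.Prime] {Ω : Type} [NormedField Ω] [hU : IsUltrametricDist Ω]
  {Γ : Type} [Group Γ] [TopologicalSpace Γ] [IsTopologicalGroup Γ]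
  [MulSemiringAction Γ Ω] {I : Subgroup Γ} [S : Setting p Ω I] {k : Type} [Field k] [Finite k]
  [Algebra (ZMod p) k]

local notation "io" => algebraMap (ZMod p) k

/-- The endomorphism valued representation. -/
def endR (r : Γ →* Matrix (Fin 2) (Fin 2) k) : Γ →* Module.End k (Fin 2 → k) :=
  ((Matrix.toLinAlgEquiv' : Matrix (Fin 2) (Fin 2) k ≃ₐ[k] _) :
    Matrix (Fin 2) (Fin 2) k →* Module.End k (Fin 2 → k)).comp r

theorem endR_apply (r : Γ →* Matrix (Fin 2) (Fin 2) k) (γ : Γ) (v : Fin 2 → k) :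
    endR r γ v = vAct r γ v := rfl

/-- Frobenius generates modulo inertia, on the level of a representation with open kernel. -/
theorem exists_frob_repr {F : Γ}
    (hgen : ∀ U : Subgroup Γ, IsOpen (U : Set Γ) → I ≤ U → ∀ s, ∃ n : ℕ, (F ^ n)⁻¹ * s ∈ U)
    (hF : FrobData p Ω I F)
    {r : Γ →* Matrix (Fin 2) (Fin 2) k}
    (hr : ∃ U : Subgroup Γ, IsOpen (U : Set Γ) ∧ ∀ γ ∈ U, r γ = 1) (s : Γ) :
    ∃ n : ℕ, ∃ t ∈ I, r s = r F ^ n * r t := by
  obtain ⟨U, hU, hUr⟩ := hr
  haveI := hF.normal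
  have hopen : IsOpen ((I ⊔ U : Subgroup Γ) : Set Γ) := Subgroup.isOpen_mono le_sup_right hU
  obtain ⟨n, hn⟩ := hgen (I ⊔ U) hopen le_sup_left s
  rw [← SetLike.mem_coe, Subgroup.normal_mul] at hn
  obtain ⟨t, ht, u, hu, htu⟩ := hn
  refine ⟨n, t, ht, ?_⟩
  have h1 : s = F ^ n * (t * u) := by
    change t * u = _ at htu
    rw [htu, mul_inv_cancel_left]
  rw [h1, map_mul, map_mul, map_pow, hUr u hu, mul_one]

section Poly

open Polynomial

theorem prod_X_sub_C : ∏ a : ZMod p, (X - C a) = (X ^ p - X : (ZMod p)[X]) := by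
  have h1 : (X ^ p - X : (ZMod p)[X]).roots = Finset.univ.val := by
    have := FiniteField.roots_X_pow_card_sub_X (K := ZMod p)
    rwa [ZMod.card] at this
  have h2 : (X ^ p - X : (ZMod p)[X]).natDegree = p :=
    FiniteField.X_pow_card_sub_X_natDegree_eq (ZMod p) hp.out.one_lt
  have h3 : (X ^ p - X : (ZMod p)[X]).Monic := by
    apply monic_X_pow_sub
    rw [degree_X]
    exact_mod_cast hp.out.one_lt
  have h4 := prod_multiset_X_sub_C_of_monic_of_roots_card_eq h3 (by
    rw [h1, h2]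
    simp [ZMod.card])
  rw [h1] at h4
  exact h4

/-- A matrix with `T ^ p = T` which commutes with an irreducible family is a scalar in the prime
field. -/
theorem exists_scalar {r : Γ →* Matrix (Fin 2) (Fin 2) k}
    (hirr : ∀ W : Submodule k (Fin 2 → k), (∀ γ, ∀ x ∈ W, vAct r γ x ∈ W) → W = ⊥ ∨ W = ⊤)
    {T : Matrix (Fin 2) (Fin 2) k} (hT : ∀ s, r s * T = T * r s) (hTp : T ^ p = T) :
    ∃ a : ZMod p, T = algebraMap (ZMod p) _ a := by
  classical
  have key : ∀ s : Finset (ZMod p), aeval T (∏ a ∈ s, (X - C a)) = 0 →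
      ∃ a ∈ s, T = algebraMap (ZMod p) _ a := by
    intro s
    induction s using Finset.induction_on with
    | empty =>
      intro h
      rw [Finset.prod_empty, map_one] at h
      exact absurd h one_ne_zero
    | insert a s ha ih =>
      intro h
      rw [Finset.prod_insert ha, map_mul, map_sub, aeval_X, aeval_C] at h
      set A := T - algebraMap (ZMod p) (Matrix (Fin 2) (Fin 2) k) a with hA
      have hAc : ∀ s, r s * A = A * r s := by
        intro s
        rw [hA, mul_sub, sub_mul, hT, Algebra.commutes]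
      let W : Submodule k (Fin 2 → k) := LinearMap.ker (Matrix.toLin' A)
      have hW : ∀ γ, ∀ x ∈ W, vAct r γ x ∈ W := by
        intro γ x hx
        rw [LinearMap.mem_ker, Matrix.toLin'_apply] at hx ⊢
        rw [vAct, mulVec_mulVec, ← hAc, ← mulVec_mulVec, hx, mulVec_zero]
      rcases hirr W hW with h0 | h0
      · obtain ⟨b, hb, hb'⟩ := ih (by
          ext i j
          have h1 : A *ᵥ ((aeval T) (∏ a ∈ s, (X - C a)) *ᵥ Pi.single j 1) = 0 := by
            rw [mulVec_mulVec, h, zero_mulVec]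
          have h2 : ((aeval T) (∏ a ∈ s, (X - C a)) *ᵥ Pi.single j 1) ∈ W := by
            rw [LinearMap.mem_ker, Matrix.toLin'_apply]
            exact h1
          rw [h0, Submodule.mem_bot] at h2
          have h3 := congrFun h2 i
          rwa [mulVec_single_one] at h3)
        exact ⟨b, Finset.mem_insert_of_mem hb, hb'⟩
      · refine ⟨a, Finset.mem_insert_self _ _, ?_⟩
        rw [← sub_eq_zero, ← hA]
        have h1 : Matrix.toLin' A = 0 := LinearMap.ker_eq_top.1 h0
        exact (map_eq_zero_iff _ (Matrix.toLin').injective).1 h1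
  obtain ⟨a, -, ha⟩ := key Finset.univ (by
    rw [prod_X_sub_C, map_sub, map_pow, aeval_X, hTp, sub_self])
  exact ⟨a, ha⟩

end Poly

/-- In the irreducible case some inertia element has order not dividing `p - 1`. -/
theorem exists_pow_ne {F : Γ}
    {r : Γ →* Matrix (Fin 2) (Fin 2) k}
    (hgenr : ∀ s, ∃ n : ℕ, ∃ t ∈ I, r s = r F ^ n * r t)
    (hdet : ∀ γ, (r γ).det = io (eps p Ω I γ))
    (hirr : ∀ W : Submodule k (Fin 2 → k), (∀ γ, ∀ x ∈ W, vAct r γ x ∈ W) → W = ⊥ ∨ W = ⊤)
    (hcomm : ∀ σ ∈ I, ∀ τ ∈ I, r σ * r τ = r τ * r σ)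
    (hFr : ∀ t ∈ I, r F * r t = r t ^ p * r F) :
    ∃ t ∈ I, r t ^ (p - 1) ≠ 1 := by
  classical
  by_contra hcon
  push Not at hcon
  have hp1 : p - 1 + 1 = p := Nat.sub_add_cancel hp.out.one_lt.le
  have hpow : ∀ t ∈ I, r t ^ p = r t := by
    intro t ht
    conv_lhs => rw [← hp1]
    rw [pow_succ, hcon t ht, one_mul]
  have hFc : ∀ t ∈ I, r F * r t = r t * r F := by
    intro t ht
    rw [hFr t ht, hpow t ht]
  have hall : ∀ t ∈ I, ∀ s, r s * r t = r t * r s := by
    intro t ht s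
    obtain ⟨n, t', ht', hs⟩ := hgenr s
    rw [hs, mul_assoc, hcomm t' ht' t ht, ← mul_assoc, ← mul_assoc]
    congr 1
    exact ((show Commute (r F) (r t) from hFc t ht).pow_left n).eq
  obtain ⟨σ, hσ⟩ := exists_omega_nonsq p Ω I
  apply hσ
  obtain ⟨a, ha⟩ := exists_scalar hirr (hall σ.1 σ.2) (hpow σ.1 σ.2)
  refine ⟨a, ?_⟩
  have h1 := hdet σ.1
  rw [ha, eps_eq_omega, Matrix.algebraMap_eq_diagonal, det_diagonal, Fin.prod_univ_two] at h1
  apply (algebraMap (ZMod p) k).injective
  rw [← h1, map_mul]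
  rfl

/-- Lifting a representation with entries in the prime field. -/
theorem exists_lift {r : Γ →* Matrix (Fin 2) (Fin 2) k}
    (h : ∀ γ, ∃ A : Matrix (Fin 2) (Fin 2) (ZMod p), mAlg p k A = r γ) :
    ∃ r₀ : Γ →* Matrix (Fin 2) (Fin 2) (ZMod p), r = extR k r₀ := by
  choose A hA using h
  have hinj : Function.Injective (mAlg p k) := by
    intro X Y h
    ext i j
    exact (algebraMap (ZMod p) k).injective (congrFun (congrFun h i) j)
  refine ⟨
    { toFun := A
      map_one' := hinj (by rw [hA, map_one, map_one])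
      map_mul' := fun γ δ => hinj (by rw [hA, map_mul, map_mul, hA, hA]) }, ?_⟩
  ext γ : 1
  exact (hA γ).symm

variable (p Ω I) in
/-- The hypotheses of the supersingular bound. -/
structure SSForm (r₀ : Γ →* Matrix (Fin 2) (Fin 2) (ZMod p)) : Prop where
  ker : ∃ U : Subgroup Γ, IsOpen (U : Set Γ) ∧ ∀ γ ∈ U, r₀ γ = 1
  det : ∀ γ, (r₀ γ).det = eps p Ω I γ
  irr : ∀ N : AddSubgroup (Fin 2 → ZMod p), (∀ σ ∈ I, ∀ x ∈ N, r₀ σ *ᵥ x ∈ N) →
      N = ⊥ ∨ N = ⊤
  flat : FlatR p Ω I r₀

/-- **The dichotomy.** -/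
theorem dichotomy {F : Γ} (hF : FrobData p Ω I F)
    (hgen : ∀ U : Subgroup Γ, IsOpen (U : Set Γ) → I ≤ U → ∀ s, ∃ n : ℕ, (F ^ n)⁻¹ * s ∈ U)
    {r : Γ →* Matrix (Fin 2) (Fin 2) k}
    (hr : ∃ U : Subgroup Γ, IsOpen (U : Set Γ) ∧ ∀ γ ∈ U, r γ = 1)
    (hdet : ∀ γ, (r γ).det = io (eps p Ω I γ)) (hflat : FlatR p Ω I r) :
    (∃ (B : (Matrix (Fin 2) (Fin 2) k)ˣ) (r₀ : Γ →* Matrix (Fin 2) (Fin 2) (ZMod p)),
      conjR B r = extR k r₀ ∧ SSForm p Ω I r₀) ∨
    (∃ B : (Matrix (Fin 2) (Fin 2) k)ˣ, OrdForm p Ω I (conjR B r)) := by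
  classical
  by_cases hirr : ∀ W : Submodule k (Fin 2 → k), (∀ γ, ∀ x ∈ W, vAct r γ x ∈ W) →
    W = ⊥ ∨ W = ⊤
  · left
    have hT := tam_of_irr hF hflat hirr
    have hgenr := exists_frob_repr hgen hF hr
    have hvm : ∀ A B : Matrix (Fin 2) (Fin 2) k, (∀ v, A *ᵥ v = B *ᵥ v) → A = B := by
      intro A B h
      exact Matrix.ext_of_mulVec_single fun i => h _
    have hcomm : ∀ σ ∈ I, ∀ τ ∈ I, r σ * r τ = r τ * r σ := by
      intro σ hσ τ hτ
      apply hvm
      intro v
      rw [← mulVec_mulVec, ← mulVec_mulVec]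
      exact (hT v).1 σ hσ τ hτ
    have hFr : ∀ t ∈ I, r F * r t = r t ^ p * r F := by
      intro t ht
      have h1 : r (F * t * F⁻¹) = r (t ^ p) := hvm _ _ fun v => (hT v).2 t ht
      rw [← map_pow, ← h1, ← map_mul, ← map_mul, inv_mul_cancel_right]
    have hex := exists_pow_ne hgenr hdet hirr hcomm hFr
    have hend : ∀ γ, endR r γ = Matrix.toLin' (r γ) := fun γ => rfl
    have hep : ∀ (A : Matrix (Fin 2) (Fin 2) k) (n : ℕ),
        Matrix.toLin' (A ^ n) = (Matrix.toLin' A) ^ n := fun A n => Matrix.toLin'_pow A n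
    have hmul : ∀ (A B : Matrix (Fin 2) (Fin 2) k),
        Matrix.toLin' (A * B) = Matrix.toLin' A * Matrix.toLin' B :=
      fun A B => Matrix.toLin'_mul A B
    have hV : Module.finrank k (Fin 2 → k) = 2 := by
      rw [Module.finrank_fin_fun]
    obtain ⟨b, V0, hV0, hst, hcard, hmin, -⟩ := exists_V0 (p := p) (Setting.odd Ω I) hV
      (endR r) I F (fun t ht => by
        rw [hend, hend, ← hep, ← hmul, ← hmul, hFr t ht])
      (fun s hs t ht => by
        rw [hend, hend, ← hmul, ← hmul, hcomm s hs t ht])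
      (fun s => by
        obtain ⟨n, t, ht, h⟩ := hgenr s
        refine ⟨n, t, ht, ?_⟩
        rw [hend, hend, hend, ← hep, ← hmul, h])
      (eps p Ω I) (fun s => by rw [hend, LinearMap.det_toLin', hdet])
      (fun W hW => hirr W fun γ x hx => hW γ x hx)
      (by
        obtain ⟨t, ht, h⟩ := hex
        refine ⟨t, ht, fun h1 => h ?_⟩
        rw [hend, ← hep] at h1
        apply (Matrix.toLin').injective
        rw [h1, Matrix.toLin'_one]
        rfl)
    -- the matrix of the basis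
    have hBu : IsUnit (colM (b 0) (b 1)) := by
      have h1 : colM (b 0) (b 1) = (Pi.basisFun k (Fin 2)).toMatrix b := by
        ext i j
        fin_cases i <;> fin_cases j <;> rfl
      rw [h1]
      letI := (Pi.basisFun k (Fin 2)).invertibleToMatrix b
      exact isUnit_of_invertible _
    obtain ⟨B, hB⟩ := hBu
    have hphi : ∀ c : Fin 2 → ZMod p, phi b c = (B : Matrix (Fin 2) (Fin 2) k) *ᵥ (vAlg p k c) := by
      intro c
      rw [phi_apply, hB]
      ext i
      fin_cases i
      · simp [colM, mulVec, dotProduct, vAlg, mul_comm, Algebra.smul_def]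
      · simp [colM, mulVec, dotProduct, vAlg, mul_comm, Algebra.smul_def]
    have hbV : ∀ i, b i ∈ V0 := by
      intro i
      rw [hV0]
      refine ⟨Pi.single i 1, ?_⟩
      rw [Finset.sum_eq_single i]
      · rw [Pi.single_eq_same, map_one, one_smul]
      · intro j _ hj
        rw [Pi.single_eq_of_ne hj, map_zero, zero_smul]
      · intro h
        exact absurd (Finset.mem_univ i) h
    have hlift : ∀ γ, ∃ A : Matrix (Fin 2) (Fin 2) (ZMod p), mAlg p k A = conjR B r γ := by
      intro γ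
      have h1 : ∀ i, ∃ c : Fin 2 → ZMod p, r γ *ᵥ b i = phi b c := by
        intro i
        obtain ⟨c, hc⟩ := (hV0 _).1 (hst γ _ (hbV i))
        exact ⟨c, hc⟩
      choose c hc using h1
      refine ⟨Matrix.of fun i j => c j i, ?_⟩
      have h2 : (B : Matrix (Fin 2) (Fin 2) k) * mAlg p k (Matrix.of fun i j => c j i) =
          r γ * B := by
        apply hvm
        intro v
        have hv : v = v 0 • ![1, 0] + v 1 • ![0, 1] := by
          ext i; fin_cases i <;> simp
        have hcol : ∀ j : Fin 2, ∀ e : Fin 2 → k, e = Pi.single j 1 →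
            ((B : Matrix (Fin 2) (Fin 2) k) * mAlg p k (Matrix.of fun i j => c j i)) *ᵥ e =
              (r γ * (B : Matrix (Fin 2) (Fin 2) k)) *ᵥ e := by
          rintro j _ rfl
          rw [← mulVec_mulVec, ← mulVec_mulVec]
          have e1 : mAlg p k (Matrix.of fun i j => c j i) *ᵥ Pi.single j 1 = vAlg p k (c j) := by
            rw [mulVec_single_one]
            rfl
          have e2 : (B : Matrix (Fin 2) (Fin 2) k) *ᵥ Pi.single j 1 = b j := by
            rw [mulVec_single_one, hB]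
            fin_cases j <;> (ext i; fin_cases i <;> rfl)
          rw [e1, e2, hc j, hphi]
        rw [hv, mulVec_add, mulVec_smul, mulVec_smul, mulVec_add, mulVec_smul, mulVec_smul,
          hcol 0 ![1, 0] (by ext i; fin_cases i <;> rfl),
          hcol 1 ![0, 1] (by ext i; fin_cases i <;> rfl)]
      change _ = ((B⁻¹ : (Matrix (Fin 2) (Fin 2) k)ˣ) * r γ * B : Matrix (Fin 2) (Fin 2) k)
      rw [mul_assoc, ← h2, ← mul_assoc, Units.inv_mul, one_mul]
    obtain ⟨r₀, hr₀⟩ := exists_lift hlift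
    have hmAinj : Function.Injective (mAlg p k) := by
      intro X Y h
      ext i j
      exact (algebraMap (ZMod p) k).injective (congrFun (congrFun h i) j)
    have hBr : ∀ γ, r γ * (B : Matrix (Fin 2) (Fin 2) k) = B * mAlg p k (r₀ γ) := by
      intro γ
      have h1 : conjR B r γ = mAlg p k (r₀ γ) := by rw [hr₀]; rfl
      rw [← h1]
      change _ = B * ((B⁻¹ : (Matrix (Fin 2) (Fin 2) k)ˣ) * r γ * B : Matrix (Fin 2) (Fin 2) k)
      rw [← mul_assoc, ← mul_assoc, Units.mul_inv, one_mul]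
    have hact : ∀ γ c, r γ *ᵥ phi b c = phi b (r₀ γ *ᵥ c) := by
      intro γ c
      rw [hphi, hphi, mulVec_mulVec, hBr, ← mulVec_mulVec, vAlg_mulVec]
    have hphiinj := phi_injective (p := p) b
    refine ⟨B, r₀, hr₀, ⟨?_, ?_, ?_, ?_⟩⟩
    · obtain ⟨U, hU, hUr⟩ := hr
      refine ⟨U, hU, fun γ hγ => hmAinj ?_⟩
      have h1 : conjR B r γ = mAlg p k (r₀ γ) := by rw [hr₀]; rfl
      rw [← h1, map_one]
      change ((B⁻¹ : (Matrix (Fin 2) (Fin 2) k)ˣ) * r γ * B : Matrix (Fin 2) (Fin 2) k) = 1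
      rw [hUr γ hγ, mul_one, Units.inv_mul]
    · intro γ
      apply (algebraMap (ZMod p) k).injective
      rw [← hdet, RingHom.map_det]
      have h1 : (io).mapMatrix (r₀ γ) = conjR B r γ := by rw [hr₀]; rfl
      rw [h1]
      change ((B⁻¹ : (Matrix (Fin 2) (Fin 2) k)ˣ) * r γ * B : Matrix (Fin 2) (Fin 2) k).det = _
      rw [det_mul, det_mul, mul_right_comm, ← det_mul, Units.inv_mul, det_one, one_mul]
    · intro N hN
      have h1 : N.map (phi b) ≤ V0 := by
        rintro _ ⟨c, _, rfl⟩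
        rw [hV0]
        exact ⟨c, rfl⟩
      rcases hmin (N.map (phi b)) h1 (by
        rintro t ht _ ⟨c, hc, rfl⟩
        exact ⟨r₀ t *ᵥ c, hN t ht c hc, (hact t c).symm⟩) with h2 | h2
      · left
        rwa [AddSubgroup.map_eq_bot_iff_of_injective _ hphiinj] at h2
      · right
        rw [eq_top_iff]
        intro c _
        have h3 : phi b c ∈ N.map (phi b) := by
          rw [h2, hV0]
          exact ⟨c, rfl⟩
        obtain ⟨c', hc', h4⟩ := h3
        rwa [← hphiinj h4]
    · obtain ⟨D⟩ := hflat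
      exact ⟨D.restrict (phi b) hphiinj fun σ c => (hact σ.1 c).symm⟩
  · right
    push Not at hirr
    obtain ⟨W, hW, hW0, hW1⟩ := hirr
    obtain ⟨v, hvW, hv0⟩ := Submodule.exists_mem_ne_zero_of_ne_bot hW0
    have hfin : Module.finrank k W = 1 := by
      have h1 : Module.finrank k W < 2 := by
        have := Submodule.finrank_lt hW1
        rwa [Module.finrank_fin_fun] at this
      have h2 : Module.finrank k W ≠ 0 := fun h => hW0 (Submodule.finrank_eq_zero.1 h)
      omega
    have hline : ∀ x ∈ W, ∃ a : k, x = a • v := by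
      intro x hx
      obtain ⟨a, ha⟩ := (finrank_eq_one_iff_of_nonzero' (⟨v, hvW⟩ : W) (fun h => hv0
        (congrArg Subtype.val h))).1 hfin ⟨x, hx⟩
      exact ⟨a, (congrArg Subtype.val ha).symm⟩
    have hcol : ∀ γ, ∃ a : k, r γ *ᵥ v = a • v := fun γ => hline _ (hW γ v hvW)
    obtain ⟨B, w, hB⟩ : ∃ (B : (Matrix (Fin 2) (Fin 2) k)ˣ) (w : Fin 2 → k),
        (B : Matrix (Fin 2) (Fin 2) k) = colM v w := by
      by_cases h0 : v 0 = 0
      · have h1 : v 1 ≠ 0 := by
          intro h1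
          apply hv0
          ext i
          fin_cases i
          · exact h0
          · exact h1
        have hu : IsUnit (colM v ![1, 0]) := by
          rw [isUnit_iff_isUnit_det, colM, det_fin_two_of]
          simp only [cons_val_zero, cons_val_one, mul_zero, one_mul, zero_sub, IsUnit.neg_iff]
          exact h1.isUnit
        obtain ⟨B, hB⟩ := hu
        exact ⟨B, _, hB⟩
      · have hu : IsUnit (colM v ![0, 1]) := by
          rw [isUnit_iff_isUnit_det, colM, det_fin_two_of]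
          simp only [cons_val_zero, cons_val_one, mul_one, zero_mul, sub_zero]
          exact (Ne.isUnit h0)
        obtain ⟨B, hB⟩ := hu
        exact ⟨B, _, hB⟩
    have hup : ∀ γ, conjR B r γ 1 0 = 0 := by
      intro γ
      obtain ⟨a, ha⟩ := hcol γ
      rw [conj_col0 hB ha]
      simp
    obtain ⟨B', hB'⟩ := ord_of_upper hF (r := conjR B r) (hflat.cjM B) (fun γ => by
      rw [← hdet]
      change ((B⁻¹ : (Matrix (Fin 2) (Fin 2) k)ˣ) * r γ * B : Matrix (Fin 2) (Fin 2) k).det = _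
      rw [det_mul, det_mul, mul_right_comm, ← det_mul, Units.inv_mul, det_one, one_mul]) hup
    refine ⟨B * B', ?_⟩
    have h1 : conjR (B * B') r = conjR B' (conjR B r) := by
      ext γ : 1
      change (((B * B')⁻¹ : (Matrix (Fin 2) (Fin 2) k)ˣ) * r γ * (B * B' : (Matrix (Fin 2) (Fin 2) k)ˣ) :
        Matrix (Fin 2) (Fin 2) k) = (B'⁻¹ : (Matrix (Fin 2) (Fin 2) k)ˣ) *
          ((B⁻¹ : (Matrix (Fin 2) (Fin 2) k)ˣ) * r γ * B) * B'
      rw [_root_.mul_inv_rev, Units.val_mul, Units.val_mul]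
      simp only [mul_assoc]
    rw [h1]
    exact hB'

end Fermat.Agent.TWP.Dich
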