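import Fermat.Agent.TWP.Select
import Fermat.Agent.PTC.Bridge

/-!
The dual of the adjoint representation.
-/

set_option autoImplicit false

namespace Fermat.Agent.TWP

open Matrix Fermat.Agent.PT Fermat.Agent.PTC

variable {k : Type} [Field k] {p : ℕ} [hp : Fact p.Prime]

lemma ad0_torsion (hk : (p : k) = 0) (X : ad0 k) : p • X = 0 := by
  apply Subtype.ext
  show p • X.1 = 0
  have : (p • X.1 : M2 k) = (p : k) • X.1 := (Nat.cast_smul_eq_nsmul k p X.1).symm
  rw [this, hk, zero_smul]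

/-- the trace form is nondegenerate on trace zero matrices -/
lemma trace_form_nondeg (h2 : (2 : k) ≠ 0) {Y : M2 k} (hY : Y.trace = 0)
    (h : ∀ X : M2 k, X.trace = 0 → (Y * X).trace = 0) : Y = 0 := by
  have h1 := h !![0, 1; 0, 0] (by simp [trace_fin_two])
  have h3 := h !![0, 0; 1, 0] (by simp [trace_fin_two])
  have h4 := h !![1, 0; 0, -1] (by simp [trace_fin_two])
  simp only [trace_fin_two, mul_apply, Fin.sum_univ_two, of_apply, cons_val', cons_val_zero,
    cons_val_one, empty_val', cons_val_fin_one, mul_zero, mul_one, zero_add, add_zero,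
    mul_neg] at h1 h3 h4 hY
  have h5 : (2 : k) * Y 0 0 = 0 := by linear_combination h4 + hY
  have h6 : Y 0 0 = 0 := (mul_eq_zero.mp h5).resolve_left h2
  ext i j
  fin_cases i <;> fin_cases j
  · exact h6
  · exact h3
  · exact h1
  · show Y 1 1 = 0
    linear_combination hY - h6

lemma exists_functional [Finite k] (hk : (p : k) = 0) : ∃ T : k →+ ZMod p, T 1 ≠ 0 :=
  exists_hom_ne_zero (fun x => by rw [nsmul_eq_mul, hk, zero_mul]) (Nat.card_zmod p) one_ne_zero

lemma functional_nondeg {T : k →+ ZMod p} (hT : T 1 ≠ 0) {a : k} (h : ∀ b, T (b * a) = 0) :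
    a = 0 := by
  by_contra ha
  apply hT
  have := h a⁻¹
  rwa [inv_mul_cancel₀ ha] at this

/-- pairing of `ad0` with itself -/
noncomputable def pairAd (T : k →+ ZMod p) : ad0 k →+ (ad0 k →+ ZMod p) where
  toFun Y :=
    { toFun := fun X => T (Y.1 * X.1).trace
      map_zero' := by
        show T (Y.1 * 0).trace = 0
        rw [mul_zero, trace_zero, map_zero]
      map_add' := fun a b => by
        show T (Y.1 * (a.1 + b.1)).trace = _
        rw [mul_add, trace_add, map_add] }
  map_zero' := by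
    ext X
    show T ((0 : M2 k) * X.1).trace = 0
    rw [zero_mul, trace_zero, map_zero]
  map_add' a b := by
    ext X
    show T ((a.1 + b.1) * X.1).trace = T (a.1 * X.1).trace + T (b.1 * X.1).trace
    rw [add_mul, trace_add, map_add]

@[simp] lemma pairAd_apply (T : k →+ ZMod p) (Y X : ad0 k) :
    pairAd T Y X = T (Y.1 * X.1).trace := rfl

lemma pairAd_injective {T : k →+ ZMod p} (hT : T 1 ≠ 0) (h2 : (2 : k) ≠ 0) :
    Function.Injective (pairAd T) := by
  rw [injective_iff_map_eq_zero]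
  intro Y hY
  apply Subtype.ext
  refine trace_form_nondeg h2 Y.2 fun X hX => ?_
  refine functional_nondeg hT fun b => ?_
  have h1 := DFunLike.congr_fun hY ⟨b • X, by rw [mem_ad0, trace_smul, hX, smul_zero]⟩
  rw [pairAd_apply] at h1
  simp only [mul_smul_comm, trace_smul] at h1
  exact h1

lemma pairAd_bijective [Finite k] {T : k →+ ZMod p} (hT : T 1 ≠ 0) (h2 : (2 : k) ≠ 0)
    (hk : (p : k) = 0) : Function.Bijective (pairAd T) := by
  have : Finite (ad0 k →+ ZMod p) := DFunLike.finite _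
  exact (pairAd_injective hT h2).bijective_of_nat_card_le
    (by rw [card_hom_zmod (ad0_torsion hk)])

/-- the dual of `ad0` is `ad0(1)` -/
theorem exists_dualAd [Finite k] (hk : (p : k) = 0) (h2 : (2 : k) ≠ 0) (r : GQ →* M2 k)
    (hdet : ∀ g, (r g).det = ((ExtCitation.cycloChar p g : (ZMod p)ˣ) : ZMod p).val) :
    Nonempty (EEquiv (twAct (detC r) r) (dualAct (muA p) (twAct 1 r))) := by
  obtain ⟨T, hT⟩ := exists_functional (p := p) hk
  refine ⟨⟨AddEquiv.ofBijective (pairAd T) (pairAd_bijective hT h2 hk), fun g Y => ?_⟩⟩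
  apply AddMonoidHom.ext
  intro X
  rw [dualAct_apply]
  show T (((r g).det • (r g * Y.1 * r g⁻¹)) * X.1).trace =
    ((ExtCitation.cycloChar p g : (ZMod p)ˣ) : ZMod p) *
      T (Y.1 * ((1 : GQ →* k) g⁻¹ • (r g⁻¹ * X.1 * r g⁻¹⁻¹))).trace
  rw [inv_inv, MonoidHom.one_apply, one_smul, smul_mul_assoc, trace_smul]
  have h1 : (r g * Y.1 * r g⁻¹ * X.1).trace = (Y.1 * (r g⁻¹ * X.1 * r g)).trace := by
    rw [mul_assoc, mul_assoc, trace_mul_comm]
    simp only [mul_assoc]
  rw [h1, hdet, smul_eq_mul]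
  set v : ℕ := ((ExtCitation.cycloChar p g : (ZMod p)ˣ) : ZMod p).val with hv
  have h3 : ((ExtCitation.cycloChar p g : (ZMod p)ˣ) : ZMod p) = (v : ZMod p) := by
    rw [hv, ZMod.natCast_zmod_val]
  rw [h3, ← nsmul_eq_mul, ← nsmul_eq_mul, map_nsmul]

lemma RD.det_cyclo {r : GQ →* M2 k} (hr : RD p r) (g : GQ) :
    (r g).det = ((ExtCitation.cycloChar p g : (ZMod p)ˣ) : ZMod p).val :=
  hr.det g _ fun _ hμ => cyclo_spec p g hμ

lemma RD.two_ne {r : GQ →* M2 k} (hr : RD p r) (hp2 : p ≠ 2) : (2 : k) ≠ 0 := by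
  have := hr.charP hp.out
  intro h
  have h1 : ((2 : ℕ) : k) = 0 := by exact_mod_cast h
  rw [CharP.cast_eq_zero_iff k p] at h1
  exact hp2 ((Nat.prime_dvd_prime_iff_eq hp.out Nat.prime_two).mp h1)

end Fermat.Agent.TWP
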