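import Fermat.Agent.TWP.Count
import Fermat.Agent.PT.Borel
import Fermat.Agent.Units.Final
import Fermat.Prelude.Def_GaloisRep_ComplexConjugation

/-!
The Euler characteristic of `ad⁰(1)`.
-/

set_option autoImplicit false

namespace Fermat.Agent.TWP

open Matrix Fermat.Agent.PT Fermat.Agent.PTC

lemma ec_chi {G : Type} [Group G] {D : PTData G} {c₀ : G} {Y : Type} [AddCommGroup Y]
    {σ : Act G Y} (h : ECFor D c₀ σ) (hfin : Fin012 D.L σ) {n : ℕ}
    (hn : Nat.card (negPart σ c₀) = n) : (n : ℝ) * chi D.L σ ≤ 1 := by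
  have := hfin.h0
  have := hfin.h1
  have := hfin.h2
  have h1 : 0 < Nat.card (H1 D.L σ) := Nat.card_pos
  unfold chi
  unfold ECFor at h
  rw [hn] at h
  rw [mul_div_assoc', div_le_one (by exact_mod_cast h1), h]
  push_cast
  apply le_of_eq
  ring

section conj

variable (p : ℕ) [hp : Fact p.Prime]

/-- complex conjugation -/
noncomputable def cc : GQ := complexConjugation

lemma cc_mul_self : cc * cc = 1 := complexConjugation_mul_self

lemma cc_spec : ∃ j : Qb →+* ℂ, ∀ x, j (cc x) = (starRingEnd ℂ) (j x) :=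
  ⟨complexEmbedding, complexEmbedding_complexConjugation⟩

lemma cc_zeta {ζ : Qb} {n : ℕ} (hn : n ≠ 0) (hζ : ζ ^ n = 1) : cc ζ = ζ⁻¹ := by
  obtain ⟨j, hj⟩ := cc_spec
  apply j.injective
  rw [hj, map_inv₀]
  have h1 : ‖j ζ‖ = 1 := Complex.norm_eq_one_of_pow_eq_one (by rw [← map_pow, hζ, map_one]) hn
  rw [Complex.inv_def, ← Complex.sq_norm, h1]
  simp

lemma cyclo_cc : ExtCitation.cycloChar p cc = -1 := by
  obtain ⟨ζ, hζ⟩ := exists_zeta p
  have h1 := cyclo_spec p cc hζ.pow_eq_one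
  rw [cc_zeta hp.out.ne_zero hζ.pow_eq_one] at h1
  have h2 : ζ ^ ((ExtCitation.cycloChar p cc : ZMod p).val + 1) = 1 := by
    rw [pow_succ, ← h1, inv_mul_cancel₀ (hζ.ne_zero hp.out.ne_zero)]
  have h3 := hζ.dvd_of_pow_eq_one _ h2
  apply Units.ext
  have h4 : (((ExtCitation.cycloChar p cc : ZMod p).val + 1 : ℕ) : ZMod p) = 0 := by
    rwa [ZMod.natCast_eq_zero_iff]
  rw [Nat.cast_add, ZMod.natCast_zmod_val, Nat.cast_one] at h4
  rw [Units.val_neg, Units.val_one]
  exact eq_neg_of_add_eq_zero_left h4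

lemma muA_cc (a : ZMod p) : muA p cc a = -a := by
  rw [muA, mulAct_apply, cyclo_cc, Units.val_neg, Units.val_one, neg_mul, one_mul]

end conj

section neg

variable {k : Type} [Field k] {r : GQ →* M2 k}

/-- the `-1` part of `ad⁰(1)` under complex conjugation -/
lemma card_neg [Finite k] (h2 : (2 : k) ≠ 0) (hdet : (r cc).det = -1) :
    Nat.card (negPart (twAct (detC r) r) cc) = Nat.card k := by
  have hcc : r cc * r cc = 1 := by rw [← map_mul, cc_mul_self, map_one]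
  have hinv : r cc⁻¹ = r cc := by
    have h1 := rep_inv_mul r cc
    calc r cc⁻¹ = r cc⁻¹ * (r cc * r cc) := by rw [hcc, mul_one]
      _ = r cc := by rw [← mul_assoc, h1, one_mul]
  set C := r cc with hC
  have hmem : ∀ X : ad0 k, X ∈ negPart (twAct (detC r) r) cc ↔ C * X.1 = X.1 * C := by
    intro X
    rw [mem_negPart, Subtype.ext_iff, coe_twAct, detC_apply, ← hC, hdet, hinv, neg_smul, one_smul]
    show -(C * X.1 * C) = -X.1 ↔ _
    rw [neg_inj]
    constructor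
    · intro h
      have h1 := congrArg (· * C) h
      simp only [mul_assoc] at h1
      rwa [hcc, mul_one] at h1
    · intro h
      rw [h, mul_assoc, hcc, mul_one]
  have htr : C.trace = 0 := by
    -- Cayley–Hamilton
    have h00 := congrFun (congrFun hcc 0) 0
    have h01 := congrFun (congrFun hcc 0) 1
    have h10 := congrFun (congrFun hcc 1) 0
    have h11 := congrFun (congrFun hcc 1) 1
    rw [Matrix.mul_apply, Fin.sum_univ_two] at h00 h01 h10 h11
    rw [one_apply_eq] at h00 h11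
    rw [one_apply_ne (by decide)] at h01 h10
    rw [det_fin_two] at hdet
    rw [trace_fin_two]
    have e1 : (C 0 0 + C 1 1) * C 0 0 = 0 := by linear_combination h00 + hdet
    have e2 : (C 0 0 + C 1 1) * C 1 1 = 0 := by linear_combination h11 + hdet
    have e3 : (C 0 0 + C 1 1) * C 0 1 = 0 := by linear_combination h01
    by_contra hne
    have a1 := (mul_eq_zero.mp e1).resolve_left hne
    have a2 := (mul_eq_zero.mp e2).resolve_left hne
    exact hne (by rw [a1, a2, add_zero])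
  have hC0 : C ≠ 0 := by
    intro h
    rw [h, mul_zero] at hcc
    exact zero_ne_one hcc
  let f : k → negPart (twAct (detC r) r) cc := fun a =>
    ⟨⟨a • C, by rw [mem_ad0, trace_smul, htr, smul_zero]⟩, by
      rw [hmem]; simp⟩
  symm
  refine Nat.card_congr (Equiv.ofBijective f ⟨?_, ?_⟩)
  · intro a b hab
    have h1 : a • C = b • C := congrArg (fun x => (x.1.1 : M2 k)) hab
    have h3 : (a - b) • C = 0 := by rw [sub_smul, h1, sub_self]
    exact sub_eq_zero.mp ((smul_eq_zero.mp h3).resolve_right hC0)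
  · rintro ⟨X, hX⟩
    have hX' := (hmem X).1 hX
    have hXt := mem_ad0.1 X.2
    have e01 := congrFun (congrFun hX' 0) 1
    have e10 := congrFun (congrFun hX' 1) 0
    have e00 := congrFun (congrFun hX' 0) 0
    rw [Matrix.mul_apply, Matrix.mul_apply, Fin.sum_univ_two, Fin.sum_univ_two] at e00 e01 e10
    rw [trace_fin_two] at hXt htr
    rw [det_fin_two] at hdet
    have c11 : C 1 1 = - C 0 0 := by linear_combination htr
    have x11 : (X : M2 k) 1 1 = - (X : M2 k) 0 0 := by linear_combination hXt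
    rw [c11] at e01 e10 hdet
    rw [x11] at e01 e10
    -- `C₀₀ X₀₁ = C₀₁ X₀₀`, `C₀₀ X₁₀ = C₁₀ X₀₀`, `C₀₁ X₁₀ = C₁₀ X₀₁`
    have f1 : C 0 0 * (X : M2 k) 0 1 = C 0 1 * (X : M2 k) 0 0 := by
      have : (2 : k) * (C 0 0 * (X : M2 k) 0 1 - C 0 1 * (X : M2 k) 0 0) = 0 := by
        linear_combination e01
      exact sub_eq_zero.mp ((mul_eq_zero.mp this).resolve_left h2)
    have f2 : C 0 0 * (X : M2 k) 1 0 = C 1 0 * (X : M2 k) 0 0 := by
      have : (2 : k) * (C 0 0 * (X : M2 k) 1 0 - C 1 0 * (X : M2 k) 0 0) = 0 := by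
        linear_combination -e10
      exact sub_eq_zero.mp ((mul_eq_zero.mp this).resolve_left h2)
    have f3 : C 0 1 * (X : M2 k) 1 0 = C 1 0 * (X : M2 k) 0 1 := by
      linear_combination e00
    have hd : C 0 0 * C 0 0 + C 0 1 * C 1 0 = 1 := by linear_combination -hdet
    refine ⟨C 0 0 * (X : M2 k) 0 0 + C 0 1 * (X : M2 k) 1 0, ?_⟩
    apply Subtype.ext
    apply Subtype.ext
    show (C 0 0 * (X : M2 k) 0 0 + C 0 1 * (X : M2 k) 1 0) • C = X.1
    ext i j
    rw [Matrix.smul_apply, smul_eq_mul]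
    fin_cases i <;> fin_cases j
    · show (C 0 0 * (X : M2 k) 0 0 + C 0 1 * (X : M2 k) 1 0) * C 0 0 = (X : M2 k) 0 0
      linear_combination (X : M2 k) 0 0 * hd + C 0 1 * f2
    · show (C 0 0 * (X : M2 k) 0 0 + C 0 1 * (X : M2 k) 1 0) * C 0 1 = (X : M2 k) 0 1
      linear_combination (X : M2 k) 0 1 * hd + C 0 1 * f3 - C 0 0 * f1
    · show (C 0 0 * (X : M2 k) 0 0 + C 0 1 * (X : M2 k) 1 0) * C 1 0 = (X : M2 k) 1 0
      linear_combination (X : M2 k) 1 0 * hd - C 0 0 * f2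
    · show (C 0 0 * (X : M2 k) 0 0 + C 0 1 * (X : M2 k) 1 0) * C 1 1 = (X : M2 k) 1 1
      rw [c11, x11]
      linear_combination - (X : M2 k) 0 0 * hd - C 0 1 * f2

end neg

section main

variable {k : Type} [Field k] [Finite k] {p : ℕ} [hp : Fact p.Prime] {r : GQ →* M2 k}

/-- **Euler characteristic of `ad⁰(1)`** -/
theorem exists_EC (hp2 : p ≠ 2) (hr : RD p r) {S₁ : Finset Nat.Primes}
    (hpS₁ : ExtCitation.pPrime p ∈ S₁) (hrS : UnrOut S₁ r) :
    ∃ S₀, S₁ ⊆ S₀ ∧ ∀ S, S₀ ⊆ S → ECFor (ptd S) cc (twAct (detC r) r) := by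
  have := hr.charP hp.out
  have hkp : CharP k p := this
  obtain ⟨W, V, hn, hUW, hWV, hpg, hidx, hμ, hfree⟩ :=
    exists_borel (p := p) r.toHomUnits (muA p)
  set U : Subgroup GQ := r.toHomUnits.ker ⊓ actKer (muA p) with hUdef
  have hker : ∀ g, g ∈ r.toHomUnits.ker ↔ r g = 1 := by
    intro g
    rw [MonoidHom.mem_ker, Units.ext_iff, MonoidHom.coe_toHomUnits, Units.val_one]
  have hUo : IsOpenSub (sL S₁) U := by
    obtain ⟨F, hF, hF'⟩ := isOpenSub_sL_iff.1 (⟨_, hrS.level, le_rfl⟩ : IsOpenSub (sL S₁) r.ker)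
    obtain ⟨F₂, hF₂, hF₂'⟩ := isOpenSub_sL_iff.1 (muW_open p hpS₁)
    refine ⟨r.ker ⊓ (muW p), ?_, ?_⟩
    · have := muW_normal p
      obtain ⟨L, hL, hLr⟩ := hrS.cont
      have hF2f := hF₂.1
      refine mem_sL_of _ inferInstance (L ⊔ F₂) inferInstance ?_ ?_
      · intro σ hσ
        exact ⟨hLr σ fun x hx => hσ x ((le_sup_left : L ≤ L ⊔ F₂) hx),
          hF₂' ((IntermediateField.mem_fixingSubgroup_iff F₂ σ).mpr
            fun x hx => hσ x ((le_sup_right : F₂ ≤ L ⊔ F₂) hx))⟩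
      · intro q hq A hA σ hσ
        exact ⟨hrS.unr q hq A hA σ hσ, hF₂' (hF₂.2 q hq A hA hσ)⟩
    · rintro g ⟨hg1, hg2⟩
      exact ⟨(hker g).2 hg1, (mem_muW_iff' p).1 hg2⟩
  have hUmu : U ≤ muW p := fun g hg => (mem_muW_iff' p).2 hg.2
  have hWmu : W ≤ muW p := fun g hg => (mem_muW_iff' p).2 (hμ g hg)
  have hWo : IsOpenSub (sL S₁) W := by
    obtain ⟨N, hN, h⟩ := hUo
    exact ⟨N, hN, h.trans hUW⟩
  obtain ⟨Sa, hSa, ha⟩ := Units.units_main hp2 hpS₁ hUo hUmu
  obtain ⟨Sb, hSb, hb⟩ := Units.units_main hp2 hpS₁ hWo hWmu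
  refine ⟨Sa ∪ Sb, hSa.trans Finset.subset_union_left, fun S hS => ?_⟩
  have hSaS : Sa ⊆ S := Finset.subset_union_left.trans hS
  have hSbS : Sb ⊆ S := Finset.subset_union_right.trans hS
  have hpS : ExtCitation.pPrime p ∈ S := hSaS (hSa hpS₁)
  have H := Fermat.Agent.PTGlob.ptHyp (S := S) hp2 hpS
  obtain ⟨a1, a2⟩ := ha S hSaS
  obtain ⟨b1, b2⟩ := hb S hSbS
  refine ec_main (D := ptd S) H (muA_cc p) hp2 cc_mul_self
    (Units.isOpen_mono (hSa.trans hSaS) hUo) hUW hWV hpg hidx hμ hfree ⟨?_, ?_⟩ ⟨?_, ?_⟩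
    (ad0_torsion hr.char) ?_
  · rw [eq_bot_iff]; intro x hx; exact a1 x hx
  · exact fun m => a2 ⊤ le_top m cc cc_spec
  · rw [eq_bot_iff]; intro x hx; exact b1 x hx
  · exact fun m => b2 V hWV m cc cc_spec
  · intro u hu m
    have h1 : r u = 1 := (hker u).1 hu.1
    exact twAct_fix (by rw [detC_apply, h1, det_one]) h1 m

/-- the form used in the counting argument -/
theorem exists_EC' (hp2 : p ≠ 2) (hr : RD p r) {S₁ : Finset Nat.Primes}
    (hpS₁ : ExtCitation.pPrime p ∈ S₁) (hrS : UnrOut S₁ r) :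
    ∃ S₀, S₁ ⊆ S₀ ∧ ∀ S, S₀ ⊆ S →
      (Nat.card k : ℝ) * chi (sL S) (dualAct (muA p) (twAct 1 r)) ≤ 1 := by
  obtain ⟨S₀, h1, h2⟩ := exists_EC hp2 hr hpS₁ hrS
  refine ⟨S₀, h1, fun S hS => ?_⟩
  have hdet : (r cc).det = -1 := by
    have := hr.charP hp.out
    rw [hr.det_cyclo, cyclo_cc, Units.val_neg, Units.val_one]
    have h3 : ((((-1 : ZMod p)).val + 1 : ℕ) : ZMod p) = 0 := by
      rw [Nat.cast_add, ZMod.natCast_zmod_val, Nat.cast_one, neg_add_cancel]
    rw [ZMod.natCast_eq_zero_iff] at h3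
    have h4 : ((((-1 : ZMod p)).val + 1 : ℕ) : k) = 0 := by
      rwa [CharP.cast_eq_zero_iff k p]
    rw [Nat.cast_add, Nat.cast_one] at h4
    exact eq_neg_of_add_eq_zero_left h4
  have hpS : ExtCitation.pPrime p ∈ S := hS (h1 hpS₁)
  have H := Fermat.Agent.PTGlob.ptHyp (S := S) hp2 hpS
  have hsm : Smooth (sL S) (twAct (detC r) r) :=
    (hrS.mono (h1.trans hS)).smooth fun g hg => by rw [detC_apply, hg, det_one]
  have hfin := H.finite hsm (ad0_torsion hr.char)
  have h5 := ec_chi (h2 S hS) hfin (card_neg (hr.two_ne hp2) hdet)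
  obtain ⟨E⟩ := exists_dualAd hr.char (hr.two_ne hp2) r hr.det_cyclo
  have h6 := E.chi_eq (sL S)
  rw [h6]
  exact h5

end main

end Fermat.Agent.TWP
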