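import Fermat.Agent.PT.GW2

/-!
Local counting lemmas: unramified classes, split tame modules.
-/

set_option autoImplicit false

namespace Fermat.Agent.TWP

open Fermat.Agent.PT

section unr

variable {Γ : Type} [Group Γ] {A : Type} [AddCommGroup A]

/-- classes of cocycles vanishing on a subgroup -/
def unrClasses (L : Levels Γ) (ρ : Act Γ A) (I : Subgroup Γ) : AddSubgroup (H1 L ρ) where
  carrier := {x | ∃ c : Z1 L ρ, H1.mk L ρ c = x ∧ ∀ γ ∈ I, (c : Γ → A) γ = 0}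
  zero_mem' := ⟨0, map_zero _, fun _ _ => rfl⟩
  add_mem' := by
    rintro _ _ ⟨c, rfl, hc⟩ ⟨c', rfl, hc'⟩
    exact ⟨c + c', map_add _ _ _, fun γ hγ => by
      show c.1 γ + c'.1 γ = 0
      rw [hc γ hγ, hc' γ hγ, add_zero]⟩
  neg_mem' := by
    rintro _ ⟨c, rfl, hc⟩
    exact ⟨-c, map_neg _ _, fun γ hγ => by
      show -c.1 γ = 0
      rw [hc γ hγ, neg_zero]⟩

/-- cocycles vanishing on a subgroup -/
def Z1van (L : Levels Γ) (ρ : Act Γ A) (I : Subgroup Γ) : AddSubgroup (Z1 L ρ) where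
  carrier := {c | ∀ γ ∈ I, (c : Γ → A) γ = 0}
  zero_mem' := fun _ _ => rfl
  add_mem' := fun {c c'} hc hc' γ hγ => by
    show c.1 γ + c'.1 γ = 0
    rw [hc γ hγ, hc' γ hγ, add_zero]
  neg_mem' := fun {c} hc γ hγ => by
    show -c.1 γ = 0
    rw [hc γ hγ, neg_zero]

lemma unrClasses_eq (L : Levels Γ) (ρ : Act Γ A) (I : Subgroup Γ) :
    unrClasses L ρ I = (Z1van L ρ I).map (H1.mk L ρ) := by
  ext x
  constructor
  · rintro ⟨c, h, hc⟩
    exact ⟨c, hc, h⟩
  · rintro ⟨c, hc, h⟩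
    exact ⟨c, h, hc⟩

/-- fixed points of a subgroup -/
def fixA (ρ : Act Γ A) (I : Subgroup Γ) : AddSubgroup A where
  carrier := {a | ∀ γ ∈ I, ρ γ a = a}
  zero_mem' := fun _ _ => map_zero _
  add_mem' := fun {a b} ha hb γ hγ => by rw [map_add, ha γ hγ, hb γ hγ]
  neg_mem' := fun {a} ha γ hγ => by rw [map_neg, ha γ hγ]

/-- `|H¹_unr| ≤ |H⁰|` -/
theorem card_unrClasses_le [Finite A] {L : Levels Γ} {ρ : Act Γ A} (hρ : Smooth L ρ)
    (I : Subgroup Γ) [hI : I.Normal] (g : Γ) (hg : ∀ γ, ∃ j : ℕ, (g ^ j)⁻¹ * γ ∈ I) :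
    Nat.card (unrClasses L ρ I) ≤ Nat.card (H0 ρ) := by
  -- values in the fixed points
  have hval : ∀ c ∈ Z1van L ρ I, ∀ γ, (c : Γ → A) γ ∈ fixA ρ I := by
    intro c hc γ ι hι
    have h1 := (mem_Z1'.1 c.2).2 ι γ
    have h2 := (mem_Z1'.1 c.2).2 γ (γ⁻¹ * ι * γ)
    have h3 : γ * (γ⁻¹ * ι * γ) = ι * γ := by group
    have h4 : γ⁻¹ * ι * γ ∈ I := by
      have := hI.conj_mem ι hι γ⁻¹
      rwa [inv_inv] at this
    rw [h3, hc _ h4, map_zero, add_zero, h1, hc ι hι, zero_add] at h2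
    exact h2
  -- evaluation at `g` is injective
  let ev : Z1van L ρ I →+ fixA ρ I :=
    { toFun := fun c => ⟨(c.1 : Γ → A) g, hval c.1 c.2 g⟩
      map_zero' := rfl
      map_add' := fun _ _ => rfl }
  have hev : Function.Injective ev := by
    rw [injective_iff_map_eq_zero]
    intro c hc
    have hcg : (c.1 : Γ → A) g = 0 := congrArg Subtype.val hc
    have hc1 : (c.1 : Γ → A) 1 = 0 := c.2 1 I.one_mem
    have hpow : ∀ j : ℕ, (c.1 : Γ → A) (g ^ j) = 0 := by
      intro j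
      induction j with
      | zero => rw [pow_zero, hc1]
      | succ j ih => rw [pow_succ, (mem_Z1'.1 c.1.2).2, ih, hcg, map_zero, add_zero]
    apply Subtype.ext
    apply Subtype.ext
    funext γ
    obtain ⟨j, hj⟩ := hg γ
    have h1 := (mem_Z1'.1 c.1.2).2 (g ^ j) ((g ^ j)⁻¹ * γ)
    rw [mul_inv_cancel_left, hpow, c.2 _ hj, map_zero, add_zero] at h1
    exact h1
  have hfB : Finite (fixA ρ I) := inferInstance
  have hfZ : Finite (Z1van L ρ I) := Finite.of_injective ev hev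
  have hle1 : Nat.card (Z1van L ρ I) ≤ Nat.card (fixA ρ I) := Nat.card_le_card_of_injective ev hev
  -- coboundaries
  let cb : fixA ρ I →+ Z1van L ρ I :=
    { toFun := fun a => ⟨⟨d0 ρ a.1, mem_Z1.2 ⟨d0_mem_C1 hρ a.1, d1_d0 ρ a.1⟩⟩, fun γ hγ => by
        show ρ γ a.1 - a.1 = 0
        rw [a.2 γ hγ, sub_self]⟩
      map_zero' := by
        apply Subtype.ext
        apply Subtype.ext
        exact map_zero (d0 ρ)
      map_add' := fun a b => by
        apply Subtype.ext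
        apply Subtype.ext
        exact map_add (d0 ρ) a.1 b.1 }
  have hker : Nat.card cb.ker ≤ Nat.card (H0 ρ) := by
    refine Nat.card_le_card_of_injective (fun a => (⟨a.1.1, ?_⟩ : H0 ρ)) ?_
    · have h1 : cb a.1 = 0 := a.2
      have h2 : d0 ρ a.1.1 = 0 := congrArg (fun z : Z1van L ρ I => (z.1 : Γ → A)) h1
      exact h2
    · intro a b hab
      apply Subtype.ext
      apply Subtype.ext
      exact congrArg (fun z : H0 ρ => z.1) hab
  have h1 := card_eq_ker_mul_range cb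
  -- the class map
  let π : Z1van L ρ I →+ H1 L ρ := (H1.mk L ρ).comp (Z1van L ρ I).subtype
  have h2 := card_eq_ker_mul_range π
  have h3 : π.range = unrClasses L ρ I := by
    rw [unrClasses_eq]
    ext x
    constructor
    · rintro ⟨c, rfl⟩
      exact ⟨c.1, c.2, rfl⟩
    · rintro ⟨c, hc, rfl⟩
      exact ⟨⟨c, hc⟩, rfl⟩
  have h4 : cb.range ≤ π.ker := by
    rintro _ ⟨a, rfl⟩
    rw [AddMonoidHom.mem_ker]
    exact H1.mk_eq_zero.2 ⟨a.1, rfl⟩
  have h5 : Nat.card cb.range ≤ Nat.card π.ker := by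
    have : Finite π.ker := inferInstance
    exact Nat.card_le_card_of_injective (AddSubgroup.inclusion h4)
      (AddSubgroup.inclusion_injective h4)
  rw [h3] at h2
  have hpos : 0 < Nat.card cb.range := Nat.card_pos
  have h6 : Nat.card cb.range * Nat.card (unrClasses L ρ I) ≤
      Nat.card cb.range * Nat.card (H0 ρ) := by
    calc _ ≤ Nat.card π.ker * Nat.card (unrClasses L ρ I) := Nat.mul_le_mul_right _ h5
      _ = Nat.card (Z1van L ρ I) := h2.symm
      _ ≤ Nat.card (fixA ρ I) := hle1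
      _ = Nat.card cb.ker * Nat.card cb.range := h1
      _ ≤ Nat.card (H0 ρ) * Nat.card cb.range := Nat.mul_le_mul_right _ hker
      _ = _ := mul_comm _ _
  exact Nat.le_of_mul_le_mul_left h6 hpos

end unr

section split

variable {Γ : Type} [Group Γ] {p : ℕ} [hp : Fact p.Prime] {L : Levels Γ}

lemma triv_add {U : Type} [Group U] {L' : Levels U} {B : Type} [AddCommGroup B]
    (f : Z1 L' (trivAct U B)) (x y : U) : (f : U → B) (x * y) = (f : U → B) x + (f : U → B) y :=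
  (mem_Z1'.1 f.2).2 x y

lemma triv_mk_injective {U : Type} [Group U] {L' : Levels U} {B : Type} [AddCommGroup B] :
    Function.Injective (H1.mk L' (trivAct U B)) := by
  rw [injective_iff_map_eq_zero]
  intro f hf
  obtain ⟨a, ha⟩ := H1.mk_eq_zero.1 hf
  apply Subtype.ext
  rw [← ha]
  funext g
  show a - a = 0
  exact sub_self a

lemma card_Z1_triv {U : Type} [Group U] {L' : Levels U} {B : Type} [AddCommGroup B] :
    Nat.card (Z1 L' (trivAct U B)) = Nat.card (H1 L' (trivAct U B)) :=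
  Nat.card_congr (Equiv.ofBijective _ ⟨triv_mk_injective, H1.mk_surjective _ _⟩)

lemma triv_pow {U : Type} [Group U] {L' : Levels U} {B : Type} [AddCommGroup B]
    (f : Z1 L' (trivAct U B)) (x : U) (n : ℕ) : (f : U → B) (x ^ n) = n • (f : U → B) x := by
  induction n with
  | zero =>
    have := triv_add f 1 1
    rw [mul_one] at this
    rw [pow_zero, zero_smul]
    exact left_eq_add.1 this
  | succ n ih => rw [pow_succ, triv_add, ih, succ_nsmul]

/-- invariance of homomorphisms on a normal subgroup of index prime to `p` -/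
theorem conj_invariant (V : Subgroup Γ) [hVn : V.Normal] (hV : ¬ p ∣ V.index)
    (h1 : Nat.card (H1 L (trivAct Γ (ZMod p))) = p ^ 2)
    (h2 : Nat.card (H1 (L.sub V) (trivAct V (ZMod p))) = p ^ 2)
    (f : Z1 (L.sub V) (trivAct V (ZMod p))) (γ : Γ) (v : V) :
    (f : V → ZMod p) ⟨γ * v * γ⁻¹, hVn.conj_mem v v.2 γ⟩ = (f : V → ZMod p) v := by
  have hp0 : p ^ 2 ≠ 0 := pow_ne_zero _ hp.out.ne_zero
  let R : Z1 L (trivAct Γ (ZMod p)) → Z1 (L.sub V) (trivAct V (ZMod p)) := fun F =>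
    ⟨fun v => (F : Γ → ZMod p) v, mem_Z1'.2 ⟨by
      obtain ⟨N, hN, h⟩ := (mem_Z1'.1 F.2).1
      exact ⟨_, ⟨N, hN, rfl⟩, fun g s hs => h g s hs⟩, fun x y => triv_add F x y⟩⟩
  have hR : Function.Injective R := by
    intro F F' hFF'
    apply Subtype.ext
    funext γ
    have h3 : ∀ v : V, (F : Γ → ZMod p) v = (F' : Γ → ZMod p) v := fun v =>
      congrArg (fun z : Z1 (L.sub V) (trivAct V (ZMod p)) => (z : V → ZMod p) v) hFF'
    have h4 : γ ^ V.index ∈ V := V.pow_index_mem γ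
    have h5 := h3 ⟨_, h4⟩
    rw [triv_pow F, triv_pow F'] at h5
    rw [nsmul_eq_mul, nsmul_eq_mul] at h5
    have h6 : (V.index : ZMod p) ≠ 0 := by
      rwa [Ne, ZMod.natCast_eq_zero_iff]
    exact mul_left_cancel₀ h6 h5
  have hf1 : Finite (Z1 L (trivAct Γ (ZMod p))) :=
    Nat.finite_of_card_ne_zero (by rw [card_Z1_triv, h1]; exact hp0)
  have hf2 : Finite (Z1 (L.sub V) (trivAct V (ZMod p))) :=
    Nat.finite_of_card_ne_zero (by rw [card_Z1_triv, h2]; exact hp0)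
  have hbij := hR.bijective_of_nat_card_le (by rw [card_Z1_triv, card_Z1_triv, h1, h2])
  obtain ⟨F, rfl⟩ := hbij.2 f
  show (F : Γ → ZMod p) (γ * v * γ⁻¹) = (F : Γ → ZMod p) v
  have h7 : (F : Γ → ZMod p) (γ * v * γ⁻¹) + (F : Γ → ZMod p) γ = (F : Γ → ZMod p) γ + (F : Γ → ZMod p) v := by
    rw [← triv_add, ← triv_add]
    group
  have h8 : (F : Γ → ZMod p) (γ * v * γ⁻¹) = (F : Γ → ZMod p) γ + (F : Γ → ZMod p) v - (F : Γ → ZMod p) γ :=
    eq_sub_of_add_eq h7
  rw [h8]; abel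

/-- `|H¹(M)| ≤ |H⁰(M)|²` for a module on which `Γ` acts through a group of order prime to `p` and
trivial cyclotomic character. -/
theorem card_H1_le_sq (V : Subgroup Γ) [hVn : V.Normal] (hVo : IsOpenSub L V) (hV : ¬ p ∣ V.index)
    (h1 : Nat.card (H1 L (trivAct Γ (ZMod p))) = p ^ 2)
    (h2 : Nat.card (H1 (L.sub V) (trivAct V (ZMod p))) = p ^ 2)
    {A : Type} [AddCommGroup A] [Finite A] {ρ : Act Γ A} (hpA : ∀ a : A, p • a = 0)
    (hVA : ∀ v ∈ V, ∀ a, ρ v a = a) :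
    Nat.card (H1 L ρ) ≤ Nat.card (H0 ρ) ^ 2 := by
  have hfi := hVo.finiteIndex
  -- values on `V` are invariant
  have hval : ∀ (c : Z1 L ρ) (v : V), (c : Γ → A) v ∈ H0 ρ := by
    intro c v
    rw [mem_H0]
    intro γ
    have hc := (mem_Z1'.1 c.2).2
    have hconj : (c : Γ → A) (γ * v * γ⁻¹) = ρ γ ((c : Γ → A) v) := by
      have e1 := hc (γ * v * γ⁻¹) γ
      have e2 : γ * (v : Γ) * γ⁻¹ * γ = γ * v := by group
      rw [e2, hc γ v, hVA _ (hVn.conj_mem v v.2 γ)] at e1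
      have e3 : (c : Γ → A) (γ * v * γ⁻¹) = (c : Γ → A) γ + ρ γ ((c : Γ → A) v) - (c : Γ → A) γ :=
        eq_sub_of_add_eq e1.symm
      rw [e3]; abel
    rw [← hconj]
    by_contra hne
    obtain ⟨l, hl⟩ := exists_hom_ne_zero (p := p) hpA (Nat.card_zmod p) (sub_ne_zero.2 hne)
    apply hl
    rw [map_sub, sub_eq_zero]
    let f : Z1 (L.sub V) (trivAct V (ZMod p)) :=
      ⟨fun v => l ((c : Γ → A) v), mem_Z1'.2 ⟨by
        obtain ⟨N, hN, h⟩ := (mem_Z1'.1 c.2).1
        exact ⟨_, ⟨N, hN, rfl⟩, fun g s hs => congrArg l (h g s hs)⟩, fun x y => by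
          show l ((c : Γ → A) (x * y)) = l ((c : Γ → A) x) + l ((c : Γ → A) y)
          rw [hc, hVA _ x.2, map_add]⟩⟩
    exact conj_invariant V hV h1 h2 f γ v
  -- restriction to `V`
  let Y := Z1 (L.sub V) (trivAct V (H0 ρ))
  let R : Z1 L ρ →+ Y :=
    { toFun := fun c => ⟨fun v => ⟨(c : Γ → A) v, hval c v⟩, mem_Z1'.2 ⟨by
        obtain ⟨N, hN, h⟩ := (mem_Z1'.1 c.2).1
        exact ⟨_, ⟨N, hN, rfl⟩, fun g s hs => Subtype.ext (h g s hs)⟩, fun x y => by
          apply Subtype.ext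
          show (c : Γ → A) (x * y) = (c : Γ → A) x + (c : Γ → A) y
          rw [(mem_Z1'.1 c.2).2, hVA _ x.2]⟩⟩
      map_zero' := rfl
      map_add' := fun _ _ => rfl }
  -- the kernel consists of coboundaries
  have hker : ∀ c : Z1 L ρ, R c = 0 → H1.mk L ρ c = 0 := by
    intro c hc0
    have hc := (mem_Z1'.1 c.2).2
    have hcV : ∀ v : V, (c : Γ → A) v = 0 := fun v =>
      congrArg (fun z : Y => ((z : V → H0 ρ) v : A)) hc0
    have hinv : ∀ (γ : Γ) (v : V), (c : Γ → A) (γ * v) = (c : Γ → A) γ := fun γ v => by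
      rw [hc, hcV, map_zero, add_zero]
    have : Fintype (Γ ⧸ V) := Fintype.ofFinite _
    obtain ⟨m, hm⟩ : ∃ m : ℕ, (m * V.index : ℕ) ≡ 1 [MOD p] := by
      have hcop : Nat.Coprime V.index p := ((Nat.Prime.coprime_iff_not_dvd hp.out).2 hV).symm
      obtain ⟨m, hm⟩ := Nat.exists_mul_mod_eq_one_of_coprime hcop hp.out.one_lt
      refine ⟨m, ?_⟩
      rw [mul_comm]
      show (V.index * m) % p = 1 % p
      rw [hm.2, Nat.mod_eq_of_lt hp.out.one_lt]
    have htor : ∀ a : A, (m * V.index) • a = a := by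
      intro a
      have e1 : ∀ n : ℕ, n • a = (n % p) • a := fun n => by
        conv_lhs => rw [← Nat.div_add_mod n p, add_nsmul, mul_nsmul, hpA, smul_zero, zero_add]
      rw [e1, show (m * V.index) % p = 1 % p from hm, ← e1, one_smul]
    let q : Γ ⧸ V → A := fun x => (c : Γ → A) x.out
    have hq : ∀ γ : Γ, q (γ : Γ ⧸ V) = (c : Γ → A) γ := by
      intro γ
      obtain ⟨n, hn⟩ := QuotientGroup.mk_out_eq_mul V γ
      show (c : Γ → A) (Quotient.out (γ : Γ ⧸ V)) = _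
      rw [hn, hinv]
    refine H1.mk_eq_zero.2 ⟨-(m • ∑ x, q x), ?_⟩
    funext γ
    rw [d0_apply, map_neg, map_nsmul, map_sum]
    have e2 : ∀ x : Γ ⧸ V, ρ γ (q x) = q (γ • x) - (c : Γ → A) γ := by
      intro x
      obtain ⟨δ, rfl⟩ := QuotientGroup.mk_surjective x
      have e3 : γ • (δ : Γ ⧸ V) = ((γ * δ : Γ) : Γ ⧸ V) := rfl
      rw [e3, hq, hq, hc]; abel
    rw [Finset.sum_congr rfl (fun x _ => e2 x), Finset.sum_sub_distrib, Finset.sum_const,
      Finset.card_univ]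
    have e4 : ∑ x : Γ ⧸ V, q (γ • x) = ∑ x, q x := Equiv.sum_comp (MulAction.toPerm γ) q
    rw [e4, ← Nat.card_eq_fintype_card, show Nat.card (Γ ⧸ V) = V.index from rfl, nsmul_sub,
      ← mul_nsmul', htor]
    abel
  -- counting
  have hYtors : ∀ a : H0 ρ, p • a = 0 := fun a => Subtype.ext (hpA a.1)
  obtain ⟨d, ⟨F⟩, hd⟩ := exists_freeAb p (H0 ρ) hYtors
  have hYcard : Nat.card Y = (p ^ 2) ^ d := by
    show Nat.card (Z1 (L.sub V) (trivAct V (H0 ρ))) = _
    rw [card_Z1_triv, (F.triv (G := V)).card_h1 (L.sub V), h2, Fintype.card_fin]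
  have hfY : Finite Y := Nat.finite_of_card_ne_zero (by
    rw [hYcard]; exact pow_ne_zero _ (pow_ne_zero _ hp.out.ne_zero))
  -- the restriction factors through `H¹` injectively on the image
  have hle : Nat.card (H1 L ρ) ≤ Nat.card Y := by
    choose s hs using H1.mk_surjective L ρ
    refine Nat.card_le_card_of_injective (fun x => R (s x)) fun x y hxy => ?_
    have h3 : R (s x - s y) = 0 := by
      rw [map_sub]
      exact sub_eq_zero.2 hxy
    have h4 := hker _ h3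
    rw [map_sub, hs, hs] at h4
    exact sub_eq_zero.1 h4
  calc Nat.card (H1 L ρ) ≤ Nat.card Y := hle
    _ = (p ^ 2) ^ d := hYcard
    _ = (p ^ d) ^ 2 := by rw [← pow_mul, ← pow_mul, mul_comm]
    _ = Nat.card (H0 ρ) ^ 2 := by rw [hd]

end split

end Fermat.Agent.TWP
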