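import Fermat.Agent.TWP.Tame2
import Fermat.Agent.TWP.LocalCount
import Fermat.Agent.TWP.Deform
import Fermat.Agent.TWP.Coh

/-!
Local conditions at primes different from `p`.
-/

set_option autoImplicit false

namespace Fermat.Agent.TWP

open Matrix Fermat.Agent.PT Fermat.Agent.PTC
open scoped Pointwise

section alg

variable {k : Type} [Field k]

/-- the image of `ad N`, `N` nilpotent -/
lemma exists_comm {N V : M2 k} (h2 : (2 : k) ≠ 0) (hN : N ≠ 0) (hN2 : N * N = 0)
    (hNt : N.trace = 0) (hV : V.trace = 0) (hVN : (V * N).trace = 0) :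
    ∃ X : M2 k, X.trace = 0 ∧ X * N - N * X = V := by
  obtain ⟨a, b, c, d, rfl⟩ : ∃ a b c d, N = !![a, b; c, d] := ⟨_, _, _, _, eta_fin_two N⟩
  obtain ⟨x, y, z, w, rfl⟩ : ∃ a b c d, V = !![a, b; c, d] := ⟨_, _, _, _, eta_fin_two V⟩
  rw [trace_fin_two_of] at hNt hV
  have hd : d = -a := by linear_combination hNt
  have hw : w = -x := by linear_combination hV
  subst hd hw
  have e00 := congrFun (congrFun hN2 0) 0
  simp only [mul_apply, Fin.sum_univ_two, of_apply, cons_val', cons_val_zero, cons_val_one,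
    empty_val', cons_val_fin_one, Matrix.zero_apply] at e00
  simp only [trace_fin_two, mul_apply, Fin.sum_univ_two, of_apply, cons_val', cons_val_zero,
    cons_val_one, empty_val', cons_val_fin_one] at hVN
  have key : 2 * a * x + b * z + c * y = 0 := by linear_combination hVN
  by_cases hb : b = 0
  · subst hb
    have ha : a = 0 := by
      have : a * a = 0 := by linear_combination e00
      exact mul_self_eq_zero.mp this
    subst ha
    have hc : c ≠ 0 := by
      rintro rfl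
      apply hN
      ext i j
      fin_cases i <;> fin_cases j <;> simp
    have hy : y = 0 := by
      have : c * y = 0 := by linear_combination key
      exact (mul_eq_zero.mp this).resolve_left hc
    subst hy
    refine ⟨!![-z / (2 * c), x / c; 0, -(-z / (2 * c))], ?_, ?_⟩
    · rw [trace_fin_two_of]; ring
    · ext i j
      fin_cases i <;> fin_cases j
      · simp [hc]
      · simp
      · simp only [mul_apply, Fin.sum_univ_two, of_apply, cons_val', cons_val_zero, cons_val_one,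
          empty_val', cons_val_fin_one, Matrix.sub_apply, Fin.mk_one, Fin.zero_eta]
        field_simp
        ring
      · simp [hc]
        field_simp
  · refine ⟨!![y / (2 * b), 0; -x / b, -(y / (2 * b))], ?_, ?_⟩
    · rw [trace_fin_two_of]; ring
    · ext i j
      fin_cases i <;> fin_cases j <;>
      simp only [mul_apply, Fin.sum_univ_two, of_apply, cons_val', cons_val_zero, cons_val_one,
          empty_val', cons_val_fin_one, Matrix.sub_apply, Fin.mk_one, Fin.zero_eta]
      · field_simp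
        ring
      · field_simp
        ring
      · have h3 : z = -(2 * a * x + c * y) / b := by
          rw [eq_div_iff hb]; linear_combination key
        rw [h3]
        field_simp
        ring
      · field_simp
        ring

/-- Cayley–Hamilton for unipotent matrices -/
lemma unip_ch {U : M2 k} (htr : U.trace = 2) (hdet : U.det = 1) : (U - 1) * (U - 1) = 0 := by
  rw [trace_fin_two] at htr
  rw [det_fin_two] at hdet
  ext i j
  rw [mul_apply, Fin.sum_univ_two]
  fin_cases i <;> fin_cases j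
  · show (U 0 0 - 1) * (U 0 0 - 1) + (U 0 1 - 0) * (U 1 0 - 0) = 0
    linear_combination U 0 0 * htr - hdet
  · show (U 0 0 - 1) * (U 0 1 - 0) + (U 0 1 - 0) * (U 1 1 - 1) = 0
    linear_combination U 0 1 * htr
  · show (U 1 0 - 0) * (U 0 0 - 1) + (U 1 1 - 1) * (U 1 0 - 0) = 0
    linear_combination U 1 0 * htr
  · show (U 1 0 - 0) * (U 0 1 - 0) + (U 1 1 - 1) * (U 1 1 - 1) = 0
    linear_combination U 1 1 * htr - hdet

/-- anticommutator of trace zero matrices -/
lemma anticomm {N V : M2 k} (hN : N.trace = 0) (hV : V.trace = 0) (h : (V * N).trace = 0) :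
    N * V + V * N = 0 := by
  obtain ⟨a, b, c, d, rfl⟩ : ∃ a b c d, N = !![a, b; c, d] := ⟨_, _, _, _, eta_fin_two N⟩
  obtain ⟨x, y, z, w, rfl⟩ : ∃ a b c d, V = !![a, b; c, d] := ⟨_, _, _, _, eta_fin_two V⟩
  rw [trace_fin_two_of] at hN hV
  have hd : d = -a := by linear_combination hN
  have hw : w = -x := by linear_combination hV
  subst hd hw
  simp only [trace_fin_two, mul_apply, Fin.sum_univ_two, of_apply, cons_val', cons_val_zero,
    cons_val_one, empty_val', cons_val_fin_one] at h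
  ext i j
  fin_cases i <;> fin_cases j <;>
  simp only [mul_apply, Fin.sum_univ_two, of_apply, cons_val', cons_val_zero, cons_val_one,
      empty_val', cons_val_fin_one, Matrix.add_apply, Fin.mk_one, Fin.zero_eta, Matrix.zero_apply]
  · linear_combination h
  · ring
  · ring
  · linear_combination h

end alg

section dual

variable {k : Type} [Field k]

lemma dm_inj {U V U' V' : M2 k} (h : dm U V = dm U' V') : U = U' ∧ V = V' := by
  constructor
  · ext i j
    exact congrArg Prod.fst (congrFun (congrFun h i) j)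
  · ext i j
    exact congrArg Prod.snd (congrFun (congrFun h i) j)

variable {rbar : GQ →* M2 k} {ψ : GQ → M2 k}

lemma coc_one' (hψ : ∀ σ τ, ψ (σ * τ) = ψ σ + rbar σ * ψ τ * rbar σ⁻¹) : ψ 1 = 0 := by
  have h := hψ 1 1
  rw [mul_one, map_one, inv_one, map_one, one_mul, mul_one] at h
  simpa using h

/-- the representation over the dual numbers attached to a cocycle -/
noncomputable def dualRep (hψ : ∀ σ τ, ψ (σ * τ) = ψ σ + rbar σ * ψ τ * rbar σ⁻¹) :
    GQ →* M2 (DualNumber k) where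
  toFun σ := dm (rbar σ) (ψ σ * rbar σ)
  map_one' := by rw [map_one, coc_one' hψ, zero_mul, dm_one]
  map_mul' σ τ := by
    rw [dm_mul, map_mul, hψ]
    congr 1
    have : rbar σ⁻¹ * rbar σ = 1 := rep_inv_mul rbar σ
    calc (ψ σ + rbar σ * ψ τ * rbar σ⁻¹) * (rbar σ * rbar τ)
        = ψ σ * rbar σ * rbar τ + rbar σ * ψ τ * (rbar σ⁻¹ * rbar σ) * rbar τ := by noncomm_ring
      _ = _ := by rw [this, mul_one]; noncomm_ring

lemma dualRep_apply (hψ : ∀ σ τ, ψ (σ * τ) = ψ σ + rbar σ * ψ τ * rbar σ⁻¹) (σ : GQ) :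
    dualRep hψ σ = dm (rbar σ) (ψ σ * rbar σ) := rfl

lemma dualRep_inj (hψ : ∀ σ τ, ψ (σ * τ) = ψ σ + rbar σ * ψ τ * rbar σ⁻¹) {σ τ : GQ}
    (h : dualRep hψ σ = dualRep hψ τ) : rbar σ = rbar τ ∧ ψ σ = ψ τ := by
  obtain ⟨h1, h2⟩ := dm_inj h
  refine ⟨h1, ?_⟩
  rw [← h1] at h2
  have h3 := congrArg (· * rbar σ⁻¹) h2
  simp only [mul_assoc] at h3
  rwa [rep_mul_inv, mul_one, mul_one] at h3

/-- exponent `p` -/
lemma dualRep_pow {p : ℕ} (hk : (p : k) = 0)
    (hψ : ∀ σ τ, ψ (σ * τ) = ψ σ + rbar σ * ψ τ * rbar σ⁻¹) {σ : GQ}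
    (h1 : (rbar σ).trace = 2) (h2 : (rbar σ).det = 1) (h3 : (ψ σ * rbar σ).trace = 0)
    (h4 : (ψ σ).trace = 0) : dualRep hψ σ ^ p = 1 := by
  set U := rbar σ with hU
  set N := U - 1 with hN
  set V := ψ σ * U with hV
  have hN2 : N * N = 0 := unip_ch h1 h2
  have hNt : N.trace = 0 := by
    rw [hN, trace_sub, h1, trace_one, Fintype.card_fin]; norm_num
  have hVN : (V * N).trace = 0 := by
    have h5 : V * (1 - N) = ψ σ := by
      have : U * (1 - N) = 1 := by
        have e : U = 1 + N := by rw [hN]; abel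
        rw [e, mul_sub, mul_one, add_mul, one_mul, hN2]; abel
      rw [hV, mul_assoc, this, mul_one]
    have h6 : (V * (1 - N)).trace = 0 := by rw [h5, h4]
    rw [mul_sub, mul_one, trace_sub, h3, zero_sub, neg_eq_zero] at h6
    exact h6
  have hanti := anticomm hNt h3 hVN
  set Nt := dm N V with hNt'
  have hsq : Nt * Nt = 0 := by
    rw [hNt', dm_mul, hN2, hanti]
    refine Matrix.ext fun i j => ?_
    rw [dm_apply]
    simp
  have hA : dualRep hψ σ = 1 + Nt := by
    rw [dualRep_apply, ← dm_one, hNt', ← hU, ← hV]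
    refine Matrix.ext fun i j => ?_
    rw [Matrix.add_apply, dm_apply, dm_apply, dm_apply, hN]
    apply TrivSqZeroExt.ext
    · simp
    · simp
  have hpow : ∀ n : ℕ, (1 + Nt) ^ n = 1 + (n : DualNumber k) • Nt := by
    intro n
    induction n with
    | zero => rw [pow_zero, Nat.cast_zero, zero_smul, add_zero]
    | succ n ih =>
      rw [pow_succ, ih, mul_add, mul_one, add_mul, one_mul, smul_mul_assoc, hsq, smul_zero,
        add_zero, Nat.cast_succ, add_smul, one_smul, add_assoc]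
  rw [hA, hpow]
  have : ((p : ℕ) : DualNumber k) = 0 := by
    have h7 : ((p : ℕ) : DualNumber k) = algebraMap k (DualNumber k) (p : k) :=
      (map_natCast (algebraMap k (DualNumber k)) p).symm
    rw [h7, hk, map_zero]
  rw [this, zero_smul, add_zero]

variable {p : ℕ} [hp : Fact p.Prime] {q : Nat.Primes}

/-- a unipotent deformation of a ramified representation is constant on inertia -/
theorem unip_coboundary (hk : (p : k) = 0) (h2 : (2 : k) ≠ 0) (hq : (q : ℕ) ≠ p)
    (hψ : ∀ σ τ, ψ (σ * τ) = ψ σ + rbar σ * ψ τ * rbar σ⁻¹)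
    (L : IntermediateField ℚ (AlgebraicClosure ℚ)) [FiniteDimensional ℚ L]
    (hrL : ∀ σ : GQ, (∀ x ∈ L, σ x = x) → rbar σ = 1)
    (hψL : ∀ σ : GQ, (∀ x ∈ L, σ x = x) → ψ σ = 0)
    (htr : ∀ σ ∈ (Pl q).inertiaSubgroupIn ℚ, (ψ σ).trace = 0)
    (hu : ∀ σ ∈ (Pl q).inertiaSubgroupIn ℚ, (rbar σ).trace = 2 ∧ (rbar σ).det = 1 ∧
      (ψ σ * rbar σ).trace = 0)
    (hram : ∃ σ ∈ (Pl q).inertiaSubgroupIn ℚ, rbar σ ≠ 1) :
    ∃ X : M2 k, X.trace = 0 ∧ ∀ σ ∈ (Pl q).inertiaSubgroupIn ℚ,
      ψ σ = rbar σ * X * rbar σ⁻¹ - X := by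
  obtain ⟨c, φ, τ, hc, hτ, hτc, hφ⟩ := exists_tame_pair p q hq
  let f : ↥((Pl q).inertiaSubgroupIn ℚ) →* (M2 (DualNumber k))ˣ :=
    (dualRep hψ).toHomUnits.comp (Subgroup.subtype _)
  have hgen := tame_gen hq hc hτ hτc f L (fun σ hσ => by
      apply Units.ext
      show dm (rbar σ.1) (ψ σ.1 * rbar σ.1) = 1
      rw [hrL σ.1 hσ, hψL σ.1 hσ, zero_mul, dm_one]) (fun σ => ⟨1, by
      apply Units.ext
      rw [pow_one, Units.val_pow_eq_pow_val, Units.val_one]
      obtain ⟨a1, a2, a3⟩ := hu σ.1 σ.2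
      exact dualRep_pow hk hψ a1 a2 a3 (htr σ.1 σ.2)⟩)
  have hgen' : ∀ σ ∈ (Pl q).inertiaSubgroupIn ℚ, ∃ j : ℤ, rbar σ = rbar (τ ^ j) ∧
      ψ σ = ψ (τ ^ j) := by
    intro σ hσ
    obtain ⟨j, hj⟩ := hgen ⟨σ, hσ⟩
    refine ⟨j, dualRep_inj hψ ?_⟩
    have h1 : f ⟨σ, hσ⟩ = f ((⟨τ, hτ⟩ : ↥((Pl q).inertiaSubgroupIn ℚ)) ^ j) := by
      rw [hj, map_zpow]
    have h3 := congrArg Units.val h1
    exact h3
  have hτ1 : rbar τ ≠ 1 := by
    intro h
    obtain ⟨σ, hσ, hne⟩ := hram
    obtain ⟨j, hj, -⟩ := hgen' σ hσ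
    apply hne
    rw [hj]
    have h1 : rbar.toHomUnits τ = 1 := Units.ext h
    have h3 : rbar.toHomUnits (τ ^ j) = 1 := by rw [map_zpow, h1, _root_.one_zpow]
    exact congrArg Units.val h3
  obtain ⟨t1, t2, t3⟩ := hu τ hτ
  set U := rbar τ with hU
  set N := U - 1 with hN
  have hN2 : N * N = 0 := unip_ch t1 t2
  have hNt : N.trace = 0 := by
    rw [hN, trace_sub, t1, trace_one, Fintype.card_fin]; norm_num
  have hUN : U = 1 + N := by rw [hN]; abel
  have hVN : (ψ τ * U * N).trace = 0 := by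
    have h5 : ψ τ * U * (1 - N) = ψ τ := by
      have : U * (1 - N) = 1 := by
        rw [hUN, mul_sub, mul_one, add_mul, one_mul, hN2]; abel
      rw [mul_assoc, this, mul_one]
    have h6 : (ψ τ * U * (1 - N)).trace = 0 := by rw [h5, htr τ hτ]
    rw [mul_sub, mul_one, trace_sub, t3, zero_sub, neg_eq_zero] at h6
    exact h6
  obtain ⟨X, hX, hXN⟩ := exists_comm h2 (sub_ne_zero.mpr hτ1) hN2 hNt t3 hVN
  -- `ψ τ = X - U X U⁻¹`
  have hτX : ψ τ = rbar τ * (-X) * rbar τ⁻¹ - (-X) := by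
    have h5 : X * U - U * X = ψ τ * U := by
      rw [← hXN, hUN]; noncomm_ring
    have h6 : ψ τ = ψ τ * U * rbar τ⁻¹ := by
      rw [mul_assoc, hU, rep_mul_inv, mul_one]
    rw [h6, ← h5, sub_mul, mul_assoc X, hU, rep_mul_inv, mul_one]
    noncomm_ring
  refine ⟨-X, by rw [trace_neg, hX, neg_zero], ?_⟩
  -- the difference is a cocycle vanishing at `τ`
  have hcoc : ∀ Y : M2 k, ∀ a b : GQ, rbar (a * b) * Y * rbar (a * b)⁻¹ - Y =
      (rbar a * Y * rbar a⁻¹ - Y) + rbar a * (rbar b * Y * rbar b⁻¹ - Y) * rbar a⁻¹ := by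
    intro Y a b
    rw [_root_.mul_inv_rev, map_mul, map_mul]
    noncomm_ring
  let K : Subgroup GQ :=
    { carrier := {σ | ψ σ = rbar σ * (-X) * rbar σ⁻¹ - (-X)}
      one_mem' := by
        show ψ 1 = _
        rw [coc_one' hψ, inv_one, map_one, one_mul, mul_one, sub_self]
      mul_mem' := by
        intro a b ha hb
        show ψ (a * b) = _
        rw [hψ, hcoc, show ψ a = _ from ha, show ψ b = _ from hb]
      inv_mem' := by
        intro a ha
        show ψ a⁻¹ = _
        have h1 := hψ a⁻¹ a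
        have h3 := hcoc (-X) a⁻¹ a
        rw [inv_mul_cancel, coc_one' hψ, inv_inv, show ψ a = _ from ha] at h1
        rw [inv_mul_cancel, inv_one, map_one, one_mul, mul_one, sub_self, inv_inv] at h3
        rw [inv_inv]
        have h4 := h1.symm.trans h3
        exact add_right_cancel h4 }
  have hτK : τ ∈ K := hτX
  intro σ hσ
  obtain ⟨j, hj1, hj2⟩ := hgen' σ hσ
  have h7 : ψ (τ ^ j) = rbar (τ ^ j) * (-X) * rbar (τ ^ j)⁻¹ - (-X) := K.zpow_mem hτK j
  have h8 : rbar σ⁻¹ = rbar (τ ^ j)⁻¹ := by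
    have h9 : rbar.toHomUnits σ = rbar.toHomUnits (τ ^ j) := Units.ext hj1
    have h10 : rbar.toHomUnits σ⁻¹ = rbar.toHomUnits (τ ^ j)⁻¹ := by
      rw [map_inv, map_inv, h9]
    exact congrArg Units.val h10
  rw [hj2, h7, hj1, h8]

end dual

end Fermat.Agent.TWP
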