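import Fermat.Agent.TWP.LocCond
import Fermat.Agent.TWP.Count2

/-!
The local condition of unramified type.
-/

set_option autoImplicit false

namespace Fermat.Agent.TWP

open Matrix Fermat.Agent.PT Fermat.Agent.PTC
open scoped Pointwise

section abs

variable {Γ : Type} [Group Γ] {A : Type} [AddCommGroup A]

lemma mem_unrClasses_of {L : Levels Γ} {ρ : Act Γ A} (hρ : Smooth L ρ) (I : Subgroup Γ)
    (c : Z1 L ρ) (a : A) (h : ∀ γ ∈ I, (c : Γ → A) γ = ρ γ a - a) :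
    H1.mk L ρ c ∈ unrClasses L ρ I := by
  let b : Z1 L ρ := ⟨d0 ρ a, mem_Z1.2 ⟨d0_mem_C1 hρ a, d1_d0 ρ a⟩⟩
  refine ⟨c - b, ?_, fun γ hγ => ?_⟩
  · rw [map_sub]
    have : H1.mk L ρ b = 0 := H1.mk_eq_zero.2 ⟨a, rfl⟩
    rw [this, sub_zero]
  · show c.1 γ - d0 ρ a γ = 0
    rw [d0_apply, h γ hγ, sub_self]

end abs

section inF

variable (q : Nat.Primes) (F : IntermediateField ℚ Qb) (hF : ∀ σ : GQ, ∀ x ∈ F, σ x ∈ F)

/-- the local elements which are in the inertia group modulo `F` -/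
def inF : Subgroup (Γl q) where
  carrier := {γ | ∃ σ ∈ (Pl q).inertiaSubgroupIn ℚ, ∀ x ∈ F, rl q γ x = σ x}
  one_mem' := ⟨1, Subgroup.one_mem _, fun x _ => by rw [map_one]⟩
  mul_mem' := by
    rintro a b ⟨σ, hσ, h⟩ ⟨τ, hτ, h'⟩
    refine ⟨σ * τ, Subgroup.mul_mem _ hσ hτ, fun x hx => ?_⟩
    rw [map_mul]
    show rl q a (rl q b x) = σ (τ x)
    rw [h' x hx, h _ (hF τ x hx)]
  inv_mem' := by
    rintro a ⟨σ, hσ, h⟩
    refine ⟨σ⁻¹, Subgroup.inv_mem _ hσ, fun x hx => ?_⟩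
    have h1 := h (σ⁻¹ x) (hF _ x hx)
    have h2 : σ (σ⁻¹ x) = x := by
      show (σ * σ⁻¹) x = x
      rw [mul_inv_cancel]; rfl
    rw [h2] at h1
    rw [map_inv]
    have h3 : (rl q a)⁻¹ ((rl q a) (σ⁻¹ x)) = σ⁻¹ x := by
      show ((rl q a)⁻¹ * (rl q a)) (σ⁻¹ x) = σ⁻¹ x
      rw [inv_mul_cancel]; rfl
    rw [← h3, h1]

lemma mem_inF {γ : Γl q} : γ ∈ inF q F hF ↔
    ∃ σ ∈ (Pl q).inertiaSubgroupIn ℚ, ∀ x ∈ F, rl q γ x = σ x := Iff.rfl

instance inF_normal : (inF q F hF).Normal := by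
  constructor
  rintro n ⟨σ, hσ, h⟩ g
  refine ⟨rl q g * σ * (rl q g)⁻¹, ?_, fun x hx => ?_⟩
  · have h1 : (rl q g)⁻¹ • Pl q = Pl q := by
      rw [inv_smul_eq_iff]; exact (rl_mem q g).symm
    have h2 : σ ∈ ((rl q g)⁻¹ • Pl q).inertiaSubgroupIn ℚ := by rw [h1]; exact hσ
    have h3 := inertia_conj h2
    rwa [inv_inv] at h3
  · rw [map_mul, map_mul, map_inv]
    show rl q g (rl q n ((rl q g)⁻¹ x)) = rl q g (σ ((rl q g)⁻¹ x))
    rw [h _ (hF _ x hx)]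

/-- the local group is procyclic modulo inertia -/
lemma exists_gen_inF [FiniteDimensional ℚ F] :
    ∃ g : Γl q, ∀ γ, ∃ j : ℕ, (g ^ j)⁻¹ * γ ∈ inF q F hF := by
  obtain ⟨g, -, hg⟩ := exists_frob_gen q F hF
  exact ⟨g, hg⟩

variable {k : Type} [Field k] (r : GQ →* M2 k)

/-- the local condition of unramified type -/
noncomputable def locT : AddSubgroup (H1 (allL.comap (rl q)) ((twAct 1 r).comp (rl q))) :=
  unrClasses (allL.comap (rl q)) ((twAct 1 r).comp (rl q)) (inF q F hF)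

theorem card_locT_le [FiniteDimensional ℚ F] [Finite k] {r : GQ →* M2 k}
    (hr : ∃ L : IntermediateField ℚ (AlgebraicClosure ℚ), FiniteDimensional ℚ L ∧
      ∀ σ : GQ, (∀ x ∈ L, σ x = x) → r σ = 1) :
    Nat.card (locT q F hF r) ≤ Nat.card (H0 ((twAct 1 r).comp (rl q))) := by
  obtain ⟨g, hg⟩ := exists_gen_inF q F hF
  exact card_unrClasses_le (smooth_loc hr q) (inF q F hF) g hg

theorem mem_locT [FiniteDimensional ℚ F] {S : Finset Nat.Primes} (v : ↥S) {r : GQ →* M2 k} (f : Z1 (sL S) (twAct 1 r))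
    (hrF : ∀ σ : GQ, (∀ x ∈ F, σ x = x) → r σ = 1)
    (hfF : ∀ σ : GQ, (∀ x ∈ F, σ x = x) → ((f.1 σ : ad0 k) : M2 k) = 0)
    {X : M2 k} (hX : X.trace = 0)
    (h : ∀ σ ∈ (Pl v.1).inertiaSubgroupIn ℚ,
      ((f.1 σ : ad0 k) : M2 k) = r σ * X * r σ⁻¹ - X) :
    ((ptd S).loc v (twAct 1 r)).h1 (H1.mk (sL S) (twAct 1 r) f) ∈ locT v.1 F hF r := by
  have hfeq : ∀ a b : GQ, (∀ x ∈ F, a x = b x) → ((f.1 a : ad0 k) : M2 k) = (f.1 b : M2 k) := by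
    intro a b hab
    have h1 : ∀ x ∈ F, (b⁻¹ * a) x = x := fun x hx => by
      show b⁻¹ (a x) = x
      rw [hab x hx]
      show (b⁻¹ * b) x = x
      rw [inv_mul_cancel]; rfl
    have h2 := coc_mul f b (b⁻¹ * a)
    rw [mul_inv_cancel_left, hfF _ h1, mul_zero, zero_mul, smul_zero, add_zero] at h2
    exact h2
  have hreq : ∀ a b : GQ, (∀ x ∈ F, a x = b x) → r a = r b := by
    intro a b hab
    have h1 : ∀ x ∈ F, (b⁻¹ * a) x = x := fun x hx => by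
      show b⁻¹ (a x) = x
      rw [hab x hx]
      show (b⁻¹ * b) x = x
      rw [inv_mul_cancel]; rfl
    have h2 : r (b * (b⁻¹ * a)) = r b * r (b⁻¹ * a) := map_mul r _ _
    rw [hrF _ h1, mul_one, mul_inv_cancel_left] at h2
    exact h2
  have hrinv : ∀ a b : GQ, (∀ x ∈ F, a x = b x) → r a⁻¹ = r b⁻¹ := by
    intro a b hab
    have h9 : r.toHomUnits a = r.toHomUnits b := Units.ext (hreq a b hab)
    have h10 : r.toHomUnits a⁻¹ = r.toHomUnits b⁻¹ := by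
      rw [map_inv, map_inv, h9]
    exact congrArg Units.val h10
  rw [PairHom.h1_mk]
  refine mem_unrClasses_of (smooth_loc ⟨F, inferInstance, hrF⟩ v.1) (inF v.1 F hF) _ ⟨X, hX⟩ ?_
  rintro γ ⟨σ, hσ, hγσ⟩
  apply Subtype.ext
  show ((f.1 (rl v.1 γ) : ad0 k) : M2 k) = (1 : GQ →* k) (rl v.1 γ) • (r (rl v.1 γ) * X *
    r (rl v.1 γ)⁻¹) - X
  rw [hfeq _ _ hγσ, h σ hσ, hreq _ _ hγσ, hrinv _ _ hγσ, MonoidHom.one_apply, one_smul]

end inF

end Fermat.Agent.TWP
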