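import Fermat.Agent.TWP.StrictConv
import Fermat.Prelude.Def_GaloisRep_StrictOrdinary
import Fermat.Prelude.Def_GaloisRep_Flat

/-!
The final assembly, modulo the local bounds at `p`.
-/

set_option autoImplicit false

namespace Fermat.Agent.TWP

open Matrix Module IsLocalRing Fermat.Agent.PT Fermat.Agent.PTC
open Fermat.Agent.DefRing (matOfRes mapRep MatCont Red ofMat)
open scoped Pointwise

section stable

variable (𝒪 : Type) [CommRing 𝒪] (p : ℕ) (Sig Smin : Finset ℕ)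

lemma stable_strict : StableCond 𝒪 (fun _A _ _ _ ρ =>
    GaloisRep.strictOrdinaryCondition 𝒪 p Sig ρ ∧
      ∀ q ∈ Smin, q.Prime → q ≠ p → ρ.IsUnipotentOnInertiaAt q) where
  surj _ hφ _ _ h := ⟨⟨det_stable hφ h.1.1, strictOrd_stable hφ h.1.2.1,
    fun q hq hqS => unram_stable hφ (h.1.2.2 q hq hqS)⟩,
    fun q hq hqp hne => unip_stable hφ (h.2 q hq hqp hne)⟩
  equiv _ _ he h := ⟨⟨det_equiv he h.1.1, strictOrd_equiv he h.1.2.1,
    fun q hq hqS => unram_equiv he (h.1.2.2 q hq hqS)⟩,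
    fun q hq hqp hne => unip_equiv he (h.2 q hq hqp hne)⟩

lemma stable_flat : StableCond 𝒪 (fun _A _ _ _ ρ =>
    GaloisRep.flatCondition 𝒪 p Sig ρ ∧
      ∀ q ∈ Smin, q.Prime → q ≠ p → ρ.IsUnipotentOnInertiaAt q) where
  surj _ hφ _ hs h := ⟨⟨det_stable hφ h.1.1, flat_stable hφ hs h.1.2.1,
    fun q hq hqS => unram_stable hφ (h.1.2.2 q hq hqS)⟩,
    fun q hq hqp hne => unip_stable hφ (h.2 q hq hqp hne)⟩
  equiv _ _ he h := ⟨⟨det_equiv he h.1.1, flat_equiv he h.1.2.1,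
    fun q hq hqS => unram_equiv he (h.1.2.2 q hq hqS)⟩,
    fun q hq hqp hne => unip_equiv he (h.2 q hq hqp hne)⟩

end stable

section strT

variable {k : Type} [Field k] {p : ℕ} [hp : Fact p.Prime]

/-- strictly upper triangular with respect to a line -/
def IsStr (v : Fin 2 → k) (X : M2 k) : Prop :=
  (∀ w, ∃ a : k, X *ᵥ w = a • v) ∧ X *ᵥ v = 0

lemma IsStr.zero (v : Fin 2 → k) : IsStr v 0 :=
  ⟨fun w => ⟨0, by rw [zero_mulVec, zero_smul]⟩, zero_mulVec _⟩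

lemma IsStr.add {v : Fin 2 → k} {X Y : M2 k} (hX : IsStr v X) (hY : IsStr v Y) :
    IsStr v (X + Y) := by
  refine ⟨fun w => ?_, by rw [add_mulVec, hX.2, hY.2, add_zero]⟩
  obtain ⟨a, ha⟩ := hX.1 w
  obtain ⟨b, hb⟩ := hY.1 w
  exact ⟨a + b, by rw [add_mulVec, ha, hb, add_smul]⟩

lemma IsStr.neg {v : Fin 2 → k} {X : M2 k} (hX : IsStr v X) : IsStr v (-X) := by
  refine ⟨fun w => ?_, by rw [neg_mulVec, hX.2, neg_zero]⟩
  obtain ⟨a, ha⟩ := hX.1 w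
  exact ⟨-a, by rw [neg_mulVec, ha, neg_smul]⟩

variable (p) in
/-- the strict ordinary local condition -/
def strT (r : GQ →* M2 k) (v : Fin 2 → k) :
    AddSubgroup (H1 (allL.comap (rl (ExtCitation.pPrime p)))
      ((twAct 1 r).comp (rl (ExtCitation.pPrime p)))) where
  carrier := {x | ∃ c : Z1 (allL.comap (rl (ExtCitation.pPrime p)))
      ((twAct 1 r).comp (rl (ExtCitation.pPrime p))), H1.mk _ _ c = x ∧
      ∀ γ, IsStr v ((c.1 γ : ad0 k) : M2 k)}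
  zero_mem' := ⟨0, map_zero _, fun _ => IsStr.zero v⟩
  add_mem' := by
    rintro _ _ ⟨c, rfl, hc⟩ ⟨c', rfl, hc'⟩
    exact ⟨c + c', map_add _ _ _, fun γ => (hc γ).add (hc' γ)⟩
  neg_mem' := by
    rintro _ ⟨c, rfl, hc⟩
    exact ⟨-c, map_neg _ _, fun γ => (hc γ).neg⟩

lemma mem_strT {S : Finset Nat.Primes} (hpS : ExtCitation.pPrime p ∈ S) {r : GQ →* M2 k}
    (hr : ∃ L : IntermediateField ℚ (AlgebraicClosure ℚ), FiniteDimensional ℚ L ∧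
      ∀ σ : GQ, (∀ x ∈ L, σ x = x) → r σ = 1)
    {v : Fin 2 → k} (f : Z1 (sL S) (twAct 1 r)) {Y : M2 k} (hY : Y.trace = 0)
    (h : ∀ σ : GQ, σ • Pl (ExtCitation.pPrime p) = Pl (ExtCitation.pPrime p) →
      IsStr v (((f.1 σ : ad0 k) : M2 k) - (r σ * Y * r σ⁻¹ - Y))) :
    ((ptd S).loc ⟨ExtCitation.pPrime p, hpS⟩ (twAct 1 r)).h1 (H1.mk (sL S) (twAct 1 r) f) ∈
      strT p r v := by
  rw [PairHom.h1_mk]
  have hsm := smooth_loc hr (ExtCitation.pPrime p)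
  let Y' : ad0 k := ⟨Y, hY⟩
  let b : Z1 (allL.comap (rl (ExtCitation.pPrime p)))
      ((twAct 1 r).comp (rl (ExtCitation.pPrime p))) :=
    ⟨d0 _ Y', mem_Z1.2 ⟨d0_mem_C1 hsm Y', d1_d0 _ Y'⟩⟩
  refine ⟨((ptd S).loc ⟨ExtCitation.pPrime p, hpS⟩ (twAct 1 r)).z1 f - b, ?_, fun γ => ?_⟩
  · rw [map_sub]
    have : H1.mk _ _ b = 0 := H1.mk_eq_zero.2 ⟨Y', rfl⟩
    rw [this, sub_zero]
  · have h1 := h (rl _ γ) (rl_mem _ γ)
    have h2 : (((((ptd S).loc ⟨ExtCitation.pPrime p, hpS⟩ (twAct 1 r)).z1 f - b).1 γ : ad0 k) :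
        M2 k) = ((f.1 (rl _ γ) : ad0 k) : M2 k) -
          ((1 : GQ →* k) (rl _ γ) • (r (rl _ γ) * Y * r (rl _ γ)⁻¹) - Y) := rfl
    rw [h2, MonoidHom.one_apply, one_smul]
    exact h1

end strT

section main

variable {𝒪 : Type} [CommRing 𝒪] [IsDomain 𝒪] [IsDiscreteValuationRing 𝒪]
    [IsAdicComplete (maximalIdeal 𝒪) 𝒪] [Finite (ResidueField 𝒪)]
    {p : ℕ} [hp : Fact p.Prime]
    {ρbar : ResidualGaloisRep (ResidueField 𝒪)}
    (bbar : Basis (Fin 2) (ResidueField 𝒪) ρbar.V)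
    {Smin S₀ : Finset ℕ}

/-- the primes in a finite set of natural numbers -/
def primesOf (A : Finset ℕ) : Finset Nat.Primes := A.subtype Nat.Prime

lemma mem_primesOf {A : Finset ℕ} {v : Nat.Primes} : v ∈ primesOf A ↔ (v : ℕ) ∈ A :=
  Finset.mem_subtype

omit [IsDomain 𝒪] [IsDiscreteValuationRing 𝒪] [IsAdicComplete (maximalIdeal 𝒪) 𝒪]
  [Finite (ResidueField 𝒪)] hp in
lemma matOfRes_eq_one [IsLocalRing 𝒪] (ρbar : ResidualGaloisRep (ResidueField 𝒪))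
    (bbar : Basis (Fin 2) (ResidueField 𝒪) ρbar.V) {σ : GQ} :
    matOfRes ρbar bbar σ = 1 ↔ ρbar.ρ σ = 1 := by
  rw [Fermat.Agent.DefRing.matOfRes_apply]
  exact EmbeddingLike.map_eq_one_iff

lemma unrOut_min (hRD : RD p (matOfRes ρbar bbar)) (hpSmin : p ∈ Smin)
    (hmin : ∀ q : ℕ, q.Prime → q ≠ p → (q ∈ Smin ↔ ¬ ρbar.IsUnramifiedAt q)) :
    UnrOut (primesOf Smin) (matOfRes ρbar bbar) := by
  refine ⟨hRD.cont, fun q hq A hA σ hσ => ?_⟩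
  have hq' : (q : ℕ) ∉ Smin := fun h => hq (mem_primesOf.2 h)
  have hqp : (q : ℕ) ≠ p := fun h => hq' (h ▸ hpSmin)
  have h1 : ρbar.IsUnramifiedAt q := by
    by_contra h
    exact hq' ((hmin q q.2 hqp).2 h)
  rw [matOfRes_eq_one]
  exact h1 A hA σ hσ

/-- ramification can be seen at the chosen place -/
lemma ram_Pl {v : Nat.Primes} (h : ¬ ρbar.IsUnramifiedAt (v : ℕ)) :
    ∃ σ ∈ (Pl v).inertiaSubgroupIn ℚ, matOfRes ρbar bbar σ ≠ 1 := by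
  by_contra hcon
  push Not at hcon
  apply h
  intro A hA σ hσ
  obtain ⟨g, rfl⟩ := Frob.exists_smul_eq v.2 (Pl_lies v) hA
  have h1 := hcon _ (inertia_conj hσ)
  rw [matOfRes_eq_one] at h1
  have h2 : ρbar.ρ σ = ρbar.ρ g * ρbar.ρ (g⁻¹ * σ * g) * ρbar.ρ g⁻¹ := by
    rw [← map_mul, ← map_mul]
    congr 1
    group
  rw [h2, h1, mul_one, ← map_mul, mul_inv_cancel, map_one]

/-- **The Taylor–Wiles selection**, for an abstract type of deformations. -/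
theorem main_abs (hp2 : p ≠ 2) (hRD : RD p (matOfRes ρbar bbar)) (hpSmin : p ∈ Smin)
    (hSS : Smin ⊆ S₀)
    (hmin : ∀ q : ℕ, q.Prime → q ≠ p → (q ∈ Smin ↔ ¬ ρbar.IsUnramifiedAt q))
    (cond : Finset ℕ → ∀ ⦃A : Type⦄ [CommRing A] [IsLocalRing A] [Algebra 𝒪 A],
      GaloisRepAdic A → Prop)
    (hstab : ∀ Sig, StableCond 𝒪 (cond Sig))
    (hcond : ∀ (Sig : Finset ℕ) ⦃A : Type⦄ [CommRing A] [IsLocalRing A] [Algebra 𝒪 A]
      (ρ : GaloisRepAdic A), cond Sig ρ → ρ.DetIsCyclotomic p ∧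
        (∀ q : ℕ, q.Prime → q ∉ Sig → ρ.IsUnramifiedAt q) ∧
        ∀ q ∈ Smin, q.Prime → q ≠ p → ρ.IsUnipotentOnInertiaAt q)
    (hloc : ∀ (Sig : Finset ℕ) (D : GaloisRep.DeformationRingData 𝒪 ρbar (cond Sig))
      (π : D.R →+* ResidueField 𝒪) (r : GQ →* M2 D.R) (hc : MatCont D.R r)
      (_ : ∀ o, π (algebraMap 𝒪 D.R o) = residue 𝒪 o)
      (_ : Red (matOfRes ρbar bbar) r) (_ : D.ρ.IsEquiv (ofMat r hc))
      (_ : MDef 𝒪 p Sig Smin π r (matOfRes ρbar bbar)),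
      ∃ Tp : AddSubgroup (H1 (allL.comap (rl (ExtCitation.pPrime p)))
          ((twAct 1 (matOfRes ρbar bbar)).comp (rl (ExtCitation.pPrime p)))),
        Nat.card Tp ≤ Nat.card (ResidueField 𝒪) *
          Nat.card (H0 ((twAct 1 (matOfRes ρbar bbar)).comp (rl (ExtCitation.pPrime p)))) ∧
        ∀ (S : Finset Nat.Primes) (hpS : ExtCitation.pPrime p ∈ S)
          (δ : D.R → ResidueField 𝒪) (_ : IsDer 𝒪 π δ)
          (f : Z1 (sL S) (twAct 1 (matOfRes ρbar bbar)))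
          (_ : ∀ σ, ((f.1 σ : ad0 (ResidueField 𝒪)) : M2 (ResidueField 𝒪)) =
            psi r (matOfRes ρbar bbar) δ σ),
          ((ptd S).loc ⟨ExtCitation.pPrime p, hpS⟩ (twAct 1 (matOfRes ρbar bbar))).h1
            (H1.mk (sL S) (twAct 1 (matOfRes ρbar bbar)) f) ∈ Tp) :
    ∃ r : ℕ, ∀ n : ℕ, ∃ qv : Fin r → ℕ, Function.Injective qv ∧
      (∀ i, (qv i).Prime ∧ qv i ∉ S₀ ∧ p ^ (n + 1) ∣ qv i - 1) ∧
      (∀ i, ∀ P : ValuationSubring (AlgebraicClosure ℚ), P.LiesOverPrime (qv i) →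
        ∀ φ : AlgebraicClosure ℚ ≃ₐ[ℚ] AlgebraicClosure ℚ, P.IsFrobeniusAt φ (qv i) →
          ∃ α β : ResidueField 𝒪, α ≠ β ∧ LinearMap.charpoly (ρbar.ρ φ) =
            (Polynomial.X - Polynomial.C α) * (Polynomial.X - Polynomial.C β)) ∧
      ∀ DQ : GaloisRep.DeformationRingData 𝒪 ρbar (cond (Smin ∪ Finset.univ.image qv)),
        ∃ γ : MvPowerSeries (Fin r) 𝒪 →ₐ[𝒪] DQ.R, Function.Surjective γ := by
  have hpS₁ : ExtCitation.pPrime p ∈ primesOf Smin := mem_primesOf.2 hpSmin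
  have hrS₁ := unrOut_min bbar hRD hpSmin hmin
  obtain ⟨S, m, hS₁S, hS⟩ := exists_TW hp2 hRD hpS₁ hrS₁
  refine ⟨m, fun n => ?_⟩
  obtain ⟨q, τ, hTW, hqA, hEC⟩ := hS n S₀
  refine ⟨fun i => (q i : ℕ), fun i j hij => hTW.inj (Subtype.ext hij), fun i =>
    ⟨(q i).2, hqA i, (hTW.tw i).dvd⟩, ?_, ?_⟩
  · intro i P hP φ hφ
    obtain ⟨α, β, hne, hαβ⟩ := (hTW.tw i).eigen hRD hP hφ
    refine ⟨α, β, hne, ?_⟩
    rw [← hαβ, Fermat.Agent.DefRing.matOfRes_apply]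
    exact (LinearMap.charpoly_toMatrix (ρbar.ρ φ) bbar).symm
  · obtain ⟨Sig, hSig⟩ : ∃ Sig : Finset ℕ, Sig = Smin ∪ Finset.univ.image (fun i => (q i : ℕ)) :=
      ⟨_, rfl⟩
    rw [← hSig]
    intro DQ
    obtain ⟨hd, hu, hun⟩ := hcond Sig DQ.ρ DQ.isOfType
    obtain ⟨π, r, hc, hπ, hr, he, h⟩ := exists_MDef DQ bbar hd hu hun
    obtain ⟨Tp, hTp, hmem⟩ := hloc Sig DQ π r hc hπ hr he h
    have hsig : ∀ v : Nat.Primes, (v : ℕ) ∈ Sig → v ∈ SQ S q := by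
      intro v hv
      rw [hSig, Finset.mem_union, Finset.mem_image] at hv
      rcases hv with hv | ⟨j, -, hj⟩
      · exact mem_SQ.2 (Or.inl (hS₁S (mem_primesOf.2 hv)))
      · exact mem_SQ.2 (Or.inr ⟨j, Subtype.ext hj⟩)
    refine surj_of_local (hstab Sig) DQ bbar hp2 hRD (hrS₁.mono hS₁S) hTW (hS₁S hpS₁) hEC hsig
      ?_ hc hπ hr he h Tp hTp (fun δ hδ f hf => hmem _ _ δ hδ f hf)
    intro v hvS hvp hv
    rw [hSig, Finset.mem_union, Finset.mem_image] at hv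
    rcases hv with hv | ⟨j, -, hj⟩
    · exact ⟨hv, ram_Pl bbar ((hmin v v.2 hvp).1 hv)⟩
    · exfalso
      have : q j = v := Subtype.ext hj
      exact hTW.notMem j (this ▸ hvS)

end main

end Fermat.Agent.TWP
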