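import Mathlib

/-!
# Surjections from power series rings onto complete local rings
-/

set_option autoImplicit false

namespace Fermat.Agent.TWP

open IsLocalRing

section Eval

variable {𝒪 R : Type} [CommRing 𝒪] [CommRing R] [IsLocalRing R]
  [IsAdicComplete (maximalIdeal R) R] [Algebra 𝒪 R] {r : ℕ}

/-- evaluation of power series in a complete local ring -/
theorem exists_eval (y : Fin r → R) (hy : ∀ i, y i ∈ maximalIdeal R) :
    ∃ γ : MvPowerSeries (Fin r) 𝒪 →ₐ[𝒪] R, ∀ (n : ℕ) (s : MvPowerSeries (Fin r) 𝒪),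
      γ s - MvPolynomial.aeval y (MvPowerSeries.truncTotal n s) ∈ maximalIdeal R ^ n := by
  have hI : ∀ n, (MvPolynomial.idealOfVars (Fin r) 𝒪) ^ n ≤
      (maximalIdeal R ^ n).comap (MvPolynomial.aeval y : MvPolynomial (Fin r) 𝒪 →ₐ[𝒪] R) := by
    intro n
    rw [← Ideal.map_le_iff_le_comap, Ideal.map_pow]
    refine Ideal.pow_right_mono ?_ n
    rw [Ideal.map_le_iff_le_comap, MvPolynomial.idealOfVars, Ideal.span_le]
    rintro _ ⟨i, rfl⟩
    simpa using hy i
  let f : ∀ n, MvPowerSeries (Fin r) 𝒪 →+* R ⧸ maximalIdeal R ^ n := fun n =>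
    (Ideal.quotientMap (maximalIdeal R ^ n)
      ((MvPolynomial.aeval y : MvPolynomial (Fin r) 𝒪 →ₐ[𝒪] R) :
        MvPolynomial (Fin r) 𝒪 →+* R) (hI n)).comp
      (MvPowerSeries.truncTotalAlgHom (Fin r) 𝒪 n).toRingHom
  have h1 : ∀ n (s : MvPowerSeries (Fin r) 𝒪), f n s =
      Ideal.Quotient.mk (maximalIdeal R ^ n)
        (MvPolynomial.aeval y (MvPowerSeries.truncTotal n s)) := by
    intro n s; rfl
  have h2 : ∀ {m n : ℕ} (hle : m ≤ n),
      (Ideal.Quotient.factorPow (maximalIdeal R) hle).comp (f n) = f m := by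
    intro m n hle
    ext s
    rw [RingHom.comp_apply, h1, h1]
    rw [show (Ideal.Quotient.factorPow (maximalIdeal R) hle)
      ((Ideal.Quotient.mk (maximalIdeal R ^ n))
        (MvPolynomial.aeval y (MvPowerSeries.truncTotal n s))) =
      Ideal.Quotient.mk (maximalIdeal R ^ m)
        (MvPolynomial.aeval y (MvPowerSeries.truncTotal n s)) from rfl]
    rw [Ideal.Quotient.mk_eq_mk_iff_sub_mem, ← map_sub]
    exact hI m (MvPowerSeries.truncTotal_sub_truncTotal_mem_pow_idealOfVars hle le_rfl s)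
  let g := IsAdicComplete.liftRingHom (maximalIdeal R) f h2
  have h3 : ∀ (n : ℕ) (s : MvPowerSeries (Fin r) 𝒪),
      g s - MvPolynomial.aeval y (MvPowerSeries.truncTotal n s) ∈ maximalIdeal R ^ n := by
    intro n s
    rw [← Ideal.Quotient.mk_eq_mk_iff_sub_mem, ← h1]
    exact IsAdicComplete.mk_liftRingHom (maximalIdeal R) f h2 n s
  refine ⟨{ g with commutes' := ?_ }, h3⟩
  intro o
  show g (algebraMap 𝒪 _ o) = algebraMap 𝒪 R o
  rw [IsHausdorff.eq_iff_smodEq (I := maximalIdeal R)]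
  intro n
  rw [SModEq.sub_mem, smul_eq_mul, Ideal.mul_top]
  have h4 := h3 n (algebraMap 𝒪 _ o)
  have h5 : MvPolynomial.aeval y (MvPowerSeries.truncTotal n
      (algebraMap 𝒪 (MvPowerSeries (Fin r) 𝒪) o)) - algebraMap 𝒪 R o ∈ maximalIdeal R ^ n := by
    have h6 : MvPowerSeries.truncTotal n (algebraMap 𝒪 (MvPowerSeries (Fin r) 𝒪) o) -
        MvPolynomial.C o ∈ MvPolynomial.idealOfVars (Fin r) 𝒪 ^ n := by
      rw [MvPolynomial.mem_pow_idealOfVars_iff']
      intro x hx
      rw [MvPolynomial.coeff_sub, MvPowerSeries.coeff_truncTotal _ hx, MvPolynomial.coeff_C,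
        MvPowerSeries.algebraMap_apply, Algebra.algebraMap_self, RingHom.id_apply]
      classical
      rw [MvPowerSeries.coeff_C]
      by_cases h : x = 0
      · subst h; simp
      · rw [if_neg h, if_neg (fun h' => h h'.symm), sub_zero]
    have := hI n h6
    rw [Ideal.mem_comap, map_sub, MvPolynomial.aeval_C] at this
    exact this
  have e : g (algebraMap 𝒪 _ o) - algebraMap 𝒪 R o =
    (g (algebraMap 𝒪 _ o) - MvPolynomial.aeval y (MvPowerSeries.truncTotal n
      (algebraMap 𝒪 (MvPowerSeries (Fin r) 𝒪) o))) + (MvPolynomial.aeval y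
      (MvPowerSeries.truncTotal n (algebraMap 𝒪 (MvPowerSeries (Fin r) 𝒪) o)) -
        algebraMap 𝒪 R o) := by ring
  rw [e]
  exact Ideal.add_mem _ h4 h5

end Eval

section Filtration

variable {𝒪 R : Type} [CommRing 𝒪] [IsLocalRing 𝒪] {r : ℕ}

/-- polynomials in the `n`-th power of `(m, X)` -/
def FilP (𝒪 : Type) [CommRing 𝒪] [IsLocalRing 𝒪] (r n : ℕ) (P : MvPolynomial (Fin r) 𝒪) : Prop :=
  ∀ a : Fin r →₀ ℕ, P.coeff a ∈ maximalIdeal 𝒪 ^ (n - Finsupp.degree a)

lemma FilP.add {n : ℕ} {P Q : MvPolynomial (Fin r) 𝒪} (hP : FilP 𝒪 r n P) (hQ : FilP 𝒪 r n Q) :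
    FilP 𝒪 r n (P + Q) := fun a => by
  rw [MvPolynomial.coeff_add]; exact Ideal.add_mem _ (hP a) (hQ a)

lemma FilP.sub {n : ℕ} {P Q : MvPolynomial (Fin r) 𝒪} (hP : FilP 𝒪 r n P) (hQ : FilP 𝒪 r n Q) :
    FilP 𝒪 r n (P - Q) := fun a => by
  rw [MvPolynomial.coeff_sub]; exact Ideal.sub_mem _ (hP a) (hQ a)

lemma FilP.zero (n : ℕ) : FilP 𝒪 r n 0 := fun a => by
  rw [MvPolynomial.coeff_zero]; exact Ideal.zero_mem _

lemma FilP.mono {m n : ℕ} (h : m ≤ n) {P : MvPolynomial (Fin r) 𝒪} (hP : FilP 𝒪 r n P) :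
    FilP 𝒪 r m P := fun a => Ideal.pow_le_pow_right (by omega) (hP a)

lemma FilP.sum {ι : Type} {n : ℕ} (s : Finset ι) (P : ι → MvPolynomial (Fin r) 𝒪)
    (hP : ∀ i ∈ s, FilP 𝒪 r n (P i)) : FilP 𝒪 r n (∑ i ∈ s, P i) := by
  classical
  induction s using Finset.induction_on with
  | empty => exact FilP.zero n
  | insert i s hi ih =>
    rw [Finset.sum_insert hi]
    exact (hP i (Finset.mem_insert_self _ _)).add
      (ih fun j hj => hP j (Finset.mem_insert_of_mem hj))

lemma FilP.mul {m n : ℕ} {P Q : MvPolynomial (Fin r) 𝒪} (hP : FilP 𝒪 r m P)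
    (hQ : FilP 𝒪 r n Q) : FilP 𝒪 r (m + n) (P * Q) := by
  classical
  intro a
  rw [MvPolynomial.coeff_mul]
  refine Ideal.sum_mem _ fun x hx => ?_
  rw [Finset.HasAntidiagonal.mem_antidiagonal] at hx
  have h1 := Ideal.mul_mem_mul (hP x.1) (hQ x.2)
  rw [← pow_add] at h1
  refine Ideal.pow_le_pow_right ?_ h1
  have : Finsupp.degree a = Finsupp.degree x.1 + Finsupp.degree x.2 := by
    rw [← hx]; exact map_add _ _ _
  omega

lemma FilP.C {n : ℕ} {o : 𝒪} (ho : o ∈ maximalIdeal 𝒪 ^ n) : FilP 𝒪 r n (MvPolynomial.C o) := by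
  classical
  intro a
  rw [MvPolynomial.coeff_C]
  split_ifs with h
  · exact Ideal.pow_le_pow_right (Nat.sub_le _ _) ho
  · exact Ideal.zero_mem _

lemma FilP.X (i : Fin r) : FilP 𝒪 r 1 (MvPolynomial.X i) := by
  classical
  intro a
  rw [MvPolynomial.coeff_X]
  split_ifs with h
  · have : Finsupp.degree a = 1 := by rw [← h]; simp
    rw [this]; simp
  · exact Ideal.zero_mem _

variable [CommRing R] [IsLocalRing R] [Algebra 𝒪 R] [IsLocalHom (algebraMap 𝒪 R)]

lemma map_max_le : (maximalIdeal 𝒪).map (algebraMap 𝒪 R) ≤ maximalIdeal R := by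
  rw [Ideal.map_le_iff_le_comap]
  intro x hx
  rw [Ideal.mem_comap, mem_maximalIdeal, mem_nonunits_iff]
  intro h
  exact hx (isUnit_of_map_unit (algebraMap 𝒪 R) x h)

lemma FilP.aeval_mem {y : Fin r → R} (hy : ∀ i, y i ∈ maximalIdeal R) {n : ℕ}
    {P : MvPolynomial (Fin r) 𝒪} (hP : FilP 𝒪 r n P) :
    MvPolynomial.aeval y P ∈ maximalIdeal R ^ n := by
  rw [MvPolynomial.aeval_def, MvPolynomial.eval₂_eq]
  refine Ideal.sum_mem _ fun a _ => ?_
  have h1 : algebraMap 𝒪 R (P.coeff a) ∈ maximalIdeal R ^ (n - Finsupp.degree a) := by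
    have := Ideal.mem_map_of_mem (algebraMap 𝒪 R) (hP a)
    rw [Ideal.map_pow] at this
    exact Ideal.pow_right_mono map_max_le _ this
  have h2 : ∏ i ∈ a.support, y i ^ a i ∈ maximalIdeal R ^ (Finsupp.degree a) := by
    rw [Finsupp.degree_apply]
    rw [← Finset.prod_pow_eq_pow_sum]
    exact Ideal.prod_mem_prod fun i _ => Ideal.pow_mem_pow (hy i) _
  have h3 := Ideal.mul_mem_mul h1 h2
  rw [← pow_add] at h3
  exact Ideal.pow_le_pow_right (by omega) h3

lemma exists_fil (hsurj : ∀ x : R, ∃ o : 𝒪, x - algebraMap 𝒪 R o ∈ maximalIdeal R)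
    {y : Fin r → R} (hy : ∀ i, y i ∈ maximalIdeal R)
    (hgen : maximalIdeal R ≤ Ideal.span (Set.range y) ⊔
      (maximalIdeal 𝒪).map (algebraMap 𝒪 R) ⊔ maximalIdeal R ^ 2) (n : ℕ) :
    ∀ x ∈ maximalIdeal R ^ n, ∃ P : MvPolynomial (Fin r) 𝒪, FilP 𝒪 r n P ∧
      x - MvPolynomial.aeval y P ∈ maximalIdeal R ^ (n + 1) := by
  -- the case `n = 1`
  have hone : ∀ x ∈ maximalIdeal R, ∃ P : MvPolynomial (Fin r) 𝒪, FilP 𝒪 r 1 P ∧
      x - MvPolynomial.aeval y P ∈ maximalIdeal R ^ 2 := by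
    intro x hx
    obtain ⟨u, hu, v, hv, huv⟩ := Submodule.mem_sup.mp (hgen hx)
    obtain ⟨a, ha, b, hb, hab⟩ := Submodule.mem_sup.mp hu
    have hstep : ∀ (s : Set R), (∀ z ∈ s, z ∈ maximalIdeal R ∧ ∃ P : MvPolynomial (Fin r) 𝒪,
        FilP 𝒪 r 1 P ∧ z - MvPolynomial.aeval y P ∈ maximalIdeal R ^ 2) →
        ∀ z ∈ Ideal.span s, z ∈ maximalIdeal R ∧ ∃ P : MvPolynomial (Fin r) 𝒪, FilP 𝒪 r 1 P ∧
          z - MvPolynomial.aeval y P ∈ maximalIdeal R ^ 2 := by
      intro s hs z hz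
      induction hz using Submodule.span_induction with
      | mem z hz => exact hs z hz
      | zero => exact ⟨Ideal.zero_mem _, 0, FilP.zero 1, by simp⟩
      | add z w _ _ hz hw =>
        obtain ⟨hz0, P, hP, hP'⟩ := hz
        obtain ⟨hw0, Q, hQ, hQ'⟩ := hw
        refine ⟨Ideal.add_mem _ hz0 hw0, P + Q, hP.add hQ, ?_⟩
        rw [map_add, add_sub_add_comm]
        exact Ideal.add_mem _ hP' hQ'
      | smul c z _ hz =>
        obtain ⟨hz0, P, hP, hP'⟩ := hz
        obtain ⟨o, ho⟩ := hsurj c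
        refine ⟨Ideal.mul_mem_left _ _ hz0, MvPolynomial.C o * P, ?_, ?_⟩
        · have := (FilP.C (r := r) (n := 0) (o := o) (by simp)).mul hP
          rwa [zero_add] at this
        · have e : c • z - MvPolynomial.aeval y (MvPolynomial.C o * P) =
            (c - algebraMap 𝒪 R o) * z + algebraMap 𝒪 R o * (z - MvPolynomial.aeval y P) := by
            rw [map_mul, MvPolynomial.aeval_C, smul_eq_mul]; ring
          rw [e]
          refine Ideal.add_mem _ ?_ (Ideal.mul_mem_left _ _ hP')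
          rw [pow_two]
          exact Ideal.mul_mem_mul ho hz0
    obtain ⟨-, P, hP, hP'⟩ := hstep _ (by
      rintro _ ⟨i, rfl⟩
      exact ⟨hy i, MvPolynomial.X i, FilP.X i, by simp⟩) a ha
    obtain ⟨-, Q, hQ, hQ'⟩ := hstep _ (by
      rintro _ ⟨o, ho, rfl⟩
      exact ⟨map_max_le (Ideal.mem_map_of_mem _ ho), MvPolynomial.C o,
        FilP.C (by rwa [pow_one]), by simp⟩) b hb
    refine ⟨P + Q, hP.add hQ, ?_⟩
    have e : x - MvPolynomial.aeval y (P + Q) =
      (a - MvPolynomial.aeval y P) + (b - MvPolynomial.aeval y Q) + v := by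
      rw [map_add, ← huv, ← hab]; ring
    rw [e]
    exact Ideal.add_mem _ (Ideal.add_mem _ hP' hQ') hv
  induction n with
  | zero =>
    intro x _
    obtain ⟨o, ho⟩ := hsurj x
    exact ⟨MvPolynomial.C o, FilP.C (by simp), by simpa using ho⟩
  | succ n ih =>
    intro x hx
    rw [pow_succ] at hx
    induction hx using Submodule.mul_induction_on' with
    | mem_mul_mem a ha b hb =>
      obtain ⟨P, hP, hP'⟩ := ih a ha
      obtain ⟨Q, hQ, hQ'⟩ := hone b hb
      refine ⟨P * Q, hP.mul hQ, ?_⟩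
      have e : a * b - MvPolynomial.aeval y (P * Q) =
        (a - MvPolynomial.aeval y P) * b + MvPolynomial.aeval y P *
          (b - MvPolynomial.aeval y Q) := by rw [map_mul]; ring
      rw [e]
      refine Ideal.add_mem _ ?_ ?_
      · rw [pow_succ]
        exact Ideal.mul_mem_mul hP' hb
      · have := Ideal.mul_mem_mul (hP.aeval_mem hy) hQ'
        rwa [← pow_add] at this
    | add a _ b _ ha hb =>
      obtain ⟨P, hP, hP'⟩ := ha
      obtain ⟨Q, hQ, hQ'⟩ := hb
      refine ⟨P + Q, hP.add hQ, ?_⟩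
      rw [map_add, add_sub_add_comm]
      exact Ideal.add_mem _ hP' hQ'

end Filtration

section Main

variable {𝒪 R : Type} [CommRing 𝒪] [IsLocalRing 𝒪] [IsAdicComplete (maximalIdeal 𝒪) 𝒪]
  [CommRing R] [IsLocalRing R] [IsAdicComplete (maximalIdeal R) R] [Algebra 𝒪 R]
  [IsLocalHom (algebraMap 𝒪 R)] {r : ℕ}

/-- surjections from power series rings -/
theorem exists_mvPowerSeries_surj
    (hsurj : ∀ x : R, ∃ o : 𝒪, x - algebraMap 𝒪 R o ∈ maximalIdeal R)
    {y : Fin r → R} (hy : ∀ i, y i ∈ maximalIdeal R)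
    (hgen : maximalIdeal R ≤ Ideal.span (Set.range y) ⊔
      (maximalIdeal 𝒪).map (algebraMap 𝒪 R) ⊔ maximalIdeal R ^ 2) :
    ∃ γ : MvPowerSeries (Fin r) 𝒪 →ₐ[𝒪] R, Function.Surjective γ := by
  obtain ⟨γ, hγ⟩ := exists_eval (𝒪 := 𝒪) y hy
  refine ⟨γ, fun x => ?_⟩
  choose! next hnext1 hnext2 using fun n => exists_fil hsurj hy hgen n
  -- the remainders
  let rem : ℕ → R := fun n => Nat.rec x (fun n t => t - MvPolynomial.aeval y (next n t)) n
  have hrem0 : rem 0 = x := rfl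
  have hrems : ∀ n, rem (n + 1) = rem n - MvPolynomial.aeval y (next n (rem n)) := fun n => rfl
  have hrem : ∀ n, rem n ∈ maximalIdeal R ^ n := by
    intro n
    induction n with
    | zero => rw [pow_zero, Ideal.one_eq_top]; trivial
    | succ n ih => rw [hrems]; exact hnext2 n _ ih
  let P : ℕ → MvPolynomial (Fin r) 𝒪 := fun n => next n (rem n)
  have hP : ∀ n, FilP 𝒪 r n (P n) := fun n => hnext1 n _ (hrem n)
  let S : ℕ → MvPolynomial (Fin r) 𝒪 := fun N => ∑ n ∈ Finset.range N, P n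
  have hS : ∀ N, x - MvPolynomial.aeval y (S N) = rem N := by
    intro N
    induction N with
    | zero => simp [S, hrem0]
    | succ N ih =>
      have e : S (N + 1) = S N + P N := Finset.sum_range_succ _ _
      rw [e, map_add, ← sub_sub, ih]
  -- coefficients of the limit
  have hcau : ∀ (a : Fin r →₀ ℕ) {m n : ℕ}, m ≤ n →
      (S n).coeff a - (S m).coeff a ∈ maximalIdeal 𝒪 ^ (m - Finsupp.degree a) := by
    intro a m n hmn
    induction n, hmn using Nat.le_induction with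
    | base => rw [sub_self]; exact Ideal.zero_mem _
    | succ n hmn ih =>
      have e : (S (n + 1)).coeff a - (S m).coeff a =
        (P n).coeff a + ((S n).coeff a - (S m).coeff a) := by
        simp only [S, Finset.sum_range_succ, MvPolynomial.coeff_add]; ring
      rw [e]
      exact Ideal.add_mem _ (Ideal.pow_le_pow_right (by omega) (hP n a)) ih
  have hlim : ∀ a : Fin r →₀ ℕ, ∃ c : 𝒪, ∀ N,
      c - (S N).coeff a ∈ maximalIdeal 𝒪 ^ (N - Finsupp.degree a) := by
    intro a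
    obtain ⟨c, hc⟩ := IsPrecomplete.prec' (I := maximalIdeal 𝒪)
      (fun n => (S (n + Finsupp.degree a)).coeff a) (by
        intro m n hmn
        rw [SModEq.sub_mem, smul_eq_mul, Ideal.mul_top]
        have := hcau a (m := m + Finsupp.degree a) (n := n + Finsupp.degree a) (by omega)
        rw [Nat.add_sub_cancel] at this
        rw [← neg_sub]
        exact (Ideal.neg_mem_iff _).mpr this)
    refine ⟨c, fun N => ?_⟩
    by_cases hN : Finsupp.degree a ≤ N
    · have h1 := hc (N - Finsupp.degree a)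
      rw [SModEq.sub_mem, smul_eq_mul, Ideal.mul_top, Nat.sub_add_cancel hN] at h1
      rw [← neg_sub]
      exact (Ideal.neg_mem_iff _).mpr h1
    · have : N - Finsupp.degree a = 0 := by omega
      rw [this, pow_zero, Ideal.one_eq_top]; trivial
  choose c hc using hlim
  let s : MvPowerSeries (Fin r) 𝒪 := c
  have hsc : ∀ a, MvPowerSeries.coeff a s = c a := fun a => rfl
  refine ⟨s, ?_⟩
  rw [IsHausdorff.eq_iff_smodEq (I := maximalIdeal R)]
  intro N
  rw [SModEq.sub_mem, smul_eq_mul, Ideal.mul_top]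
  have h1 : FilP 𝒪 r N (MvPowerSeries.truncTotal N s - S N) := by
    intro a
    rw [MvPolynomial.coeff_sub]
    by_cases ha : Finsupp.degree a < N
    · rw [MvPowerSeries.coeff_truncTotal _ ha, hsc]
      exact hc a N
    · have : N - Finsupp.degree a = 0 := by omega
      rw [this, pow_zero, Ideal.one_eq_top]; trivial
  have h2 := h1.aeval_mem hy
  have e : γ s - x = (γ s - MvPolynomial.aeval y (MvPowerSeries.truncTotal N s)) +
      MvPolynomial.aeval y (MvPowerSeries.truncTotal N s - S N) -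
      (x - MvPolynomial.aeval y (S N)) := by
    rw [map_sub]; ring
  rw [e]
  refine Ideal.sub_mem _ (Ideal.add_mem _ (hγ N s) h2) ?_
  rw [hS]
  exact hrem N

end Main

end Fermat.Agent.TWP
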