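import Fermat.Agent.TWP.Primes

/-!
The residual representation in matrix form.
-/

set_option autoImplicit false

namespace Fermat.Agent.TWP

open Matrix Polynomial Module
open scoped TensorProduct
open Fermat.Agent.DefRing (matOfRes mapRep matOfRes_apply)

variable {k : Type} [Field k]

lemma line_of_stable {K : Type} [Field K] [Algebra k K] (ρbar : ResidualGaloisRep k)
    (b : Basis (Fin 2) k ρbar.V) (H : Subgroup GQ)
    (h : ∀ V : Submodule K (ρbar.baseChange K).V,
        (∀ σ ∈ H, ∀ x ∈ V, (ρbar.baseChange K).ρ σ x ∈ V) → V = ⊥ ∨ V = ⊤)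
    (v : Fin 2 → K) (hv : v ≠ 0) :
    ∃ h ∈ H, ∀ c : K, ((matOfRes ρbar b h).map (algebraMap k K)) *ᵥ v ≠ c • v := by
  by_contra hcon
  push Not at hcon
  let e : (K ⊗[k] ρbar.V) ≃ₗ[K] (Fin 2 → K) :=
    (Algebra.TensorProduct.basis K b).equivFun
  have he : ∀ (σ : GQ) (x : K ⊗[k] ρbar.V),
      e (((ρbar.ρ σ).baseChange K) x) =
        ((matOfRes ρbar b σ).map (algebraMap k K)) *ᵥ (e x) := by
    intro σ x
    have h1 := LinearMap.toMatrix_mulVec_repr (Algebra.TensorProduct.basis K b)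
      (Algebra.TensorProduct.basis K b)
      ((ρbar.ρ σ).baseChange K) x
    rw [LinearMap.toMatrix_baseChange] at h1
    exact h1.symm
  let V : Submodule K (K ⊗[k] ρbar.V) := K ∙ e.symm v
  have hV := h V (by
    intro σ hσ x hx
    obtain ⟨c, rfl⟩ := Submodule.mem_span_singleton.mp hx
    obtain ⟨d, hd⟩ := hcon σ hσ
    rw [map_smul]
    refine Submodule.smul_mem _ _ (Submodule.mem_span_singleton.mpr ⟨d, ?_⟩)
    apply e.injective
    have h2 := he σ (e.symm v)
    rw [e.apply_symm_apply, hd] at h2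
    rw [map_smul, e.apply_symm_apply, ← h2]
    rfl)
  rcases hV with hV | hV
  · have : e.symm v ∈ V := Submodule.mem_span_singleton_self _
    rw [hV, Submodule.mem_bot] at this
    apply hv
    rwa [LinearEquiv.map_eq_zero_iff] at this
  · have hv' : e.symm v ≠ 0 := by
      rw [Ne, LinearEquiv.map_eq_zero_iff]; exact hv
    have h1 : finrank K V = 1 := finrank_span_singleton hv'
    rw [hV, finrank_top, (ρbar.baseChange K).finrank_eq] at h1
    omega

theorem RD.of {p : ℕ} (ρbar : ResidualGaloisRep k) (b : Basis (Fin 2) k ρbar.V)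
    (habs : ρbar.IsAbsolutelyIrreducible)
    (hdet : (GaloisRepAdic.ofResidualGaloisRep ρbar).DetIsCyclotomic p)
    (hsplit : ∀ σ : AlgebraicClosure ℚ ≃ₐ[ℚ] AlgebraicClosure ℚ,
      ∃ α β : k, LinearMap.charpoly (ρbar.ρ σ) = (X - C α) * (X - C β))
    (hTW : ∀ (K : Type) [Field K] [Algebra k K]
      (G : Subgroup (AlgebraicClosure ℚ ≃ₐ[ℚ] AlgebraicClosure ℚ)), G.index = 2 →
      ∀ V : Submodule K (ρbar.baseChange K).V,
        (∀ σ ∈ G, ∀ x ∈ V, (ρbar.baseChange K).ρ σ x ∈ V) → V = ⊥ ∨ V = ⊤) :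
    RD p (matOfRes ρbar b) := by
  have hp0 : (p : k) = 0 := by
    by_contra h
    exact (IsLocalRing.mem_maximalIdeal _).mp hdet.1 (isUnit_iff_ne_zero.mpr h)
  constructor
  · exact hp0
  · obtain ⟨L, hL, h⟩ := ρbar.factorsThroughFiniteLevel
    refine ⟨L, hL, fun σ hσ => ?_⟩
    rw [matOfRes_apply, h σ hσ, map_one]
  · intro σ a ha
    have h1 := hdet.2 1 σ a (by simpa using ha)
    rw [pow_one, hp0, Ideal.span_singleton_zero, Ideal.mem_bot, sub_eq_zero] at h1
    rw [matOfRes_apply, ← h1]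
    exact LinearMap.det_toMatrix b (ρbar.ρ σ)
  · intro σ
    obtain ⟨α, β, h⟩ := hsplit σ
    refine ⟨α, β, ?_⟩
    rw [← h, matOfRes_apply]
    exact LinearMap.charpoly_toMatrix (ρbar.ρ σ) b
  · rintro H (hH | rfl) v hv
    · exact line_of_stable ρbar b H (hTW _ H hH) v hv
    · exact line_of_stable ρbar b ⊤ (fun V hV => habs V (fun σ x hx => hV σ trivial x hx)) v hv

end Fermat.Agent.TWP
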