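import Fermat.Agent.TWP.Coh

/-!
Selection of Taylor–Wiles primes killing a dual Selmer group.
-/

set_option autoImplicit false

namespace Fermat.Agent.TWP

open Matrix Fermat.Agent.PT Fermat.Agent.PTC Module
open scoped Pointwise

section abs

variable {k V ι : Type*} [Field k] [AddCommGroup V] [Module k V] (B : Submodule k V)
    (idx : ι → ℕ) (f : ι → V →ₗ[k] k)

theorem select_aux (hfB : ∀ i, ∀ ψ ∈ B, f i ψ = 0) (m : ℕ) : ∀ (Z : Submodule k V)
    [FiniteDimensional k Z], B ≤ Z → finrank k Z = finrank k B + m →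
    (∀ ψ ∈ Z, ψ ∉ B → ∀ A₀ : Finset ℕ, ∃ i, idx i ∉ A₀ ∧ f i ψ ≠ 0) → ∀ A₀ : Finset ℕ,
    ∃ s : Fin m → ι, Function.Injective (idx ∘ s) ∧ (∀ j, idx (s j) ∉ A₀) ∧
      ∀ ψ ∈ Z, (∀ j, f (s j) ψ = 0) → ψ ∈ B := by
  induction m with
  | zero =>
    intro Z _ hBZ hm _ A₀
    refine ⟨Fin.elim0, fun a => a.elim0, fun j => j.elim0, fun ψ hψ _ => ?_⟩
    have : B = Z := Submodule.eq_of_le_of_finrank_eq hBZ (by rw [hm, add_zero])
    rwa [this]
  | succ m ih =>
    intro Z _ hBZ hm hex A₀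
    classical
    obtain ⟨ψ, hψ, hψB⟩ : ∃ ψ ∈ Z, ψ ∉ B := by
      by_contra hcon
      push Not at hcon
      have : B = Z := le_antisymm hBZ hcon
      rw [this] at hm
      omega
    obtain ⟨i, hi, hfi⟩ := hex ψ hψ hψB A₀
    set Z' : Submodule k V := Z ⊓ LinearMap.ker (f i) with hZ'
    have hZ'Z : Z' ≤ Z := inf_le_left
    have hfin : FiniteDimensional k Z' := Submodule.finiteDimensional_of_le hZ'Z
    have hBZ' : B ≤ Z' := le_inf hBZ fun x hx => hfB i x hx
    have hrank : finrank k Z = finrank k Z' + 1 := by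
      have h1 := LinearMap.finrank_range_add_finrank_ker ((f i).comp Z.subtype)
      have h2 : LinearMap.range ((f i).comp Z.subtype) = ⊤ := by
        rw [LinearMap.range_eq_top]
        intro c
        refine ⟨(c * (f i ψ)⁻¹) • ⟨ψ, hψ⟩, ?_⟩
        rw [map_smul]
        show (c * (f i ψ)⁻¹) • f i ψ = c
        rw [smul_eq_mul, mul_assoc, inv_mul_cancel₀ hfi, mul_one]
      rw [h2, finrank_top, finrank_self] at h1
      have h3 : Z' = (LinearMap.ker ((f i).comp Z.subtype)).map Z.subtype := by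
        ext x
        rw [hZ', Submodule.mem_inf, LinearMap.mem_ker, Submodule.mem_map]
        constructor
        · rintro ⟨hx, hx'⟩
          exact ⟨⟨x, hx⟩, hx', rfl⟩
        · rintro ⟨⟨y, hy⟩, hy', rfl⟩
          exact ⟨hy, hy'⟩
      have h4 : finrank k Z' = finrank k (LinearMap.ker ((f i).comp Z.subtype)) := by
        rw [h3]
        exact Submodule.finrank_map_subtype_eq Z _
      rw [h4, ← h1, add_comm]
    obtain ⟨s, hs1, hs2, hs3⟩ := ih Z' hBZ' (by omega)
      (fun φ hφ hφB A₁ => hex φ (hZ'Z hφ) hφB A₁) (insert (idx i) A₀)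
    refine ⟨Fin.cons i s, ?_, ?_, ?_⟩
    · intro a b hab
      induction a using Fin.cases with
      | zero =>
        induction b using Fin.cases with
        | zero => rfl
        | succ b =>
          exfalso
          simp only [Function.comp_apply, Fin.cons_zero, Fin.cons_succ] at hab
          exact hs2 b (by rw [← hab]; exact Finset.mem_insert_self _ _)
      | succ a =>
        induction b using Fin.cases with
        | zero =>
          exfalso
          simp only [Function.comp_apply, Fin.cons_zero, Fin.cons_succ] at hab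
          exact hs2 a (by rw [hab]; exact Finset.mem_insert_self _ _)
        | succ b =>
          simp only [Function.comp_apply, Fin.cons_succ] at hab
          rw [hs1 hab]
    · intro j
      induction j using Fin.cases with
      | zero => exact hi
      | succ j =>
        rw [Fin.cons_succ]
        exact fun h => hs2 j (Finset.mem_insert_of_mem h)
    · intro φ hφ hall
      refine hs3 φ ⟨hφ, ?_⟩ fun j => ?_
      · have := hall 0
        rwa [Fin.cons_zero] at this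
      · have := hall j.succ
        rwa [Fin.cons_succ] at this

end abs

section cocycles

variable {k : Type} [Field k]

/-- level cocycles as a vector space -/
def cocSpace (S : Finset Nat.Primes) (χ : GQ →* k) (r : GQ →* M2 k) : Submodule k (GQ → M2 k) where
  carrier := {ψ | (∀ g, (ψ g).trace = 0) ∧ IsLC₁ (sL S) ψ ∧
    ∀ g h, ψ (g * h) = ψ g + χ g • (r g * ψ h * r g⁻¹)}
  zero_mem' := ⟨fun _ => trace_zero _ _, isLC₁_const _ 0, fun g h => by simp⟩
  add_mem' := by
    rintro a b ⟨ha, ha', ha''⟩ ⟨hb, hb', hb''⟩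
    refine ⟨fun g => ?_, ha'.comp₂ hb' (· + ·), fun g h => ?_⟩
    · rw [Pi.add_apply, trace_add, ha, hb, add_zero]
    · simp only [Pi.add_apply, ha'', hb'', mul_add, add_mul, smul_add]
      abel
  smul_mem' := by
    rintro c a ⟨ha, ha', ha''⟩
    refine ⟨fun g => ?_, ha'.comp (c • ·), fun g h => ?_⟩
    · rw [Pi.smul_apply, trace_smul, ha, smul_zero]
    · simp only [Pi.smul_apply, ha'', smul_add, mul_smul_comm, smul_mul_assoc]
      rw [smul_comm c (χ g)]

/-- coboundaries -/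
def cobSpace (χ : GQ →* k) (r : GQ →* M2 k) : Submodule k (GQ → M2 k) where
  carrier := {ψ | ∃ X : M2 k, X.trace = 0 ∧ ∀ g, ψ g = χ g • (r g * X * r g⁻¹) - X}
  zero_mem' := ⟨0, trace_zero _ _, fun g => by simp⟩
  add_mem' := by
    rintro a b ⟨X, hX, ha⟩ ⟨Y, hY, hb⟩
    refine ⟨X + Y, by rw [trace_add, hX, hY, add_zero], fun g => ?_⟩
    simp only [Pi.add_apply, ha, hb, mul_add, add_mul, smul_add]
    abel
  smul_mem' := by
    rintro c a ⟨X, hX, ha⟩
    refine ⟨c • X, by rw [trace_smul, hX, smul_zero], fun g => ?_⟩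
    simp only [Pi.smul_apply, ha, mul_smul_comm, smul_mul_assoc, smul_sub]
    rw [smul_comm c (χ g)]

variable {S : Finset Nat.Primes} {χ : GQ →* k} {r : GQ →* M2 k}

lemma cobSpace_le (hr : UnrOut S r) (hχ : ∀ g, r g = 1 → χ g = 1) :
    cobSpace χ r ≤ cocSpace S χ r := by
  rintro ψ ⟨X, hX, h⟩
  refine ⟨fun g => ?_, ⟨r.ker, hr.level, fun g s hs => ?_⟩, fun g g' => ?_⟩
  · rw [h, trace_sub, trace_smul, trace_conj_rep, hX, smul_zero, sub_zero]
  · have hs' : r s = 1 := hs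
    have hs'' : r s⁻¹ = 1 := by
      have := rep_inv_mul r s
      rwa [hs', mul_one] at this
    rw [h, h, map_mul, map_mul, _root_.mul_inv_rev, map_mul, hs', hs'', hχ _ hs', mul_one, mul_one, one_mul]
  · rw [h, h, h, map_mul, map_mul, _root_.mul_inv_rev, map_mul, mul_smul]
    simp only [mul_assoc, mul_smul_comm, smul_mul_assoc, mul_sub, sub_mul, smul_sub]
    abel

/-- a cocycle with values in `ad0` -/
def toZ1 (ψ : cocSpace S χ r) : Z1 (sL S) (twAct χ r) :=
  ⟨fun g => ⟨ψ.1 g, ψ.2.1 g⟩, mem_Z1'.2 ⟨by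
    obtain ⟨N, hN, h⟩ := ψ.2.2.1
    exact ⟨N, hN, fun g s hs => Subtype.ext (h g s hs)⟩, fun g h => Subtype.ext (ψ.2.2.2 g h)⟩⟩

lemma ofZ1_mem (f : Z1 (sL S) (twAct χ r)) : (fun g => ((f.1 g : ad0 k) : M2 k)) ∈ cocSpace S χ r :=
  ⟨fun g => (f.1 g).2, (mem_Z1'.1 f.2).1.comp _, fun g h => coc_mul f g h⟩

lemma finite_Z1 {G : Type} [Group G] {L : Levels G} {A : Type} [AddCommGroup A] [Finite A]
    {ρ : Act G A} (h : Finite (H1 L ρ)) : Finite (Z1 L ρ) := by
  have h1 : Finite (d0 ρ).range := Set.finite_range (d0 ρ) |>.to_subtype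
  have h2 : Finite ((d0 ρ).range.addSubgroupOf (Z1 L ρ)) :=
    Finite.of_injective (fun x => (⟨x.1.1, x.2⟩ : (d0 ρ).range)) fun a b hab => by
      apply Subtype.ext
      apply Subtype.ext
      exact congrArg (fun z : (d0 ρ).range => z.1) hab
  have h3 : Finite (Z1 L ρ ⧸ (d0 ρ).range.addSubgroupOf (Z1 L ρ)) := h
  exact Finite.of_equiv _ (AddSubgroup.addGroupEquivQuotientProdAddSubgroup
    (s := (d0 ρ).range.addSubgroupOf (Z1 L ρ))).symm

lemma finite_cocSpace [Finite k] (h : Finite (H1 (sL S) (twAct χ r))) :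
    Finite (cocSpace S χ r) := by
  have := finite_Z1 h
  refine Finite.of_injective (toZ1 (S := S) (χ := χ) (r := r)) fun a b hab => ?_
  apply Subtype.ext
  funext g
  have := congrArg (fun z : Z1 (sL S) (twAct χ r) => ((z.1 g : ad0 k) : M2 k)) hab
  exact this

end cocycles

section primes

variable {k : Type} [Field k] {p : ℕ} {r : GQ →* M2 k}

/-- conjugating a place -/
lemma TWPrime.conj {n q : ℕ} {A : ValuationSubring Qb} {g τ : GQ} (h : TWPrime p r n q (g • A) τ)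
    (hA : A.LiesOverPrime q) : TWPrime p r n q A (g⁻¹ * τ * g) := by
  have hdet : (r (g⁻¹ * τ * g)).det = (r τ).det := by
    rw [map_mul, map_mul, det_mul, det_mul]
    have : (r g⁻¹).det * (r g).det = 1 := by rw [← det_mul, rep_inv_mul, det_one]
    linear_combination (r τ).det * this
  have htr : (r (g⁻¹ * τ * g)).trace = (r τ).trace := by
    rw [map_mul, map_mul, trace_mul_comm, ← mul_assoc, rep_mul_inv, one_mul]
  refine ⟨h.prime, h.dvd, hA, fun i hi => ?_, isFrobeniusAt_conj h.frob, by rw [hdet, h.det],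
    by rw [htr]; exact h.reg⟩
  exact inertia_trivial h.prime r h.lies h.inertia hA hi

theorem exists_prime' (hp : p.Prime) (hp2 : p ≠ 2) (hr : RD p r) (n : ℕ) (S : Finset ℕ)
    (ψ : GQ → M2 k)
    (hlc : ∃ L : IntermediateField ℚ Qb, FiniteDimensional ℚ L ∧
      ∀ g u : GQ, (∀ x ∈ L, u x = x) → ψ (g * u) = ψ g)
    (htr : ∀ g, (ψ g).trace = 0)
    (hcoc : ∀ g h, ψ (g * h) = ψ g + (r g).det • (r g * ψ h * r g⁻¹))
    (hne : ¬ ∃ X : M2 k, X.trace = 0 ∧ ∀ g, ψ g = (r g).det • (r g * X * r g⁻¹) - X) :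
    ∃ (q : Nat.Primes) (τ : GQ), (q : ℕ) ∉ S ∧ TWPrime p r n q (Pl q) τ ∧
      (ψ τ * r τ).trace ≠ 0 := by
  obtain ⟨q, A, τ, hqS, h, hτ⟩ := exists_prime hp hp2 hr n S ψ hlc htr hcoc hne
  obtain ⟨g, hg⟩ := Fermat.Agent.Frob.exists_smul_eq h.prime (Pl_lies ⟨q, h.prime⟩) h.lies
  have h' : TWPrime p r n q (Pl ⟨q, h.prime⟩) (g⁻¹ * τ * g) := by
    have h0 := h
    rw [hg] at h0
    exact h0.conj (Pl_lies ⟨q, h.prime⟩)
  refine ⟨⟨q, h.prime⟩, g⁻¹ * τ * g, hqS, h', ?_⟩
  have hψ1 : ψ 1 = 0 := by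
    have h0 := hcoc 1 1
    rw [mul_one, map_one, det_one, one_smul, one_mul] at h0
    simpa using h0
  have hψinv : ψ g⁻¹ = - ((r g⁻¹).det • (r g⁻¹ * ψ g * r g)) := by
    have h0 := hcoc g⁻¹ g
    rw [inv_mul_cancel, hψ1, inv_inv] at h0
    exact eq_neg_of_add_eq_zero_left h0.symm
  have e : ψ (g⁻¹ * τ * g) * r (g⁻¹ * τ * g) =
      (r g⁻¹).det • (r g⁻¹ * (ψ τ * r τ) * r g) +
      ((r g⁻¹).det • (r g⁻¹ * (r τ * ψ g) * r g) - (r g⁻¹).det • (r g⁻¹ * (ψ g * r τ) * r g)) := by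
    rw [hcoc (g⁻¹ * τ) g, hcoc g⁻¹ τ, hψinv, map_mul r (g⁻¹ * τ) g, map_mul r g⁻¹ τ, det_mul, h.det,
      _root_.mul_inv_rev, inv_inv, map_mul r τ⁻¹ g, mul_one]
    have e1 : ∀ X : M2 k, X * r g * (r g⁻¹ * r τ * r g) = X * r τ * r g := by
      intro X
      calc X * r g * (r g⁻¹ * r τ * r g) = X * (r g * r g⁻¹) * r τ * r g := by noncomm_ring
        _ = _ := by rw [rep_mul_inv, mul_one]
    have e2 : ∀ X : M2 k, X * (r τ⁻¹ * r g) * (r g⁻¹ * r τ * r g) = X * r g := by
      intro X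
      calc X * (r τ⁻¹ * r g) * (r g⁻¹ * r τ * r g) =
          X * (r τ⁻¹ * (r g * r g⁻¹) * r τ) * r g := by noncomm_ring
        _ = _ := by rw [rep_mul_inv, mul_one, rep_inv_mul, mul_one]
    simp only [add_mul, neg_mul, smul_mul_assoc]
    rw [e1, e1, e2]
    simp only [mul_assoc]
    abel
  rw [e, trace_add, trace_sub, trace_smul, trace_smul, trace_smul]
  have e3 : ∀ X : M2 k, (r g⁻¹ * X * r g).trace = X.trace := fun X => by
    rw [trace_mul_comm, ← mul_assoc, rep_mul_inv, one_mul]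
  rw [e3, e3, e3, trace_mul_comm (r τ) (ψ g), sub_self, add_zero, smul_eq_mul]
  refine mul_ne_zero ?_ hτ
  intro h0
  have h1 : (r g).det * (r g⁻¹).det = 1 := by rw [← det_mul, rep_mul_inv, det_one]
  rw [h0, mul_zero] at h1
  exact zero_ne_one h1

/-- the functional attached to an element -/
noncomputable def evF (r : GQ →* M2 k) (τ : GQ) : (GQ → M2 k) →ₗ[k] k where
  toFun ψ := (ψ τ * r τ).trace
  map_add' a b := by rw [Pi.add_apply, add_mul, trace_add]
  map_smul' c a := by rw [Pi.smul_apply, smul_mul_assoc, trace_smul]; rfl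

lemma evF_cob {τ : GQ} (hτ : (r τ).det = 1) {ψ : GQ → M2 k} (hψ : ψ ∈ cobSpace (detC r) r) :
    evF r τ ψ = 0 := by
  obtain ⟨X, hX, h⟩ := hψ
  show (ψ τ * r τ).trace = 0
  rw [h, detC_apply, hτ, one_smul, sub_mul, trace_sub, mul_assoc, rep_inv_mul, mul_one,
    trace_mul_comm, sub_self]

/-- **Selection of Taylor–Wiles primes.** -/
theorem exists_primes (hp : p.Prime) (hp2 : p ≠ 2) (hr : RD p r) (S : Finset Nat.Primes)
    (hrS : UnrOut S r) [Finite k] (hfin : Finite (H1 (sL S) (twAct (detC r) r))) :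
    ∃ m : ℕ, ∀ (n : ℕ) (A₀ : Finset ℕ), ∃ (q : Fin m → Nat.Primes) (τ : Fin m → GQ),
      Function.Injective q ∧ (∀ j, (q j : ℕ) ∉ A₀) ∧
      (∀ j, TWPrime p r n (q j) (Pl (q j)) (τ j)) ∧
      ∀ ψ ∈ cocSpace S (detC r) r, (∀ j, (ψ (τ j) * r (τ j)).trace = 0) →
        ψ ∈ cobSpace (detC r) r := by
  have hχ : ∀ g, r g = 1 → detC r g = 1 := fun g hg => by rw [detC_apply, hg, det_one]
  have hfin' := finite_cocSpace hfin
  have hle := cobSpace_le hrS hχ
  have hfd : FiniteDimensional k (cocSpace S (detC r) r) := inferInstance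
  have hfd' : FiniteDimensional k (cobSpace (detC r) r) := Submodule.finiteDimensional_of_le hle
  obtain ⟨m, hm⟩ := Nat.exists_eq_add_of_le (Submodule.finrank_mono hle)
  refine ⟨m, fun n A₀ => ?_⟩
  obtain ⟨s, hs1, hs2, hs3⟩ := select_aux (cobSpace (detC r) r)
    (ι := {x : Nat.Primes × GQ // TWPrime p r n x.1 (Pl x.1) x.2})
    (fun x => (x.1.1 : ℕ)) (fun x => evF r x.1.2) (fun x ψ hψ => evF_cob x.2.det hψ) m
    (cocSpace S (detC r) r) hle hm (by
      intro ψ hψ hψB A₁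
      obtain ⟨q, τ, hq, hTW, hne⟩ := exists_prime' hp hp2 hr n A₁ ψ (by
        obtain ⟨N, ⟨hNn, F, hF, rfl⟩, hN⟩ := hψ.2.1
        exact ⟨F, hF.1, fun g u hu => hN g u ((IntermediateField.mem_fixingSubgroup_iff F u).mpr hu)⟩)
        hψ.1 hψ.2.2 hψB
      exact ⟨⟨(q, τ), hTW⟩, hq, hne⟩) A₀
  refine ⟨fun j => (s j).1.1, fun j => (s j).1.2, fun a b hab => hs1 ?_, hs2,
    fun j => (s j).2, hs3⟩
  show ((s a).1.1 : ℕ) = ((s b).1.1 : ℕ)
  have hab' : (s a).1.1 = (s b).1.1 := hab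
  rw [hab']

end primes

end Fermat.Agent.TWP
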