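import Fermat.Agent.TWP.Assemble

/-!
Strict ordinary deformations and cocycles.
-/

set_option autoImplicit false

namespace Fermat.Agent.TWP

open Matrix Module IsLocalRing Fermat.Agent.PT Fermat.Agent.PTC
open Fermat.Agent.DefRing (matOfRes mapRep MatCont Red ofMat)
open scoped Pointwise

section key

variable {𝒪 : Type} [CommRing 𝒪] {R k : Type} [CommRing R] [Algebra 𝒪 R] [Field k]
  {π : R →+* k} {p : ℕ}

lemma det_map (M : M2 R) : (M.map π).det = π M.det := (RingHom.map_det π M).symm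

/-- eigenvalues are rigid -/
lemma der_eigen (hp : (p : k) = 0) (h2 : (2 : k) ≠ 0) {δ : R → k} (hδ : IsDer 𝒪 π δ)
    {x z : R} {a : ℕ} {t : R} (hx : x = a * z + p * t) {a' : ℕ} {t' : R}
    (hdet : x * z = a' + p * t') (hx0 : π x ≠ 0) : δ x = 0 ∧ δ z = 0 := by
  have h1 : δ x = a * δ z := by
    rw [hx, hδ.add, hδ.mul, hδ.mul, hδ.natCast, hδ.natCast, map_natCast, map_natCast, hp]
    ring
  have h3 : π x = a * π z := by
    rw [hx, map_add, map_mul, map_mul, map_natCast, map_natCast, hp]; ring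
  have h4 : δ (x * z) = 0 := by
    rw [hdet, hδ.add, hδ.natCast, hδ.mul, hδ.natCast, map_natCast, hp]; ring
  rw [hδ.mul, h1, h3] at h4
  have ha : (a : k) ≠ 0 := by
    intro h; rw [h, zero_mul] at h3; exact hx0 h3
  have hz : π z ≠ 0 := by
    intro h; rw [h, mul_zero] at h3; exact hx0 h3
  have h5 : (2 : k) * (a * π z) * δ z = 0 := by linear_combination h4
  have h6 : δ z = 0 := (mul_eq_zero.mp h5).resolve_left (mul_ne_zero h2 (mul_ne_zero ha hz))
  exact ⟨by rw [h1, h6, mul_zero], h6⟩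

/-- the derivative of an upper triangular decomposition -/
lemma der_triang {δ : R → k} (hδ : IsDer 𝒪 π δ) {M B : M2 R} {x y z : R}
    (hM : M * B = B * !![x, y; 0, z]) (hx : δ x = 0) (hz : δ z = 0)
    {B' : M2 k} (hB : B.map π * B' = 1) (hB' : B' * B.map π = 1) {N : M2 k}
    (hN : M.map π * N = 1) :
    M.map δ * N = (B.map δ * B') - M.map π * (B.map δ * B') * N +
      B.map π * !![0, δ y * (π z)⁻¹; 0, 0] * B' ∨ π x * π z = 0 := by
  by_cases hxz : π x * π z = 0
  · exact Or.inr hxz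
  left
  have hx0 : π x ≠ 0 := left_ne_zero_of_mul hxz
  have hz0 : π z ≠ 0 := right_ne_zero_of_mul hxz
  have h1 := congrArg (fun X : M2 R => X.map δ) hM
  simp only [map_mul_der hδ] at h1
  have hT : (!![x, y; 0, z] : M2 R).map δ = !![0, δ y; 0, 0] := by
    ext i j
    fin_cases i <;> fin_cases j
    · exact hx
    · rfl
    · exact hδ.zero
    · exact hz
  have hTπ : (!![x, y; 0, z] : M2 R).map π = !![π x, π y; 0, π z] := by
    ext i j
    fin_cases i <;> fin_cases j
    · rfl
    · rfl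
    · exact map_zero π
    · rfl
  have hMπ : M.map π * B.map π = B.map π * !![π x, π y; 0, π z] := by
    rw [← Matrix.map_mul, hM, Matrix.map_mul, hTπ]
  rw [hT, hTπ] at h1
  -- the inverse of the triangular matrix
  set T : M2 k := !![π x, π y; 0, π z] with hTdef
  set T' : M2 k := !![(π x)⁻¹, -(π y) * (π x)⁻¹ * (π z)⁻¹; 0, (π z)⁻¹] with hT'def
  have hTT' : T * T' = 1 := by
    ext i j
    fin_cases i <;> fin_cases j <;>
    simp [T, T', mul_apply, Fin.sum_univ_two]
    · exact mul_inv_cancel₀ hx0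
    · field_simp
      ring
    · exact mul_inv_cancel₀ hz0
  have hN' : N = B.map π * T' * B' := by
    have h3 : M.map π * (B.map π * T' * B') = 1 := by
      calc M.map π * (B.map π * T' * B') = (M.map π * B.map π) * T' * B' := by
            simp only [mul_assoc]
        _ = B.map π * (T * T') * B' := by rw [hMπ]; simp only [mul_assoc]
        _ = 1 := by rw [hTT', mul_one, hB]
    have h4 : N * M.map π = 1 := mul_eq_one_comm.mp hN
    calc N = N * (M.map π * (B.map π * T' * B')) := by rw [h3, mul_one]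
      _ = _ := by rw [← mul_assoc, h4, one_mul]
  have hMδ : M.map δ = (B.map π * !![0, δ y; 0, 0] + B.map δ * T - M.map π * B.map δ) * B' := by
    have h5 : M.map δ * B.map π = B.map π * !![0, δ y; 0, 0] + B.map δ * T -
        M.map π * B.map δ := by
      rw [← h1]; abel
    rw [← h5, mul_assoc, hB, mul_one]
  have hBN : B' * N = T' * B' := by
    rw [hN', ← mul_assoc, ← mul_assoc, hB', one_mul]
  have hNT : (!![0, δ y; 0, 0] : M2 k) * T' =
      !![0, δ y * (π z)⁻¹; 0, 0] := by
    ext i j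
    fin_cases i <;> fin_cases j <;>
    simp [T', mul_apply, Fin.sum_univ_two]
  calc M.map δ * N = (B.map π * !![0, δ y; 0, 0] + B.map δ * T - M.map π * B.map δ) *
        (B' * N) := by rw [hMδ, mul_assoc]
    _ = B.map π * (!![0, δ y; 0, 0] * T') * B' + B.map δ * (T * T') * B' -
        M.map π * B.map δ * (B' * N) := by
          rw [sub_mul, add_mul, hBN]; simp only [mul_assoc]
    _ = _ := by
          rw [hNT, hTT', mul_one]
          simp only [mul_assoc]
          abel

end key

section line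

variable {k : Type} [Field k]

/-- strictly upper triangular matrices in a basis -/
lemma strict_mulVec {B B' : M2 k} (hB' : B' * B = 1) (u : k) :
    (∀ w : Fin 2 → k, ∃ a : k, (B * !![0, u; 0, 0] * B') *ᵥ w = a • (fun i => B i 0)) ∧
    (B * !![0, u; 0, 0] * B') *ᵥ (fun i => B i 0) = 0 := by
  have hcol : (fun i => B i 0) = B *ᵥ ![1, 0] := by
    ext i
    simp [mulVec, dotProduct, Fin.sum_univ_two]
  have h1 : ∀ w : Fin 2 → k, (B * !![0, u; 0, 0] * B') *ᵥ w =
      (u * (B' *ᵥ w) 1) • (fun i => B i 0) := by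
    intro w
    rw [hcol, ← mulVec_mulVec, ← mulVec_mulVec, ← mulVec_smul]
    congr 1
    ext i
    fin_cases i <;> simp [mulVec, dotProduct, Fin.sum_univ_two]
  refine ⟨fun w => ⟨_, h1 w⟩, ?_⟩
  have h2 : B' *ᵥ (fun i => B i 0) = ![1, 0] := by
    rw [hcol, mulVec_mulVec, hB', one_mulVec]
  rw [h1, h2]
  simp

/-- upper triangular matrices in a basis -/
lemma upper_mulVec {B B' M : M2 k} (hB' : B' * B = 1) (hB : B * B' = 1) {x y z : k}
    (hM : M * B = B * !![x, y; 0, z]) :
    M *ᵥ (fun i => B i 0) = x • (fun i => B i 0) ∧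
    ∀ w : Fin 2 → k, ∃ c : k, M *ᵥ w - z • w = c • (fun i => B i 0) := by
  have hcol : (fun i => B i 0) = B *ᵥ ![1, 0] := by
    ext i
    simp [mulVec, dotProduct, Fin.sum_univ_two]
  constructor
  · rw [hcol, mulVec_mulVec, hM, ← mulVec_mulVec, ← mulVec_smul]
    congr 1
    ext i
    fin_cases i <;> simp [mulVec, dotProduct, Fin.sum_univ_two]
  · intro w
    obtain ⟨u, rfl⟩ : ∃ u, w = B *ᵥ u := ⟨B' *ᵥ w, by rw [mulVec_mulVec, hB, one_mulVec]⟩
    refine ⟨(x - z) * u 0 + y * u 1, ?_⟩
    rw [mulVec_mulVec, hM, ← mulVec_mulVec, ← mulVec_smul, ← mulVec_sub, hcol, ← mulVec_smul]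
    congr 1
    ext i
    fin_cases i
    · simp [mulVec, dotProduct, Fin.sum_univ_two]; ring
    · simp [mulVec, dotProduct, Fin.sum_univ_two]

end line

section main

variable {𝒪 : Type} [CommRing 𝒪] {p : ℕ} [hp : Fact p.Prime] {Sig Smin : Finset ℕ} {R k : Type}
    [CommRing R] [IsLocalRing R] [Algebra 𝒪 R] [Field k] {π : R →+* k} {r : GQ →* M2 R}
    {rbar : GQ →* M2 k} (h : MDef 𝒪 p Sig Smin π r rbar)

/-- triangular form on the decomposition group -/
lemma exists_triang (hc : MatCont R r) (hstr : (ofMat r hc).IsStrictOrdinaryAt p) :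
    ∃ B B' : M2 R, B * B' = 1 ∧ B' * B = 1 ∧
      ∀ σ : GQ, σ • Pl (ExtCitation.pPrime p) = Pl (ExtCitation.pPrime p) →
        ∃ x y z : R, r σ * B = B * !![x, y; 0, z] ∧
          ∃ t : R, x = ((ExtCitation.cycloChar p σ : (ZMod p)ˣ) : ZMod p).val * z + p * t := by
  obtain ⟨L, ⟨b, hb⟩, hD, -, hxz⟩ := hstr.2 (Pl (ExtCitation.pPrime p))
    (Pl_lies (ExtCitation.pPrime p))
  let b' : Basis (Fin 2) R (Fin 2 → R) := b
  let e : Basis (Fin 2) R (Fin 2 → R) := Pi.basisFun R (Fin 2)
  have hB : ∀ i j, e.toMatrix b' i j = b' j i := fun i j => by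
    rw [Basis.toMatrix_apply]
    exact Pi.basisFun_repr R (Fin 2) (b' j) i
  refine ⟨e.toMatrix b', b'.toMatrix e, e.toMatrix_mul_toMatrix_flip b',
    b'.toMatrix_mul_toMatrix_flip e, fun σ hσ => ?_⟩
  obtain ⟨x, z, h1, h2, h3⟩ := hxz σ hσ
  have hb0 : (b 0 : Fin 2 → R) ∈ L := by
    rw [hb]; exact Submodule.mem_span_singleton_self _
  have h4 := h1 _ hb0
  have h5 := h2 (b 1)
  rw [hb, Submodule.mem_span_singleton] at h5
  obtain ⟨y, hy⟩ := h5
  have h4' : r σ *ᵥ b' 0 = x • b' 0 := h4
  have h5' : y • b' 0 = r σ *ᵥ b' 1 - z • b' 1 := hy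
  refine ⟨x, y, z, ?_, ?_⟩
  · ext i j
    rw [Matrix.mul_apply, Matrix.mul_apply, Fin.sum_univ_two, Fin.sum_univ_two, hB, hB, hB, hB]
    fin_cases j
    · have h6 := congrFun h4' i
      simp only [mulVec, dotProduct, Fin.sum_univ_two, Pi.smul_apply, smul_eq_mul] at h6
      simp only [of_apply, cons_val', cons_val_zero, cons_val_one, empty_val', cons_val_fin_one,
        Fin.zero_eta]
      rw [h6]; ring
    · have h6 := congrFun h5' i
      simp only [mulVec, dotProduct, Fin.sum_univ_two, Pi.smul_apply, smul_eq_mul,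
        Pi.sub_apply] at h6
      simp only [of_apply, cons_val', cons_val_zero, cons_val_one, empty_val', cons_val_fin_one,
        Fin.mk_one]
      linear_combination -h6
  · have h7 := h3 1 ((ExtCitation.cycloChar p σ : (ZMod p)ˣ) : ZMod p).val (by
      intro μ hμ
      rw [pow_one] at hμ
      exact cyclo_spec p σ hμ)
    rw [pow_one, Ideal.mem_span_singleton'] at h7
    obtain ⟨t, ht⟩ := h7
    refine ⟨t, ?_⟩
    linear_combination -ht

include h in
/-- **Strict ordinary deformations.** -/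
theorem MDef.strict (hpk : (p : k) = 0) (h2 : (2 : k) ≠ 0) (hc : MatCont R r)
    (hstr : (ofMat r hc).IsStrictOrdinaryAt p) :
    ∃ v : Fin 2 → k, v ≠ 0 ∧
      (∀ σ : GQ, σ • Pl (ExtCitation.pPrime p) = Pl (ExtCitation.pPrime p) →
        ∃ x z : k, rbar σ *ᵥ v = x • v ∧ (∀ w, ∃ c : k, rbar σ *ᵥ w - z • w = c • v) ∧
          x = ((ExtCitation.cycloChar p σ : (ZMod p)ˣ) : ZMod p).val * z ∧
          (rbar σ).det = x * z) ∧
      ∀ δ : R → k, IsDer 𝒪 π δ → ∃ Y : M2 k, Y.trace = 0 ∧
        ∀ σ : GQ, σ • Pl (ExtCitation.pPrime p) = Pl (ExtCitation.pPrime p) →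
          (∀ w, ∃ a : k, (psi r rbar δ σ - (rbar σ * Y * rbar σ⁻¹ - Y)) *ᵥ w = a • v) ∧
          (psi r rbar δ σ - (rbar σ * Y * rbar σ⁻¹ - Y)) *ᵥ v = 0 := by
  obtain ⟨B, B', hBB', hB'B, htri⟩ := exists_triang hc hstr
  have hb1 : B.map π * B'.map π = 1 := by
    rw [← Matrix.map_mul, hBB']; exact Matrix.map_one π (map_zero π) (map_one π)
  have hb2 : B'.map π * B.map π = 1 := by
    rw [← Matrix.map_mul, hB'B]; exact Matrix.map_one π (map_zero π) (map_one π)
  refine ⟨fun i => B.map π i 0, ?_, ?_, ?_⟩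
  · intro hv
    have h3 := congrFun (congrFun hb2 0) 0
    rw [Matrix.mul_apply, Fin.sum_univ_two, one_apply_eq] at h3
    have h4 := congrFun hv 0
    have h5 := congrFun hv 1
    simp only [Pi.zero_apply] at h4 h5
    rw [h4, h5] at h3
    simp at h3
  · intro σ hσ
    obtain ⟨x, y, z, hM, t, ht⟩ := htri σ hσ
    have hM' : rbar σ * B.map π = B.map π * !![π x, π y; 0, π z] := by
      rw [← h.red, ← Matrix.map_mul, hM, Matrix.map_mul]
      congr 1
      ext i j
      fin_cases i <;> fin_cases j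
      · rfl
      · rfl
      · exact map_zero π
      · rfl
    obtain ⟨h3, h4⟩ := upper_mulVec hb2 hb1 hM'
    refine ⟨π x, π z, h3, h4, ?_, ?_⟩
    · rw [ht, map_add, map_mul, map_mul, map_natCast, map_natCast, hpk, zero_mul, add_zero]
    · have h5 : (rbar σ * B.map π).det = (B.map π * !![π x, π y; 0, π z]).det := by rw [hM']
      rw [det_mul, det_mul, det_fin_two_of, mul_comm (rbar σ).det] at h5
      have h6 : (B.map π).det ≠ 0 := by
        intro h7
        have h8 : (B.map π * B'.map π).det = 1 := by rw [hb1, det_one]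
        rw [det_mul, h7, zero_mul] at h8
        exact zero_ne_one h8
      have h9 := mul_left_cancel₀ h6 h5
      rw [h9]; ring
  · intro δ hδ
    set Y₀ : M2 k := B.map δ * B'.map π with hY₀
    refine ⟨-(Y₀ - (2⁻¹ * Y₀.trace) • 1), ?_, ?_⟩
    · rw [trace_neg, trace_sub, trace_smul, trace_one, Fintype.card_fin]
      simp only [smul_eq_mul]
      push_cast
      field_simp
      ring
    · intro σ hσ
      obtain ⟨x, y, z, hM, t, ht⟩ := htri σ hσ
      obtain ⟨a', t', hdet⟩ := h.det σ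
      have hxz : x * z = a' + p * t' := by
        have h3 : (r σ * B).det = (B * !![x, y; 0, z]).det := by rw [hM]
        rw [det_mul, det_mul, det_fin_two_of, mul_comm (r σ).det] at h3
        have h4 : B.det * B'.det = 1 := by rw [← det_mul, hBB', det_one]
        have h5 : (r σ).det = x * z := by
          have h6 : B'.det * (B.det * (r σ).det) = B'.det * (B.det * (x * z - y * 0)) := by
            rw [h3]
          have h7 : (B.det * B'.det) * (r σ).det = (B.det * B'.det) * (x * z) := by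
            linear_combination h6
          rwa [h4, one_mul, one_mul] at h7
        rw [← h5, hdet]
      have hN : (r σ).map π * rbar σ⁻¹ = 1 := by rw [h.red, rep_mul_inv]
      have hdne : π x * π z ≠ 0 := by
        intro h3
        have h4 : (rbar σ).det = π x * π z := by
          rw [← h.red, det_map, hdet, ← hxz, map_mul]
        have h5 : (rbar σ * rbar σ⁻¹).det = 1 := by rw [rep_mul_inv, det_one]
        rw [det_mul, h4, h3, zero_mul] at h5
        exact zero_ne_one h5
      obtain ⟨hx0, hz0⟩ := der_eigen hpk h2 hδ ht hxz (left_ne_zero_of_mul hdne)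
      have h6 := (der_triang hδ hM hx0 hz0 hb1 hb2 hN).resolve_right hdne
      have h7 : psi r rbar δ σ - (rbar σ * (-(Y₀ - (2⁻¹ * Y₀.trace) • 1)) * rbar σ⁻¹ -
          (-(Y₀ - (2⁻¹ * Y₀.trace) • 1))) =
          B.map π * !![0, δ y * (π z)⁻¹; 0, 0] * B'.map π := by
        rw [psi, h6, h.red, ← hY₀]
        have h8 : rbar σ * ((2⁻¹ * Y₀.trace) • (1 : M2 k)) * rbar σ⁻¹ =
            (2⁻¹ * Y₀.trace) • (1 : M2 k) := by
          rw [mul_smul_comm, mul_one, smul_mul_assoc, rep_mul_inv]
        rw [mul_neg, neg_mul, mul_sub, sub_mul, h8]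
        abel
      rw [h7]
      exact strict_mulVec hb2 _

end main

end Fermat.Agent.TWP
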