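import Fermat.Agent.TWP.Main56
import Fermat.Agent.RTan.Str

/-!
The strict ordinary local condition.
-/

set_option autoImplicit false

namespace Fermat.Agent.TWP

open Matrix Module IsLocalRing Fermat.Agent.PT Fermat.Agent.PTC
open Fermat.Agent.DefRing (matOfRes mapRep MatCont Red ofMat)
open scoped Pointwise

variable {𝒪 : Type} [CommRing 𝒪] {p : ℕ} [hp : Fact p.Prime] {Sig Smin : Finset ℕ} {R k : Type}
    [CommRing R] [IsLocalRing R] [Algebra 𝒪 R] [Field k] [Finite k] {π : R →+* k}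
    {r : GQ →* M2 R} {hc : MatCont R r} {rbar : GQ →* M2 k}

/-- **The strict ordinary local condition.** -/
theorem strict_hloc (hp2 : p ≠ 2) (hRD : RD p rbar) (hstr : (ofMat r hc).IsStrictOrdinaryAt p)
    (h : MDef 𝒪 p Sig Smin π r rbar) :
    ∃ Tp : AddSubgroup (H1 (allL.comap (rl (ExtCitation.pPrime p)))
          ((twAct 1 rbar).comp (rl (ExtCitation.pPrime p)))),
        Nat.card Tp ≤ Nat.card k *
          Nat.card (H0 ((twAct 1 rbar).comp (rl (ExtCitation.pPrime p)))) ∧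
        ∀ (S : Finset Nat.Primes) (hpS : ExtCitation.pPrime p ∈ S)
          (δ : R → k) (_ : IsDer 𝒪 π δ)
          (f : Z1 (sL S) (twAct 1 rbar))
          (_ : ∀ σ, ((f.1 σ : ad0 k) : M2 k) = psi r rbar δ σ),
          ((ptd S).loc ⟨ExtCitation.pPrime p, hpS⟩ (twAct 1 rbar)).h1
            (H1.mk (sL S) (twAct 1 rbar) f) ∈ Tp := by
  have hchar : CharP k p := hRD.charP hp.out
  letI : Algebra (ZMod p) k := ZMod.algebra k p
  obtain ⟨v, hv, hst, hder⟩ := h.strict hRD.char (hRD.two_ne hp2) hc hstr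
  refine ⟨RTan.Lstr rbar v (ExtCitation.pPrime p), ?_, ?_⟩
  · refine RTan.card_Lstr_le (p := p) (fun γ => ?_) hv rfl hRD.cont
    obtain ⟨x, z, h1, -, h2, h3⟩ := hst (rl _ γ) (rl_mem _ γ)
    refine ⟨x, h1, ?_⟩
    have h4 : (algebraMap (ZMod p) k) ((ExtCitation.cycloChar p (rl (ExtCitation.pPrime p) γ) :
        (ZMod p)ˣ) : ZMod p) = (((ExtCitation.cycloChar p (rl (ExtCitation.pPrime p) γ) :
        (ZMod p)ˣ) : ZMod p).val : k) := by
      rw [← map_natCast (algebraMap (ZMod p) k), ZMod.natCast_zmod_val]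
    rw [h4, h3, h2]
    ring
  · intro S hpS δ hδ f hf
    obtain ⟨Y, hY, hYs⟩ := hder δ hδ
    obtain ⟨c, hc1, hc2⟩ := mem_strT hpS hRD.cont f hY (v := v) (fun σ hσ => by
      rw [hf]
      exact hYs σ hσ)
    exact ⟨c, hc1, fun γ => (hc2 γ).2⟩

end Fermat.Agent.TWP
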