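import Fermat.Agent.TWP.DualAd
import Fermat.Agent.TWP.LocalCount

/-!
Local computations at Taylor–Wiles primes.
-/

set_option autoImplicit false

namespace Fermat.Agent.TWP

open Matrix Polynomial Fermat.Agent.PT Fermat.Agent.PTC
open scoped Pointwise

section linalg

variable {k : Type} [Field k]

/-- a trace zero matrix commuting with a regular semisimple matrix and orthogonal to it is zero -/
lemma eq_zero_of_comm (h2 : (2 : k) ≠ 0) {A X : M2 k} (hA : A.trace ^ 2 ≠ 4 * A.det)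
    (hX : X.trace = 0) (hc : X * A = A * X) (ht : (X * A).trace = 0) : X = 0 := by
  have e := fun i j => congrFun (congrFun hc i) j
  have e00 := e 0 0
  have e01 := e 0 1
  have e10 := e 1 0
  simp only [mul_apply, Fin.sum_univ_two] at e00 e01 e10
  simp only [trace_fin_two, mul_apply, Fin.sum_univ_two] at ht hX hA
  rw [det_fin_two] at hA
  set a := A 0 0
  set b := A 0 1
  set c := A 1 0
  set d := A 1 1
  set x := X 0 0 with hx
  set y := X 0 1 with hy
  set z := X 1 0 with hz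
  have hw : X 1 1 = -x := by linear_combination hX
  rw [hw] at e01 e10 ht
  have hΔ : (a - d) ^ 2 + 4 * (b * c) ≠ 0 := by
    intro h
    apply hA
    linear_combination h
  have hx0 : x = 0 := by
    have : x * ((a - d) ^ 2 + 4 * (b * c)) = 0 := by
      linear_combination (a - d) * ht - (a - d) * e00 - 2 * b * e10
    exact (mul_eq_zero.mp this).resolve_right hΔ
  have hbz : 2 * (b * z) = 0 := by
    linear_combination ht - e00 + (d - a) * hx0
  have hbz' : b * z = 0 := (mul_eq_zero.mp hbz).resolve_left h2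
  have hy0 : y = 0 := by
    have : y * ((a - d) ^ 2 + 4 * (b * c)) = 0 := by
      linear_combination (-(a - d)) * e01 + 2 * (a - d) * b * hx0 + 4 * b * e00 + 4 * b * hbz'
    exact (mul_eq_zero.mp this).resolve_right hΔ
  have hz0 : z = 0 := by
    have : z * ((a - d) ^ 2 + 4 * (b * c)) = 0 := by
      linear_combination (a - d) * e10 + 2 * (a - d) * c * hx0 + 4 * c * hbz'
    exact (mul_eq_zero.mp this).resolve_right hΔ
  ext i j
  fin_cases i <;> fin_cases j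
  · exact hx0
  · exact hy0
  · exact hz0
  · show X 1 1 = 0
    rw [hw, hx0, neg_zero]

/-- a matrix with distinct nonzero eigenvalues has order prime to `p` -/
lemma pow_card_sub_one [Finite k] {A : M2 k} {α β : k} (hne : α ≠ β) (hα : α ≠ 0) (hβ : β ≠ 0)
    (h : A.charpoly = (X - C α) * (X - C β)) : A ^ (Nat.card k - 1) = 1 := by
  have : Fintype k := Fintype.ofFinite k
  rw [Nat.card_eq_fintype_card]
  have h1 : (X - C α) ∣ (X ^ (Fintype.card k - 1) - 1 : k[X]) := by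
    rw [dvd_iff_isRoot, IsRoot.def, eval_sub, eval_pow, eval_X, eval_one,
      FiniteField.pow_card_sub_one_eq_one α hα, sub_self]
  have h2 : (X - C β) ∣ (X ^ (Fintype.card k - 1) - 1 : k[X]) := by
    rw [dvd_iff_isRoot, IsRoot.def, eval_sub, eval_pow, eval_X, eval_one,
      FiniteField.pow_card_sub_one_eq_one β hβ, sub_self]
  have h3 : IsCoprime (X - C α) (X - C β) :=
    isCoprime_X_sub_C_of_isUnit_sub (sub_ne_zero.mpr hne).isUnit
  obtain ⟨Q, hQ⟩ := h3.mul_dvd h1 h2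
  have h4 := congrArg (aeval A) hQ
  rw [← h, map_mul, aeval_self_charpoly, zero_mul, map_sub, map_pow, aeval_X, map_one,
    sub_eq_zero] at h4
  exact h4

end linalg

section coc

variable {k : Type} [Field k] {S : Finset Nat.Primes} {q : Nat.Primes} {r : GQ →* M2 k}

/-- local coboundary implies coboundary on the decomposition group -/
lemma coc_decomp (hr : UnrOut S r) (f : Z1 (sL S) (twAct (detC r) r)) {X : M2 k}
    (hX : ∀ γ : Γl q, ((f.1 (rl q γ) : ad0 k) : M2 k) =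
      (r (rl q γ)).det • (r (rl q γ) * X * r (rl q γ)⁻¹) - X) {σ : GQ} (hσ : σ • Pl q = Pl q) :
    ((f.1 σ : ad0 k) : M2 k) = (r σ).det • (r σ * X * r σ⁻¹) - X := by
  obtain ⟨⟨N, ⟨hNn, F, hF, rfl⟩, hfN⟩, hcoc⟩ := mem_Z1'.1 f.2
  obtain ⟨L, hL, hLr⟩ := hr.cont
  have hFf := hF.1
  obtain ⟨γ, hγ⟩ := exists_loc q (L ⊔ F) hσ
  have h1 : ∀ x ∈ L ⊔ F, ((rl q γ)⁻¹ * σ) x = x := by
    intro x hx
    rw [AlgEquiv.mul_apply, ← hγ x hx, ← AlgEquiv.mul_apply, inv_mul_cancel, AlgEquiv.one_apply]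
  have h2 : f.1 (rl q γ) = f.1 σ := by
    have := hfN (rl q γ) ((rl q γ)⁻¹ * σ) ((IntermediateField.mem_fixingSubgroup_iff F _).mpr
      fun x hx => h1 x ((le_sup_right : F ≤ L ⊔ F) hx))
    rw [mul_inv_cancel_left] at this
    exact this.symm
  have h3 : r ((rl q γ)⁻¹ * σ) = 1 := hLr _ fun x hx => h1 x ((le_sup_left : L ≤ L ⊔ F) hx)
  have h4 : r (rl q γ) = r σ := by
    have : rl q γ * ((rl q γ)⁻¹ * σ) = σ := mul_inv_cancel_left _ _
    rw [← this, map_mul r (rl q γ), h3, mul_one]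
  have h5 : r (rl q γ)⁻¹ = r σ⁻¹ := by
    have e1 := rep_inv_mul r (rl q γ)
    have e2 := rep_mul_inv r σ
    rw [h4] at e1
    calc r (rl q γ)⁻¹ = r (rl q γ)⁻¹ * (r σ * r σ⁻¹) := by rw [e2, mul_one]
      _ = r σ⁻¹ := by rw [← mul_assoc, e1, one_mul]
  rw [← h2, hX, h4, h5]

/-- a cocycle which is a local coboundary at an unramified prime vanishes on all inertia groups. -/
lemma coc_inertia (hr : UnrOut S r) (f : Z1 (sL S) (twAct (detC r) r)) {X : M2 k}
    (hX : ∀ γ : Γl q, ((f.1 (rl q γ) : ad0 k) : M2 k) =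
      (r (rl q γ)).det • (r (rl q γ) * X * r (rl q γ)⁻¹) - X)
    (hI : ∀ σ ∈ (Pl q).inertiaSubgroupIn ℚ, r σ = 1) {A : ValuationSubring Qb}
    (hA : A.LiesOverPrime q) {σ : GQ} (hσ : σ ∈ A.inertiaSubgroupIn ℚ) :
    ((f.1 σ : ad0 k) : M2 k) = 0 := by
  obtain ⟨g, rfl⟩ := Fermat.Agent.Frob.exists_smul_eq q.2 (Pl_lies q) hA
  have h1 := inertia_conj hσ
  have h2 : g⁻¹ * σ * g ∈ cocKer f := by
    refine ⟨hI _ h1, ?_⟩
    rw [coc_decomp hr f hX ((mem_inertia_iff _ _).mp h1).1, hI _ h1, det_one, one_smul, one_mul]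
    have : r (g⁻¹ * σ * g)⁻¹ = 1 := by
      have := rep_inv_mul r (g⁻¹ * σ * g)
      rwa [hI _ h1, mul_one] at this
    rw [this, mul_one, sub_self]
  have h3 := (cocKer_normal (fun g hg => by rw [detC_apply, hg, det_one]) f).conj_mem _ h2 g
  have h4 : g * (g⁻¹ * σ * g) * g⁻¹ = σ := by group
  rw [h4] at h3
  exact h3.2

end coc

section tw

variable {k : Type} [Field k] {p : ℕ} [hp : Fact p.Prime] {r : GQ →* M2 k} {n : ℕ}
  {q : Nat.Primes} {τ : GQ}

lemma TWPrime.ne_p (h : TWPrime p r n q (Pl q) τ) : (q : ℕ) ≠ p := by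
  intro hqp
  have h1 := h.dvd
  rw [hqp] at h1
  have h2 : p ∣ p - 1 := (dvd_pow_self p (Nat.succ_ne_zero n)).trans h1
  have h3 := Nat.le_of_dvd (Nat.sub_pos_of_lt hp.out.one_lt) h2
  have := hp.out.pos
  omega

/-- a local element acting as the given Frobenius -/
lemma TWPrime.exists_gen (hc : ∃ L : IntermediateField ℚ Qb, FiniteDimensional ℚ L ∧
      ∀ σ : GQ, (∀ x ∈ L, σ x = x) → r σ = 1)
    (h : TWPrime p r n q (Pl q) τ) (E : IntermediateField ℚ Qb) [FiniteDimensional ℚ E] :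
    ∃ g : Γl q, r (rl q g) = r τ ∧ (∃ σ : GQ, (Pl q).IsFrobeniusAt σ q ∧ ∀ x ∈ E, rl q g x = σ x) ∧
      ∀ γ : Γl q, ∃ j : ℕ, r (rl q γ) = r τ ^ j ∧ ∃ ι ∈ (Pl q).inertiaSubgroupIn ℚ,
        ∀ x ∈ E, rl q γ x = (rl q g ^ j * ι) x := by
  obtain ⟨L, hL, hLr⟩ := hc
  obtain ⟨F, hF, hLF, hFn⟩ := exists_normal_level (L ⊔ E)
  obtain ⟨g, ⟨σ, hσ, hgσ⟩, hg⟩ := exists_frob_gen q F hFn
  have hLF' : L ≤ F := le_sup_left.trans hLF
  have hEF' : E ≤ F := le_sup_right.trans hLF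
  have hagree : ∀ a b : GQ, (∀ x ∈ F, a x = b x) → r a = r b := by
    intro a b hab
    have h1 : r (b⁻¹ * a) = 1 := hLr _ fun x hx => by
      rw [AlgEquiv.mul_apply, hab x (hLF' hx), ← AlgEquiv.mul_apply, inv_mul_cancel,
        AlgEquiv.one_apply]
    have h2 : b * (b⁻¹ * a) = a := mul_inv_cancel_left _ _
    rw [← h2, map_mul r b, h1, mul_one]
  have hστ : r σ = r τ := by
    have h1 := h.inertia _ (isFrobeniusAt_unique hσ h.frob)
    have h2 : τ * (τ⁻¹ * σ) = σ := mul_inv_cancel_left _ _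
    rw [← h2, map_mul r τ, h1, mul_one]
  have hgr : r (rl q g) = r τ := by rw [hagree _ _ hgσ, hστ]
  refine ⟨g, hgr, ⟨σ, hσ, fun x hx => hgσ x (hEF' hx)⟩, fun γ => ?_⟩
  obtain ⟨j, ι, hι, hιx⟩ := hg γ
  refine ⟨j, ?_, ι, hι, fun x hx => ?_⟩
  · have h1 : r (rl q ((g ^ j)⁻¹ * γ)) = 1 := by
      rw [hagree _ _ hιx, h.inertia _ hι]
    have h2 : rl q γ = rl q g ^ j * rl q ((g ^ j)⁻¹ * γ) := by
      rw [← map_pow, ← map_mul, mul_inv_cancel_left]
    rw [h2, map_mul r, h1, mul_one, map_pow, hgr]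
  · have h1 := hιx x (hEF' hx)
    have h2 : rl q γ = rl q g ^ j * rl q ((g ^ j)⁻¹ * γ) := by
      rw [← map_pow, ← map_mul, mul_inv_cancel_left]
    rw [AlgEquiv.mul_apply, ← h1, ← AlgEquiv.mul_apply, ← h2]

/-- the cyclotomic character is trivial at Taylor–Wiles primes -/
lemma TWPrime.muW_top (hc : ∃ L : IntermediateField ℚ Qb, FiniteDimensional ℚ L ∧
      ∀ σ : GQ, (∀ x ∈ L, σ x = x) → r σ = 1)
    (h : TWPrime p r n q (Pl q) τ) : (muW p).comap (rl q) = ⊤ := by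
  obtain ⟨ζ, hζ⟩ := exists_zeta p
  have hζfd : FiniteDimensional ℚ (IntermediateField.adjoin ℚ {ζ}) :=
    IntermediateField.adjoin.finiteDimensional (Algebra.IsIntegral.isIntegral ζ)
  obtain ⟨g, -, ⟨σ, hσ, hgσ⟩, hall⟩ := h.exists_gen hc (IntermediateField.adjoin ℚ {ζ})
  have hmem : ∀ m : ℕ, ζ ^ m ∈ IntermediateField.adjoin ℚ {ζ} := fun m =>
    pow_mem (IntermediateField.mem_adjoin_simple_self ℚ ζ) m
  have hcop : Nat.Coprime p q := (Nat.coprime_primes hp.out q.2).mpr (Ne.symm h.ne_p)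
  have hq1 : ζ ^ (q : ℕ) = ζ := by
    have h1 : (p : ℕ) ∣ (q : ℕ) - 1 := (dvd_pow_self p (Nat.succ_ne_zero n)).trans h.dvd
    obtain ⟨c, hc⟩ := h1
    have h2 : (q : ℕ) = p * c + 1 := by
      have := q.2.one_le
      omega
    rw [h2, pow_add, pow_mul, hζ.pow_eq_one, one_pow, one_mul, pow_one]
  have hgζ : rl q g ζ = ζ := by
    rw [hgσ ζ (by simpa using hmem 1), Fermat.Agent.QuadRep.frobenius_smul_root q.2 (Pl_lies q) hσ
      hp.out.pos hcop ζ hζ.pow_eq_one, hq1]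
  have hgj : ∀ j : ℕ, (rl q g ^ j) ζ = ζ := by
    intro j
    induction j with
    | zero => rfl
    | succ j ih => rw [pow_succ, AlgEquiv.mul_apply, hgζ, ih]
  rw [eq_top_iff]
  intro γ _
  rw [Subgroup.mem_comap, mem_muW_iff p hζ]
  obtain ⟨j, -, ι, hι, hγ⟩ := hall γ
  rw [hγ ζ (by simpa using hmem 1), AlgEquiv.mul_apply,
    Fermat.Agent.QuadRep.inertia_smul_root q.2 (Pl_lies q) hι hp.out.pos hcop ζ hζ.pow_eq_one, hgj]

/-- `|H⁰(Γ_q, ad⁰)| ≤ |k|` at a Taylor–Wiles prime. -/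
lemma TWPrime.card_H0 [Finite k] (hr : RD p r) (hp2 : p ≠ 2) (h : TWPrime p r n q (Pl q) τ) :
    Nat.card (H0 ((twAct 1 r).comp (rl q))) ≤ Nat.card k := by
  obtain ⟨g, hg, -, -⟩ := h.exists_gen hr.cont ⊥
  refine Nat.card_le_card_of_injective
    (fun X : H0 ((twAct 1 r).comp (rl q)) => ((X.1 : M2 k) * r τ).trace) fun X Y hXY => ?_
  have hcomm : ∀ X : H0 ((twAct 1 r).comp (rl q)), (X.1 : M2 k) * r τ = r τ * (X.1 : M2 k) := by
    intro X
    have h1 := congrArg Subtype.val (mem_H0.1 X.2 g)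
    have h2 : (1 : GQ →* k) (rl q g) • (r (rl q g) * X.1.1 * r (rl q g)⁻¹) = X.1.1 := h1
    rw [MonoidHom.one_apply, one_smul] at h2
    have h3 := congrArg (· * r (rl q g)) h2
    simp only [mul_assoc] at h3
    rw [rep_inv_mul, mul_one, hg] at h3
    exact h3.symm
  apply Subtype.ext
  apply Subtype.ext
  rw [← sub_eq_zero]
  refine eq_zero_of_comm (hr.two_ne hp2) (A := r τ) ?_ ?_ ?_ ?_
  · rw [h.det, mul_one]
    exact h.reg
  · rw [trace_sub, X.1.2, Y.1.2, sub_self]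
  · rw [sub_mul, mul_sub, hcomm, hcomm]
  · rw [sub_mul, trace_sub]
    exact sub_eq_zero.mpr hXY

/-- `|H¹(Γ_q, ad⁰)| ≤ |k| |H⁰(Γ_q, ad⁰)|` at a Taylor–Wiles prime. -/
theorem TWPrime.card_H1 [Finite k] (hr : RD p r) (hp2 : p ≠ 2) (h : TWPrime p r n q (Pl q) τ) :
    Nat.card (H1 (allL.comap (rl q)) ((twAct 1 r).comp (rl q))) ≤
      Nat.card k * Nat.card (H0 ((twAct 1 r).comp (rl q))) := by
  have hchar := hr.charP hp.out
  obtain ⟨g, hg, -, hall⟩ := h.exists_gen hr.cont ⊥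
  -- the kernel
  let V : Subgroup (Γl q) := (r.comp (rl q)).ker
  have hVo : IsOpenSub (allL.comap (rl q)) V := by
    obtain ⟨L, hL, hLr⟩ := hr.cont
    obtain ⟨N, hN, hNL⟩ := exists_allL_le L hL
    refine ⟨_, ⟨N, hN, rfl⟩, fun γ hγ => ?_⟩
    exact hLr _ ((IntermediateField.mem_fixingSubgroup_iff L _).mp (hNL hγ))
  -- the eigenvalues
  have hpow : r τ ^ (Nat.card k - 1) = 1 := by
    obtain ⟨α, β, hne, hcp⟩ := h.eigen hr h.lies h.frob
    have h0 := congrArg (fun P : k[X] => P.coeff 0) hcp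
    rw [charpoly_fin_two] at h0
    have e : (X - C α) * (X - C β) = X ^ 2 - C (α + β) * X + C (α * β) := by
      rw [C_add, C_mul]; ring
    rw [e] at h0
    simp [coeff_X, coeff_C] at h0
    rw [h.det] at h0
    have hα : α ≠ 0 := fun h' => by rw [h', zero_mul] at h0; exact one_ne_zero h0
    have hβ : β ≠ 0 := fun h' => by rw [h', mul_zero] at h0; exact one_ne_zero h0
    exact pow_card_sub_one hne hα hβ hcp
  have hVidx : ¬ p ∣ V.index := by
    intro hdvd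
    have hfi := hVo.finiteIndex
    have : Finite (Γl q ⧸ V) := inferInstance
    obtain ⟨x, hx⟩ := exists_prime_orderOf_dvd_card' p hdvd
    obtain ⟨γ, rfl⟩ := QuotientGroup.mk_surjective x
    have h1 : ((γ : Γl q ⧸ V)) ^ (Nat.card k - 1) = 1 := by
      rw [← QuotientGroup.mk_pow, QuotientGroup.eq_one_iff]
      show r (rl q (γ ^ (Nat.card k - 1))) = 1
      obtain ⟨j, hj, -⟩ := hall γ
      rw [map_pow, map_pow, hj, ← pow_mul, mul_comm, pow_mul, hpow, one_pow]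
    have h2 := orderOf_dvd_of_pow_eq_one h1
    rw [hx] at h2
    have hpk : p ∣ Nat.card k := by
      have : Fintype k := Fintype.ofFinite k
      rw [Nat.card_eq_fintype_card]
      obtain ⟨m, -, hm⟩ := FiniteField.card k p
      rw [hm]
      exact dvd_pow_self p m.ne_zero
    have h3 : 0 < Nat.card k := Nat.card_pos
    have h4 := (Nat.dvd_sub hpk h2)
    have h5 : Nat.card k - (Nat.card k - 1) = 1 := by omega
    rw [h5] at h4
    exact hp.out.one_lt.ne' (Nat.dvd_one.mp h4)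
  -- the counting hypotheses
  have hH := locHyp p (S := {q}) ⟨q, Finset.mem_singleton_self q⟩
  have he : eAt p {q} ⟨q, Finset.mem_singleton_self q⟩ = 0 := by
    unfold eAt
    rw [if_neg h.ne_p]
  rw [he] at hH
  have htop := h.muW_top hr.cont
  have c2 := hH.card1 V hVo (by
    show V ≤ (muW p).comap (rl q)
    rw [htop]; exact le_top)
  have c1 := hH.card1 ⊤ (by
    obtain ⟨N, hN⟩ := (allL.comap (rl q)).nonempty'
    exact ⟨N, hN, le_top⟩) (by
    show ⊤ ≤ (muW p).comap (rl q)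
    rw [htop])
  rw [zero_mul, add_zero] at c1 c2
  have c1' : Nat.card (H1 (allL.comap (rl q)) (trivAct (Γl q) (ZMod p))) = p ^ 2 := by
    rw [← c1, ← card_Z1_triv, ← card_Z1_triv]
    refine Nat.card_congr
      { toFun := fun F => ⟨fun v => F.1 v, mem_Z1'.2 ⟨?_, fun x y => triv_add F x y⟩⟩
        invFun := fun F => ⟨fun γ => F.1 ⟨γ, trivial⟩, mem_Z1'.2 ⟨?_, fun x y =>
          triv_add F ⟨x, trivial⟩ ⟨y, trivial⟩⟩⟩
        left_inv := fun _ => rfl
        right_inv := fun _ => rfl }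
    · obtain ⟨N, hN, h⟩ := (mem_Z1'.1 F.2).1
      exact ⟨_, ⟨N, hN, rfl⟩, fun g s hs => h g s hs⟩
    · obtain ⟨_, ⟨N, hN, rfl⟩, h⟩ := (mem_Z1'.1 F.2).1
      exact ⟨N, hN, fun g s hs => h ⟨g, trivial⟩ ⟨s, trivial⟩ hs⟩
  have hle := card_H1_le_sq V hVo hVidx c1' c2 (ρ := (twAct 1 r).comp (rl q))
    (ad0_torsion hr.char) (fun v hv a => twAct_fix (χ := 1) (r := r) (g := rl q v) rfl hv a)
  have h0 := h.card_H0 hr hp2
  calc _ ≤ Nat.card (H0 ((twAct 1 r).comp (rl q))) ^ 2 := hle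
    _ = Nat.card (H0 ((twAct 1 r).comp (rl q))) * Nat.card (H0 ((twAct 1 r).comp (rl q))) := sq _
    _ ≤ _ := Nat.mul_le_mul_right _ h0

end tw

end Fermat.Agent.TWP
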