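import Fermat.Agent.TWP.Unif

/-!
Tame inertia: images of inertia groups in `p`-groups (`p ≠ ℓ`) are cyclic.
-/

set_option autoImplicit false

namespace Fermat.Agent.TWP

open scoped Pointwise

section deriv

variable {Ω : Type*} [Field Ω] {A : ValuationSubring Ω} {F : Subfield Ω} {ℓ : ℕ} {u : Ω}

lemma nonunits_le {A : ValuationSubring Ω} {x : Ω} (h : x ∈ A.nonunits) : x ∈ A :=
  A.nonunits_le h

lemma nonunits_add {A : ValuationSubring Ω} {x y : Ω} (hx : x ∈ A.nonunits)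
    (hy : y ∈ A.nonunits) : x + y ∈ A.nonunits := by
  rw [ValuationSubring.mem_nonunits_iff] at hx hy ⊢
  exact (A.valuation.map_add x y).trans_lt (max_lt hx hy)

lemma nonunits_mul {A : ValuationSubring Ω} {x y : Ω} (hx : x ∈ A)
    (hy : y ∈ A.nonunits) : x * y ∈ A.nonunits := by
  have hy' := nonunits_le hy
  have h1 : (⟨y, hy'⟩ : A) ∈ IsLocalRing.maximalIdeal A := A.coe_mem_nonunits_iff.mp hy
  have h2 := Ideal.mul_mem_left _ (⟨x, hx⟩ : A) h1
  exact A.coe_mem_nonunits_iff.mpr h2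

lemma nonunits_neg {A : ValuationSubring Ω} {x : Ω} (hx : x ∈ A.nonunits) : -x ∈ A.nonunits := by
  rw [ValuationSubring.mem_nonunits_iff] at hx ⊢
  rwa [Valuation.map_neg]

lemma one_notMem_nonunits {A : ValuationSubring Ω} : (1 : Ω) ∉ A.nonunits := by
  rw [ValuationSubring.mem_nonunits_iff, map_one]
  exact lt_irrefl _

lemma nonunits_zero {A : ValuationSubring Ω} : (0 : Ω) ∈ A.nonunits := by
  rw [ValuationSubring.mem_nonunits_iff, map_zero]
  exact zero_lt_one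

/-- an automorphism in the inertia group fixing a uniformizer is trivial. -/
theorem fix_of_unif (h : Unif A F ℓ u) (hℓ : (ℓ : Ω) ∈ A.nonunits) (τ : Ω →+* Ω)
    (hτF : ∀ x ∈ F, τ x ∈ F) (hτI : ∀ x ∈ A, τ x - x ∈ A.nonunits) (hu : τ u = u) :
    ∀ x ∈ F, τ x = x := by
  have huA : u ∈ A := nonunits_le h.nonunit
  have hun : ∀ k : ℕ, u ^ k ≠ 0 := fun k => pow_ne_zero k h.ne
  obtain ⟨l, hlA, hl⟩ : ∃ l ∈ A, (ℓ : Ω) = u * l :=
    ⟨(ℓ : Ω) / u, h.div _ (natCast_mem F ℓ) hℓ, by rw [mul_div_cancel₀ _ h.ne]⟩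
  -- successive approximation
  have key : ∀ k : ℕ, ∀ x ∈ F, x ∈ A → ∃ e ∈ F, e ∈ A ∧ τ x = x + u ^ (k + 1) * e := by
    intro k
    induction k with
    | zero =>
      intro x hx hxA
      refine ⟨(τ x - x) / u, F.div_mem (F.sub_mem (hτF x hx) hx) h.mem,
        h.div _ (F.sub_mem (hτF x hx) hx) (hτI x hxA), ?_⟩
      rw [zero_add, pow_one, mul_div_cancel₀ _ h.ne]; ring
    | succ k ih =>
      intro x hx hxA
      obtain ⟨y, hy, hyA, hxy⟩ := h.perf x hx hxA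
      set z := (x - y ^ ℓ) / u with hz
      have hzF : z ∈ F := F.div_mem (F.sub_mem hx (F.pow_mem hy ℓ)) h.mem
      have hzA : z ∈ A := h.div _ (F.sub_mem hx (F.pow_mem hy ℓ)) hxy
      have hx' : x = y ^ ℓ + u * z := by rw [hz, mul_div_cancel₀ _ h.ne]; ring
      obtain ⟨e, he, heA, hez⟩ := ih z hzF hzA
      obtain ⟨d, hd, hdA, hdy⟩ := ih y hy hyA
      -- expansion in `A`
      obtain ⟨s, hs⟩ := Polynomial.powAddExpansion (⟨y, hyA⟩ : A)
        (⟨u ^ (k + 1) * d, A.mul_mem _ _ (A.pow_mem huA _) hdA⟩ : A) ℓ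
      have hs' : (y + u ^ (k + 1) * d) ^ ℓ = y ^ ℓ + ℓ * y ^ (ℓ - 1) * (u ^ (k + 1) * d) +
          s * (u ^ (k + 1) * d) ^ 2 := congrArg Subtype.val hs
      refine ⟨l * y ^ (ℓ - 1) * d + s * u ^ k * d ^ 2 + e, ?_, ?_, ?_⟩
      · have h1 : l * y ^ (ℓ - 1) * d + s * u ^ k * d ^ 2 + e = (τ x - x) / u ^ (k + 2) := by
          rw [eq_div_iff (hun _), hx', map_add, map_mul, map_pow, hu, hez, hdy, hs', hl]
          ring
        rw [h1]
        exact F.div_mem (F.sub_mem (hτF x hx) hx) (F.pow_mem h.mem _)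
      · exact A.add_mem _ _ (A.add_mem _ _ (A.mul_mem _ _ (A.mul_mem _ _ hlA (A.pow_mem hyA _)) hdA)
          (A.mul_mem _ _ (A.mul_mem _ _ s.2 (A.pow_mem huA _)) (A.pow_mem hdA _))) heA
      · rw [hx', map_add, map_mul, map_pow, hu, hez, hdy, hs', hl]
        ring
  have key2 : ∀ x ∈ F, x ∈ A → τ x = x := by
    intro x hx hxA
    by_contra hne
    obtain ⟨k, hk⟩ := h.arch _ (F.sub_mem (hτF x hx) hx) (sub_ne_zero.mpr hne)
    apply hk
    obtain ⟨e, he, heA, hex⟩ := key k x hx hxA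
    have : (τ x - x) / u ^ k = u * e := by
      rw [hex, div_eq_iff (hun k)]; ring
    rw [this]
    exact A.mul_mem _ _ huA heA
  intro x hx
  rcases A.mem_or_inv_mem x with h1 | h1
  · exact key2 x hx h1
  · have h2 := key2 x⁻¹ (F.inv_mem hx) h1
    rw [map_inv₀] at h2
    exact inv_injective h2

lemma Unif.of_mul (h : Unif A F ℓ u) {ε : Ω} (hε : ε ∈ F) (hεA : ε ∈ A) (hε' : ε ∉ A.nonunits) :
    Unif A F ℓ (ε * u) := by
  have hε0 : ε ≠ 0 := fun h0 => hε' (by rw [h0]; exact nonunits_zero)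
  have hinv : ε⁻¹ ∈ A := by
    rcases A.mem_or_inv_mem ε⁻¹ with h1 | h1
    · exact h1
    · by_contra h2
      exact hε' (A.mem_nonunits_iff_or.mpr (Or.inr h2))
  refine ⟨F.mul_mem hε h.mem, mul_ne_zero hε0 h.ne, nonunits_mul hεA h.nonunit, ?_, ?_, h.perf⟩
  · intro x hx hxA
    have : x / (ε * u) = ε⁻¹ * (x / u) := by field_simp
    rw [this]
    exact A.mul_mem _ _ hinv (h.div x hx hxA)
  · intro x hx hx0
    obtain ⟨k, hk⟩ := h.arch x hx hx0
    refine ⟨k, fun hmem => hk ?_⟩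
    have : x / u ^ k = ε ^ k * (x / (ε * u) ^ k) := by
      rw [mul_pow]; field_simp
    rw [this]
    exact A.mul_mem _ _ (A.pow_mem hεA k) hmem

/-- an automorphism of order prime to `ℓ` in the inertia group with trivial tame character is
trivial. -/
theorem fix_of_order (h : Unif A F ℓ u) (hℓ : (ℓ : Ω) ∈ A.nonunits) (τ : Ω →+* Ω)
    (hτF : ∀ x ∈ F, τ x ∈ F) (hτI : ∀ x ∈ A, τ x - x ∈ A.nonunits)
    (hu : τ u / u - 1 ∈ A.nonunits) {m : ℕ} (hm : m.Coprime ℓ)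
    (hτm : τ^[m] u = u) : ∀ x ∈ F, τ x = x := by
  have hτn : ∀ x ∈ A.nonunits, τ x ∈ A.nonunits := by
    intro x hx
    have := nonunits_add (hτI x (nonunits_le hx)) hx
    rwa [sub_add_cancel] at this
  have h1 : ∀ i : ℕ, τ^[i] u / u - 1 ∈ A.nonunits := by
    intro i
    induction i with
    | zero => rw [Function.iterate_zero, id, div_self h.ne, sub_self]; exact nonunits_zero
    | succ i ih =>
      rw [Function.iterate_succ', Function.comp_apply]
      have h2 : τ (τ^[i] u) / u - 1 = τ (τ^[i] u / u - 1) * (τ u / u - 1) +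
          τ (τ^[i] u / u - 1) + (τ u / u - 1) := by
        have hτu : τ u ≠ 0 := (map_ne_zero τ).mpr h.ne
        rw [map_sub, map_div₀, map_one]
        have := h.ne
        field_simp
        ring
      rw [h2]
      exact nonunits_add (nonunits_add (nonunits_mul (nonunits_le (hτn _ ih)) hu) (hτn _ ih)) hu
  have hiF : ∀ i : ℕ, τ^[i] u ∈ F := by
    intro i
    induction i with
    | zero => exact h.mem
    | succ i ih => rw [Function.iterate_succ', Function.comp_apply]; exact hτF _ ih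
  set ε : Ω := ∑ i ∈ Finset.range m, τ^[i] u / u with hεdef
  have hε1 : ε - m ∈ A.nonunits := by
    have h2 : ε - m = ∑ i ∈ Finset.range m, (τ^[i] u / u - 1) := by
      rw [Finset.sum_sub_distrib, Finset.sum_const, Finset.card_range, nsmul_eq_mul, mul_one]
    rw [h2]
    clear_value ε
    have : ∀ n : ℕ, ∑ i ∈ Finset.range n, (τ^[i] u / u - 1) ∈ A.nonunits := by
      intro n
      induction n with
      | zero => rw [Finset.sum_range_zero]; exact nonunits_zero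
      | succ n ih => rw [Finset.sum_range_succ]; exact nonunits_add ih (h1 n)
    exact this m
  have hmn : (m : Ω) ∉ A.nonunits := by
    intro hmem
    have h2 : ((m.gcdA ℓ : ℤ) : Ω) * m + (m.gcdB ℓ : ℤ) * ℓ = 1 := by
      have h3 := Nat.gcd_eq_gcd_ab m ℓ
      rw [hm.gcd_eq_one] at h3
      have h4 := congrArg (fun z : ℤ => (z : Ω)) h3
      push_cast at h4
      linear_combination -h4
    apply one_notMem_nonunits (A := A)
    rw [← h2]
    exact nonunits_add (nonunits_mul (intCast_mem A _) hmem) (nonunits_mul (intCast_mem A _) hℓ)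
  have hεA : ε ∈ A := by
    have := A.add_mem _ _ (nonunits_le hε1) (natCast_mem A m)
    rwa [sub_add_cancel] at this
  have hεn : ε ∉ A.nonunits := by
    intro hmem
    apply hmn
    have h2 : (m : Ω) = ε + -(ε - m) := by ring
    rw [h2]
    exact nonunits_add hmem (nonunits_neg hε1)
  have hεF : ε ∈ F := F.sum_mem fun i _ => F.div_mem (hiF i) h.mem
  refine fix_of_unif (h.of_mul hεF hεA hεn) hℓ τ hτF hτI ?_
  have h2 : ε * u = ∑ i ∈ Finset.range m, τ^[i] u := by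
    rw [hεdef, Finset.sum_mul]
    exact Finset.sum_congr rfl fun i _ => div_mul_cancel₀ _ h.ne
  rw [h2, map_sum]
  have h3 : ∀ i ∈ Finset.range m, τ (τ^[i] u) = τ^[i + 1] u := fun i _ => by
    rw [Function.iterate_succ', Function.comp_apply]
  rw [Finset.sum_congr rfl h3]
  have h4 := Finset.sum_range_succ' (fun i => τ^[i] u) m
  have h5 := Finset.sum_range_succ (fun i => τ^[i] u) m
  rw [h5, hτm, Function.iterate_zero, id] at h4
  exact (add_right_cancel h4).symm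

end deriv

section group

variable {A : ValuationSubring (AlgebraicClosure ℚ)} {ℓ : ℕ}
  {F : IntermediateField ℚ (AlgebraicClosure ℚ)}
  (hF : ∀ σ : AlgebraicClosure ℚ ≃ₐ[ℚ] AlgebraicClosure ℚ, ∀ x ∈ F, σ x ∈ F)
  {π : AlgebraicClosure ℚ} (hπ : Unif A F.toSubfield ℓ π)

lemma inertia_mem {σ : AlgebraicClosure ℚ ≃ₐ[ℚ] AlgebraicClosure ℚ}
    (hσ : σ ∈ A.inertiaSubgroupIn ℚ) {x : AlgebraicClosure ℚ} (hx : x ∈ A) : σ x ∈ A := by
  have h := ((mem_inertia_iff A σ).mp hσ).2 x hx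
  have := A.add_mem _ _ (nonunits_le h) hx
  rwa [sub_add_cancel] at this

lemma inertia_mem_nonunits {σ : AlgebraicClosure ℚ ≃ₐ[ℚ] AlgebraicClosure ℚ}
    (hσ : σ ∈ A.inertiaSubgroupIn ℚ) {x : AlgebraicClosure ℚ} (hx : x ∈ A.nonunits) :
    σ x ∈ A.nonunits := by
  have h := ((mem_inertia_iff A σ).mp hσ).2 x (nonunits_le hx)
  have := nonunits_add h hx
  rwa [sub_add_cancel] at this

lemma residue_inertia {σ : AlgebraicClosure ℚ ≃ₐ[ℚ] AlgebraicClosure ℚ}
    (hσ : σ ∈ A.inertiaSubgroupIn ℚ) {x : AlgebraicClosure ℚ} (hx : x ∈ A) :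
    IsLocalRing.residue A ⟨σ x, inertia_mem hσ hx⟩ = IsLocalRing.residue A ⟨x, hx⟩ := by
  rw [← sub_eq_zero, ← map_sub, IsLocalRing.residue_eq_zero_iff, ← mem_nonunits_iff_max]
  exact ((mem_inertia_iff A σ).mp hσ).2 x hx

include hF hπ in
lemma theta_mem {σ : AlgebraicClosure ℚ ≃ₐ[ℚ] AlgebraicClosure ℚ}
    (hσ : σ ∈ A.inertiaSubgroupIn ℚ) : σ π / π ∈ A :=
  hπ.div _ (hF σ _ hπ.mem) (inertia_mem_nonunits hσ hπ.nonunit)

/-- the tame character -/
noncomputable def theta : ↥(A.inertiaSubgroupIn ℚ) →* IsLocalRing.ResidueField A where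
  toFun σ := IsLocalRing.residue A ⟨σ.1 π / π, theta_mem hF hπ σ.2⟩
  map_one' := by
    have : (⟨(1 : ↥(A.inertiaSubgroupIn ℚ)).1 π / π, theta_mem hF hπ (1 : ↥(A.inertiaSubgroupIn ℚ)).2⟩ : A) = 1 :=
      Subtype.ext (div_self hπ.ne)
    rw [this, map_one]
  map_mul' σ τ := by
    have h1 : (⟨(σ * τ).1 π / π, theta_mem hF hπ (σ * τ).2⟩ : A) =
        ⟨σ.1 π / π, theta_mem hF hπ σ.2⟩ *
          ⟨σ.1 (τ.1 π / π), inertia_mem σ.2 (theta_mem hF hπ τ.2)⟩ := by
      apply Subtype.ext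
      show σ.1 (τ.1 π) / π = σ.1 π / π * σ.1 (τ.1 π / π)
      have h2 : σ.1 π ≠ 0 := (map_ne_zero σ.1).mpr hπ.ne
      have h3 := hπ.ne
      rw [map_div₀]
      field_simp
    rw [h1, map_mul, residue_inertia σ.2]

lemma theta_eq_one_iff (σ : ↥(A.inertiaSubgroupIn ℚ)) :
    theta hF hπ σ = 1 ↔ σ.1 π / π - 1 ∈ A.nonunits := by
  show IsLocalRing.residue A ⟨σ.1 π / π, _⟩ = 1 ↔ _
  rw [← map_one (IsLocalRing.residue A), ← sub_eq_zero, ← map_sub,
    IsLocalRing.residue_eq_zero_iff, ← mem_nonunits_iff_max]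
  rfl

lemma theta_finite : (Set.range (theta hF hπ)).Finite := by
  have hint : IsIntegral ℚ π := Algebra.IsIntegral.isIntegral π
  have h0 : (minpoly ℚ π) ≠ 0 := minpoly.ne_zero hint
  have hfin := ((minpoly ℚ π).rootSet_finite (AlgebraicClosure ℚ))
  classical
  let g : AlgebraicClosure ℚ → IsLocalRing.ResidueField A := fun y =>
    if h : y / π ∈ A then IsLocalRing.residue A ⟨y / π, h⟩ else 0
  refine (hfin.image g).subset ?_
  rintro _ ⟨σ, rfl⟩
  refine ⟨σ.1 π, ?_, ?_⟩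
  · rw [Polynomial.mem_rootSet]
    refine ⟨h0, ?_⟩
    rw [Polynomial.aeval_algHom_apply, minpoly.aeval, map_zero]
  · show g (σ.1 π) = IsLocalRing.residue A ⟨σ.1 π / π, _⟩
    simp only [g]
    rw [dif_pos (theta_mem hF hπ σ.2)]

variable {H : Type*} [Group H] (f : ↥(A.inertiaSubgroupIn ℚ) →* H)
  (hf : ∀ σ : ↥(A.inertiaSubgroupIn ℚ), (∀ x ∈ F, σ.1 x = x) → f σ = 1)

include hf in
/-- the kernel of the tame character has trivial image in `p`-groups. -/
theorem eq_one_of_theta [FiniteDimensional ℚ F] (hℓ : ℓ.Prime) (hA : A.LiesOverPrime ℓ) {p : ℕ}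
    (hp : p.Prime) (hpℓ : p ≠ ℓ) (σ : ↥(A.inertiaSubgroupIn ℚ)) (hσ : theta hF hπ σ = 1)
    (hσp : ∃ k, f σ ^ p ^ k = 1) : f σ = 1 := by
  have hidx : F.fixingSubgroup.index ≠ 0 := by
    rw [← IntermediateField.finrank_eq_fixingSubgroup_index]
    exact Module.finrank_pos.ne'
  obtain ⟨n, hn0, -, hn⟩ := Subgroup.exists_pow_mem_of_index_ne_zero hidx σ.1
  obtain ⟨b, m, hm, rfl⟩ := Nat.exists_eq_pow_mul_and_not_dvd hn0.ne' ℓ hℓ.ne_one
  have hθ : theta hF hπ (σ ^ ℓ ^ b) = 1 := by rw [map_pow, hσ, one_pow]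
  rw [theta_eq_one_iff] at hθ
  have hit : ∀ (j : ℕ) (x : AlgebraicClosure ℚ),
      (((σ ^ ℓ ^ b).1 : AlgebraicClosure ℚ ≃ₐ[ℚ] AlgebraicClosure ℚ) : AlgebraicClosure ℚ →+* AlgebraicClosure ℚ)^[j] x =
      (σ.1 ^ (ℓ ^ b * j)) x := by
    intro j x
    induction j with
    | zero => simp
    | succ j ih =>
      rw [Function.iterate_succ', Function.comp_apply, ih]
      show (σ.1 ^ ℓ ^ b) ((σ.1 ^ (ℓ ^ b * j)) x) = _
      rw [← AlgEquiv.mul_apply, ← pow_add]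
      congr 2
      ring
  have h1 := fix_of_order hπ hA
    (((σ ^ ℓ ^ b).1 : AlgebraicClosure ℚ ≃ₐ[ℚ] AlgebraicClosure ℚ) : AlgebraicClosure ℚ →+* AlgebraicClosure ℚ)
    (fun x hx => hF _ x hx) (fun x hx => ((mem_inertia_iff A _).mp (σ ^ ℓ ^ b).2).2 x hx)
    hθ (m := m) ((Nat.coprime_comm.mp ((Nat.Prime.coprime_iff_not_dvd hℓ).mpr hm)))
    (by
      rw [hit]
      rw [IntermediateField.mem_fixingSubgroup_iff] at hn
      exact hn π hπ.mem)
  have h2 : f σ ^ ℓ ^ b = 1 := by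
    rw [← map_pow]
    exact hf _ h1
  obtain ⟨k, hk⟩ := hσp
  have h3 : Nat.gcd (ℓ ^ b) (p ^ k) = 1 := Nat.Coprime.pow _ _
    ((Nat.coprime_primes hℓ hp).mpr (Ne.symm hpℓ))
  have h4 := pow_gcd_eq_one.mpr ⟨h2, hk⟩
  rwa [h3, pow_one] at h4

include hF hπ hf in
/-- **tame inertia is cyclic** -/
theorem exists_gen_of_unif [FiniteDimensional ℚ F] (hℓ : ℓ.Prime) (hA : A.LiesOverPrime ℓ) {p : ℕ}
    (hp : p.Prime) (hpℓ : p ≠ ℓ) (hfp : ∀ σ, ∃ k, f σ ^ p ^ k = 1) :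
    ∃ τ : ↥(A.inertiaSubgroupIn ℚ), ∀ σ, ∃ j : ℤ, f σ = f τ ^ j := by
  let θ := (theta hF hπ).toHomUnits
  have hfin : Finite θ.range := by
    have h1 := theta_finite hF hπ
    have h2 : Function.Injective (fun u : θ.range => ((u : (IsLocalRing.ResidueField A)ˣ) : IsLocalRing.ResidueField A)) :=
      fun a b h => Subtype.ext (Units.ext h)
    have : Finite (Set.range (theta hF hπ)) := h1
    have h3 : ∀ u : θ.range, ((u : (IsLocalRing.ResidueField A)ˣ) : IsLocalRing.ResidueField A) ∈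
        Set.range (theta hF hπ) := by
      rintro ⟨_, σ, rfl⟩
      exact ⟨σ, rfl⟩
    exact Finite.of_injective (fun u : θ.range => (⟨_, h3 u⟩ : Set.range (theta hF hπ)))
      (fun a b h => h2 (congrArg Subtype.val h))
  have hcyc : IsCyclic θ.range := inferInstance
  obtain ⟨⟨_, τ, rfl⟩, hτ⟩ := hcyc.exists_generator
  refine ⟨τ, fun σ => ?_⟩
  obtain ⟨j, hj⟩ := Subgroup.mem_zpowers_iff.mp (hτ ⟨θ σ, σ, rfl⟩)
  have hj' : θ τ ^ j = θ σ := congrArg Subtype.val hj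
  refine ⟨j, ?_⟩
  have h1 : theta hF hπ (σ * (τ ^ j)⁻¹) = 1 := by
    have h2 : θ (σ * (τ ^ j)⁻¹) = 1 := by
      rw [map_mul, map_inv, map_zpow, hj', mul_inv_cancel]
    exact congrArg Units.val h2
  have h3 := eq_one_of_theta hF hπ f hf hℓ hA hp hpℓ _ h1 (hfp _)
  rw [map_mul, map_inv, mul_inv_eq_one, map_zpow] at h3
  exact h3

end group

section final

variable {A : ValuationSubring (AlgebraicClosure ℚ)} {ℓ : ℕ}

/-- every finite level is contained in a normal finite level -/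
lemma exists_normal_level (L : IntermediateField ℚ (AlgebraicClosure ℚ)) [FiniteDimensional ℚ L] :
    ∃ F : IntermediateField ℚ (AlgebraicClosure ℚ), FiniteDimensional ℚ F ∧ L ≤ F ∧
      ∀ σ : AlgebraicClosure ℚ ≃ₐ[ℚ] AlgebraicClosure ℚ, ∀ x ∈ F, σ x ∈ F := by
  refine ⟨IntermediateField.normalClosure ℚ L (AlgebraicClosure ℚ), inferInstance,
    IntermediateField.le_normalClosure L, fun σ x hx => ?_⟩
  have h := (IntermediateField.normal_iff_forall_map_le'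
    (K := IntermediateField.normalClosure ℚ L (AlgebraicClosure ℚ))).mp inferInstance σ
  exact h ⟨x, hx, rfl⟩

/-- **TAME0**: the image of inertia in a `p`-group, `p ≠ ℓ`, is cyclic. -/
theorem exists_tame_gen (hℓ : ℓ.Prime) (hA : A.LiesOverPrime ℓ) {p : ℕ}
    (hp : p.Prime) (hpℓ : p ≠ ℓ) {H : Type*} [Group H] (f : ↥(A.inertiaSubgroupIn ℚ) →* H)
    (L : IntermediateField ℚ (AlgebraicClosure ℚ)) [FiniteDimensional ℚ L]
    (hf : ∀ σ : ↥(A.inertiaSubgroupIn ℚ), (∀ x ∈ L, σ.1 x = x) → f σ = 1)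
    (hfp : ∀ σ, ∃ k, f σ ^ p ^ k = 1) :
    ∃ τ : ↥(A.inertiaSubgroupIn ℚ), ∀ σ, ∃ j : ℤ, f σ = f τ ^ j := by
  obtain ⟨F, hF, hLF, hFn⟩ := exists_normal_level L
  obtain ⟨π, hπ⟩ := exists_unif F hℓ hA
  exact exists_gen_of_unif hFn hπ f (fun σ hσ => hf σ fun x hx => hσ x (hLF hx)) hℓ hA hp hpℓ hfp

end final

end Fermat.Agent.TWP
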