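import Fermat.Agent.TWP.LocT
import Fermat.Agent.TWP.Residual
import Fermat.Agent.TWP.ExistsTW

/-!
Tangent vectors and Selmer classes.
-/

set_option autoImplicit false

namespace Fermat.Agent.TWP

open Matrix Module IsLocalRing Fermat.Agent.PT Fermat.Agent.PTC
open Fermat.Agent.DefRing (matOfRes mapRep MatCont Red ofMat)
open scoped Pointwise

/-- matrix form of a deformation with its local conditions away from `p` -/
structure MDef (𝒪 : Type) [CommRing 𝒪] (p : ℕ) (Sig Smin : Finset ℕ) {R k : Type} [CommRing R]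
    [IsLocalRing R] [Algebra 𝒪 R] [Field k] (π : R →+* k) (r : GQ →* M2 R) (rbar : GQ →* M2 k) :
    Prop where
  ker : ∀ x, π x = 0 ↔ x ∈ maximalIdeal R
  cont : MatCont R r
  red : ∀ σ, (r σ).map π = rbar σ
  det : ∀ σ, ∃ (a : ℕ) (y : R), (r σ).det = a + (p : R) * y
  unr : ∀ q : ℕ, q.Prime → q ∉ Sig → ∀ A : ValuationSubring Qb, A.LiesOverPrime q →
    ∀ σ ∈ A.inertiaSubgroupIn ℚ, r σ = 1
  unip : ∀ q ∈ Smin, q.Prime → q ≠ p → ∀ A : ValuationSubring Qb, A.LiesOverPrime q →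
    ∀ σ ∈ A.inertiaSubgroupIn ℚ, (r σ).trace = 2 ∧ (r σ).det = 1

section level

variable {𝒪 : Type} [CommRing 𝒪] {p : ℕ} {Sig Smin : Finset ℕ} {R k : Type} [CommRing R]
    [IsLocalRing R] [Algebra 𝒪 R] [Field k] {π : R →+* k} {r : GQ →* M2 R} {rbar : GQ →* M2 k}
    (h : MDef 𝒪 p Sig Smin π r rbar)

/-- derivations kill the square of the maximal ideal -/
lemma IsDer.sq {δ : R → k} (hδ : IsDer 𝒪 π δ) (hker : ∀ x, π x = 0 ↔ x ∈ maximalIdeal R) {x : R}
    (hx : x ∈ maximalIdeal R ^ 2) : δ x = 0 := by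
  rw [pow_two] at hx
  refine Submodule.mul_induction_on hx ?_ ?_
  · intro a ha b hb
    rw [hδ.mul, (hker a).2 ha, (hker b).2 hb, zero_mul, mul_zero, add_zero]
  · intro a b ha hb
    rw [hδ.add, ha, hb, add_zero]

/-- the congruence subgroup -/
def sqKer (r : GQ →* M2 R) : Subgroup GQ where
  carrier := {σ | ∀ i j, (r σ - 1) i j ∈ maximalIdeal R ^ 2}
  one_mem' := fun i j => by rw [map_one, sub_self]; exact Submodule.zero_mem _
  mul_mem' := by
    intro a b ha hb i j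
    have h1 : r (a * b) - 1 = (r a - 1) * r b + (r b - 1) := by
      rw [map_mul]; noncomm_ring
    rw [h1, Matrix.add_apply, Matrix.mul_apply]
    exact Ideal.add_mem _ (Ideal.sum_mem _ fun l _ => Ideal.mul_mem_right _ _ (ha i l)) (hb i j)
  inv_mem' := by
    intro a ha i j
    have h1 : r a⁻¹ - 1 = -(r a⁻¹ * (r a - 1)) := by
      have : r a⁻¹ * r a = 1 := by rw [← map_mul, inv_mul_cancel, map_one]
      rw [mul_sub, this, mul_one]; abel
    rw [h1, Matrix.neg_apply, Matrix.mul_apply]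
    exact (Ideal.neg_mem_iff _).mpr (Ideal.sum_mem _ fun l _ => Ideal.mul_mem_left _ _ (ha l j))

lemma mem_sqKer {σ : GQ} : σ ∈ sqKer r ↔ ∀ i j, (r σ - 1) i j ∈ maximalIdeal R ^ 2 := Iff.rfl

instance sqKer_normal : (sqKer r).Normal := by
  constructor
  intro n hn g i j
  have h1 : r (g * n * g⁻¹) - 1 = r g * (r n - 1) * r g⁻¹ := by
    have : r g * r g⁻¹ = 1 := by rw [← map_mul, mul_inv_cancel, map_one]
    rw [map_mul, map_mul, mul_sub, mul_one, sub_mul, this]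
  rw [h1, Matrix.mul_apply]
  refine Ideal.sum_mem _ fun l _ => Ideal.mul_mem_right _ _ ?_
  rw [Matrix.mul_apply]
  exact Ideal.sum_mem _ fun m _ => Ideal.mul_mem_left _ _ (hn m l)

include h in
lemma MDef.rbar_eq_one {σ : GQ} (hσ : σ ∈ sqKer r) : rbar σ = 1 := by
  rw [← h.red]
  have h2 : (r σ - 1).map π = 0 := by
    ext i j
    show π ((r σ - 1) i j) = 0
    rw [h.ker]
    exact Ideal.pow_le_self two_ne_zero (mem_sqKer.1 hσ i j)
  have h3 : (r σ).map π = (r σ - 1).map π + (1 : M2 R).map π := by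
    rw [← Matrix.map_add π (map_add π), sub_add_cancel]
  rw [h3, h2, zero_add]
  exact Matrix.map_one π (map_zero π) (map_one π)

include h in
lemma MDef.psi_eq_zero {δ : R → k} (hδ : IsDer 𝒪 π δ) {σ : GQ} (hσ : σ ∈ sqKer r) :
    psi r rbar δ σ = 0 := by
  have h1 : (r σ).map δ = 0 := by
    ext i j
    show δ (r σ i j) = 0
    have h2 : r σ i j = (r σ - 1) i j + (1 : M2 R) i j := by
      rw [Matrix.sub_apply, sub_add_cancel]
    rw [h2, hδ.add, hδ.sq h.ker (mem_sqKer.1 hσ i j), zero_add]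
    by_cases hij : i = j
    · rw [hij, Matrix.one_apply_eq, hδ.one]
    · rw [Matrix.one_apply_ne hij, hδ.zero]
  rw [psi, h1, zero_mul]

include h in
lemma MDef.exists_level : ∃ F : IntermediateField ℚ Qb, FiniteDimensional ℚ F ∧
    (∀ σ : GQ, ∀ x ∈ F, σ x ∈ F) ∧ ∀ σ : GQ, (∀ x ∈ F, σ x = x) → σ ∈ sqKer r := by
  obtain ⟨L, hL, hL'⟩ := h.cont 2
  obtain ⟨F, hF, hLF, hFn⟩ := exists_normal_level L
  exact ⟨F, hF, hFn, fun σ hσ => hL' σ fun x hx => hσ x (hLF hx)⟩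

include h in
lemma MDef.trace {δ : R → k} (hδ : IsDer 𝒪 π δ) (hp : (p : k) = 0) (σ : GQ) :
    (psi r rbar δ σ).trace = 0 := by
  obtain ⟨a, y, hay⟩ := h.det σ
  have h1 := der_det hδ h.red σ
  rw [hay, hδ.add, hδ.natCast, hδ.mul, map_natCast, hp, zero_mul, hδ.natCast, zero_mul,
    add_zero, add_zero] at h1
  have h2 : (rbar σ).det ≠ 0 := by
    intro h3
    have h4 : (rbar σ⁻¹ * rbar σ).det = 1 := by
      rw [rep_inv_mul, det_one]
    rw [det_mul, h3, mul_zero] at h4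
    exact zero_ne_one h4
  exact (mul_eq_zero.mp h1.symm).resolve_left h2

include h in
/-- the Selmer cocycle of a derivation -/
theorem MDef.exists_Z1 {S : Finset Nat.Primes}
    (hS : ∀ v : Nat.Primes, (v : ℕ) ∈ Sig → v ∈ S) (hp : (p : k) = 0) {δ : R → k}
    (hδ : IsDer 𝒪 π δ) :
    ∃ f : Z1 (sL S) (twAct 1 rbar), ∀ σ, ((f.1 σ : ad0 k) : M2 k) = psi r rbar δ σ := by
  obtain ⟨L, hL, hL'⟩ := h.cont 2
  have hlev : sqKer r ∈ (sL S).carrier := by
    refine mem_sL_of _ inferInstance L hL hL' ?_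
    intro q hq A hA σ hσ
    rw [mem_sqKer, h.unr q q.2 (fun hq' => hq (hS q hq')) A hA σ hσ, sub_self]
    exact fun i j => Submodule.zero_mem _
  refine ⟨⟨fun σ => ⟨psi r rbar δ σ, h.trace hδ hp σ⟩, mem_Z1'.2 ⟨⟨_, hlev, fun g s hs => ?_⟩,
    fun g s => ?_⟩⟩, fun σ => rfl⟩
  · apply Subtype.ext
    show psi r rbar δ (g * s) = psi r rbar δ g
    rw [psi_mul hδ h.red, h.psi_eq_zero hδ hs, mul_zero, zero_mul, add_zero]
  · apply Subtype.ext
    show psi r rbar δ (g * s) = psi r rbar δ g + (1 : GQ →* k) g • (rbar g * psi r rbar δ s *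
      rbar g⁻¹)
    rw [psi_mul hδ h.red, MonoidHom.one_apply, one_smul]

end level

section loc

variable {𝒪 : Type} [CommRing 𝒪] {p : ℕ} [hp : Fact p.Prime] {Sig Smin : Finset ℕ} {R k : Type}
    [CommRing R]
    [IsLocalRing R] [Algebra 𝒪 R] [Field k] {π : R →+* k} {r : GQ →* M2 R} {rbar : GQ →* M2 k}
    (h : MDef 𝒪 p Sig Smin π r rbar)

include h in
omit hp in
/-- unramified primes -/
lemma MDef.loc_unr {δ : R → k} (hδ : IsDer 𝒪 π δ) {v : Nat.Primes} (hv : (v : ℕ) ∉ Sig) :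
    ∀ σ ∈ (Pl v).inertiaSubgroupIn ℚ, psi r rbar δ σ = rbar σ * 0 * rbar σ⁻¹ - 0 := by
  intro σ hσ
  rw [mul_zero, zero_mul, sub_zero]
  refine h.psi_eq_zero hδ ?_
  rw [mem_sqKer, h.unr v v.2 hv _ (Pl_lies v) σ hσ, sub_self]
  exact fun i j => Submodule.zero_mem _

include h in
/-- unipotent primes -/
lemma MDef.loc_unip (hpk : (p : k) = 0) (h2 : (2 : k) ≠ 0) {δ : R → k} (hδ : IsDer 𝒪 π δ)
    {v : Nat.Primes} (hvp : (v : ℕ) ≠ p) (hv : (v : ℕ) ∈ Smin)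
    (hram : ∃ σ ∈ (Pl v).inertiaSubgroupIn ℚ, rbar σ ≠ 1) :
    ∃ X : M2 k, X.trace = 0 ∧ ∀ σ ∈ (Pl v).inertiaSubgroupIn ℚ,
      psi r rbar δ σ = rbar σ * X * rbar σ⁻¹ - X := by
  obtain ⟨L, hL, hLn, hL'⟩ := h.exists_level
  refine unip_coboundary hpk h2 hvp (psi_mul hδ h.red) L
    (fun σ hσ => h.rbar_eq_one (hL' σ hσ)) (fun σ hσ => h.psi_eq_zero hδ (hL' σ hσ))
    (fun σ _ => h.trace hδ hpk σ) ?_ hram
  intro σ hσ
  obtain ⟨h1, h3⟩ := h.unip v hv v.2 hvp _ (Pl_lies v) σ hσ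
  rw [psi_mul_rbar, ← h.red]
  refine ⟨?_, ?_, ?_⟩
  · rw [trace_fin_two] at h1 ⊢
    show π (r σ 0 0) + π (r σ 1 1) = 2
    rw [← map_add, h1, map_ofNat]
  · have h4 : ((r σ).map π).det = π (r σ).det := (RingHom.map_det π (r σ)).symm
    rw [h4, h3, map_one]
  · rw [trace_fin_two] at h1 ⊢
    show δ (r σ 0 0) + δ (r σ 1 1) = 0
    rw [← hδ.add, h1]
    exact_mod_cast hδ.natCast 2

end loc

end Fermat.Agent.TWP
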