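import Fermat.Agent.TWP.Val
import Fermat.Agent.ExtVan.LiftInertia
import Mathlib.RingTheory.DedekindDomain.AdicValuation
import Mathlib.NumberTheory.NumberField.Basic

/-!
Uniformizers of the restriction of a place of `ℚ̄` to a number field.
-/

set_option autoImplicit false

namespace Fermat.Agent.TWP

open IsDedekindDomain NumberField

/-- data of a discrete valuation ring with perfect residue field, inside a big valuation ring -/
structure Unif {Ω : Type*} [Field Ω] (A : ValuationSubring Ω) (F : Subfield Ω) (ℓ : ℕ) (π : Ω) :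
    Prop where
  mem : π ∈ F
  ne : π ≠ 0
  nonunit : π ∈ A.nonunits
  div : ∀ x ∈ F, x ∈ A.nonunits → x / π ∈ A
  arch : ∀ x ∈ F, x ≠ 0 → ∃ k : ℕ, x / π ^ k ∉ A
  perf : ∀ x ∈ F, x ∈ A → ∃ y ∈ F, y ∈ A ∧ x - y ^ ℓ ∈ A.nonunits

section

variable (A : ValuationSubring (AlgebraicClosure ℚ))
  (F : IntermediateField ℚ (AlgebraicClosure ℚ)) [FiniteDimensional ℚ F]

instance numberField_inter : NumberField F := by
  constructor

/-- the ring of integers of `F` maps to `A` -/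
noncomputable def intToVal : 𝓞 F →+* A where
  toFun x := ⟨((x : F) : AlgebraicClosure ℚ), Fermat.Agent.Frob.mem_of_isIntegral A
    ((RingOfIntegers.isIntegral_coe x).map (F.val.toRingHom.toIntAlgHom))⟩
  map_zero' := rfl
  map_one' := rfl
  map_add' _ _ := rfl
  map_mul' _ _ := rfl

omit [FiniteDimensional ℚ F] in
@[simp] lemma coe_intToVal (x : 𝓞 F) : ((intToVal A F x : A) : AlgebraicClosure ℚ) = (x : F) := rfl

/-- center of `A` on `F` -/
noncomputable def cenIdeal : Ideal (𝓞 F) := (IsLocalRing.maximalIdeal A).comap (intToVal A F)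

lemma mem_cenIdeal (x : 𝓞 F) : x ∈ cenIdeal A F ↔ ((x : F) : AlgebraicClosure ℚ) ∈ A.nonunits := by
  rw [cenIdeal, Ideal.mem_comap, ← A.coe_mem_nonunits_iff, coe_intToVal]

variable {A}

/-- center of `A` on `F` -/
noncomputable def cenPrime {ℓ : ℕ} (hℓ : ℓ.Prime) (hA : A.LiesOverPrime ℓ) : HeightOneSpectrum (𝓞 F) where
  asIdeal := cenIdeal A F
  isPrime := Ideal.comap_isPrime _ _
  ne_bot := by
    intro h
    have h1 : ((ℓ : ℕ) : 𝓞 F) ∈ cenIdeal A F := by
      rw [mem_cenIdeal]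
      have h2 : ((((ℓ : ℕ) : 𝓞 F) : F) : AlgebraicClosure ℚ) = (ℓ : AlgebraicClosure ℚ) := by simp
      rw [h2]; exact hA
    rw [h, Ideal.mem_bot] at h1
    exact hℓ.ne_zero (by exact_mod_cast h1)

variable {ℓ : ℕ} (hℓ : ℓ.Prime) (hA : A.LiesOverPrime ℓ)

lemma nonunit_div_notMem {A : ValuationSubring (AlgebraicClosure ℚ)} {a : AlgebraicClosure ℚ}
    (h0 : a ≠ 0) (h : a ∈ A.nonunits) : a⁻¹ ∉ A := by
  rcases A.mem_nonunits_iff_or.mp h with h1 | h1
  · exact absurd h1 h0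
  · exact h1

lemma val_le_one_iff (x : F) :
    (cenPrime F hℓ hA).valuation F x ≤ 1 ↔ (x : AlgebraicClosure ℚ) ∈ A := by
  set v := cenPrime F hℓ hA with hv
  set B : ValuationSubring F := A.comap (algebraMap F (AlgebraicClosure ℚ)) with hB
  have hle : (v.valuation F).valuationSubring ≤ B := by
    intro y hy
    obtain ⟨n, ⟨d, hd⟩, hnd⟩ := v.exists_primeCompl_mul_eq_of_integer y hy
    have hd' : ((d : F) : AlgebraicClosure ℚ) ∉ A.nonunits := fun h =>
      hd ((mem_cenIdeal A F d).mpr h)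
    show (y : AlgebraicClosure ℚ) ∈ A
    have h1 : (y : AlgebraicClosure ℚ) * (d : F) = ((n : F) : AlgebraicClosure ℚ) := by
      have := congrArg (fun z : F => (z : AlgebraicClosure ℚ)) hnd
      exact this
    rw [A.mem_nonunits_iff_or, not_or, not_not] at hd'
    have h2 : (y : AlgebraicClosure ℚ) = ((n : F) : AlgebraicClosure ℚ) * ((d : F) : AlgebraicClosure ℚ)⁻¹ := by
      rw [← h1, mul_assoc, mul_inv_cancel₀ hd'.1, mul_one]
    rw [h2]
    exact A.mul_mem _ _ (intToVal A F n).2 hd'.2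
  have hne : B ≠ ⊤ := by
    intro h
    have h1 : ((ℓ : F)⁻¹) ∈ B := by rw [h]; trivial
    have h2 : ((ℓ : AlgebraicClosure ℚ))⁻¹ ∈ A := by
      have : ((((ℓ : F)⁻¹ : F)) : AlgebraicClosure ℚ) ∈ A := h1
      simpa using this
    exact nonunit_div_notMem (by exact_mod_cast hℓ.ne_zero) hA h2
  have h1 : (v.valuation F).valuationSubring = B := by
    rw [← HeightOneSpectrum.valuationSubringAtPrime_eq_valuationSubring] at hle ⊢
    exact ValuationSubring.eq_of_le_of_ne_top _ hle hne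
  rw [← Valuation.mem_valuationSubring_iff, h1]
  rfl

lemma val_lt_one_iff (x : F) :
    (cenPrime F hℓ hA).valuation F x < 1 ↔ (x : AlgebraicClosure ℚ) ∈ A.nonunits := by
  rw [A.mem_nonunits_iff_or]
  by_cases h0 : x = 0
  · subst h0
    simp
  · have h0' : (x : AlgebraicClosure ℚ) ≠ 0 := by
      intro h
      exact h0 (Subtype.ext h)
    rw [or_iff_right h0']
    have h1 := val_le_one_iff F hℓ hA x⁻¹
    rw [map_inv₀] at h1
    have h2 : (((x⁻¹ : F)) : AlgebraicClosure ℚ) = (x : AlgebraicClosure ℚ)⁻¹ := rfl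
    rw [h2] at h1
    rw [← h1, not_le]
    exact (one_lt_inv₀ (zero_lt_iff.mpr ((Valuation.ne_zero_iff _).mpr h0))).symm

include hℓ hA in
theorem exists_unif : ∃ π : AlgebraicClosure ℚ, Unif A F.toSubfield ℓ π := by
  set v := cenPrime F hℓ hA with hv
  obtain ⟨π, hπ⟩ := v.valuation_exists_uniformizer F
  have hπ0 : π ≠ 0 := by
    rintro rfl
    rw [map_zero] at hπ
    exact WithZero.coe_ne_zero hπ.symm
  have hπ0' : (π : AlgebraicClosure ℚ) ≠ 0 := fun h => hπ0 (Subtype.ext h)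
  refine ⟨π, π.2, hπ0', ?_, ?_, ?_, ?_⟩
  · rw [← val_lt_one_iff F hℓ hA, hπ]
    exact WithZero.exp_lt_exp.mpr (by norm_num)
  · intro x hx hxA
    have h1 := (val_lt_one_iff F hℓ hA ⟨x, hx⟩).mpr hxA
    have h2 : v.valuation F (⟨x, hx⟩ / π) ≤ 1 := by
      rw [map_div₀, hπ]
      by_cases h0 : v.valuation F ⟨x, hx⟩ = 0
      · rw [h0, zero_div]; exact zero_le_one
      · rw [div_le_one₀ (WithZero.exp_pos)]
        have h3 : v.valuation F ⟨x, hx⟩ = WithZero.exp (WithZero.log (v.valuation F ⟨x, hx⟩)) :=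
          (WithZero.exp_log h0).symm
        rw [h3] at h1 ⊢
        rw [← WithZero.exp_zero] at h1
        have h4 := WithZero.exp_lt_exp.mp h1
        exact WithZero.exp_le_exp.mpr (by omega)
    exact (val_le_one_iff F hℓ hA _).mp h2
  · intro x hx hx0
    have h0 : v.valuation F ⟨x, hx⟩ ≠ 0 := by
      rw [Valuation.ne_zero_iff]
      intro h
      exact hx0 (congrArg Subtype.val h)
    obtain ⟨k, hk⟩ : ∃ k : ℕ, 0 < WithZero.log (v.valuation F ⟨x, hx⟩) + k :=
      ⟨(WithZero.log (v.valuation F ⟨x, hx⟩)).natAbs + 1, by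
        omega⟩
    refine ⟨k, fun h => ?_⟩
    have h1 : v.valuation F (⟨x, hx⟩ / π ^ k) ≤ 1 := (val_le_one_iff F hℓ hA _).mpr h
    rw [map_div₀, map_pow, hπ, ← WithZero.exp_log h0, ← WithZero.exp_nsmul,
      ← WithZero.exp_sub, ← WithZero.exp_zero] at h1
    have h2 := WithZero.exp_le_exp.mp h1
    simp at h2
    omega
  · intro x hx hxA
    have h1 := (val_le_one_iff F hℓ hA ⟨x, hx⟩).mpr hxA
    obtain ⟨a, ha⟩ := v.exists_valuation_sub_lt_of_integer h1 1
    have hfin : Finite (𝓞 F ⧸ v.asIdeal) := inferInstance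
    have := v.isMaximal
    let _ : Field (𝓞 F ⧸ v.asIdeal) := Ideal.Quotient.field _
    have hchar : CharP (𝓞 F ⧸ v.asIdeal) ℓ := by
      have h2 : ((ℓ : ℕ) : 𝓞 F ⧸ v.asIdeal) = 0 := by
        have : ((ℓ : ℕ) : 𝓞 F) ∈ v.asIdeal := by
          show _ ∈ cenIdeal A F
          rw [mem_cenIdeal]
          have h2 : ((((ℓ : ℕ) : 𝓞 F) : F) : AlgebraicClosure ℚ) = (ℓ : AlgebraicClosure ℚ) := by simp
          rw [h2]; exact hA
        rw [← map_natCast (Ideal.Quotient.mk v.asIdeal)]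
        exact Ideal.Quotient.eq_zero_iff_mem.mpr this
      obtain ⟨q, hq⟩ := CharP.exists (𝓞 F ⧸ v.asIdeal)
      have h3 := (CharP.cast_eq_zero_iff (𝓞 F ⧸ v.asIdeal) q ℓ).mp h2
      rcases (Nat.dvd_prime hℓ).mp h3 with h | h
      · subst h
        exact absurd (CharP.cast_eq_zero (𝓞 F ⧸ v.asIdeal) 1) (by rw [Nat.cast_one]; exact one_ne_zero)
      · rwa [h] at hq
    have : Fact ℓ.Prime := ⟨hℓ⟩
    have hperf := (PerfectRing.bijective_frobenius (R := 𝓞 F ⧸ v.asIdeal) (p := ℓ)).2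
    obtain ⟨b, hb⟩ := hperf (Ideal.Quotient.mk v.asIdeal a)
    obtain ⟨b, rfl⟩ := Ideal.Quotient.mk_surjective b
    replace hb : (Ideal.Quotient.mk v.asIdeal b) ^ ℓ = Ideal.Quotient.mk v.asIdeal a := hb
    rw [← map_pow, Ideal.Quotient.eq] at hb
    refine ⟨(b : F), (b : F).2, (intToVal A F b).2, ?_⟩
    have h4 : v.valuation F (⟨x, hx⟩ - (b : F) ^ ℓ) < 1 := by
      have h5 : (⟨x, hx⟩ - (b : F) ^ ℓ : F) = -(algebraMap (𝓞 F) F a - ⟨x, hx⟩) -
          algebraMap (𝓞 F) F (b ^ ℓ - a) := by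
        rw [map_sub, map_pow]; ring
      rw [h5]
      refine (Valuation.map_sub _ _ _).trans_lt (max_lt ?_ ?_)
      · rw [Valuation.map_neg]
        exact ha
      · exact (v.valuation_lt_one_iff_mem (K := F) _).mpr hb
    have h6 := (val_lt_one_iff F hℓ hA _).mp h4
    exact h6

end

end Fermat.Agent.TWP
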